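import Mathlib

set_option autoImplicit false

/-! # S18: the spaces `L(a (t)_∞ + b (t)_0)`, place-free -/

namespace Fermat.Agent.S18

section LSpace

variable (K : Type*) {F : Type*} [Field K] [Field F] [Algebra K F]

/-- `x` is integral over `K[t]`. -/
def IntOver (t x : F) : Prop := IsIntegral (Algebra.adjoin K {t}) x

variable {K}

theorem IntOver.add {t x y : F} (hx : IntOver K t x) (hy : IntOver K t y) : IntOver K t (x + y) :=
  IsIntegral.add hx hy

theorem IntOver.mul {t x y : F} (hx : IntOver K t x) (hy : IntOver K t y) : IntOver K t (x * y) :=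
  IsIntegral.mul hx hy

theorem IntOver.pow {t x : F} (hx : IntOver K t x) (n : ℕ) : IntOver K t (x ^ n) :=
  IsIntegral.pow hx n

theorem IntOver.of_pow {t x : F} {n : ℕ} (hn : 0 < n) (hx : IntOver K t (x ^ n)) : IntOver K t x :=
  IsIntegral.of_pow hn hx

theorem IntOver.of_mem {t x : F} (hx : x ∈ Algebra.adjoin K {t}) : IntOver K t x :=
  isIntegral_algebraMap (R := Algebra.adjoin K {t}) (x := ⟨x, hx⟩)

theorem IntOver.zero (t : F) : IntOver K t 0 := IntOver.of_mem (zero_mem _)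

theorem IntOver.one (t : F) : IntOver K t 1 := IntOver.of_mem (one_mem _)

theorem IntOver.self (t : F) : IntOver K t t := IntOver.of_mem (Algebra.subset_adjoin rfl)

theorem IntOver.algebraMap (t : F) (c : K) : IntOver K t (algebraMap K F c) :=
  IntOver.of_mem (Subalgebra.algebraMap_mem _ c)

theorem IntOver.smul {t x : F} (c : K) (hx : IntOver K t x) : IntOver K t (c • x) := by
  rw [Algebra.smul_def]
  exact (IntOver.algebraMap t c).mul hx

theorem IntOver.zpow_nonneg (t : F) {n : ℤ} (hn : 0 ≤ n) : IntOver K t (t ^ n) := by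
  lift n to ℕ using hn
  rw [zpow_natCast]
  exact (IntOver.self t).pow n

theorem IntOver.inv_zpow_nonpos (t : F) {n : ℤ} (hn : n ≤ 0) : IntOver K t⁻¹ (t ^ n) := by
  have h : t ^ n = t⁻¹ ^ (-n) := by rw [inv_zpow, zpow_neg, inv_inv]
  rw [h]
  exact IntOver.zpow_nonneg _ (by omega)

variable (K)

/-- `L(a (t)_∞ + b (t)_0)`. -/
def Lsp (t : F) (a b : ℤ) : Submodule K F where
  carrier := {x | IntOver K t (t ^ b * x) ∧ IntOver K t⁻¹ (t ^ (-a) * x)}
  add_mem' := by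
    rintro x y ⟨hx, hx'⟩ ⟨hy, hy'⟩
    refine ⟨?_, ?_⟩
    · rw [mul_add]; exact hx.add hy
    · rw [mul_add]; exact hx'.add hy'
  zero_mem' := by
    refine ⟨?_, ?_⟩ <;> rw [mul_zero] <;> exact IntOver.zero _
  smul_mem' := by
    rintro c x ⟨hx, hx'⟩
    refine ⟨?_, ?_⟩
    · rw [mul_smul_comm]; exact hx.smul c
    · rw [mul_smul_comm]; exact hx'.smul c

variable {K}

theorem mem_Lsp {t : F} {a b : ℤ} {x : F} :
    x ∈ Lsp K t a b ↔ IntOver K t (t ^ b * x) ∧ IntOver K t⁻¹ (t ^ (-a) * x) := Iff.rfl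

theorem Lsp_mono {t : F} (ht : t ≠ 0) {a a' b b' : ℤ} (ha : a ≤ a') (hb : b ≤ b') :
    Lsp K t a b ≤ Lsp K t a' b' := by
  rintro x ⟨hx, hx'⟩
  refine ⟨?_, ?_⟩
  · have h : t ^ b' * x = t ^ (b' - b) * (t ^ b * x) := by
      rw [← mul_assoc, ← zpow_add₀ ht]; congr 2; ring
    rw [h]
    exact (IntOver.zpow_nonneg t (by omega)).mul hx
  · have h : t ^ (-a') * x = t ^ (a - a') * (t ^ (-a) * x) := by
      rw [← mul_assoc, ← zpow_add₀ ht]; congr 2; ring
    rw [h]
    exact (IntOver.inv_zpow_nonpos t (by omega)).mul hx'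

theorem Lsp_inf_le {t : F} (a a' b b' : ℤ) :
    Lsp K t a b ⊓ Lsp K t a' b' ≤ Lsp K t (min a a') (min b b') := by
  rintro x ⟨⟨h1, h2⟩, ⟨h3, h4⟩⟩
  refine ⟨?_, ?_⟩
  · rcases min_choice b b' with h | h <;> rw [h] <;> assumption
  · rcases min_choice a a' with h | h <;> rw [h] <;> assumption

theorem Lsp_mul {t : F} (ht : t ≠ 0) {a a' b b' : ℤ} {x y : F} (hx : x ∈ Lsp K t a b)
    (hy : y ∈ Lsp K t a' b') : x * y ∈ Lsp K t (a + a') (b + b') := by
  obtain ⟨hx, hx'⟩ := hx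
  obtain ⟨hy, hy'⟩ := hy
  refine ⟨?_, ?_⟩
  · have h : t ^ (b + b') * (x * y) = (t ^ b * x) * (t ^ b' * y) := by
      rw [zpow_add₀ ht]; ring
    rw [h]; exact hx.mul hy
  · have h : t ^ (-(a + a')) * (x * y) = (t ^ (-a) * x) * (t ^ (-a') * y) := by
      rw [neg_add, zpow_add₀ ht]; ring
    rw [h]; exact hx'.mul hy'

theorem one_mem_Lsp (t : F) : (1 : F) ∈ Lsp K t 0 0 := by
  refine ⟨?_, ?_⟩ <;> simp only [neg_zero, zpow_zero, mul_one] <;> exact IntOver.one _

theorem Lsp_pow {t : F} (ht : t ≠ 0) {a b : ℤ} {x : F} (hx : x ∈ Lsp K t a b) (n : ℕ) :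
    x ^ n ∈ Lsp K t (n * a) (n * b) := by
  induction n with
  | zero => simpa using one_mem_Lsp t
  | succ n ih =>
    rw [pow_succ]
    have := Lsp_mul ht ih hx
    convert this using 2 <;> push_cast <;> ring

theorem mem_Lsp_of_pow {t : F} {a b : ℤ} {x : F} {n : ℕ} (hn : 0 < n)
    (hx : x ^ n ∈ Lsp K t (n * a) (n * b)) : x ∈ Lsp K t a b := by
  obtain ⟨hx, hx'⟩ := hx
  refine ⟨?_, ?_⟩
  · apply IntOver.of_pow hn
    rw [mul_pow, ← zpow_natCast (t ^ b), ← zpow_mul, mul_comm b]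
    exact hx
  · apply IntOver.of_pow hn
    rw [mul_pow, ← zpow_natCast (t ^ (-a)), ← zpow_mul]
    have : -a * (n : ℤ) = -((n : ℤ) * a) := by ring
    rw [this]
    exact hx'

end LSpace

end Fermat.Agent.S18
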