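import Mathlib

set_option autoImplicit false

/-! # S18 [P1], part A: integrality over `K[t]` inside a field `F`, basic lemmas -/

namespace Fermat.Agent.S18.NB

open Polynomial IntermediateField

variable {K F : Type*} [Field K] [Field F] [Algebra K F]

/-- `x` is integral over the subring `K[t]` of `F`. -/
def IntK (K : Type*) {F : Type*} [Field K] [Field F] [Algebra K F] (t x : F) : Prop :=
  ((aeval t : K[X] →ₐ[K] F) : K[X] →+* F).IsIntegralElem x

theorem IntK.add {t x y : F} (hx : IntK K t x) (hy : IntK K t y) : IntK K t (x + y) :=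
  RingHom.IsIntegralElem.add _ hx hy

theorem IntK.mul {t x y : F} (hx : IntK K t x) (hy : IntK K t y) : IntK K t (x * y) :=
  RingHom.IsIntegralElem.mul _ hx hy

theorem IntK.neg {t x : F} (hx : IntK K t x) : IntK K t (-x) :=
  RingHom.IsIntegralElem.neg _ hx

theorem IntK.sub {t x y : F} (hx : IntK K t x) (hy : IntK K t y) : IntK K t (x - y) :=
  RingHom.IsIntegralElem.sub _ hx hy

theorem intK_aeval (t : F) (p : K[X]) : IntK K t (aeval t p) :=
  RingHom.isIntegralElem_map _

theorem intK_zero (t : F) : IntK K t 0 := by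
  simpa using intK_aeval (K := K) t 0

theorem intK_one (t : F) : IntK K t 1 := by
  simpa using intK_aeval (K := K) t 1

theorem intK_self (t : F) : IntK K t t := by
  simpa using intK_aeval (K := K) t X

theorem intK_algebraMap (t : F) (c : K) : IntK K t (algebraMap K F c) := by
  simpa using intK_aeval (K := K) t (C c)

theorem IntK.pow {t x : F} (hx : IntK K t x) (n : ℕ) : IntK K t (x ^ n) := by
  induction n with
  | zero => simpa using intK_one (K := K) t
  | succ n ih => rw [pow_succ]; exact ih.mul hx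

theorem IntK.sum {ι : Type*} {t : F} (s : Finset ι) (f : ι → F) (h : ∀ i ∈ s, IntK K t (f i)) :
    IntK K t (∑ i ∈ s, f i) := by
  classical
  induction s using Finset.induction_on with
  | empty => simpa using intK_zero (K := K) t
  | insert a s ha ih =>
    rw [Finset.sum_insert ha]
    exact (h a (Finset.mem_insert_self _ _)).add
      (ih fun i hi => h i (Finset.mem_insert_of_mem hi))

theorem aeval_inv_reflect {t : F} (ht0 : t ≠ 0) (N : ℕ) (f : K[X]) (hf : f.natDegree ≤ N) :
    aeval t⁻¹ (reflect N f) * t ^ N = aeval t f := by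
  let _ := invertibleOfNonzero ht0
  have := eval₂_reflect_mul_pow (algebraMap K F) t N f hf
  rwa [invOf_eq_inv] at this

theorem aeval_eq_zpow_mul {t : F} (ht0 : t ≠ 0) (N : ℕ) (f : K[X]) (hf : f.natDegree ≤ N) :
    aeval t f = t ^ (N : ℤ) * aeval t⁻¹ (reflect N f) := by
  rw [← aeval_inv_reflect ht0 N f hf, zpow_natCast, mul_comm]

/-- scaling an element integral over `K[t]` by a high power of `t⁻¹` makes it integral over
`K[t⁻¹]`. -/
theorem IntK.exists_pow_inv_mul {t x : F} (ht0 : t ≠ 0) (hx : IntK K t x) :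
    ∃ r : ℕ, ∀ s : ℕ, r ≤ s → IntK K t⁻¹ ((t⁻¹) ^ s * x) := by
  obtain ⟨P, hP, hPx⟩ := hx
  -- bound for the degrees of the coefficients
  set r : ℕ := P.support.sup (fun i => (P.coeff i).natDegree) + 1 with hr
  have hdeg : ∀ i, (P.coeff i).natDegree ≤ r := by
    intro i
    by_cases hi : i ∈ P.support
    · exact (Finset.le_sup (f := fun i => (P.coeff i).natDegree) hi).trans (Nat.le_succ _)
    · rw [Polynomial.notMem_support_iff.mp hi]; simp
  refine ⟨r, fun s hs => ?_⟩
  set m := P.natDegree with hm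
  -- the new polynomial
  let Q : K[X][X] := X ^ m + ∑ i ∈ Finset.range m, C (reflect (s * (m - i)) (P.coeff i)) * X ^ i
  have hQdeg : (∑ i ∈ Finset.range m, C (reflect (s * (m - i)) (P.coeff i)) * X ^ i :
      K[X][X]).degree < m := by
    refine (Polynomial.degree_sum_le _ _).trans_lt ?_
    rw [Finset.sup_lt_iff (by exact WithBot.bot_lt_coe m)]
    intro i hi
    refine (Polynomial.degree_C_mul_X_pow_le _ _).trans_lt ?_
    exact_mod_cast Finset.mem_range.mp hi
  refine ⟨Q, Polynomial.monic_X_pow_add hQdeg, ?_⟩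
  have hPx' : x ^ m + ∑ i ∈ Finset.range m, aeval t (P.coeff i) * x ^ i = 0 := by
    have := hPx
    rw [Polynomial.eval₂_eq_sum_range, Finset.sum_range_succ, ← hm] at this
    have hlead : P.coeff m = 1 := hP
    rw [hlead] at this
    simp only [RingHom.coe_coe, map_one, one_mul] at this
    rw [add_comm]; exact this
  have key : ∀ i ∈ Finset.range m,
      aeval t⁻¹ (reflect (s * (m - i)) (P.coeff i)) * ((t⁻¹) ^ s * x) ^ i
        = (t⁻¹) ^ (s * m) * (aeval t (P.coeff i) * x ^ i) := by
    intro i hi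
    have hi' : i < m := Finset.mem_range.mp hi
    have hle : (P.coeff i).natDegree ≤ s * (m - i) := by
      calc (P.coeff i).natDegree ≤ r := hdeg i
        _ ≤ s := hs
        _ ≤ s * (m - i) := Nat.le_mul_of_pos_right _ (by omega)
    rw [← aeval_inv_reflect ht0 _ _ hle, mul_pow, ← pow_mul]
    have h1 : s * m = s * (m - i) + s * i := by
      rw [← Nat.mul_add]; congr 1; omega
    rw [h1, pow_add]
    have h2 : (t⁻¹) ^ (s * (m - i)) * t ^ (s * (m - i)) = 1 := by
      rw [← mul_pow, inv_mul_cancel₀ ht0, one_pow]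
    calc aeval t⁻¹ (reflect (s * (m - i)) (P.coeff i)) * ((t⁻¹) ^ (s * i) * x ^ i)
        = aeval t⁻¹ (reflect (s * (m - i)) (P.coeff i)) * ((t⁻¹) ^ (s * i) * x ^ i)
            * ((t⁻¹) ^ (s * (m - i)) * t ^ (s * (m - i))) := by rw [h2, mul_one]
      _ = _ := by ring
  show Polynomial.eval₂ _ _ Q = 0
  simp only [Q, Polynomial.eval₂_add, Polynomial.eval₂_pow, Polynomial.eval₂_X,
    Polynomial.eval₂_finsetSum, Polynomial.eval₂_mul, Polynomial.eval₂_C, RingHom.coe_coe]
  rw [Finset.sum_congr rfl key, ← Finset.mul_sum, mul_pow, ← pow_mul, ← mul_add, hPx', mul_zero]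

end Fermat.Agent.S18.NB
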