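import Mathlib
import Fermat.Agent.S18.NormalBasisA

set_option autoImplicit false
set_option linter.style.haveILetI false

/-! # S18 [P1], part B: `B0` is free over `K[t]`; traces of integral elements -/

namespace Fermat.Agent.S18.NB

open Polynomial IntermediateField

variable {K F : Type*} [Field K] [Field F] [Algebra K F]

section loc

variable (u : F) (hu : Transcendental K u)

/-- local algebra structure `K[X] → F`, `X ↦ u` -/
@[reducible] noncomputable def algF (u : F) : Algebra K[X] F := ((aeval u : K[X] →ₐ[K] F) : K[X] →+* F).toAlgebra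

/-- local algebra structure `K[X] → K⟮u⟯`, `X ↦ u` -/
@[reducible] noncomputable def algE (u : F) : Algebra K[X] K⟮u⟯ :=
  ((aeval (AdjoinSimple.gen K u) : K[X] →ₐ[K] K⟮u⟯) : K[X] →+* K⟮u⟯).toAlgebra

theorem coe_aeval_gen (u : F) (p : K[X]) :
    ((aeval (AdjoinSimple.gen K u) p : K⟮u⟯) : F) = aeval u p := by
  have := Polynomial.aeval_algebraMap_apply F (AdjoinSimple.gen K u) p
  rw [AdjoinSimple.algebraMap_gen] at this
  exact this.symm

theorem tower (u : F) :
    @IsScalarTower K[X] K⟮u⟯ F (algE u).toSMul _ (algF u).toSMul := by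
  letI := algF (K := K) u
  letI := algE (K := K) u
  refine IsScalarTower.of_algebraMap_eq fun p => ?_
  show aeval u p = ((aeval (AdjoinSimple.gen K u) p : K⟮u⟯) : F)
  rw [coe_aeval_gen]

include hu in
theorem fracRing : @IsFractionRing K[X] _ K⟮u⟯ _ (algE u) := by
  letI := algE (K := K) u
  have hinj : Function.Injective (algebraMap K[X] K⟮u⟯) := by
    intro p q hpq
    have h1 : aeval u p = aeval u q := by
      rw [← coe_aeval_gen u p, ← coe_aeval_gen u q]
      exact congrArg (fun z : K⟮u⟯ => (z : F)) hpq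
    exact (transcendental_iff_injective.mp hu) h1
  haveI : FaithfulSMul K[X] K⟮u⟯ := (faithfulSMul_iff_algebraMap_injective _ _).mpr hinj
  refine IsFractionRing.of_field _ _ fun z => ?_
  obtain ⟨r, s, hrs⟩ := (IntermediateField.mem_adjoin_simple_iff K z.1).mp z.2
  refine ⟨r, s, Subtype.ext ?_⟩
  show (z : F) = ((aeval (AdjoinSimple.gen K u) r / aeval (AdjoinSimple.gen K u) s : K⟮u⟯) : F)
  rw [IntermediateField.coe_div, coe_aeval_gen, coe_aeval_gen, hrs]

end loc

/-- trace of an element integral over `K[u]` is a polynomial in `u` -/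
theorem IntK.trace_mem {u : F} (hu : Transcendental K u) (E : IntermediateField K F)
    (hE : E = K⟮u⟯) [FiniteDimensional E F] {x : F} (hx : IntK K u x) :
    ∃ P : K[X], algebraMap E F (Algebra.trace E F x) = aeval u P := by
  subst hE
  letI := algF (K := K) u
  letI := algE (K := K) u
  haveI := tower (K := K) u
  haveI := fracRing u hu
  have hx' : IsIntegral K[X] x := hx
  have h1 : IsIntegral K[X] (Algebra.trace K⟮u⟯ F x) := Algebra.isIntegral_trace hx'
  obtain ⟨P, hP⟩ := IsIntegrallyClosed.isIntegral_iff.mp h1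
  refine ⟨P, ?_⟩
  rw [← hP]
  show ((aeval (AdjoinSimple.gen K u) P : K⟮u⟯) : F) = _
  rw [coe_aeval_gen]

/-- `B0` is free over `K[t]`, on a `K(t)`-basis of `F`. -/
theorem exists_intK_basis {t : F} (ht : Transcendental K t) [FiniteDimensional K⟮t⟯ F]
    [Algebra.IsSeparable K⟮t⟯ F] :
    ∃ w : Fin (Module.finrank K⟮t⟯ F) → F, LinearIndependent K⟮t⟯ w ∧
      ∀ x, IntK K t x ↔ ∃ p : Fin (Module.finrank K⟮t⟯ F) → K[X], x = ∑ i, aeval t (p i) * w i := by
  letI := algF (K := K) t
  letI := algE (K := K) t
  haveI := tower (K := K) t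
  haveI := fracRing t ht
  haveI : Module.IsTorsionFree K[X] F := by
    have hinj : Function.Injective (algebraMap K[X] F) := transcendental_iff_injective.mp ht
    haveI : FaithfulSMul K[X] F := (faithfulSMul_iff_algebraMap_injective _ _).mpr hinj
    infer_instance
  haveI hfree : Module.Free K[X] (integralClosure K[X] F) :=
    IsIntegralClosure.module_free K[X] K⟮t⟯ F (integralClosure K[X] F)
  haveI hfin : Module.Finite K[X] (integralClosure K[X] F) :=
    IsIntegralClosure.finite K[X] K⟮t⟯ F (integralClosure K[X] F)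
  have hrank : Module.finrank K[X] (integralClosure K[X] F) = Module.finrank K⟮t⟯ F :=
    IsIntegralClosure.rank K[X] K⟮t⟯ F (integralClosure K[X] F)
  let b := Module.finBasisOfFinrankEq K[X] (integralClosure K[X] F) hrank
  have hchar : ∀ x, IntK K t x ↔
      ∃ p : Fin (Module.finrank K⟮t⟯ F) → K[X], x = ∑ i, aeval t (p i) * (b i : F) := by
    intro x
    constructor
    · intro hx
      have hx' : x ∈ integralClosure K[X] F := hx
      refine ⟨fun i => b.repr ⟨x, hx'⟩ i, ?_⟩
      have := congrArg (fun y : integralClosure K[X] F => (y : F)) (b.sum_repr ⟨x, hx'⟩)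
      simp only [AddSubmonoidClass.coe_finsetSum] at this
      refine this.symm.trans ?_
      refine Finset.sum_congr rfl fun i _ => ?_
      rfl
    · rintro ⟨p, rfl⟩
      exact IntK.sum _ _ fun i _ => (intK_aeval t (p i)).mul (b i).2
  refine ⟨fun i => (b i : F), ?_, hchar⟩
  -- spanning over `K(t)`
  apply linearIndependent_of_top_le_span_of_card_eq_finrank
  · intro x _
    have halg : IsAlgebraic K[X] x :=
      (IsFractionRing.isAlgebraic_iff K[X] K⟮t⟯ F).mpr (Algebra.IsAlgebraic.isAlgebraic x)
    obtain ⟨y, hy0, hy⟩ := halg.exists_integral_multiple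
    obtain ⟨p, hp⟩ := (hchar _).mp hy
    have hy1 : (aeval (AdjoinSimple.gen K t) y : K⟮t⟯) ≠ 0 := by
      intro h0
      have : aeval t y = 0 := by rw [← coe_aeval_gen, h0]; rfl
      exact hy0 ((transcendental_iff.mp ht) y this)
    have hx : x = ∑ i, ((aeval (AdjoinSimple.gen K t) y : K⟮t⟯)⁻¹ *
        (aeval (AdjoinSimple.gen K t) (p i) : K⟮t⟯)) • (b i : F) := by
      have h2 : aeval t y * x = ∑ i, aeval t (p i) * (b i : F) := hp
      have h3 : aeval t y ≠ 0 := by
        intro h0; exact hy0 ((transcendental_iff.mp ht) y h0)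
      simp only [IntermediateField.smul_def, smul_eq_mul, IntermediateField.coe_mul, IntermediateField.coe_inv,
        coe_aeval_gen, mul_assoc]
      rw [← Finset.mul_sum, ← h2, inv_mul_cancel_left₀ h3]
    rw [hx]
    exact Submodule.sum_mem _ fun i _ => Submodule.smul_mem _ _ (Submodule.subset_span ⟨i, rfl⟩)
  · simp
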