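import Mathlib
import Fermat.Agent.S18.NormalBasisB

set_option autoImplicit false
set_option linter.style.haveILetI false

/-! # S18 [P1], part C: degree lemma, discriminant bound -/

namespace Fermat.Agent.S18.NB

open Polynomial IntermediateField Matrix

variable {K F : Type*} [Field K] [Field F] [Algebra K F]

theorem Transcendental.ne_zero' {t : F} (ht : Transcendental K t) : t ≠ 0 := by
  rintro rfl
  exact ht (isAlgebraic_zero)

theorem transcendental_inv {t : F} (ht : Transcendental K t) : Transcendental K t⁻¹ := by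
  intro h
  exact ht (by simpa using h.inv)

theorem adjoin_inv_eq (t : F) : K⟮t⟯ = K⟮t⁻¹⟯ := by
  apply le_antisymm
  · rw [IntermediateField.adjoin_simple_le_iff]
    have : t⁻¹ ∈ K⟮t⁻¹⟯ := IntermediateField.mem_adjoin_simple_self K _
    simpa using K⟮t⁻¹⟯.inv_mem this
  · rw [IntermediateField.adjoin_simple_le_iff]
    exact K⟮t⟯.inv_mem (IntermediateField.mem_adjoin_simple_self K _)

/-- degree lemma -/
theorem natDegree_le_of_aeval_eq {t : F} (ht : Transcendental K t) {p q : K[X]} {s : ℤ}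
    (hp : p ≠ 0) (h : aeval t p = t ^ s * aeval t⁻¹ q) : (p.natDegree : ℤ) ≤ s := by
  have ht0 : t ≠ 0 := Transcendental.ne_zero' ht
  have hinj := transcendental_iff_injective.mp ht
  set N := q.natDegree with hN
  have h1 : aeval t (reflect N q) = aeval t⁻¹ q * t ^ N := by
    have := aeval_inv_reflect (K := K) (inv_ne_zero ht0) N q le_rfl
    rw [inv_inv] at this
    rw [← this, mul_assoc, ← mul_pow, inv_mul_cancel₀ ht0, one_pow, mul_one]
  have hrd : (reflect N q).natDegree ≤ N := by
    have := natDegree_reflect_le (N := N) (p := q)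
    rwa [← hN, max_self] at this
  rcases le_or_gt 0 s with hs | hs
  · obtain ⟨s', rfl⟩ := Int.eq_ofNat_of_zero_le hs
    have h2 : aeval t (X ^ N * p) = aeval t (X ^ s' * reflect N q) := by
      simp only [map_mul, map_pow, aeval_X]
      rw [h, h1, zpow_natCast]; ring
    have h3 := hinj h2
    have h4 : (X ^ N * p : K[X]).natDegree = N + p.natDegree := by
      rw [natDegree_X_pow_mul _ hp, add_comm]
    have h5 : (X ^ s' * reflect N q : K[X]).natDegree ≤ s' + N := by
      refine natDegree_mul_le.trans ?_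
      rw [natDegree_X_pow]; omega
    rw [h3] at h4
    have : p.natDegree ≤ s' := by omega
    exact_mod_cast this
  · exfalso
    obtain ⟨s', hs'⟩ : ∃ s' : ℕ, s = -(s' : ℤ) := ⟨(-s).toNat, by omega⟩
    have hs'0 : 0 < s' := by omega
    have h2 : aeval t (X ^ (N + s') * p) = aeval t (reflect N q) := by
      simp only [map_mul, map_pow, aeval_X]
      rw [h, h1, hs', _root_.zpow_neg, zpow_natCast, pow_add]
      field_simp
    have h3 := hinj h2
    have h4 : (X ^ (N + s') * p : K[X]).natDegree = N + s' + p.natDegree := by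
      rw [natDegree_X_pow_mul _ hp, add_comm]
    rw [h3] at h4
    omega

theorem exists_aeval_inv_eq {t : F} (ht0 : t ≠ 0) {p : K[X]} {s : ℤ}
    (h : p = 0 ∨ (p.natDegree : ℤ) ≤ s) : ∃ q : K[X], aeval t p = t ^ s * aeval t⁻¹ q := by
  rcases h with rfl | h
  · exact ⟨0, by simp⟩
  · have hs : 0 ≤ s := le_trans (by positivity) h
    obtain ⟨s', rfl⟩ := Int.eq_ofNat_of_zero_le hs
    exact ⟨reflect s' p, aeval_eq_zpow_mul ht0 s' p (by exact_mod_cast h)⟩

/-- determinant of a matrix with entries in `K[u]` -/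
theorem exists_aeval_det {ι : Type*} [Fintype ι] [DecidableEq ι] (u : F)
    (E : IntermediateField K F) (M : Matrix ι ι E)
    (h : ∀ i j, ∃ P : K[X], algebraMap E F (M i j) = aeval u P) :
    ∃ P : K[X], algebraMap E F M.det = aeval u P := by
  choose P hP using h
  refine ⟨(Matrix.of P).det, ?_⟩
  rw [RingHom.map_det, AlgHom.map_det]
  congr 1
  ext i j
  simp [hP]

variable {n : ℕ}

theorem prod_zpow_eq {G ι : Type*} [Field G] {a : G} (ha : a ≠ 0) (s : Finset ι) (f : ι → ℤ) :
    ∏ i ∈ s, a ^ f i = a ^ ∑ i ∈ s, f i := by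
  classical
  induction s using Finset.induction_on with
  | empty => simp
  | insert b s hb ih => rw [Finset.prod_insert hb, Finset.sum_insert hb, ih, zpow_add₀ ha]

/-- discriminant bound -/
theorem sum_nonneg_of_intK {t : F} (ht : Transcendental K t) [FiniteDimensional K⟮t⟯ F]
    [Algebra.IsSeparable K⟮t⟯ F] (hn : n = Module.finrank K⟮t⟯ F)
    (w : Fin n → F) (d : Fin n → ℤ) (hli : LinearIndependent K⟮t⟯ w)
    (h0 : ∀ i, IntK K t (w i)) (hinf : ∀ i, IntK K t⁻¹ (t ^ (-d i) * w i)) :
    0 ≤ ∑ i, d i := by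
  have ht0 : t ≠ 0 := Transcendental.ne_zero' ht
  set tE : K⟮t⟯ := AdjoinSimple.gen K t with htE
  have htE0 : tE ≠ 0 := by
    intro h; apply ht0
    have := congrArg (fun z : K⟮t⟯ => (z : F)) h
    rwa [htE, AdjoinSimple.coe_gen] at this
  haveI : Nonempty (Fin n) := by
    have : 0 < n := hn ▸ Module.finrank_pos
    exact ⟨⟨0, this⟩⟩
  let b := basisOfLinearIndependentOfCardEqFinrank hli (by simp [hn])
  have hb : ⇑b = w := coe_basisOfLinearIndependentOfCardEqFinrank _ _
  have hD0 : Algebra.discr K⟮t⟯ w ≠ 0 := by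
    rw [← hb]; exact Algebra.discr_not_zero_of_basis _ b
  obtain ⟨P, hP⟩ : ∃ P : K[X], algebraMap K⟮t⟯ F (Algebra.discr K⟮t⟯ w) = aeval t P := by
    rw [Algebra.discr_def]
    refine exists_aeval_det t _ _ fun i j => ?_
    rw [Algebra.traceMatrix_apply, Algebra.traceForm_apply]
    exact ((h0 i).mul (h0 j)).trace_mem ht _ rfl
  let v : Fin n → F := fun i => t ^ (-d i) * w i
  obtain ⟨Q, hQ⟩ : ∃ Q : K[X], algebraMap K⟮t⟯ F (Algebra.discr K⟮t⟯ v) = aeval t⁻¹ Q := by
    rw [Algebra.discr_def]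
    refine exists_aeval_det t⁻¹ _ _ fun i j => ?_
    rw [Algebra.traceMatrix_apply, Algebra.traceForm_apply]
    exact ((hinf i).mul (hinf j)).trace_mem (transcendental_inv ht) _ (adjoin_inv_eq t)
  have hv : v = (Matrix.diagonal fun i => tE ^ (-d i)).map (algebraMap K⟮t⟯ F) *ᵥ w := by
    ext i
    simp only [v, Matrix.mulVec, dotProduct, Matrix.map_apply, Matrix.diagonal_apply]
    rw [Finset.sum_eq_single i]
    · simp [htE]
    · intro j _ hj
      simp [Ne.symm hj]
    · simp
  have hdv : Algebra.discr K⟮t⟯ v = (tE ^ (-∑ i, d i)) ^ 2 * Algebra.discr K⟮t⟯ w := by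
    rw [hv, Algebra.discr_of_matrix_mulVec, Matrix.det_diagonal]
    congr 2
    rw [← Finset.sum_neg_distrib]
    exact prod_zpow_eq htE0 _ _
  have hP0 : P ≠ 0 := by
    rintro rfl
    apply hD0
    have : algebraMap K⟮t⟯ F (Algebra.discr K⟮t⟯ w) = 0 := by rw [hP]; simp
    exact (map_eq_zero _).mp this
  have hfin : aeval t P = t ^ (2 * ∑ i, d i) * aeval t⁻¹ Q := by
    rw [← hP, ← hQ, hdv, map_mul, map_pow, map_zpow₀]
    have : algebraMap K⟮t⟯ F tE = t := AdjoinSimple.algebraMap_gen K t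
    rw [this, ← mul_assoc, ← zpow_natCast, ← _root_.zpow_mul, ← zpow_add₀ ht0]
    have : 2 * ∑ i, d i + (-∑ i, d i) * ((2 : ℕ) : ℤ) = 0 := by push_cast; ring
    rw [this, zpow_zero, one_mul]
  have := natDegree_le_of_aeval_eq ht hP0 hfin
  have h0 : (0 : ℤ) ≤ P.natDegree := by positivity
  omega

end Fermat.Agent.S18.NB
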