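import Mathlib
import Fermat.Agent.S18.NormalBasisC

set_option autoImplicit false
set_option linter.style.haveILetI false

/-! # S18 [P1], part D: existence of a normal basis -/

namespace Fermat.Agent.S18.NB

open Polynomial IntermediateField

variable {K F : Type*} [Field K] [Field F] [Algebra K F] {n : ℕ}

/-- a family of the right cardinality generating `B0` over `K[t]` is `K(t)`-independent -/
theorem li_of_int0 {t : F} (ht : Transcendental K t) [FiniteDimensional K⟮t⟯ F]
    (hn : n = Module.finrank K⟮t⟯ F) (w : Fin n → F)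
    (h : ∀ x, IntK K t x → ∃ p : Fin n → K[X], x = ∑ i, aeval t (p i) * w i) :
    LinearIndependent K⟮t⟯ w := by
  letI := algF (K := K) t
  letI := algE (K := K) t
  haveI := tower (K := K) t
  haveI := fracRing t ht
  apply linearIndependent_of_top_le_span_of_card_eq_finrank
  · intro x _
    have halg : IsAlgebraic K[X] x :=
      (IsFractionRing.isAlgebraic_iff K[X] K⟮t⟯ F).mpr (Algebra.IsAlgebraic.isAlgebraic x)
    obtain ⟨y, hy0, hy⟩ := halg.exists_integral_multiple
    obtain ⟨p, hp⟩ := h _ hy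
    have hx : x = ∑ i, ((aeval (AdjoinSimple.gen K t) y : K⟮t⟯)⁻¹ *
        (aeval (AdjoinSimple.gen K t) (p i) : K⟮t⟯)) • (w i : F) := by
      have h2 : aeval t y * x = ∑ i, aeval t (p i) * (w i : F) := hp
      have h3 : aeval t y ≠ 0 := by
        intro h0; exact hy0 ((transcendental_iff.mp ht) y h0)
      simp only [IntermediateField.smul_def, smul_eq_mul, IntermediateField.coe_mul,
        IntermediateField.coe_inv, coe_aeval_gen, mul_assoc]
      rw [← Finset.mul_sum, ← h2, inv_mul_cancel_left₀ h3]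
    rw [hx]
    exact Submodule.sum_mem _ fun i _ => Submodule.smul_mem _ _ (Submodule.subset_span ⟨i, rfl⟩)
  · simp [hn]

/-- a `K[t]`-basis of `B0` together with exponents making it integral at infinity -/
structure IsPair (K : Type*) {F : Type*} [Field K] [Field F] [Algebra K F] (t : F) {n : ℕ}
    (w : Fin n → F) (d : Fin n → ℤ) : Prop where
  int0 : ∀ x, IntK K t x ↔ ∃ p : Fin n → K[X], x = ∑ i, aeval t (p i) * w i
  intinf : ∀ i, IntK K t⁻¹ (t ^ (-d i) * w i)

theorem IsPair.w_int {t : F} {w : Fin n → F} {d : Fin n → ℤ} (h : IsPair K t w d) (i : Fin n) :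
    IntK K t (w i) := by
  classical
  refine (h.int0 _).mpr ⟨Pi.single i 1, ?_⟩
  rw [Finset.sum_eq_single i]
  · simp
  · intro j _ hj
    simp [Pi.single_eq_of_ne hj]
  · simp

theorem exists_isPair {t : F} (ht : Transcendental K t) [FiniteDimensional K⟮t⟯ F]
    [Algebra.IsSeparable K⟮t⟯ F] :
    ∃ (w : Fin (Module.finrank K⟮t⟯ F) → F) (d : Fin (Module.finrank K⟮t⟯ F) → ℤ),
      IsPair K t w d := by
  classical
  have ht0 : t ≠ 0 := Transcendental.ne_zero' ht
  obtain ⟨w, -, hw⟩ := exists_intK_basis ht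
  have hwi : ∀ i, IntK K t (w i) := by
    intro i
    refine (hw _).mpr ⟨Pi.single i 1, ?_⟩
    rw [Finset.sum_eq_single i]
    · simp
    · intro j _ hj
      simp [Pi.single_eq_of_ne hj]
    · simp
  choose r hr using fun i => (hwi i).exists_pow_inv_mul ht0
  refine ⟨w, fun i => (r i : ℤ), hw, fun i => ?_⟩
  have := hr i (r i) le_rfl
  rwa [zpow_neg, zpow_natCast, ← inv_pow]

/-- the reduction step -/
theorem IsPair.reduce {t : F} (ht0 : t ≠ 0) {w : Fin n → F} {d : Fin n → ℤ}
    (hp : IsPair K t w d) (γ : Fin n → K) (hγ : ∃ i, γ i ≠ 0)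
    (hz : IntK K t⁻¹ (t * ∑ i, algebraMap K F (γ i) * (t ^ (-d i) * w i))) :
    ∃ (w' : Fin n → F) (d' : Fin n → ℤ), IsPair K t w' d' ∧ ∑ i, d' i = ∑ i, d i - 1 := by
  classical
  obtain ⟨j, hj⟩ := hγ
  obtain ⟨i₀, hi₀, hmax⟩ := Finset.exists_max_image (Finset.univ.filter (fun i => γ i ≠ 0)) d
    ⟨j, by simp [hj]⟩
  have hγ0 : γ i₀ ≠ 0 := by simpa using hi₀
  have hmax' : ∀ i, γ i ≠ 0 → d i ≤ d i₀ := fun i hi => hmax i (by simp [hi])
  let c : Fin n → K[X] := fun i => C (γ i) * X ^ (d i₀ - d i).toNat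
  have hc : ∀ i, aeval t (c i) = algebraMap K F (γ i) * t ^ (d i₀ - d i) := by
    intro i
    by_cases hi : γ i = 0
    · simp [c, hi]
    · have h1 : (((d i₀ - d i).toNat : ℕ) : ℤ) = d i₀ - d i :=
        Int.toNat_of_nonneg (by have := hmax' i hi; omega)
      simp only [c, map_mul, aeval_C, map_pow, aeval_X]
      rw [← zpow_natCast, h1]
  have hc0 : c i₀ = C (γ i₀) := by simp [c]
  set w₀ : F := ∑ i, aeval t (c i) * w i with hw₀
  let w' : Fin n → F := fun i => if i = i₀ then w₀ else w i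
  let d' : Fin n → ℤ := fun i => d i - (if i = i₀ then 1 else 0)
  have hw₀int : IntK K t w₀ := (hp.int0 _).mpr ⟨c, rfl⟩
  have key' : ∀ f : Fin n → F, ∑ i, f i * w' i
      = f i₀ * w₀ + ∑ i ∈ Finset.univ.erase i₀, f i * w i := by
    intro f
    rw [← Finset.add_sum_erase _ _ (Finset.mem_univ i₀)]
    congr 1
    · simp [w']
    · apply Finset.sum_congr rfl
      intro i hi
      simp [w', Finset.ne_of_mem_erase hi]
  have key : ∀ f : Fin n → F, ∑ i, f i * w i
      = f i₀ * w i₀ + ∑ i ∈ Finset.univ.erase i₀, f i * w i := by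
    intro f
    rw [← Finset.add_sum_erase _ _ (Finset.mem_univ i₀)]
  refine ⟨w', d', ⟨fun x => ⟨fun hx => ?_, ?_⟩, fun i => ?_⟩, ?_⟩
  · obtain ⟨p, rfl⟩ := (hp.int0 x).mp hx
    refine ⟨fun i => if i = i₀ then p i₀ * C (γ i₀)⁻¹ else p i - p i₀ * C (γ i₀)⁻¹ * c i, ?_⟩
    rw [key', key, hw₀, key]
    simp only [if_true]
    have h1 : ∑ i ∈ Finset.univ.erase i₀,
        aeval t (if i = i₀ then p i₀ * C (γ i₀)⁻¹ else p i - p i₀ * C (γ i₀)⁻¹ * c i) * w i
        = ∑ i ∈ Finset.univ.erase i₀, aeval t (p i) * w i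
          - aeval t (p i₀ * C (γ i₀)⁻¹) * ∑ i ∈ Finset.univ.erase i₀, aeval t (c i) * w i := by
      rw [Finset.mul_sum, ← Finset.sum_sub_distrib]
      apply Finset.sum_congr rfl
      intro i hi
      rw [if_neg (Finset.ne_of_mem_erase hi)]
      simp only [map_sub, map_mul]
      ring
    rw [h1, hc0]
    simp only [map_mul, aeval_C]
    have h2 : algebraMap K F (γ i₀)⁻¹ * algebraMap K F (γ i₀) = 1 := by
      rw [← map_mul, inv_mul_cancel₀ hγ0, map_one]
    linear_combination (-(aeval t (p i₀)) * w i₀) * h2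
  · rintro ⟨p, rfl⟩
    refine IntK.sum _ _ fun i _ => (intK_aeval t (p i)).mul ?_
    by_cases hi : i = i₀
    · simp only [w', hi, if_true]; exact hw₀int
    · simp only [w', hi, if_false]; exact hp.w_int i
  · by_cases hi : i = i₀
    · subst hi
      simp only [w', d', if_true]
      convert hz using 1
      rw [hw₀, Finset.mul_sum, Finset.mul_sum]
      apply Finset.sum_congr rfl
      intro j _
      rw [hc]
      have h1 : t ^ (-(d i - 1)) * t ^ (d i - d j) = t * t ^ (-d j) := by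
        rw [← zpow_add₀ ht0, ← zpow_one_add₀ ht0]
        congr 1; ring
      linear_combination (algebraMap K F (γ j) * w j) * h1
    · simp only [w', d', hi, if_false, sub_zero]
      exact hp.intinf i
  · simp only [d']
    rw [Finset.sum_sub_distrib]
    simp

/-- normal basis data -/
structure IsNormalBasis (K : Type*) {F : Type*} [Field K] [Field F] [Algebra K F] (t : F) {n : ℕ}
    (w : Fin n → F) (d : Fin n → ℤ) : Prop where
  li : LinearIndependent K⟮t⟯ w
  int0 : ∀ x, IntK K t x ↔ ∃ p : Fin n → K[X], x = ∑ i, aeval t (p i) * w i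
  intinf : ∀ x, IntK K t⁻¹ x ↔ ∃ q : Fin n → K[X], x = ∑ i, aeval t⁻¹ (q i) * (t ^ (-d i) * w i)

theorem zpow_neg_mul_aeval {t : F} (ht0 : t ≠ 0) (p : K[X]) (k : ℤ) (h : (p.natDegree : ℤ) ≤ k) :
    ∃ q : K[X], t ^ (-k) * aeval t p = aeval t⁻¹ q := by
  obtain ⟨q, hq⟩ := exists_aeval_inv_eq (K := K) ht0 (p := p) (s := k) (Or.inr h)
  refine ⟨q, ?_⟩
  rw [hq, ← mul_assoc, ← zpow_add₀ ht0]
  simp

theorem exists_normal_basis {t : F} (ht : Transcendental K t) [FiniteDimensional K⟮t⟯ F]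
    [Algebra.IsSeparable K⟮t⟯ F] :
    ∃ (w : Fin (Module.finrank K⟮t⟯ F) → F) (d : Fin (Module.finrank K⟮t⟯ F) → ℤ),
      IsNormalBasis K t w d := by
  classical
  have ht0 : t ≠ 0 := Transcendental.ne_zero' ht
  set n := Module.finrank K⟮t⟯ F with hn
  have hnonneg : ∀ (w : Fin n → F) (d : Fin n → ℤ), IsPair K t w d → 0 ≤ ∑ i, d i := by
    intro w d h
    exact sum_nonneg_of_intK ht hn w d (li_of_int0 ht hn w fun x hx => (h.int0 x).mp hx)
      h.w_int h.intinf
  have hex : ∃ m : ℕ, ∃ (w : Fin n → F) (d : Fin n → ℤ), IsPair K t w d ∧ ∑ i, d i = m := by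
    obtain ⟨w, d, h⟩ := exists_isPair ht
    exact ⟨(∑ i, d i).toNat, w, d, h, (Int.toNat_of_nonneg (hnonneg w d h)).symm⟩
  obtain ⟨w, d, hp, hsum⟩ := Nat.find_spec hex
  have hmin := fun m hm => Nat.find_min hex (m := m) hm
  set m₀ := Nat.find hex with hm₀
  refine ⟨w, d, li_of_int0 ht hn w fun x hx => (hp.int0 x).mp hx, hp.int0, ?_⟩
  let S : F → Prop := fun x => ∃ q : Fin n → K[X], x = ∑ i, aeval t⁻¹ (q i) * (t ^ (-d i) * w i)
  -- Claim B
  have hB : ∀ y, IntK K t⁻¹ y → S (t⁻¹ * y) → S y := by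
    rintro y hy ⟨q, hq⟩
    let γ : Fin n → K := fun i => (q i).coeff 0
    have hsplit : ∀ i, aeval t⁻¹ (q i) = algebraMap K F (γ i) + t⁻¹ * aeval t⁻¹ (divX (q i)) := by
      intro i
      conv_lhs => rw [← divX_mul_X_add (q i)]
      simp only [map_add, map_mul, aeval_X, aeval_C, γ]
      ring
    have hy' : y = t * ∑ i, algebraMap K F (γ i) * (t ^ (-d i) * w i)
        + ∑ i, aeval t⁻¹ (divX (q i)) * (t ^ (-d i) * w i) := by
      have h1 : y = t * (t⁻¹ * y) := by rw [mul_inv_cancel_left₀ ht0]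
      rw [h1, hq, Finset.mul_sum, Finset.mul_sum, ← Finset.sum_add_distrib]
      apply Finset.sum_congr rfl
      intro i _
      rw [hsplit]
      have h2 : t * t⁻¹ = 1 := mul_inv_cancel₀ ht0
      linear_combination (aeval t⁻¹ (divX (q i)) * (t ^ (-d i) * w i)) * h2
    by_cases hγ : ∃ i, γ i ≠ 0
    · exfalso
      have hz : IntK K t⁻¹ (t * ∑ i, algebraMap K F (γ i) * (t ^ (-d i) * w i)) := by
        have : t * ∑ i, algebraMap K F (γ i) * (t ^ (-d i) * w i)
            = y - ∑ i, aeval t⁻¹ (divX (q i)) * (t ^ (-d i) * w i) := by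
          rw [hy']; ring
        rw [this]
        exact hy.sub (IntK.sum _ _ fun i _ => (intK_aeval _ _).mul (hp.intinf i))
      obtain ⟨w', d', hp', hs'⟩ := hp.reduce ht0 γ hγ hz
      have h0 := hnonneg w' d' hp'
      have hlt : (∑ i, d' i).toNat < m₀ := by omega
      exact hmin _ hlt ⟨w', d', hp', (Int.toNat_of_nonneg h0).symm⟩
    · push Not at hγ
      refine ⟨fun i => divX (q i), ?_⟩
      rw [hy']
      simp [hγ]
  -- Claim C
  have hC : ∀ (e : ℕ) x, IntK K t⁻¹ x → S ((t⁻¹) ^ e * x) → S x := by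
    intro e
    induction e with
    | zero => intro x _ h; simpa using h
    | succ e ih =>
      intro x hx h
      apply ih x hx
      apply hB _ (((intK_self _).pow e).mul hx)
      rwa [← mul_assoc, ← pow_succ']
  intro x
  constructor
  · intro hx
    -- Claim A
    obtain ⟨r, hr⟩ := hx.exists_pow_inv_mul (inv_ne_zero ht0)
    have hr' := hr r le_rfl
    rw [inv_inv] at hr'
    obtain ⟨p, hp'⟩ := (hp.int0 _).mp hr'
    let e : ℕ := ∑ i, ((p i).natDegree + (d i).natAbs)
    have he : ∀ i, (p i).natDegree + (d i).natAbs ≤ e := fun i =>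
      Finset.single_le_sum (f := fun i => (p i).natDegree + (d i).natAbs)
        (fun _ _ => Nat.zero_le _) (Finset.mem_univ i)
    apply hC e x hx
    have hq : ∀ i, ∃ q : K[X], t ^ (-((e : ℤ) + r - d i)) * aeval t (p i) = aeval t⁻¹ q := by
      intro i
      apply zpow_neg_mul_aeval ht0
      have := he i
      omega
    choose q hq using hq
    refine ⟨q, ?_⟩
    have h1 : (t⁻¹) ^ e * x = (t⁻¹) ^ (e + r) * (t ^ r * x) := by
      rw [pow_add, inv_pow, inv_pow]
      field_simp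
    rw [h1, hp', Finset.mul_sum]
    apply Finset.sum_congr rfl
    intro i _
    rw [← hq i]
    have h2 : (t⁻¹) ^ (e + r) = t ^ (-((e : ℤ) + r - d i)) * t ^ (-d i) := by
      rw [← zpow_add₀ ht0, inv_pow, ← zpow_natCast, ← zpow_neg]
      congr 1
      push_cast; ring
    rw [h2]; ring
  · rintro ⟨q, rfl⟩
    exact IntK.sum _ _ fun i _ => (intK_aeval _ _).mul (hp.intinf i)

end Fermat.Agent.S18.NB
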