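import Mathlib
import Fermat.Agent.S18.NormalBasisD
import Fermat.Agent.S18.LSpace

set_option autoImplicit false
set_option linter.style.haveILetI false

/-! # S18 [P1], part E: dimension formula from normal data -/

namespace Fermat.Agent.S18.NB

open Polynomial IntermediateField

variable {K F : Type*} [Field K] [Field F] [Algebra K F] {n : ℕ}

/-- comparison of the two shapes of integrality over `K[t]` -/
theorem intK_iff_intOver (t x : F) : IntK K t x ↔ IntOver K t x := by
  have hmem : ∀ p : K[X], aeval t p ∈ Algebra.adjoin K {t} := by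
    intro p
    rw [Algebra.adjoin_singleton_eq_range_aeval]
    exact ⟨p, rfl⟩
  let φ : K[X] →+* Algebra.adjoin K {t} :=
    ((aeval t : K[X] →ₐ[K] F) : K[X] →+* F).codRestrict (Algebra.adjoin K {t}).toSubring hmem
  have hφ : ∀ p, ((φ p : Algebra.adjoin K {t}) : F) = aeval t p := fun p => rfl
  have hcomp : (algebraMap (Algebra.adjoin K {t}) F).comp φ
      = ((aeval t : K[X] →ₐ[K] F) : K[X] →+* F) := by
    ext <;> rfl
  have hsurj : Function.Surjective φ := by
    rintro ⟨y, hy⟩
    have hy' := hy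
    rw [Algebra.adjoin_singleton_eq_range_aeval] at hy'
    obtain ⟨p, hp⟩ := hy'
    exact ⟨p, Subtype.ext hp⟩
  constructor
  · rintro ⟨P, hP, hPx⟩
    refine ⟨P.map φ, hP.map φ, ?_⟩
    rw [eval₂_map, hcomp]
    exact hPx
  · rintro ⟨P, hP, hPx⟩
    obtain ⟨Q, hQ, -, hQm⟩ := lifts_and_degree_eq_and_monic
      ((mem_lifts P).mpr (map_surjective φ hsurj P)) hP
    refine ⟨Q, hQm, ?_⟩
    rw [← hcomp, ← eval₂_map, hQ]
    exact hPx

/-- generic normal data for a pair of lattices (over `K[t]` and `K[t⁻¹]`) -/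
structure IsNormal (K : Type*) {F : Type*} [Field K] [Field F] [Algebra K F] (t : F)
    (P0 Pinf : F → Prop) {n : ℕ} (w : Fin n → F) (d : Fin n → ℤ) : Prop where
  li : LinearIndependent K⟮t⟯ w
  h0 : ∀ x, P0 x ↔ ∃ p : Fin n → K[X], x = ∑ i, aeval t (p i) * w i
  hinf : ∀ x, Pinf x ↔ ∃ q : Fin n → K[X], x = ∑ i, aeval t⁻¹ (q i) * (t ^ (-d i) * w i)

theorem coeff_unique {t : F} {w : Fin n → F} (hli : LinearIndependent K⟮t⟯ w) (a b : Fin n → F)
    (ha : ∀ i, a i ∈ K⟮t⟯) (hb : ∀ i, b i ∈ K⟮t⟯) (h : ∑ i, a i * w i = ∑ i, b i * w i) (i : Fin n) :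
    a i = b i := by
  have h1 := Fintype.linearIndependent_iff.mp hli
    (fun i => ⟨a i - b i, sub_mem (ha i) (hb i)⟩) (by
      simp only [IntermediateField.smul_def, smul_eq_mul, sub_mul]
      rw [Finset.sum_sub_distrib, h, sub_self]) i
  have h2 := congrArg (fun z : K⟮t⟯ => (z : F)) h1
  simpa [sub_eq_zero] using h2

theorem aeval_mem_simple (t : F) (p : K[X]) : aeval t p ∈ K⟮t⟯ := by
  rw [← coe_aeval_gen]; exact SetLike.coe_mem _

theorem aeval_inv_mem_simple (t : F) (p : K[X]) : aeval t⁻¹ p ∈ K⟮t⟯ := by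
  rw [adjoin_inv_eq]; exact aeval_mem_simple _ _

theorem zpow_mem_simple (t : F) (k : ℤ) : t ^ k ∈ K⟮t⟯ :=
  zpow_mem (mem_adjoin_simple_self K t) k

/-- the parametrisation -/
noncomputable def param (K : Type*) {F : Type*} [Field K] [Field F] [Algebra K F] (t : F) {n : ℕ}
    (w : Fin n → F) (b : ℤ) (m : Fin n → ℕ) : (∀ i, degreeLT K (m i)) →ₗ[K] F where
  toFun p := t ^ (-b) * ∑ i, aeval t (p i : K[X]) * w i
  map_add' p q := by
    simp only [Pi.add_apply, Submodule.coe_add, map_add, add_mul, Finset.sum_add_distrib, mul_add]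
  map_smul' c p := by
    simp only [Pi.smul_apply, Submodule.coe_smul, map_smul, smul_mul_assoc, RingHom.id_apply,
      ← Finset.smul_sum, mul_smul_comm]

theorem param_injective {t : F} (ht : Transcendental K t) {w : Fin n → F}
    (hli : LinearIndependent K⟮t⟯ w) (b : ℤ) (m : Fin n → ℕ) :
    Function.Injective (param K t w b m) := by
  have ht0 : t ≠ 0 := Transcendental.ne_zero' ht
  intro p q h
  have h1 : ∑ i, aeval t (p i : K[X]) * w i = ∑ i, aeval t (q i : K[X]) * w i :=
    mul_left_cancel₀ (zpow_ne_zero _ ht0) h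
  funext i
  apply Subtype.ext
  apply transcendental_iff_injective.mp ht
  exact coeff_unique hli _ _ (fun i => aeval_mem_simple t _) (fun i => aeval_mem_simple t _) h1 i

theorem finrank_pi_degreeLT (m : Fin n → ℕ) :
    Module.finrank K (∀ i, degreeLT K (m i)) = ∑ i, m i := by
  rw [Module.finrank_pi_fintype]
  apply Finset.sum_congr rfl
  intro i _
  rw [(degreeLTEquiv K (m i)).finrank_eq, Module.finrank_fin_fun]

theorem IsNormal.range_param {t : F} (ht : Transcendental K t) {P0 Pinf : F → Prop}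
    {w : Fin n → F} {d : Fin n → ℤ} (hN : IsNormal K t P0 Pinf w d) (a b : ℤ)
    (V : Submodule K F) (hV : ∀ x, x ∈ V ↔ P0 (t ^ b * x) ∧ Pinf (t ^ (-a) * x)) :
    LinearMap.range (param K t w b fun i => (a + b - d i + 1).toNat) = V := by
  have ht0 : t ≠ 0 := Transcendental.ne_zero' ht
  ext x
  rw [hV, LinearMap.mem_range]
  constructor
  · rintro ⟨p, rfl⟩
    have hx : ∀ k : ℤ, t ^ k * param K t w b (fun i => (a + b - d i + 1).toNat) p
        = t ^ (k - b) * ∑ i, aeval t (p i : K[X]) * w i := by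
      intro k
      show t ^ k * (t ^ (-b) * _) = _
      rw [← mul_assoc, ← zpow_add₀ ht0, sub_eq_add_neg]
    constructor
    · rw [hx, sub_self, zpow_zero, one_mul, hN.h0]
      exact ⟨fun i => p i, rfl⟩
    · rw [hx, hN.hinf]
      have hq : ∀ i, ∃ q : K[X], aeval t (p i : K[X]) = t ^ (a + b - d i) * aeval t⁻¹ q := by
        intro i
        apply exists_aeval_inv_eq ht0
        by_cases h0 : (p i : K[X]) = 0
        · exact Or.inl h0
        · right
          have h1 := mem_degreeLT.mp (p i).2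
          rw [degree_eq_natDegree h0] at h1
          have h2 : (p i : K[X]).natDegree < (a + b - d i + 1).toNat := by exact_mod_cast h1
          omega
      choose q hq using hq
      refine ⟨q, ?_⟩
      rw [Finset.mul_sum]
      apply Finset.sum_congr rfl
      intro i _
      rw [hq i]
      have h3 : t ^ (-a - b) * t ^ (a + b - d i) = t ^ (-d i) := by
        rw [← zpow_add₀ ht0]; congr 1; ring
      linear_combination (aeval t⁻¹ (q i) * w i) * h3
  · rintro ⟨h0, hinf⟩
    obtain ⟨p, hp⟩ := (hN.h0 _).mp h0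
    obtain ⟨q, hq⟩ := (hN.hinf _).mp hinf
    have h1 : ∑ i, aeval t (p i) * w i
        = ∑ i, (t ^ (a + b - d i) * aeval t⁻¹ (q i)) * w i := by
      rw [← hp]
      have : t ^ b * x = t ^ (a + b) * (t ^ (-a) * x) := by
        rw [← mul_assoc, ← zpow_add₀ ht0]; congr 2; ring
      rw [this, hq, Finset.mul_sum]
      apply Finset.sum_congr rfl
      intro i _
      have h3 : t ^ (a + b) * t ^ (-d i) = t ^ (a + b - d i) := by
        rw [← zpow_add₀ ht0]; congr 1
      linear_combination (aeval t⁻¹ (q i) * w i) * h3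
    have h2 := coeff_unique hN.li _ _ (fun i => aeval_mem_simple t _)
      (fun i => mul_mem (zpow_mem_simple t _) (aeval_inv_mem_simple t _)) h1
    have hdeg : ∀ i, p i ∈ degreeLT K (a + b - d i + 1).toNat := by
      intro i
      rw [mem_degreeLT]
      by_cases h0 : p i = 0
      · rw [h0, degree_zero]; exact WithBot.bot_lt_coe _
      · have h3 := natDegree_le_of_aeval_eq ht h0 (h2 i)
        rw [degree_eq_natDegree h0]
        have : (p i).natDegree < (a + b - d i + 1).toNat := by omega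
        exact_mod_cast this
    refine ⟨fun i => ⟨p i, hdeg i⟩, ?_⟩
    show t ^ (-b) * ∑ i, aeval t (p i) * w i = x
    rw [← hp, ← mul_assoc, ← zpow_add₀ ht0]
    simp

theorem IsNormal.finrank_eq {t : F} (ht : Transcendental K t) {P0 Pinf : F → Prop}
    {w : Fin n → F} {d : Fin n → ℤ} (hN : IsNormal K t P0 Pinf w d) (a b : ℤ)
    (V : Submodule K F) (hV : ∀ x, x ∈ V ↔ P0 (t ^ b * x) ∧ Pinf (t ^ (-a) * x)) :
    FiniteDimensional K V ∧ Module.finrank K V = ∑ i, (a + b - d i + 1).toNat := by
  have h := hN.range_param ht a b V hV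
  rw [← h]
  refine ⟨inferInstance, ?_⟩
  rw [LinearMap.finrank_range_of_inj (param_injective ht hN.li b _), finrank_pi_degreeLT]

end Fermat.Agent.S18.NB
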