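import Mathlib
import Fermat.Agent.S18.NormalBasisE

set_option autoImplicit false
set_option linter.style.haveILetI false

/-! # S18 [P1], part F: dimension of `Lsp`, sum decomposition -/

namespace Fermat.Agent.S18.NB

open Polynomial IntermediateField

variable {K F : Type*} [Field K] [Field F] [Algebra K F] {n : ℕ}

theorem IsNormalBasis.isNormal {t : F} {w : Fin n → F} {d : Fin n → ℤ}
    (h : IsNormalBasis K t w d) : IsNormal K t (IntOver K t) (IntOver K t⁻¹) w d where
  li := h.li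
  h0 x := by rw [← intK_iff_intOver]; exact h.int0 x
  hinf x := by rw [← intK_iff_intOver]; exact h.intinf x

theorem IsNormalBasis.finrank_Lsp {t : F} (ht : Transcendental K t) {w : Fin n → F}
    {d : Fin n → ℤ} (h : IsNormalBasis K t w d) (a b : ℤ) :
    FiniteDimensional K (Lsp K t a b) ∧
      Module.finrank K (Lsp K t a b) = ∑ i, (a + b - d i + 1).toNat :=
  h.isNormal.finrank_eq ht a b _ fun _ => Iff.rfl

theorem sum_toNat_eq (d : Fin n → ℤ) (m : ℤ) (hm : ∀ i, d i - 1 ≤ m) :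
    ((∑ i, (m - d i + 1).toNat : ℕ) : ℤ) = m * n + n - ∑ i, d i := by
  push_cast
  have : ∀ i ∈ Finset.univ, (((m - d i + 1).toNat : ℕ) : ℤ) = m + 1 - d i := by
    intro i _
    rw [Int.toNat_of_nonneg (by have := hm i; omega)]; ring
  rw [Finset.sum_congr rfl this, Finset.sum_sub_distrib]
  simp
  ring

theorem exists_bound (d : Fin n → ℤ) : ∃ m0 : ℤ, ∀ i, d i - 1 ≤ m0 ∧ -d i - 1 ≤ m0 := by
  refine ⟨∑ i, |d i|, fun i => ?_⟩
  have h1 : |d i| ≤ ∑ i, |d i| :=
    Finset.single_le_sum (f := fun i => |d i|) (fun _ _ => abs_nonneg _) (Finset.mem_univ i)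
  have h2 := le_abs_self (d i)
  have h3 := neg_abs_le (d i)
  constructor <;> omega

/-- sum decomposition from the dimension formula -/
theorem Lsp_eq_sup_of_finrank {t : F} (ht0 : t ≠ 0) (N g m0 : ℤ)
    (hfd : ∀ a b : ℤ, FiniteDimensional K (Lsp K t a b))
    (hL : ∀ a b : ℤ, m0 ≤ a + b → (Module.finrank K (Lsp K t a b) : ℤ) = (a + b) * N + 1 - g)
    {a b a' b' : ℤ} (ha : a' ≤ a) (hb : b' ≤ b) (h : m0 ≤ a' + b') :
    Lsp K t a b = Lsp K t a b' ⊔ Lsp K t a' b := by
  haveI := hfd a b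
  haveI := hfd a b'
  haveI := hfd a' b
  symm
  apply Submodule.eq_of_le_of_finrank_eq
  · exact sup_le (Lsp_mono ht0 le_rfl hb) (Lsp_mono ht0 ha le_rfl)
  · have h1 := Submodule.finrank_sup_add_finrank_inf_eq (Lsp K t a b') (Lsp K t a' b)
    have h2 : Lsp K t a b' ⊓ Lsp K t a' b = Lsp K t a' b' := by
      apply le_antisymm
      · have := Lsp_inf_le (K := K) (t := t) a a' b' b
        rwa [min_eq_right ha, min_eq_left hb] at this
      · exact le_inf (Lsp_mono ht0 ha le_rfl) (Lsp_mono ht0 le_rfl hb)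
    rw [h2] at h1
    have e1 := hL a b (by omega)
    have e2 := hL a b' (by omega)
    have e3 := hL a' b (by omega)
    have e4 := hL a' b' h
    have h1' : ((Module.finrank K ↥(Lsp K t a b' ⊔ Lsp K t a' b) : ℕ) : ℤ)
        + Module.finrank K (Lsp K t a' b') = (Module.finrank K (Lsp K t a b') : ℤ)
          + Module.finrank K (Lsp K t a' b) := by exact_mod_cast h1
    have : ((Module.finrank K ↥(Lsp K t a b' ⊔ Lsp K t a' b) : ℕ) : ℤ)
        = Module.finrank K (Lsp K t a b) := by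
      rw [e1]
      linear_combination h1' - e4 + e2 + e3
    exact_mod_cast this

/-- **[P1], first half.** -/
theorem exists_Lsp_formula {t : F} (ht : Transcendental K t) [FiniteDimensional K⟮t⟯ F]
    [Algebra.IsSeparable K⟮t⟯ F] :
    ∃ g m0 : ℤ, (∀ a b : ℤ, FiniteDimensional K (Lsp K t a b)) ∧
      (∀ a b : ℤ, m0 ≤ a + b → (Module.finrank K (Lsp K t a b) : ℤ)
        = (a + b) * Module.finrank K⟮t⟯ F + 1 - g) ∧
      (∀ a b a' b' : ℤ, a' ≤ a → b' ≤ b → m0 ≤ a' + b' →
        Lsp K t a b = Lsp K t a b' ⊔ Lsp K t a' b) := by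
  obtain ⟨w, d, h⟩ := exists_normal_basis ht
  obtain ⟨m0, hm0⟩ := exists_bound d
  have hfd : ∀ a b : ℤ, FiniteDimensional K (Lsp K t a b) := fun a b => (h.finrank_Lsp ht a b).1
  have hL : ∀ a b : ℤ, m0 ≤ a + b → (Module.finrank K (Lsp K t a b) : ℤ)
        = (a + b) * Module.finrank K⟮t⟯ F + 1 - (∑ i, d i - Module.finrank K⟮t⟯ F + 1) := by
    intro a b hab
    rw [(h.finrank_Lsp ht a b).2, sum_toNat_eq d (a + b) fun i => (hm0 i).1.trans hab]
    ring
  exact ⟨_, m0, hfd, hL, fun a b a' b' ha hb hab =>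
    Lsp_eq_sup_of_finrank (Transcendental.ne_zero' ht) _ _ m0 hfd hL ha hb hab⟩

end Fermat.Agent.S18.NB
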