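import Mathlib
import Fermat.Agent.S24.Principal

set_option autoImplicit false
set_option linter.unusedSectionVars false

/-! # S18 [R1], part a: Riemann-Roch spaces `Lof d` attached to a function `d : Place K F → ℤ`,
and the bridge `IsIntegral (K[t]) x ↔ x regular where t is regular`. -/

namespace Fermat.Agent.S18.R1

open AlgebraicCurve IntermediateField IsDedekindDomain Fermat.Agent.S24

variable {K F : Type} [Field K] [Field F] [Algebra K F]

/-- The space `L(d) = {x | x = 0 ∨ ∀ P, ord_P x ≥ - d P}`. -/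
def Lof (d : Place K F → ℤ) : Submodule K F where
  carrier := {x | x = 0 ∨ ∀ P : Place K F, - d P ≤ P.ord x}
  zero_mem' := Or.inl rfl
  add_mem' := by
    rintro x y hx hy
    by_cases hxy : x + y = 0
    · exact Or.inl hxy
    rcases hx with rfl | hx
    · simpa using hy
    rcases hy with rfl | hy
    · simpa using Or.inr hx
    refine Or.inr fun P => ?_
    exact (le_min (hx P) (hy P)).trans (ord_add_ge P hxy)
  smul_mem' := by
    rintro c x hx
    rcases hx with rfl | hx
    · exact Or.inl (smul_zero c)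
    by_cases hc : c = 0
    · exact Or.inl (by rw [hc, zero_smul])
    by_cases hx0 : x = 0
    · exact Or.inl (by rw [hx0, smul_zero])
    refine Or.inr fun P => ?_
    rw [Algebra.smul_def, P.ord_mul (by simpa using hc) hx0, ord_algebraMap, zero_add]
    exact hx P

theorem mem_Lof {d : Place K F → ℤ} {x : F} :
    x ∈ Lof d ↔ x = 0 ∨ ∀ P : Place K F, - d P ≤ P.ord x := Iff.rfl

theorem mem_Lof_of_ne {d : Place K F → ℤ} {x : F} (hx : x ≠ 0) :
    x ∈ Lof d ↔ ∀ P : Place K F, - d P ≤ P.ord x := by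
  rw [mem_Lof, or_iff_right hx]

theorem Lof_mono {d d' : Place K F → ℤ} (h : ∀ P, d P ≤ d' P) : Lof d ≤ Lof d' := by
  rintro x (rfl | hx)
  · exact Or.inl rfl
  · exact Or.inr fun P => (neg_le_neg (h P)).trans (hx P)

theorem Lof_inf (d d' : Place K F → ℤ) : Lof d ⊓ Lof d' = Lof (fun P => min (d P) (d' P)) := by
  ext x
  rw [Submodule.mem_inf]
  by_cases hx : x = 0
  · simp [hx]
  rw [mem_Lof_of_ne hx, mem_Lof_of_ne hx, mem_Lof_of_ne hx, ← forall_and]
  refine forall_congr' fun P => ?_
  constructor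
  · rintro ⟨h1, h2⟩
    rcases min_choice (d P) (d' P) with h | h <;> rw [h] <;> assumption
  · intro h
    exact ⟨(neg_le_neg (min_le_left _ _)).trans h, (neg_le_neg (min_le_right _ _)).trans h⟩

theorem mul_mem_Lof {d d' : Place K F → ℤ} {x y : F} (hx : x ∈ Lof d) (hy : y ∈ Lof d') :
    x * y ∈ Lof (fun P => d P + d' P) := by
  by_cases hx0 : x = 0
  · simp [hx0]
  by_cases hy0 : y = 0
  · simp [hy0]
  rw [mem_Lof_of_ne hx0] at hx
  rw [mem_Lof_of_ne hy0] at hy
  rw [mem_Lof_of_ne (mul_ne_zero hx0 hy0)]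
  intro P
  rw [P.ord_mul hx0 hy0]
  have := hx P
  have := hy P
  omega

/-- multiplication by `y ≠ 0` identifies `L(d)` with `L(d - div y)`. -/
noncomputable def mulEquiv (d : Place K F → ℤ) (y : F) (hy : y ≠ 0) :
    Lof d ≃ₗ[K] Lof (fun P => d P - P.ord y) where
  toFun x := ⟨y * x, by
    rcases x with ⟨x, hx⟩
    by_cases hx0 : x = 0
    · simp [hx0]
    rw [mem_Lof_of_ne hx0] at hx
    rw [mem_Lof_of_ne (mul_ne_zero hy hx0)]
    intro P
    rw [P.ord_mul hy hx0]
    have := hx P
    omega⟩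
  invFun x := ⟨y⁻¹ * x, by
    rcases x with ⟨x, hx⟩
    by_cases hx0 : x = 0
    · simp [hx0]
    rw [mem_Lof_of_ne hx0] at hx
    rw [mem_Lof_of_ne (mul_ne_zero (inv_ne_zero hy) hx0)]
    intro P
    rw [P.ord_mul (inv_ne_zero hy) hx0, P.ord_inv]
    have := hx P
    omega⟩
  map_add' x x' := by ext; simp [mul_add]
  map_smul' c x := by ext; simp
  left_inv x := by ext; simp [hy]
  right_inv x := by ext; simp [hy]

theorem finrank_Lof_sub_ord (d : Place K F → ℤ) (y : F) (hy : y ≠ 0) :
    Module.finrank K (Lof (fun P => d P - P.ord y)) = Module.finrank K (Lof d) :=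
  (mulEquiv d y hy).finrank_eq.symm

end Fermat.Agent.S18.R1
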