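import Mathlib
import Fermat.Agent.S18.R1a

set_option autoImplicit false
set_option linter.unusedSectionVars false

/-! # S18 [R1], part b: removing a point drops the dimension by at most one. -/

namespace Fermat.Agent.S18.R1

open AlgebraicCurve IntermediateField IsDedekindDomain Fermat.Agent.S24
open scoped Classical

variable {K F : Type} [Field K] [Field F] [Algebra K F]

theorem residue_eq_zero_iff (P : Place K F) (a : P.toValuationSubring) :
    IsLocalRing.residue P.toValuationSubring a = 0 ↔ (a : F) = 0 ∨ 0 < P.ord (a : F) := by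
  rw [IsLocalRing.residue_eq_zero_iff, IsLocalRing.mem_maximalIdeal, mem_nonunits_iff,
    ← P.adicValuation_coe_eq_one_iff]
  by_cases ha : (a : F) = 0
  · simp [ha]
  rw [or_iff_right ha, adicValuation_eq_exp P ha]
  have h0 : 0 ≤ P.ord (a : F) := ((mem_valuationSubring_iff P _).1 a.2).resolve_left ha
  rw [← WithZero.exp_zero, WithZero.exp_inj]
  omega

/-- the leading-coefficient map `L(d) → κ(P₀)`. -/
noncomputable def leadMap (d : Place K F → ℤ) (P₀ : Place K F) (π : F) (hπ : P₀.ord π = 1) :
    Lof d →ₗ[K] P₀.ResidueField :=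
  (IsScalarTower.toAlgHom K P₀.toValuationSubring P₀.ResidueField).toLinearMap ∘ₗ
    ({ toFun := fun x => ⟨(x : F) * π ^ (d P₀), by
          have hπ0 : π ≠ 0 := by rintro rfl; simp at hπ
          rcases x with ⟨x, hx⟩
          rw [mem_valuationSubring_iff]
          by_cases hx0 : x = 0
          · simp [hx0]
          right
          rw [mem_Lof_of_ne hx0] at hx
          rw [P₀.ord_mul hx0 (zpow_ne_zero _ hπ0), P₀.ord_zpow, hπ]
          have := hx P₀
          omega⟩
       map_add' := fun x y => by ext; simp [add_mul]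
       map_smul' := fun c x => by
        ext
        simp [Algebra.smul_def, mul_assoc] } : Lof d →ₗ[K] P₀.toValuationSubring)

theorem leadMap_eq_zero_iff (d : Place K F → ℤ) (P₀ : Place K F) (π : F) (hπ : P₀.ord π = 1)
    (x : Lof d) : leadMap d P₀ π hπ x = 0 ↔ (x : F) ∈ Lof (Function.update d P₀ (d P₀ - 1)) := by
  have hπ0 : π ≠ 0 := by rintro rfl; simp at hπ
  have h1 : leadMap d P₀ π hπ x = IsLocalRing.residue P₀.toValuationSubring
      ⟨(x : F) * π ^ (d P₀), by
          rcases x with ⟨x, hx⟩
          rw [mem_valuationSubring_iff]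
          by_cases hx0 : x = 0
          · simp [hx0]
          right
          rw [mem_Lof_of_ne hx0] at hx
          rw [P₀.ord_mul hx0 (zpow_ne_zero _ hπ0), P₀.ord_zpow, hπ]
          have := hx P₀
          omega⟩ := rfl
  rw [h1, residue_eq_zero_iff]
  rcases x with ⟨x, hx⟩
  by_cases hx0 : x = 0
  · simp [hx0]
  simp only
  rw [mem_Lof_of_ne hx0] at hx
  rw [mem_Lof_of_ne hx0, or_iff_right (mul_ne_zero hx0 (zpow_ne_zero _ hπ0)),
    P₀.ord_mul hx0 (zpow_ne_zero _ hπ0), P₀.ord_zpow, hπ]
  constructor
  · intro h P
    by_cases hP : P = P₀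
    · subst hP
      rw [Function.update_self]
      omega
    · rw [Function.update_of_ne hP]
      exact hx P
  · intro h
    have := h P₀
    rw [Function.update_self] at this
    omega

variable [IsAlgClosed K]

theorem finrank_Lof_le_update (x₀ : F) (hx₀ : Transcendental K x₀) [FiniteDimensional K⟮x₀⟯ F]
    (d : Place K F → ℤ) (P₀ : Place K F) :
    Module.finrank K (Lof d) ≤ Module.finrank K (Lof (Function.update d P₀ (d P₀ - 1))) + 1 := by
  by_cases hfin : Module.Finite K (Lof d)
  swap
  · rw [Module.finrank_of_not_finite hfin]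
    exact Nat.zero_le _
  obtain ⟨π, hπ⟩ := exists_ord_eq_one P₀
  set d' := Function.update d P₀ (d P₀ - 1) with hd'
  have hle : Lof d' ≤ Lof d := by
    apply Lof_mono
    intro P
    by_cases hP : P = P₀
    · subst hP
      rw [hd', Function.update_self]
      omega
    · rw [hd', Function.update_of_ne hP]
  have hker : LinearMap.ker (leadMap d P₀ π hπ) = (Lof d').comap (Lof d).subtype := by
    ext x
    rw [LinearMap.mem_ker, leadMap_eq_zero_iff]
    rfl
  have h1 := LinearMap.finrank_range_add_finrank_ker (leadMap d P₀ π hπ)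
  have h2 : Module.finrank K (LinearMap.ker (leadMap d P₀ π hπ)) = Module.finrank K (Lof d') := by
    rw [hker]
    exact (Submodule.comapSubtypeEquivOfLe hle).finrank_eq
  have h3 : Module.finrank K (LinearMap.range (leadMap d P₀ π hπ)) ≤ 1 := by
    have hdeg : Module.finrank K P₀.ResidueField = 1 := deg_eq_one x₀ hx₀ P₀
    have : Module.Finite K P₀.ResidueField := Module.finite_of_finrank_pos (by omega)
    rw [← hdeg]
    exact Submodule.finrank_le _
  omega

end Fermat.Agent.S18.R1

namespace Fermat.Agent.S18.R1

open AlgebraicCurve IntermediateField IsDedekindDomain Fermat.Agent.S24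
open scoped Classical

variable {K F : Type} [Field K] [Field F] [Algebra K F] [IsAlgClosed K]

theorem finrank_Lof_le_sub (x₀ : F) (hx₀ : Transcendental K x₀) [FiniteDimensional K⟮x₀⟯ F]
    (G : Place K F →₀ ℕ) : ∀ d : Place K F → ℤ,
    Module.finrank K (Lof d) ≤
      Module.finrank K (Lof (fun P => d P - (G P : ℤ))) + G.sum (fun _ n => n) := by
  induction G using Finsupp.induction_linear with
  | zero =>
    intro d
    have : (fun P => d P - (((0 : Place K F →₀ ℕ) P : ℕ) : ℤ)) = d := by funext P; simp
    rw [this]; simp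
  | add G₁ G₂ h₁ h₂ =>
    intro d
    have e1 := h₁ d
    have e2 := h₂ (fun P => d P - (G₁ P : ℤ))
    have e3 : (fun P => d P - (((G₁ + G₂) P : ℕ) : ℤ)) = fun P => d P - (G₁ P : ℤ) - (G₂ P : ℤ) := by
      funext P
      rw [Finsupp.add_apply]
      push_cast
      ring
    rw [e3, Finsupp.sum_add_index' (fun _ => rfl) (fun _ _ _ => rfl)]
    omega
  | single a n =>
    induction n with
    | zero =>
      intro d
      have : (fun P => d P - (((Finsupp.single a 0 : Place K F →₀ ℕ) P : ℕ) : ℤ)) = d := by
        funext P; simp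
      rw [this]; simp
    | succ n ih =>
      intro d
      have e1 := ih d
      have e2 := finrank_Lof_le_update x₀ hx₀ (fun P => d P - ((Finsupp.single a n : Place K F →₀ ℕ) P : ℤ)) a
      have e3 : Function.update (fun P => d P - ((Finsupp.single a n : Place K F →₀ ℕ) P : ℤ)) a
          (d a - ((Finsupp.single a n : Place K F →₀ ℕ) a : ℤ) - 1) =
          fun P => d P - ((Finsupp.single a (n + 1) : Place K F →₀ ℕ) P : ℤ) := by
        funext P
        by_cases hP : P = a
        · subst hP
          simp
          ring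
        · rw [Function.update_of_ne hP, Finsupp.single_apply, Finsupp.single_apply,
            if_neg (Ne.symm hP), if_neg (Ne.symm hP)]
      rw [e3] at e2
      rw [Finsupp.sum_single_index rfl] at e1 ⊢
      omega

end Fermat.Agent.S18.R1
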