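import Mathlib
import Fermat.Agent.S18.R1b

set_option autoImplicit false
set_option linter.unusedSectionVars false
set_option linter.style.haveILetI false

/-! # S18 [R1], part c: `IsIntegral K[t] x ↔ x` is regular at every place where `t` is regular. -/

namespace Fermat.Agent.S18.R1

open AlgebraicCurve IntermediateField IsDedekindDomain Fermat.Agent.S24
open scoped Classical
open scoped IntermediateField.algebraAdjoinAdjoin

variable {K F : Type} [Field K] [Field F] [Algebra K F] [IsAlgClosed K] [CharZero K]

theorem adjoin_le_valuationSubring (P : Place K F) (t : F) (h : 0 ≤ P.ord t)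
    (r : Algebra.adjoin K {t}) : algebraMap (Algebra.adjoin K {t}) F r ∈ P.toValuationSubring := by
  let S : Subalgebra K F :=
    { P.toValuationSubring.toSubring with algebraMap_mem' := P.algebraMap_mem' }
  have hle : Algebra.adjoin K {t} ≤ S := by
    apply Algebra.adjoin_le
    intro z hz
    rw [Set.mem_singleton_iff] at hz
    rw [hz]
    exact (mem_valuationSubring_iff P t).2 (Or.inr h)
  exact hle r.2

theorem isIntegral_adjoin_iff (t : F) (ht : Transcendental K t) [FiniteDimensional K⟮t⟯ F] (x : F) :
    IsIntegral (Algebra.adjoin K {t}) x ↔ ∀ P : Place K F, 0 ≤ P.ord t → 0 ≤ P.ord x := by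
  let e0 := Polynomial.algEquivOfTranscendental K t ht
  haveI : IsPrincipalIdealRing (Algebra.adjoin K {t}) :=
    IsPrincipalIdealRing.of_surjective e0.toRingEquiv e0.surjective
  haveI : CharZero K⟮t⟯ := charZero_of_injective_algebraMap (algebraMap K K⟮t⟯).injective
  haveI : IsDedekindDomain (integralClosure (Algebra.adjoin K {t}) F) :=
    integralClosure.isDedekindDomain (Algebra.adjoin K {t}) K⟮t⟯ F
  haveI : IsFractionRing (integralClosure (Algebra.adjoin K {t}) F) F :=
    integralClosure.isFractionRing_of_finite_extension K⟮t⟯ F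
  constructor
  · intro hx P hP
    have h1 := algebraMap_mem_of_isIntegral P (adjoin_le_valuationSubring P t hP) x hx
    rcases (mem_valuationSubring_iff P x).1 h1 with rfl | h
    · simp
    · exact h
  · intro h
    by_cases hx0 : x = 0
    · rw [hx0]; exact isIntegral_zero
    have hval : ∀ w : HeightOneSpectrum (integralClosure (Algebra.adjoin K {t}) F),
        w.valuation F x ≤ 1 := by
      intro w
      have ht' : 0 ≤ (Place.ofHeightOneSpectrum (K := K) w).ord t := by
        have hmem : t ∈ integralClosure (Algebra.adjoin K {t}) F :=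
          (isIntegral_algebraMap (R := Algebra.adjoin K {t}) (A := F)
            (x := ⟨t, Algebra.self_mem_adjoin_singleton K t⟩))
        have h1 : w.valuation F (algebraMap (integralClosure (Algebra.adjoin K {t}) F) F ⟨t, hmem⟩) ≤ 1 :=
          w.valuation_le_one _
        have h2 : algebraMap (integralClosure (Algebra.adjoin K {t}) F) F ⟨t, hmem⟩ = t := rfl
        rw [h2] at h1
        rw [ord_ofHeightOneSpectrum]
        have ht0 : t ≠ 0 := by
          rintro rfl
          exact ht isAlgebraic_zero
        have h3 : w.valuation F t ≠ 0 := (Valuation.ne_zero_iff _).2 ht0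
        have h4 : WithZero.log (w.valuation F t) ≤ 0 := by
          rw [WithZero.log_le_iff_le_exp h3]
          simpa using h1
        omega
      have h5 := h _ ht'
      rw [ord_ofHeightOneSpectrum] at h5
      have h3 : w.valuation F x ≠ 0 := (Valuation.ne_zero_iff _).2 hx0
      have h6 : WithZero.log (w.valuation F x) ≤ 0 := by omega
      rw [WithZero.log_le_iff_le_exp h3] at h6
      simpa using h6
    obtain ⟨b, hb⟩ := HeightOneSpectrum.mem_integers_of_valuation_le_one F x hval
    rw [← hb]
    exact b.2

end Fermat.Agent.S18.R1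

namespace Fermat.Agent.S18.R1

open AlgebraicCurve IntermediateField IsDedekindDomain Fermat.Agent.S24
open scoped Classical

variable {K F : Type} [Field K] [Field F] [Algebra K F]

/-- the divisor `a (t)_∞ + b (t)_0` as a function on places. -/
noncomputable def Efun (t : F) (a b : ℤ) : Place K F → ℤ :=
  fun P => a * max (-(P.ord t)) 0 + b * max (P.ord t) 0

theorem Efun_of_nonneg {t : F} {a b : ℤ} {P : Place K F} (h : 0 ≤ P.ord t) :
    Efun t a b P = b * P.ord t := by
  rw [Efun, max_eq_right (by omega), max_eq_left h]; ring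

theorem Efun_of_nonpos {t : F} {a b : ℤ} {P : Place K F} (h : P.ord t ≤ 0) :
    Efun t a b P = - (a * P.ord t) := by
  rw [Efun, max_eq_left (by omega), max_eq_right h]; ring

theorem Efun_mul (t : F) (p a b : ℤ) (P : Place K F) :
    Efun t (p * a) (p * b) P = p * Efun t a b P := by
  simp only [Efun]; ring

theorem Efun_add (t : F) (a b a' b' : ℤ) (P : Place K F) :
    Efun t (a + a') (b + b') P = Efun t a b P + Efun t a' b' P := by
  simp only [Efun]; ring

theorem Efun_mono (t : F) {a b a' b' : ℤ} (ha : a ≤ a') (hb : b ≤ b') (P : Place K F) :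
    Efun t a b P ≤ Efun t a' b' P := by
  simp only [Efun]
  have h1 : (0 : ℤ) ≤ max (-(P.ord t)) 0 := le_max_right _ _
  have h2 : (0 : ℤ) ≤ max (P.ord t) 0 := le_max_right _ _
  nlinarith

theorem Efun_min (t : F) (a b a' b' : ℤ) (P : Place K F) :
    min (Efun t a b P) (Efun t a' b' P) ≤ Efun t (min a a') (min b b') P := by
  rcases le_total 0 (P.ord t) with h | h
  · rw [Efun_of_nonneg h, Efun_of_nonneg h, Efun_of_nonneg h]
    rcases le_total b b' with hb | hb
    · rw [min_eq_left hb]; exact min_le_left _ _
    · rw [min_eq_right hb]; exact min_le_right _ _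
  · rw [Efun_of_nonpos h, Efun_of_nonpos h, Efun_of_nonpos h]
    rcases le_total a a' with hb | hb
    · rw [min_eq_left hb]; exact min_le_left _ _
    · rw [min_eq_right hb]; exact min_le_right _ _

variable [IsAlgClosed K] [CharZero K]

theorem mem_Lof_Efun_iff (t : F) (ht : Transcendental K t) [FiniteDimensional K⟮t⟯ F]
    (a b : ℤ) (x : F) :
    x ∈ Lof (Efun (K := K) t a b) ↔ IsIntegral (Algebra.adjoin K {t}) (t ^ b * x) ∧
      IsIntegral (Algebra.adjoin K {t⁻¹}) (t ^ (-a) * x) := by
  haveI : FiniteDimensional K⟮t⁻¹⟯ F := by rw [adjoin_inv']; infer_instance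
  have ht0 : t ≠ 0 := by
    rintro rfl
    exact ht isAlgebraic_zero
  by_cases hx : x = 0
  · subst hx
    simp only [mul_zero]
    exact ⟨fun _ => ⟨isIntegral_zero, isIntegral_zero⟩, fun _ => Or.inl rfl⟩
  rw [mem_Lof_of_ne hx, isIntegral_adjoin_iff t ht, isIntegral_adjoin_iff t⁻¹ (transcendental_inv ht)]
  constructor
  · intro h
    refine ⟨fun P hP => ?_, fun P hP => ?_⟩
    · have := h P
      rw [Efun_of_nonneg hP] at this
      rw [P.ord_mul (zpow_ne_zero _ ht0) hx, P.ord_zpow]
      omega
    · rw [P.ord_inv] at hP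
      have := h P
      rw [Efun_of_nonpos (by omega)] at this
      rw [P.ord_mul (zpow_ne_zero _ ht0) hx, P.ord_zpow]
      linarith
  · rintro ⟨h1, h2⟩ P
    rcases le_total 0 (P.ord t) with h | h
    · have := h1 P h
      rw [P.ord_mul (zpow_ne_zero _ ht0) hx, P.ord_zpow] at this
      rw [Efun_of_nonneg h]
      omega
    · have := h2 P (by rw [P.ord_inv]; omega)
      rw [P.ord_mul (zpow_ne_zero _ ht0) hx, P.ord_zpow] at this
      rw [Efun_of_nonpos h]
      linarith

end Fermat.Agent.S18.R1
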