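import Mathlib
import Fermat.Agent.S18.R1c
import Fermat.Agent.S18.NormalBasisF

set_option autoImplicit false
set_option linter.unusedSectionVars false
set_option linter.style.haveILetI false

/-! # S18 [Asm], part 1: general lemmas
* the residue field of a valuation subring of an algebraically closed field is algebraically closed;
* a function without poles is constant (finite separable `F / K(t)`, any characteristic). -/

namespace Fermat.Agent.S18.Asm

open AlgebraicCurve IntermediateField IsDedekindDomain Fermat.Agent.S24
open scoped Classical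
open scoped IntermediateField.algebraAdjoinAdjoin

theorem isAlgClosed_residueField {L : Type*} [Field L] [IsAlgClosed L] (A : ValuationSubring L) :
    IsAlgClosed (IsLocalRing.ResidueField A) := by
  apply IsAlgClosed.of_exists_root
  intro p hp hirr
  obtain ⟨P, hPmap, hPdeg, hPmonic⟩ :=
    Polynomial.lifts_and_natDegree_eq_and_monic
      ((Polynomial.mem_lifts p).2 (Polynomial.map_surjective _ IsLocalRing.residue_surjective p)) hp
  have hdeg : (P.map A.subtype).degree ≠ 0 := by
    rw [Polynomial.degree_map_eq_of_injective A.subtype_injective,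
      Polynomial.degree_eq_natDegree hPmonic.ne_zero, hPdeg]
    have := hirr.natDegree_pos
    exact_mod_cast this.ne'
  obtain ⟨x, hx⟩ := IsAlgClosed.exists_root (P.map A.subtype) hdeg
  have hint : IsIntegral A x := by
    refine ⟨P, hPmonic, ?_⟩
    rw [Polynomial.IsRoot.def, Polynomial.eval_map] at hx
    exact hx
  obtain ⟨a, ha⟩ := IsIntegrallyClosed.isIntegral_iff.1 hint
  refine ⟨IsLocalRing.residue A a, ?_⟩
  rw [← hPmap, Polynomial.eval_map, Polynomial.eval₂_hom]
  have h0 : P.eval a = 0 := by
    apply A.subtype_injective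
    rw [map_zero, ← Polynomial.eval₂_hom]
    rw [Polynomial.IsRoot.def, Polynomial.eval_map] at hx
    have : A.subtype a = x := ha
    rw [this]
    exact hx
  rw [h0, map_zero]

variable {K F : Type} [Field K] [Field F] [Algebra K F]

/-- separable version of `R1.isIntegral_adjoin_iff` (only the direction we need). -/
theorem isIntegral_adjoin_of_ord (t : F) (ht : Transcendental K t) [FiniteDimensional K⟮t⟯ F]
    [Algebra.IsSeparable K⟮t⟯ F] (x : F)
    (h : ∀ P : Place K F, 0 ≤ P.ord t → 0 ≤ P.ord x) : IsIntegral (Algebra.adjoin K {t}) x := by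
  let e0 := Polynomial.algEquivOfTranscendental K t ht
  haveI : IsPrincipalIdealRing (Algebra.adjoin K {t}) :=
    IsPrincipalIdealRing.of_surjective e0.toRingEquiv e0.surjective
  haveI : IsDedekindDomain (integralClosure (Algebra.adjoin K {t}) F) :=
    integralClosure.isDedekindDomain (Algebra.adjoin K {t}) K⟮t⟯ F
  haveI : IsFractionRing (integralClosure (Algebra.adjoin K {t}) F) F :=
    integralClosure.isFractionRing_of_finite_extension K⟮t⟯ F
  by_cases hx0 : x = 0
  · rw [hx0]; exact isIntegral_zero
  have hval : ∀ w : HeightOneSpectrum (integralClosure (Algebra.adjoin K {t}) F),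
      w.valuation F x ≤ 1 := by
    intro w
    have ht' : 0 ≤ (Place.ofHeightOneSpectrum (K := K) w).ord t := by
      have hmem : t ∈ integralClosure (Algebra.adjoin K {t}) F :=
        (isIntegral_algebraMap (R := Algebra.adjoin K {t}) (A := F)
          (x := ⟨t, Algebra.self_mem_adjoin_singleton K t⟩))
      have h1 : w.valuation F (algebraMap (integralClosure (Algebra.adjoin K {t}) F) F ⟨t, hmem⟩) ≤ 1 :=
        w.valuation_le_one _
      have h2 : algebraMap (integralClosure (Algebra.adjoin K {t}) F) F ⟨t, hmem⟩ = t := rfl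
      rw [h2] at h1
      rw [ord_ofHeightOneSpectrum]
      have ht0 : t ≠ 0 := by
        rintro rfl
        exact ht isAlgebraic_zero
      have h3 : w.valuation F t ≠ 0 := (Valuation.ne_zero_iff _).2 ht0
      have h4 : WithZero.log (w.valuation F t) ≤ 0 := by
        rw [WithZero.log_le_iff_le_exp h3]
        simpa using h1
      omega
    have h5 := h _ ht'
    rw [ord_ofHeightOneSpectrum] at h5
    have h3 : w.valuation F x ≠ 0 := (Valuation.ne_zero_iff _).2 hx0
    have h6 : WithZero.log (w.valuation F x) ≤ 0 := by omega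
    rw [WithZero.log_le_iff_le_exp h3] at h6
    simpa using h6
  obtain ⟨b, hb⟩ := HeightOneSpectrum.mem_integers_of_valuation_le_one F x hval
  rw [← hb]
  exact b.2

/-- elements of `L(0,0)` are constants. -/
theorem mem_range_of_mem_Lsp_zero [IsAlgClosed K] (t : F) (ht : Transcendental K t)
    [FiniteDimensional K⟮t⟯ F] [Algebra.IsSeparable K⟮t⟯ F] (x : F) (hx : x ∈ Lsp K t 0 0) :
    ∃ c : K, algebraMap K F c = x := by
  obtain ⟨g, m0, hfd, -, -⟩ := NB.exists_Lsp_formula (K := K) (F := F) ht
  have ht0 : t ≠ 0 := by
    rintro rfl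
    exact ht isAlgebraic_zero
  let S : Subalgebra K F :=
    { carrier := Lsp K t 0 0
      mul_mem' := fun {a b} ha hb => by
        have := Lsp_mul ht0 ha hb
        simpa using this
      add_mem' := fun {a b} ha hb => (Lsp K t 0 0).add_mem ha hb
      algebraMap_mem' := fun c => by
        have := (Lsp K t 0 0).smul_mem c (one_mem_Lsp (K := K) t)
        rwa [Algebra.smul_def, mul_one] at this }
  have hS : S.toSubmodule = Lsp K t 0 0 := rfl
  have hfg : S.toSubmodule.FG := by
    rw [hS]
    exact (Submodule.fg_iff_finiteDimensional _).2 (hfd 0 0)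
  have hint : IsIntegral K x := IsIntegral.of_mem_of_fg S hfg x hx
  exact exists_algebraMap_eq_of_isAlgebraic hint.isAlgebraic

/-- a function without poles is constant. -/
theorem exists_const_of_ord_nonneg [IsAlgClosed K] (t : F) (ht : Transcendental K t)
    [FiniteDimensional K⟮t⟯ F] [Algebra.IsSeparable K⟮t⟯ F] (x : F)
    (h : ∀ P : Place K F, 0 ≤ P.ord x) : ∃ c : K, algebraMap K F c = x := by
  haveI : FiniteDimensional K⟮t⁻¹⟯ F := by rw [adjoin_inv']; infer_instance
  haveI : Algebra.IsSeparable K⟮t⁻¹⟯ F := by rw [adjoin_inv']; infer_instance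
  apply mem_range_of_mem_Lsp_zero t ht x
  refine ⟨?_, ?_⟩
  · simp only [zpow_zero, one_mul]
    exact isIntegral_adjoin_of_ord t ht x fun P _ => h P
  · simp only [neg_zero, zpow_zero, one_mul]
    exact isIntegral_adjoin_of_ord t⁻¹ (transcendental_inv ht) x fun P _ => h P

end Fermat.Agent.S18.Asm
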