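import Mathlib
import Fermat.Prelude.Def_ModularCurve_ReductionModL

set_option autoImplicit false
set_option linter.unusedSectionVars false

/-! # S18 [Asm], part 2: every principal divisor is `div (y₁ / y₂)` with `y₁, y₂` integral, and the
reduction of places is compatible with it. -/

namespace Fermat.Agent.S18.Asm

open ModularCurve AlgebraicCurve HahnSeries IntermediateField

variable {L : Type*} [Field L] [Algebra ℚ L] {A : ValuationSubring L}
variable {k : Type*} [Field k] {π : A →+* k} {N : ℕ}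

theorem coeffMap_subtype_ne_zero {y : LaurentSeries A} (hy : coeffMap π y ≠ 0) :
    coeffMap A.subtype y ≠ 0 := by
  intro h
  apply hy
  have hy0 : y = 0 := by
    apply HahnSeries.ext
    funext n
    have := congrArg (fun z => z.coeff n) h
    simp only [coeffMap_coeff, HahnSeries.coeff_zero] at this
    exact A.subtype_injective (this.trans (map_zero _).symm)
  rw [hy0, map_zero]

/-- `E = div (y₁ / y₂)` with `y₁, y₂` integral with nonzero reductions, compatibly with `r`. -/
def IsFrac (π : A →+* k) (N : ℕ)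
    (r : Place L (laurentBaseChange L (modularFunctionFieldFull N)) →
      Place k (modularFunctionFieldFullC k N))
    (E : Divisor L (laurentBaseChange L (modularFunctionFieldFull N))) : Prop :=
  ∃ (y₁ y₂ : LaurentSeries A)
    (h₁ : coeffMap A.subtype y₁ ∈ laurentBaseChange L (modularFunctionFieldFull N))
    (h₂ : coeffMap A.subtype y₂ ∈ laurentBaseChange L (modularFunctionFieldFull N))
    (k₁ : coeffMap π y₁ ∈ modularFunctionFieldFullC k N)
    (k₂ : coeffMap π y₂ ∈ modularFunctionFieldFullC k N),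
    coeffMap π y₁ ≠ 0 ∧ coeffMap π y₂ ≠ 0 ∧
    (∀ P, E P = P.ord (⟨_, h₁⟩ : laurentBaseChange L (modularFunctionFieldFull N)) -
      P.ord (⟨_, h₂⟩ : laurentBaseChange L (modularFunctionFieldFull N))) ∧
    (∀ Q, Finsupp.mapDomain r E Q = Q.ord (⟨_, k₁⟩ : modularFunctionFieldFullC k N) -
      Q.ord (⟨_, k₂⟩ : modularFunctionFieldFullC k N))

variable {r : Place L (laurentBaseChange L (modularFunctionFieldFull N)) →
  Place k (modularFunctionFieldFullC k N)}

theorem IsFrac.zero : IsFrac π N r 0 := by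
  refine ⟨1, 1, by rw [map_one]; exact one_mem _, by rw [map_one]; exact one_mem _,
    by rw [map_one]; exact one_mem _, by rw [map_one]; exact one_mem _,
    by rw [map_one]; exact one_ne_zero, by rw [map_one]; exact one_ne_zero, ?_, ?_⟩
  · intro P; simp
  · intro Q; simp

theorem IsFrac.neg {E : Divisor L (laurentBaseChange L (modularFunctionFieldFull N))}
    (h : IsFrac π N r E) : IsFrac π N r (-E) := by
  obtain ⟨y₁, y₂, h₁, h₂, k₁, k₂, n₁, n₂, hP, hQ⟩ := h
  refine ⟨y₂, y₁, h₂, h₁, k₂, k₁, n₂, n₁, ?_, ?_⟩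
  · intro P
    rw [Finsupp.neg_apply, hP P]; ring
  · intro Q
    rw [← Finsupp.mapDomain.addMonoidHom_apply, map_neg, Finsupp.mapDomain.addMonoidHom_apply,
      Finsupp.neg_apply, hQ Q]
    ring

theorem IsFrac.add {E E' : Divisor L (laurentBaseChange L (modularFunctionFieldFull N))}
    (h : IsFrac π N r E) (h' : IsFrac π N r E') : IsFrac π N r (E + E') := by
  obtain ⟨y₁, y₂, h₁, h₂, k₁, k₂, n₁, n₂, hP, hQ⟩ := h
  obtain ⟨y₁', y₂', h₁', h₂', k₁', k₂', n₁', n₂', hP', hQ'⟩ := h'
  have ne : ∀ {y : LaurentSeries A}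
      (hy : coeffMap A.subtype y ∈ laurentBaseChange L (modularFunctionFieldFull N)),
      coeffMap π y ≠ 0 → (⟨_, hy⟩ : laurentBaseChange L (modularFunctionFieldFull N)) ≠ 0 := by
    intro y hy hn h0
    exact coeffMap_subtype_ne_zero hn (congrArg Subtype.val h0)
  have ne' : ∀ {y : LaurentSeries A} (hy : coeffMap π y ∈ modularFunctionFieldFullC k N),
      coeffMap π y ≠ 0 → (⟨_, hy⟩ : modularFunctionFieldFullC k N) ≠ 0 := by
    intro y hy hn h0
    exact hn (congrArg Subtype.val h0)
  refine ⟨y₁ * y₁', y₂ * y₂', by rw [map_mul]; exact mul_mem h₁ h₁',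
    by rw [map_mul]; exact mul_mem h₂ h₂', by rw [map_mul]; exact mul_mem k₁ k₁',
    by rw [map_mul]; exact mul_mem k₂ k₂', by rw [map_mul]; exact mul_ne_zero n₁ n₁',
    by rw [map_mul]; exact mul_ne_zero n₂ n₂', ?_, ?_⟩
  · intro P
    have e1 : (⟨coeffMap A.subtype (y₁ * y₁'), by rw [map_mul]; exact mul_mem h₁ h₁'⟩ :
        laurentBaseChange L (modularFunctionFieldFull N)) = ⟨_, h₁⟩ * ⟨_, h₁'⟩ :=
      Subtype.ext (map_mul _ _ _)
    have e2 : (⟨coeffMap A.subtype (y₂ * y₂'), by rw [map_mul]; exact mul_mem h₂ h₂'⟩ :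
        laurentBaseChange L (modularFunctionFieldFull N)) = ⟨_, h₂⟩ * ⟨_, h₂'⟩ :=
      Subtype.ext (map_mul _ _ _)
    rw [e1, e2, P.ord_mul (ne h₁ n₁) (ne h₁' n₁'), P.ord_mul (ne h₂ n₂) (ne h₂' n₂'),
      Finsupp.add_apply, hP P, hP' P]
    ring
  · intro Q
    have e1 : (⟨coeffMap π (y₁ * y₁'), by rw [map_mul]; exact mul_mem k₁ k₁'⟩ :
        modularFunctionFieldFullC k N) = ⟨_, k₁⟩ * ⟨_, k₁'⟩ :=
      Subtype.ext (map_mul _ _ _)
    have e2 : (⟨coeffMap π (y₂ * y₂'), by rw [map_mul]; exact mul_mem k₂ k₂'⟩ :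
        modularFunctionFieldFullC k N) = ⟨_, k₂⟩ * ⟨_, k₂'⟩ :=
      Subtype.ext (map_mul _ _ _)
    rw [e1, e2, Q.ord_mul (ne' k₁ n₁) (ne' k₁' n₁'), Q.ord_mul (ne' k₂ n₂) (ne' k₂' n₂'),
      Finsupp.mapDomain_add, Finsupp.add_apply, hQ Q, hQ' Q]
    ring

theorem IsFrac.of_mem (hr : IsPlaceReductionAlong A π N r)
    {E : Divisor L (laurentBaseChange L (modularFunctionFieldFull N))}
    (hE : E ∈ integralPrincipalDivisors A π N) : IsFrac π N r E := by
  obtain ⟨y, hy, hyk, hne, hEy⟩ := hE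
  refine ⟨y, 1, hy, by rw [map_one]; exact one_mem _, hyk, by rw [map_one]; exact one_mem _, hne,
    by rw [map_one]; exact one_ne_zero, ?_, ?_⟩
  · intro P
    have e : (⟨coeffMap A.subtype (1 : LaurentSeries A), by rw [map_one]; exact one_mem _⟩ :
        laurentBaseChange L (modularFunctionFieldFull N)) = 1 := Subtype.ext (map_one _)
    rw [e, P.ord_one, sub_zero, hEy P]
  · intro Q
    have e : (⟨coeffMap π (1 : LaurentSeries A), by rw [map_one]; exact one_mem _⟩ :
        modularFunctionFieldFullC k N) = 1 := Subtype.ext (map_one _)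
    rw [e, Q.ord_one, sub_zero]
    exact hr.2 y hy hyk hne E hEy Q

theorem IsFrac.of_principal (hr : IsPlaceReductionAlong A π N r)
    (hgen : PrincipalGeneratedByIntegral A π N)
    {E : Divisor L (laurentBaseChange L (modularFunctionFieldFull N))}
    (hE : E ∈ Divisor.principal (K := L) (F := laurentBaseChange L (modularFunctionFieldFull N))) :
    IsFrac π N r E := by
  have hE' := hgen hE
  clear hE
  induction hE' using AddSubgroup.closure_induction with
  | mem E hE => exact IsFrac.of_mem hr hE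
  | zero => exact IsFrac.zero
  | add E E' _ _ hE hE' => exact hE.add hE'
  | neg E _ hE => exact hE.neg

end Fermat.Agent.S18.Asm
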