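import Mathlib
import Fermat.Prelude.Def_ModularCurve_ReductionModL
import Fermat.Agent.S24.ModDefs

set_option autoImplicit false
set_option linter.unusedSectionVars false

/-! # S18 [Asm]: the two interface statements consumed by the final assembly. -/

namespace Fermat.Agent.S18.Asm

open ModularCurve AlgebraicCurve HahnSeries IntermediateField Fermat.Agent.S24

/-- what we need to know about the function field in characteristic `ℓ`. -/
def BarHyp (k : Type) [Field k] (N : ℕ) : Prop :=
  ∃ t : modularFunctionFieldFullC k N, Transcendental k t ∧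
    FiniteDimensional k⟮t⟯ (modularFunctionFieldFullC k N) ∧
    Algebra.IsSeparable k⟮t⟯ (modularFunctionFieldFullC k N)

/-- the CORE statement at level `M`. -/
def CoreStmt (A : ValuationSubring Kb) {k : Type} [Field k] (π : A →+* k) (M : ℕ) : Prop :=
  ∀ (m : ℕ) (y₁ y₂ : LaurentSeries A) (t0 : LaurentSeries k)
    (h₁ : coeffMap A.subtype y₁ ∈ modularFunctionFieldBar M)
    (h₂ : coeffMap A.subtype y₂ ∈ modularFunctionFieldBar M),
    0 < m → (m : k) ≠ 0 → coeffMap π y₁ ≠ 0 → coeffMap π y₂ ≠ 0 →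
    t0 ∈ modularFunctionFieldFullC k M →
    coeffMap π y₁ = t0 ^ m * coeffMap π y₂ →
    (∀ P : Place Kb (FN M), (m : ℤ) ∣ P.ord ((⟨_, h₁⟩ : FN M) / ⟨_, h₂⟩)) →
    ∃ s : FN M, ((⟨_, h₁⟩ : FN M) / ⟨_, h₂⟩) = s ^ m

end Fermat.Agent.S18.Asm
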