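import Mathlib
import Fermat.Agent.S18.Asm1
import Fermat.Agent.S18.Asm2
import Fermat.Agent.S18.AsmDefs

set_option autoImplicit false
set_option linter.unusedSectionVars false
set_option linter.style.haveILetI false
set_option synthInstance.maxHeartbeats 400000

/-! # S18 [Asm], part 3: extraction of the data `(y₁, y₂, t0)` from the hypotheses of S18. -/

namespace Fermat.Agent.S18.Asm

open ModularCurve AlgebraicCurve HahnSeries IntermediateField

theorem mapDomain_nsmul_apply {α β : Type*} (r : α → β) (m : ℕ) (D : α →₀ ℤ) (Q : β) :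
    Finsupp.mapDomain r (m • D) Q = m * Finsupp.mapDomain r D Q := by
  have e3 : Finsupp.mapDomain r (m • D) = m • Finsupp.mapDomain r D :=
    map_nsmul (Finsupp.mapDomain.addMonoidHom r) m _
  rw [e3, Finsupp.smul_apply, nsmul_eq_mul]

theorem exists_root_aux {k Fb : Type} [Field k] [IsAlgClosed k] [Field Fb] [Algebra k Fb]
    (t : Fb) (htr : Transcendental k t) [FiniteDimensional k⟮t⟯ Fb] [Algebra.IsSeparable k⟮t⟯ Fb]
    (a b g : Fb) (ha : a ≠ 0) (hb : b ≠ 0) (hg : g ≠ 0) (m : ℕ) (hm : 0 < m)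
    (h : ∀ Q : Place k Fb, (m : ℤ) * Q.ord g = Q.ord a - Q.ord b) : ∃ t0 : Fb, a = t0 ^ m * b := by
  have hord : ∀ Q : Place k Fb, Q.ord (a / (b * g ^ m)) = 0 := by
    intro Q
    rw [div_eq_mul_inv, Q.ord_mul ha (inv_ne_zero (mul_ne_zero hb (pow_ne_zero _ hg))),
      Q.ord_inv, Q.ord_mul hb (pow_ne_zero _ hg), Fermat.Agent.S24.ord_pow]
    have := h Q
    linarith
  obtain ⟨c, hc⟩ := exists_const_of_ord_nonneg t htr _ fun Q => (hord Q).ge
  obtain ⟨c', hc'⟩ := IsAlgClosed.exists_pow_nat_eq c hm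
  refine ⟨algebraMap k Fb c' * g, ?_⟩
  rw [mul_pow, ← map_pow, hc', hc]
  field_simp

theorem principal_of_nsmul_mk_eq_zero {K F : Type*} [Field K] [Field F] [Algebra K F] (m : ℕ)
    (D : Divisor.degZero (K := K) (F := F)) (hmD : m • (Pic0.mk D : Pic0 K F) = 0) :
    (m • (D : Divisor K F)) ∈ Divisor.principal (K := K) (F := F) := by
  have e : (Pic0.mk (m • D) : Pic0 K F) = 0 := by
    rw [← hmD]; rfl
  have e2 := (QuotientAddGroup.eq_zero_iff _).1 e
  rw [AddSubgroup.mem_addSubgroupOf, AddSubgroupClass.coe_nsmul] at e2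
  exact e2

theorem principal_of_mk_eq_zero {K F : Type*} [Field K] [Field F] [Algebra K F]
    (D : Divisor.degZero (K := K) (F := F)) (hD : (Pic0.mk D : Pic0 K F) = 0) :
    (D : Divisor K F) ∈ Divisor.principal (K := K) (F := F) := by
  have e2 := (QuotientAddGroup.eq_zero_iff _).1 hD
  rw [AddSubgroup.mem_addSubgroupOf] at e2
  exact e2

theorem exists_root_series {k : Type} [Field k] [IsAlgClosed k] {N : ℕ} (hbar : BarHyp k N)
    (a b : LaurentSeries k) (ka : a ∈ modularFunctionFieldFullC k N)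
    (kb : b ∈ modularFunctionFieldFullC k N) (ha : a ≠ 0) (hb : b ≠ 0)
    (g : modularFunctionFieldFullC k N) (hg : g ≠ 0) (m : ℕ) (hm : 0 < m)
    (h : ∀ Q : Place k (modularFunctionFieldFullC k N), (m : ℤ) * Q.ord g =
      Q.ord (⟨a, ka⟩ : modularFunctionFieldFullC k N) - Q.ord (⟨b, kb⟩ : modularFunctionFieldFullC k N)) :
    ∃ t0 : LaurentSeries k, t0 ∈ modularFunctionFieldFullC k N ∧ a = t0 ^ m * b := by
  have ne₁ : (⟨_, ka⟩ : modularFunctionFieldFullC k N) ≠ 0 :=
    fun h0 => ha (congrArg Subtype.val h0)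
  have ne₂ : (⟨_, kb⟩ : modularFunctionFieldFullC k N) ≠ 0 :=
    fun h0 => hb (congrArg Subtype.val h0)
  obtain ⟨t, htr, hfin, hsep⟩ := hbar
  obtain ⟨t0, ht0⟩ := exists_root_aux t htr _ _ g ne₁ ne₂ hg m hm h
  refine ⟨t0.1, t0.2, ?_⟩
  have := congrArg (fun x : modularFunctionFieldFullC k N => (x : LaurentSeries k)) ht0
  simpa only [IntermediateField.coe_mul, IntermediateField.coe_pow] using this

theorem exists_data {L : Type} [Field L] [Algebra ℚ L] {A : ValuationSubring L}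
    {k : Type} [Field k] [IsAlgClosed k] {π : A →+* k} {N : ℕ}
    {r : Place L (laurentBaseChange L (modularFunctionFieldFull N)) →
      Place k (modularFunctionFieldFullC k N)}
    (hbar : BarHyp k N) (hr : IsPlaceReductionAlong A π N r)
    (hgen : PrincipalGeneratedByIntegral A π N) (m : ℕ) (hm : 0 < m)
    (D : Divisor L (laurentBaseChange L (modularFunctionFieldFull N)))
    (h1 : m • D ∈ Divisor.principal (K := L) (F := laurentBaseChange L (modularFunctionFieldFull N)))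
    (h2 : Finsupp.mapDomain r D ∈ Divisor.principal (K := k) (F := modularFunctionFieldFullC k N)) :
    ∃ (y₁ y₂ : LaurentSeries A) (t0 : LaurentSeries k)
      (h₁ : coeffMap A.subtype y₁ ∈ laurentBaseChange L (modularFunctionFieldFull N))
      (h₂ : coeffMap A.subtype y₂ ∈ laurentBaseChange L (modularFunctionFieldFull N)),
      coeffMap π y₁ ≠ 0 ∧ coeffMap π y₂ ≠ 0 ∧
      t0 ∈ modularFunctionFieldFullC k N ∧
      coeffMap π y₁ = t0 ^ m * coeffMap π y₂ ∧
      ∀ P : Place L (laurentBaseChange L (modularFunctionFieldFull N)),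
        (m : ℤ) * D P =
          P.ord ((⟨_, h₁⟩ : laurentBaseChange L (modularFunctionFieldFull N)) / ⟨_, h₂⟩) := by
  obtain ⟨gb, hgb0, hgb⟩ := h2
  obtain ⟨y₁, y₂, h₁, h₂, k₁, k₂, n₁, n₂, hP, hQ⟩ := IsFrac.of_principal hr hgen h1
  obtain ⟨t0, ht0m, ht0⟩ := exists_root_series hbar _ _ k₁ k₂ n₁ n₂ gb hgb0 m hm (fun Q => by
    refine Eq.trans ?_ (hQ Q)
    refine Eq.trans ?_ (mapDomain_nsmul_apply _ m _ Q).symm
    exact congrArg (fun x => (m : ℤ) * x) (hgb Q).symm)
  refine ⟨y₁, y₂, t0, h₁, h₂, n₁, n₂, ht0m, ht0, ?_⟩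
  intro P
  have e := hP P
  have ne₁' : (⟨_, h₁⟩ : laurentBaseChange L (modularFunctionFieldFull N)) ≠ 0 :=
    fun h0 => coeffMap_subtype_ne_zero n₁ (congrArg Subtype.val h0)
  have ne₂' : (⟨_, h₂⟩ : laurentBaseChange L (modularFunctionFieldFull N)) ≠ 0 :=
    fun h0 => coeffMap_subtype_ne_zero n₂ (congrArg Subtype.val h0)
  rw [div_eq_mul_inv, P.ord_mul ne₁' (inv_ne_zero ne₂'), P.ord_inv, ← sub_eq_add_neg, ← e]
  exact (nsmul_eq_mul _ _).symm

end Fermat.Agent.S18.Asm
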