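import Mathlib
import Fermat.Agent.S24.PlaceBasic
import Fermat.Agent.S24.NormProd
import Fermat.Agent.S24.Count
import Fermat.Agent.S24.Orbits
import Fermat.Agent.S24.Integral
import Fermat.Agent.S24.Local
import Fermat.Agent.S20.CardQuo

set_option autoImplicit false
set_option linter.style.haveILetI false

/-! # S18 [MOD-B]: ramification of `j` on `FN N` -/

namespace Fermat.Agent.S18.ModB

open AlgebraicCurve IntermediateField Fermat.Agent.S24
open Fermat.Agent.S20 (Quo sl)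

section abstract

variable {K F : Type} [Field K] [Field F] [Algebra K F]
variable {k Q : Type} [Field k] [Algebra K k] {y : F} (L : LocalData K F k Q y)

theorem ord_dvd_of_pow_eq (γ : Q) {h : ℕ} (hγ : (L.ε ^ h) γ = γ) :
    (L.pl γ).ord y ∣ (h : ℤ) := by
  have : Nonempty Q := ⟨γ⟩
  obtain ⟨π, hπ⟩ := exists_ord_eq_one (L.pl γ)
  have hπ0 : π ≠ 0 := by
    rintro rfl
    simp at hπ
  have h1 : (L.σ γ π).order = L.c γ := by rw [L.order_eq γ hπ0, hπ, mul_one]
  have h2 := coeff_order_ne_zero' ((map_ne_zero (L.σ γ)).mpr hπ0)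
  have h3 := L.rot_pow h γ π (L.σ γ π).order
  rw [hγ] at h3
  have h4 : L.ζ ^ ((h : ℤ) * (L.σ γ π).order) = 1 := by
    have : (L.ζ ^ ((h : ℤ) * (L.σ γ π).order) - 1) * (L.σ γ π).coeff (L.σ γ π).order = 0 := by
      rw [sub_mul, one_mul, ← h3, sub_self]
    rcases mul_eq_zero.mp this with h | h
    · exact sub_eq_zero.mp h
    · exact absurd h h2
  rw [L.hζ.zpow_eq_one_iff_dvd, h1, L.e_eq γ, mul_comm (h : ℤ)] at h4
  have hc : (L.c γ : ℤ) ≠ 0 := by exact_mod_cast (L.c_pos γ).ne'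
  exact (mul_dvd_mul_iff_left hc).mp h4

theorem ord_dvd_of_pow_eq_one [IsAlgClosed K] [CharZero K] [Fintype Q]
    [FiniteDimensional K⟮y⟯ F] (hcard : Fintype.card Q = Module.finrank K⟮y⟯ F) {h : ℕ}
    (hε : L.ε ^ h = 1) (v : Place K F) (hv : 0 < v.ord y) : v.ord y ∣ (h : ℤ) := by
  obtain ⟨γ, rfl⟩ := exists_pl_eq y L hcard v hv
  exact ord_dvd_of_pow_eq L γ (by rw [hε]; rfl)

end abstract

theorem finiteDimensional_FN (N : ℕ) [NeZero N] : FiniteDimensional Kb⟮jF N⟯ (FN N) :=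
  (finrank_FN_le N).1

theorem card_quo_eq_finrank (N : ℕ) [NeZero N] :
    Fintype.card (Quo N) = Module.finrank Kb⟮jF N⟯ (FN N) := by
  obtain ⟨hfd, hle⟩ := finrank_FN_le N
  haveI := hfd
  obtain ⟨Linf, hinf⟩ := exists_localData_inf N
  apply le_antisymm
  · have hfd' : FiniteDimensional Kb⟮(jF N)⁻¹⟯ (FN N) := by rw [adjoin_inv']; exact hfd
    have := card_le_finrank (jF N)⁻¹ Linf.σ Linf.σ_inj Linf.σ_y
    rwa [adjoin_inv'] at this
  · rwa [Nat.card_eq_fintype_card] at hle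

theorem finrank_FN (N : ℕ) [NeZero N] :
    Module.finrank Kb⟮jF N⟯ (FN N) = ModularCurve.dedekindPsi N := by
  rw [← card_quo_eq_finrank, ← Nat.card_eq_fintype_card, Fermat.Agent.S20.card_quo]

theorem finiteDimensional_sub (N : ℕ) [NeZero N] (a : Kb) :
    FiniteDimensional Kb⟮jF N - algebraMap Kb (FN N) a⟯ (FN N) := by
  rw [adjoin_sub_algebraMap]; exact finiteDimensional_FN N

theorem card_quo_eq_finrank_sub (N : ℕ) [NeZero N] (a : Kb) :
    Fintype.card (Quo N) = Module.finrank Kb⟮jF N - algebraMap Kb (FN N) a⟯ (FN N) := by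
  rw [adjoin_sub_algebraMap]; exact card_quo_eq_finrank N

/-- generic values of `j` are unbranched. -/
theorem ord_sub_le_one (N : ℕ) [NeZero N] (a : Kb) (h0 : a ≠ 0) (h1 : a ≠ 1728)
    (P : Place Kb (FN N)) : P.ord (jF N - algebraMap Kb (FN N) a) ≤ 1 := by
  by_contra hlt
  push Not at hlt
  obtain ⟨L, hL⟩ := exists_localData_generic N a h0 h1
  haveI := finiteDimensional_sub N a
  have := ord_dvd_of_pow_eq_one L (card_quo_eq_finrank_sub N a) (h := 1) (by rw [hL]; simp) P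
    (by omega)
  have := Int.le_of_dvd (by norm_num) this
  omega

theorem ord_sub_zero_dvd (N : ℕ) [NeZero N] (P : Place Kb (FN N))
    (hP : 0 < P.ord (jF N - algebraMap Kb (FN N) 0)) :
    P.ord (jF N - algebraMap Kb (FN N) 0) ∣ 3 := by
  obtain ⟨L, hL⟩ := exists_localData_zero N
  haveI := finiteDimensional_sub N 0
  exact ord_dvd_of_pow_eq_one L (card_quo_eq_finrank_sub N 0) (h := 3)
    (by rw [hL]; exact toPerm_ST_cube N) P hP

theorem ord_sub_1728_dvd (N : ℕ) [NeZero N] (P : Place Kb (FN N))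
    (hP : 0 < P.ord (jF N - algebraMap Kb (FN N) 1728)) :
    P.ord (jF N - algebraMap Kb (FN N) 1728) ∣ 2 := by
  obtain ⟨L, hL⟩ := exists_localData_1728 N
  haveI := finiteDimensional_sub N 1728
  exact ord_dvd_of_pow_eq_one L (card_quo_eq_finrank_sub N 1728) (h := 2)
    (by rw [hL]; exact toPerm_S_sq N) P hP

theorem three_mul_card_zeroSet (N : ℕ) [NeZero N] :
    3 * Nat.card (zeroSet Kb (jF N - algebraMap Kb (FN N) 0)) =
      ModularCurve.dedekindPsi N + 2 * ModularCurve.nuThree N := by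
  obtain ⟨L, hL⟩ := exists_localData_zero N
  haveI := finiteDimensional_sub N 0
  rw [card_zeroSet_eq_orbCard _ L (card_quo_eq_finrank_sub N 0), hL, three_mul_orbCard_ST]

theorem two_mul_card_zeroSet (N : ℕ) [NeZero N] :
    2 * Nat.card (zeroSet Kb (jF N - algebraMap Kb (FN N) 1728)) =
      ModularCurve.dedekindPsi N + ModularCurve.nuTwo N := by
  obtain ⟨L, hL⟩ := exists_localData_1728 N
  haveI := finiteDimensional_sub N 1728
  rw [card_zeroSet_eq_orbCard _ L (card_quo_eq_finrank_sub N 1728), hL, two_mul_orbCard_S]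

end Fermat.Agent.S18.ModB
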