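import Mathlib
import Fermat.Agent.S18.AsmDefs
import Fermat.Agent.S18.ModB
import Fermat.Agent.S24.PlaceOf
import Fermat.Agent.S24.EngineAlg

set_option autoImplicit false
set_option linter.style.haveILetI false

/-! # S18 [Asm-N]: change of level `N ∣ M`: restriction of places, norm descent -/

namespace Fermat.Agent.S18.Asm

open ModularCurve AlgebraicCurve IntermediateField Fermat.Agent.S24

section abstract

variable {K F₁ F₂ : Type} [Field K] [Field F₁] [Field F₂] [Algebra K F₁] [Algebra K F₂]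

/-- restriction of a place along an algebraic extension is a positive multiple of a place -/
theorem exists_place_restrict (φ : F₁ →ₐ[K] F₂) (hint : ∀ x : F₂, (φ : F₁ →+* F₂).IsIntegralElem x)
    (P' : Place K F₂) :
    ∃ (v : Place K F₁) (c : ℕ), 0 < c ∧ ∀ f : F₁, f ≠ 0 → P'.ord (φ f) = c * v.ord f := by
  have hφ0 : ∀ f : F₁, f ≠ 0 → φ f ≠ 0 := fun f hf => (map_ne_zero φ).mpr hf
  have hpos : ∃ y : F₁, y ≠ 0 ∧ 0 < P'.ord (φ y) := by
    by_contra hcon
    push Not at hcon
    have hmem : ∀ y : F₁, φ y ∈ P'.toValuationSubring := by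
      intro y
      rw [mem_valuationSubring_iff]
      by_cases hy : y = 0
      · left; rw [hy, map_zero]
      · right
        have := hcon y⁻¹ (inv_ne_zero hy)
        rw [map_inv₀, P'.ord_inv] at this
        omega
    apply P'.ne_top'
    refine SetLike.ext fun x => ⟨fun _ => ValuationSubring.mem_top x, fun _ => ?_⟩
    obtain ⟨p, hp, hpx⟩ := hint x
    let ψ : F₁ →+* P'.toValuationSubring :=
      (φ : F₁ →+* F₂).codRestrict P'.toValuationSubring.toSubring hmem
    have hcomp : (algebraMap P'.toValuationSubring F₂).comp ψ = (φ : F₁ →+* F₂) := by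
      ext; rfl
    have hx : IsIntegral P'.toValuationSubring x := by
      refine ⟨p.map ψ, hp.map ψ, ?_⟩
      rw [Polynomial.eval₂_map, hcomp]
      exact hpx
    obtain ⟨y, hy⟩ := IsIntegrallyClosed.isIntegral_iff.mp hx
    rw [← hy]
    exact y.2
  let W : IntVal K F₁ :=
    { w := fun g => P'.ord (φ g)
      w_mul := fun f g hf hg => by rw [map_mul]; exact P'.ord_mul (hφ0 f hf) (hφ0 g hg)
      w_add := fun f g _ _ hfg => by
        rw [map_add]
        exact ord_add_ge P' (by rw [← map_add]; exact hφ0 _ hfg)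
      w_const := fun a => by rw [AlgHom.commutes]; exact ord_algebraMap P' a
      w_pos := hpos }
  exact W.exists_place

theorem dvd_ord_of_algHom (φ : F₁ →ₐ[K] F₂) (hint : ∀ x : F₂, (φ : F₁ →+* F₂).IsIntegralElem x)
    (m : ℤ) (f : F₁) (hf : ∀ P : Place K F₁, m ∣ P.ord f) (P' : Place K F₂) :
    m ∣ P'.ord (φ f) := by
  by_cases hf0 : f = 0
  · rw [hf0, map_zero, P'.ord_zero]; exact dvd_zero m
  obtain ⟨v, c, -, hc⟩ := exists_place_restrict φ hint P'
  rw [hc f hf0]
  exact Dvd.dvd.mul_left (hf v) _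

theorem relfinrank_adjoin_simple' {K Ω : Type} [Field K] [Field Ω] [Algebra K Ω]
    (E : IntermediateField K Ω) (y : E) :
    relfinrank K⟮(y : Ω)⟯ E = Module.finrank K⟮y⟯ E := by
  have h1 : K⟮(y : Ω)⟯ = (K⟮y⟯).map E.val := (lift_adjoin_simple K E y).symm
  have h2 : E = (⊤ : IntermediateField K E).map E.val := (lift_top K E).symm
  calc relfinrank K⟮(y : Ω)⟯ E = relfinrank ((K⟮y⟯).map E.val)
        ((⊤ : IntermediateField K E).map E.val) := by rw [← h1, ← h2]
    _ = relfinrank K⟮y⟯ (⊤ : IntermediateField K E) := relfinrank_map_map _ _ _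
    _ = Module.finrank K⟮y⟯ E := relfinrank_top_right _

/-- norm descent for intermediate fields -/
theorem norm_descent_abs {K Ω : Type} [Field K] [Field Ω] [Algebra K Ω]
    {E₁ E₂ : IntermediateField K Ω} (h : E₁ ≤ E₂) (m : ℕ)
    (hcop : Nat.Coprime (relfinrank E₁ E₂) m) (f : E₁) (s : E₂)
    (hs : IntermediateField.inclusion h f = s ^ m) : ∃ s' : E₁, f = s' ^ m := by
  by_cases hf0 : f = 0
  · have hm : m ≠ 0 := by
      rintro rfl
      rw [hf0, pow_zero, map_zero] at hs
      exact zero_ne_one hs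
    exact ⟨0, by rw [hf0, zero_pow hm]⟩
  set d := relfinrank E₁ E₂ with hd
  let E' := extendScalars h
  have hdE : Module.finrank E₁ E' = d := (relfinrank_eq_finrank_of_le h).symm
  let s₁ : E' := ⟨(s : Ω), s.2⟩
  have hs₁ : algebraMap E₁ E' f = s₁ ^ m := by
    apply Subtype.ext
    have := congrArg (fun z : E₂ => (z : Ω)) hs
    simpa using this
  have hnorm : f ^ d = (Algebra.norm E₁ s₁) ^ m := by
    rw [← map_pow, ← hs₁, Algebra.norm_algebraMap, hdE]
  -- Bezout
  have hb : (d : ℤ) * Nat.gcdA d m + (m : ℤ) * Nat.gcdB d m = 1 := by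
    have := Nat.gcd_eq_gcd_ab d m
    rw [hcop] at this
    exact_mod_cast this.symm
  refine ⟨(Algebra.norm E₁ s₁) ^ (Nat.gcdA d m) * f ^ (Nat.gcdB d m), ?_⟩
  have h1 : f = f ^ ((d : ℤ) * Nat.gcdA d m + (m : ℤ) * Nat.gcdB d m) := by
    rw [hb, zpow_one]
  conv_lhs => rw [h1]
  rw [zpow_add₀ hf0, zpow_mul, zpow_natCast, hnorm, mul_pow]
  congr 1
  · rw [← zpow_natCast, ← zpow_natCast, ← zpow_mul, ← zpow_mul, mul_comm]
  · rw [← zpow_natCast (f ^ Nat.gcdB d m), ← zpow_mul, mul_comm]

end abstract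

section modular

variable {N M : ℕ} [NeZero N] [NeZero M]

theorem FN_le (h : N ∣ M) : modularFunctionFieldBar N ≤ modularFunctionFieldBar M := by
  show laurentBaseChange Kb (modularFunctionFieldFull N)
    ≤ laurentBaseChange Kb (modularFunctionFieldFull M)
  rw [laurentBaseChange, IntermediateField.adjoin_le_iff]
  rintro _ ⟨y, hy, rfl⟩
  exact coeffEmb_mem_laurentBaseChange Kb (full_degeneracy_le h hy)

theorem fullC_le_of_dvd (k : Type) [Field k] (h : N ∣ M) :
    modularFunctionFieldFullC k N ≤ modularFunctionFieldFullC k M :=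
  full_degeneracyC_le k h

theorem inclusion_jF (h : N ∣ M) : IntermediateField.inclusion (FN_le h) (jF N) = jF M := by
  apply Subtype.ext
  show ((jF N : FN N) : LaurentSeries Kb) = ((jF M : FN M) : LaurentSeries Kb)
  rw [coe_jF, coe_jF]

theorem isIntegralElem_inclusion (h : N ∣ M) (x : FN M) :
    ((IntermediateField.inclusion (FN_le h) : FN N →ₐ[Kb] FN M) : FN N →+* FN M).IsIntegralElem x := by
  haveI : FiniteDimensional Kb⟮jF M⟯ (FN M) := (finrank_FN_le M).1
  have hx : IsIntegral Kb⟮jF M⟯ x := IsIntegral.of_finite Kb⟮jF M⟯ x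
  obtain ⟨p, hp, hpx⟩ := hx
  set φ : FN N →+* FN M :=
    ((IntermediateField.inclusion (FN_le h) : FN N →ₐ[Kb] FN M) : FN N →+* FN M) with hφ
  have hle : Kb⟮jF M⟯ ≤ (IntermediateField.inclusion (FN_le h)).fieldRange := by
    rw [adjoin_simple_le_iff]
    exact ⟨jF N, inclusion_jF h⟩
  have hlift : p.map (algebraMap Kb⟮jF M⟯ (FN M)) ∈ Polynomial.lifts φ := by
    rw [Polynomial.lifts_iff_coeff_lifts]
    intro n
    rw [Polynomial.coeff_map]
    obtain ⟨y, hy⟩ := hle (p.coeff n).2
    exact ⟨y, hy⟩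
  obtain ⟨q, hq, -, hqm⟩ := Polynomial.lifts_and_degree_eq_and_monic hlift (hp.map _)
  refine ⟨q, hqm, ?_⟩
  rw [← Polynomial.eval_map, hq, Polynomial.eval_map]
  exact hpx

theorem dvd_ord_of_dvd (h : N ∣ M) (m : ℕ) (f : FN N)
    (hf : ∀ P : Place Kb (FN N), (m : ℤ) ∣ P.ord f) (P' : Place Kb (FN M)) :
    (m : ℤ) ∣ P'.ord (IntermediateField.inclusion (FN_le h) f) :=
  dvd_ord_of_algHom _ (isIntegralElem_inclusion h) m f hf P'

theorem relfinrank_FN (h : N ∣ M) :
    relfinrank (modularFunctionFieldBar N) (modularFunctionFieldBar M)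
      = dedekindPsi M / dedekindPsi N := by
  have h1 : relfinrank Kb⟮coeffEmb Kb jq⟯ (modularFunctionFieldBar N) = dedekindPsi N := by
    rw [← coe_jF N, relfinrank_adjoin_simple', ModB.finrank_FN]
  have h2 : relfinrank Kb⟮coeffEmb Kb jq⟯ (modularFunctionFieldBar M) = dedekindPsi M := by
    rw [← coe_jF M, relfinrank_adjoin_simple', ModB.finrank_FN]
  have hle : Kb⟮coeffEmb Kb jq⟯ ≤ modularFunctionFieldBar N := by
    rw [adjoin_simple_le_iff, ← coe_jF N]
    exact SetLike.coe_mem _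
  have h3 := relfinrank_mul_relfinrank hle (FN_le h)
  rw [h1, h2] at h3
  have hpos : 0 < dedekindPsi N := by
    rw [← ModB.finrank_FN N]
    haveI : FiniteDimensional Kb⟮jF N⟯ (FN N) := (finrank_FN_le N).1
    exact Module.finrank_pos
  rw [← h3, Nat.mul_div_cancel_left _ hpos]

theorem norm_descent (h : N ∣ M) (m : ℕ)
    (hcop : Nat.Coprime (dedekindPsi M / dedekindPsi N) m) (f : FN N) (s : FN M)
    (hs : IntermediateField.inclusion (FN_le h) f = s ^ m) : ∃ s' : FN N, f = s' ^ m := by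
  exact norm_descent_abs (FN_le h) m (by rw [relfinrank_FN h]; exact hcop) f s hs

end modular

end Fermat.Agent.S18.Asm
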