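import Mathlib
import Fermat.Agent.S18.Asm3
import Fermat.Agent.S18.AsmN

set_option autoImplicit false
set_option linter.unusedSectionVars false
set_option linter.style.haveILetI false
set_option synthInstance.maxHeartbeats 400000

/-! # S18 [Asm], part 4: the main theorem in the "Along" generality. -/

namespace Fermat.Agent.S18.Asm

open ModularCurve AlgebraicCurve HahnSeries IntermediateField Fermat.Agent.S24

theorem main_along {A : ValuationSubring Kb} {k : Type} [Field k] [IsAlgClosed k] {π : A →+* k}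
    {N M : ℕ} [NeZero N] [NeZero M] (hNM : N ∣ M) (hbar : BarHyp k N) (hcore : CoreStmt A π M)
    (h : ReductionInputsAlong A π N) (m : ℕ) (hm0 : 0 < m) (hmk : (m : k) ≠ 0)
    (hcop : Nat.Coprime (dedekindPsi M / dedekindPsi N) m)
    (z : Pic0 Kb (modularFunctionFieldBar N)) (hmz : m • z = 0)
    (hz : reductionAlong A π N z = 0) : z = 0 := by
  obtain ⟨D, rfl⟩ := Pic0.mk_surjective z
  have h1 := principal_of_nsmul_mk_eq_zero m D hmz
  rw [reductionAlong_mk h D] at hz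
  have h2 := principal_of_mk_eq_zero _ hz
  rw [coe_reductionDegZeroAlong] at h2
  obtain ⟨y₁, y₂, t0, h₁, h₂, n₁, n₂, ht0m, ht0, hord⟩ :=
    exists_data hbar h.choose_spec.1 h.choose_spec.2 m hm0 _ h1 h2
  set f : FN N := (⟨_, h₁⟩ : FN N) / ⟨_, h₂⟩ with hf
  have hdvd : ∀ P : Place Kb (FN N), (m : ℤ) ∣ P.ord f := fun P => ⟨_, (hord P).symm⟩
  have hincl : IntermediateField.inclusion (FN_le hNM) f =
      (⟨_, FN_le hNM h₁⟩ : FN M) / ⟨_, FN_le hNM h₂⟩ := by
    rw [hf, map_div₀]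
    rfl
  obtain ⟨s, hs⟩ := hcore m y₁ y₂ t0 (FN_le hNM h₁) (FN_le hNM h₂) hm0 hmk n₁ n₂
    (fullC_le_of_dvd k hNM ht0m) ht0 (fun P' => by
      rw [← hincl]
      exact dvd_ord_of_dvd hNM m f hdvd P')
  obtain ⟨s', hs'⟩ := norm_descent hNM m hcop f s (hincl.trans hs)
  have ne₁' : (⟨_, h₁⟩ : FN N) ≠ 0 :=
    fun h0 => coeffMap_subtype_ne_zero n₁ (congrArg Subtype.val h0)
  have ne₂' : (⟨_, h₂⟩ : FN N) ≠ 0 :=
    fun h0 => coeffMap_subtype_ne_zero n₂ (congrArg Subtype.val h0)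
  have hf0 : f ≠ 0 := div_ne_zero ne₁' ne₂'
  have hs0 : s' ≠ 0 := by
    rintro rfl
    rw [zero_pow hm0.ne'] at hs'
    exact hf0 hs'
  have hprin : (D : Divisor Kb (FN N)) ∈ Divisor.principal (K := Kb) (F := FN N) := by
    refine ⟨s', hs0, fun P => ?_⟩
    have e := hord P
    rw [hs', Fermat.Agent.S24.ord_pow] at e
    have hm' : (m : ℤ) ≠ 0 := by exact_mod_cast hm0.ne'
    exact (mul_left_cancel₀ hm' e)
  refine (QuotientAddGroup.eq_zero_iff _).2 ?_
  rw [AddSubgroup.mem_addSubgroupOf]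
  exact hprin

end Fermat.Agent.S18.Asm
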