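import Mathlib
import Fermat.Prelude.Def_FLTPrelim_Ramification

set_option autoImplicit false

/-! # S18 (rk1): a valuation ring of an algebraic extension of `ℚ` over `ℓ` has rank one;
its residue field is algebraically closed if the field is. -/

namespace Fermat.Agent.S18

open Polynomial

section Rk

variable {L : Type} [Field L] (A : ValuationSubring L)

theorem rk_val_intCast_le (n : ℤ) : A.valuation (n : L) ≤ 1 :=
  (A.valuation_le_one_iff _).2 (intCast_mem A n)

theorem rk_val_prime_lt {ℓ : ℕ} (hA : A.LiesOverPrime ℓ) : A.valuation (ℓ : L) < 1 :=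
  A.mem_nonunits_iff.1 hA

theorem rk_val_intCast_eq_one {ℓ : ℕ} (hℓ : ℓ.Prime) (hA : A.LiesOverPrime ℓ) (n : ℤ)
    (hn : ¬ (ℓ : ℤ) ∣ n) : A.valuation (n : L) = 1 := by
  refine le_antisymm (rk_val_intCast_le A n) ?_
  by_contra hlt
  rw [not_le] at hlt
  have hcop : IsCoprime (ℓ : ℤ) n :=
    ((Nat.prime_iff_prime_int.1 hℓ).coprime_iff_not_dvd).2 hn
  obtain ⟨a, b, hab⟩ := hcop
  have h1 : (a : L) * (ℓ : L) + (b : L) * (n : L) = 1 := by exact_mod_cast congrArg (Int.cast : ℤ → L) hab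
  have h2 : A.valuation ((a : L) * (ℓ : L) + (b : L) * (n : L)) < 1 := by
    refine lt_of_le_of_lt (A.valuation.map_add _ _) (max_lt ?_ ?_)
    · rw [map_mul]
      exact lt_of_le_of_lt (mul_le_of_le_one_left' (rk_val_intCast_le A a)) (rk_val_prime_lt A hA)
    · rw [map_mul]
      exact lt_of_le_of_lt (mul_le_of_le_one_left' (rk_val_intCast_le A b)) hlt
  rw [h1, map_one] at h2
  exact lt_irrefl _ h2

theorem rk_val_intCast_dvd_le {ℓ : ℕ} (n : ℤ) (hn : (ℓ : ℤ) ∣ n) :
    A.valuation (n : L) ≤ A.valuation (ℓ : L) := by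
  obtain ⟨b, rfl⟩ := hn
  push_cast
  rw [map_mul]
  exact mul_le_of_le_one_right' (rk_val_intCast_le A b)

/-- a nonzero integer has valuation at least a power of that of `ℓ`. -/
theorem rk_exists_pow_le_intCast {ℓ : ℕ} (hℓ : ℓ.Prime) (hA : A.LiesOverPrime ℓ) (n : ℤ)
    (hn : n ≠ 0) : ∃ e : ℕ, A.valuation (ℓ : L) ^ e ≤ A.valuation (n : L) := by
  obtain ⟨e, n', hn', he⟩ := Nat.exists_eq_pow_mul_and_not_dvd (Int.natAbs_ne_zero.2 hn) ℓ hℓ.ne_one
  refine ⟨e, ?_⟩
  have h1 : A.valuation (n : L) = A.valuation ((n.natAbs : ℤ) : L) := by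
    rcases Int.natAbs_eq n with h | h
    · rw [← h]
    · conv_lhs => rw [h]
      rw [Int.cast_neg, Valuation.map_neg]
  rw [h1, he]
  push_cast
  rw [map_mul, map_pow]
  have h2 : A.valuation ((n' : ℤ) : L) = 1 :=
    rk_val_intCast_eq_one A hℓ hA n' (by exact_mod_cast hn')
  have h3 : A.valuation (n' : L) = 1 := by exact_mod_cast h2
  rw [h3, mul_one]

variable [Algebra ℚ L] [Algebra.IsAlgebraic ℚ L]

theorem rk_exists_int_poly (c : L) : ∃ p : ℤ[X], p.IsPrimitive ∧ p ≠ 0 ∧ aeval c p = 0 := by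
  haveI : CharZero L := algebraRat.charZero L
  have h1 : IsAlgebraic ℚ c := Algebra.IsAlgebraic.isAlgebraic c
  have h2 : IsAlgebraic ℤ c := (IsFractionRing.isAlgebraic_iff ℤ ℚ L).2 h1
  obtain ⟨p, hp0, hp⟩ := h2
  exact ⟨p.primPart, p.isPrimitive_primPart, Polynomial.primPart_ne_zero p,
    Polynomial.aeval_primPart_eq_zero hp0 hp⟩

/-- step 1: a power of `c` is divisible by `ℓ`. -/
theorem rk_exists_pow_le_prime {ℓ : ℕ} (hℓ : ℓ.Prime) (hA : A.LiesOverPrime ℓ) (c : L)
    (hc : A.valuation c < 1) : ∃ s : ℕ, A.valuation c ^ s ≤ A.valuation (ℓ : L) := by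
  classical
  by_cases hc0 : c = 0
  · exact ⟨1, by simp [hc0]⟩
  obtain ⟨p, hprim, hp0, hp⟩ := rk_exists_int_poly c
  have hex : ∃ s, ¬ (ℓ : ℤ) ∣ p.coeff s := by
    by_contra hall
    push Not at hall
    have h1 : C (ℓ : ℤ) ∣ p := (Polynomial.C_dvd_iff_dvd_coeff _ _).2 hall
    have h2 := hprim _ h1
    have h3 := Int.isUnit_iff.1 h2
    have := hℓ.two_le
    omega
  let s := Nat.find hex
  have hs : ¬ (ℓ : ℤ) ∣ p.coeff s := Nat.find_spec hex
  have hlt : ∀ i < s, (ℓ : ℤ) ∣ p.coeff i := fun i hi => by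
    have := Nat.find_min hex hi
    rwa [not_not] at this
  refine ⟨s, ?_⟩
  by_contra hcon
  rw [not_le] at hcon
  set γ := A.valuation c with hγ
  have hγ0 : γ ≠ 0 := (Valuation.ne_zero_iff _).2 hc0
  have hγs : γ ^ s ≠ 0 := pow_ne_zero _ hγ0
  have hsum : ∑ i ∈ Finset.range (p.natDegree + 1), ((p.coeff i : ℤ) : L) * c ^ i = 0 := by
    have := hp
    rw [Polynomial.aeval_eq_sum_range] at this
    rw [← this]
    refine Finset.sum_congr rfl fun i _ => ?_
    rw [zsmul_eq_mul]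
  have hsmem : s ∈ Finset.range (p.natDegree + 1) := by
    rw [Finset.mem_range, Nat.lt_succ_iff]
    apply Polynomial.le_natDegree_of_ne_zero
    intro h0
    exact hs (by rw [h0]; exact dvd_zero _)
  rw [← Finset.add_sum_erase _ _ hsmem] at hsum
  have h1 : A.valuation (((p.coeff s : ℤ) : L) * c ^ s) = γ ^ s := by
    rw [map_mul, map_pow, rk_val_intCast_eq_one A hℓ hA _ hs, one_mul]
  have h2 : A.valuation (∑ i ∈ (Finset.range (p.natDegree + 1)).erase s,
      ((p.coeff i : ℤ) : L) * c ^ i) < γ ^ s := by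
    refine Valuation.map_sum_lt _ hγs fun i hi => ?_
    have hne : i ≠ s := (Finset.mem_erase.1 hi).1
    rw [map_mul, map_pow]
    rcases lt_or_gt_of_ne hne with h | h
    · calc A.valuation ((p.coeff i : ℤ) : L) * γ ^ i ≤ A.valuation (ℓ : L) * 1 :=
            mul_le_mul' (rk_val_intCast_dvd_le A _ (hlt i h)) (pow_le_one' hc.le i)
        _ < γ ^ s := by rw [mul_one]; exact hcon
    · calc A.valuation ((p.coeff i : ℤ) : L) * γ ^ i ≤ 1 * γ ^ i :=
            mul_le_mul' (rk_val_intCast_le A _) le_rfl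
        _ = γ ^ i := one_mul _
        _ < γ ^ s := pow_lt_pow_right_of_lt_one₀ (zero_lt_iff.2 hγ0) hc h
  have h3 : ((p.coeff s : ℤ) : L) * c ^ s =
      - ∑ i ∈ (Finset.range (p.natDegree + 1)).erase s, ((p.coeff i : ℤ) : L) * c ^ i :=
    eq_neg_of_add_eq_zero_left hsum
  rw [h3, Valuation.map_neg] at h1
  exact absurd h1 h2.ne

/-- step 2: a nonzero element has valuation at least a power of that of `ℓ`. -/
theorem rk_exists_prime_pow_le {ℓ : ℕ} (hℓ : ℓ.Prime) (hA : A.LiesOverPrime ℓ) (c0 : L)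
    (hc0 : c0 ≠ 0) : ∃ e : ℕ, A.valuation (ℓ : L) ^ e ≤ A.valuation c0 := by
  classical
  by_cases h1 : 1 ≤ A.valuation c0
  · exact ⟨0, by simpa using h1⟩
  rw [not_le] at h1
  set d := c0⁻¹ with hd
  have hd1 : 1 < A.valuation d := by
    rw [hd, map_inv₀]
    exact (one_lt_inv₀ (zero_lt_iff.2 ((Valuation.ne_zero_iff _).2 hc0))).2 h1
  obtain ⟨p, -, hp0, hp⟩ := rk_exists_int_poly d
  obtain ⟨e, he⟩ := rk_exists_pow_le_intCast A hℓ hA p.leadingCoeff
    (Polynomial.leadingCoeff_ne_zero.2 hp0)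
  refine ⟨e, he.trans ?_⟩
  set δ := A.valuation d with hδ
  have hδ0 : δ ≠ 0 := (zero_lt_one.trans hd1).ne'
  have hsum : ∑ i ∈ Finset.range (p.natDegree + 1), ((p.coeff i : ℤ) : L) * d ^ i = 0 := by
    have := hp
    rw [Polynomial.aeval_eq_sum_range] at this
    rw [← this]
    refine Finset.sum_congr rfl fun i _ => ?_
    rw [zsmul_eq_mul]
  rw [Finset.sum_range_succ] at hsum
  by_cases hn : p.natDegree = 0
  · exfalso
    rw [hn] at hsum
    simp only [Finset.range_zero, Finset.sum_empty, pow_zero, mul_one, zero_add] at hsum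
    haveI : CharZero L := algebraRat.charZero L
    have : p.coeff 0 = 0 := by exact_mod_cast hsum
    apply hp0
    rw [Polynomial.eq_C_of_natDegree_eq_zero hn, this, map_zero]
  have h2 : A.valuation (∑ i ∈ Finset.range p.natDegree, ((p.coeff i : ℤ) : L) * d ^ i)
      ≤ δ ^ (p.natDegree - 1) := by
    refine Valuation.map_sum_le _ fun i hi => ?_
    rw [map_mul, map_pow]
    calc A.valuation ((p.coeff i : ℤ) : L) * δ ^ i ≤ 1 * δ ^ i :=
          mul_le_mul' (rk_val_intCast_le A _) le_rfl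
      _ = δ ^ i := one_mul _
      _ ≤ δ ^ (p.natDegree - 1) :=
          pow_le_pow_right₀ hd1.le (by have := Finset.mem_range.1 hi; omega)
  have h3 : ((p.coeff p.natDegree : ℤ) : L) * d ^ p.natDegree =
      - ∑ i ∈ Finset.range p.natDegree, ((p.coeff i : ℤ) : L) * d ^ i :=
    eq_neg_of_add_eq_zero_right hsum
  have h4 : A.valuation ((p.leadingCoeff : ℤ) : L) * δ ^ p.natDegree ≤ δ ^ (p.natDegree - 1) := by
    have := h2
    rw [← Valuation.map_neg, ← h3, map_mul, map_pow] at this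
    exact this
  have h5 : δ ^ p.natDegree = δ ^ (p.natDegree - 1) * δ := by
    rw [← pow_succ]; congr 1; omega
  rw [h5, ← mul_assoc, mul_comm (A.valuation _), mul_assoc] at h4
  have h6 : A.valuation ((p.leadingCoeff : ℤ) : L) * δ ≤ 1 := by
    have hpos : 0 < δ ^ (p.natDegree - 1) := zero_lt_iff.2 (pow_ne_zero _ hδ0)
    by_contra hcon
    rw [not_le] at hcon
    have := mul_lt_mul_of_pos_left hcon hpos
    rw [mul_one] at this
    exact absurd h4 (not_le.2 this)
  have h7 : A.valuation c0 = δ⁻¹ := by rw [hδ, hd, map_inv₀, inv_inv]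
  rw [h7]
  calc A.valuation ((p.leadingCoeff : ℤ) : L)
      = A.valuation ((p.leadingCoeff : ℤ) : L) * δ * δ⁻¹ := by
        rw [mul_assoc, mul_inv_cancel₀ hδ0, mul_one]
    _ ≤ 1 * δ⁻¹ := mul_le_mul' h6 le_rfl
    _ = δ⁻¹ := one_mul _

/-- **(rk1)** -/
theorem rank_one_of_liesOverPrime {ℓ : ℕ} (hℓ : ℓ.Prime) (hA : A.LiesOverPrime ℓ) (c c0 : L)
    (hc : A.valuation c < 1) (hc0 : c0 ≠ 0) : ∃ j : ℕ, A.valuation c ^ j ≤ A.valuation c0 := by
  obtain ⟨s, hs⟩ := rk_exists_pow_le_prime A hℓ hA c hc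
  obtain ⟨e, he⟩ := rk_exists_prime_pow_le A hℓ hA c0 hc0
  refine ⟨s * e, ?_⟩
  rw [pow_mul]
  exact (pow_le_pow_left₀ zero_le hs e).trans he

end Rk

end Fermat.Agent.S18

namespace Fermat.Agent.S18

open Polynomial

/-- the residue field of a valuation ring of an algebraically closed field is algebraically
closed. -/
theorem isAlgClosed_of_valuationSubring {L k : Type} [Field L] [IsAlgClosed L] [Field k]
    (A : ValuationSubring L) (π : A →+* k) (hπ : Function.Surjective π) : IsAlgClosed k := by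
  apply IsAlgClosed.of_exists_root
  intro p hmon hirr
  have hl : p ∈ Polynomial.lifts π := by
    rw [Polynomial.mem_lifts]
    exact Polynomial.map_surjective π hπ p
  obtain ⟨P, hP, hdeg, hPmon⟩ := Polynomial.lifts_and_natDegree_eq_and_monic hl hmon
  have hdeg' : (P.map (algebraMap A L)).degree ≠ 0 := by
    rw [Polynomial.degree_eq_natDegree (hPmon.map _).ne_zero, hPmon.natDegree_map, hdeg]
    have := hirr.natDegree_pos
    exact_mod_cast this.ne'
  obtain ⟨z, hz⟩ := IsAlgClosed.exists_root _ hdeg'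
  have hint : IsIntegral A z := ⟨P, hPmon, by rwa [Polynomial.IsRoot.def, Polynomial.eval_map] at hz⟩
  obtain ⟨a, ha⟩ := IsIntegrallyClosed.isIntegral_iff.1 hint
  refine ⟨π a, ?_⟩
  rw [← hP, Polynomial.eval_map, Polynomial.eval₂_hom]
  have h0 : P.eval a = 0 := by
    apply (FaithfulSMul.algebraMap_injective A L)
    rw [map_zero, ← Polynomial.eval₂_hom, ← Polynomial.eval_map, ha]
    exact hz
  rw [h0, map_zero]

instance instIsAlgClosedResidueField {L : Type} [Field L] [IsAlgClosed L]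
    (A : ValuationSubring L) : IsAlgClosed (IsLocalRing.ResidueField A) :=
  isAlgClosed_of_valuationSubring A (IsLocalRing.residue A) IsLocalRing.residue_surjective

end Fermat.Agent.S18
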