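import Mathlib
import Fermat.Agent.S18.LeadRk
import Fermat.Agent.S20.CardQuo

set_option autoImplicit false
set_option linter.unusedSectionVars false

/-! # S18 [Asm], part 5: numerics (choice of the auxiliary level, `m ≠ 0` in the residue field). -/

namespace Fermat.Agent.S18.Asm

open ModularCurve

theorem natCast_map_ne_zero {L : Type} [Field L] (A : ValuationSubring L) {ℓ : ℕ} (hℓ : ℓ.Prime)
    (hA : A.LiesOverPrime ℓ) {k : Type} [Field k] (π : A →+* k) (m : ℕ) (hm : ¬ ℓ ∣ m) :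
    (m : k) ≠ 0 := by
  have h1 : A.valuation (((m : ℤ) : L)) = 1 :=
    rk_val_intCast_eq_one A hℓ hA (m : ℤ) (by exact_mod_cast hm)
  have h2 : IsUnit ((m : ℕ) : A) := by
    rw [ValuationSubring.valuation_eq_one_iff]
    simpa using h1
  have h3 := h2.map π
  rw [map_natCast] at h3
  exact h3.ne_zero

theorem dedekindPsi_pos (N : ℕ) (hN : N ≠ 0) : 0 < dedekindPsi N := by
  rw [dedekindPsi]
  refine Finset.sum_pos' (fun _ _ => Nat.zero_le _) ⟨1, ?_, ?_⟩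
  · simp [hN]
  · simpa using Nat.pos_of_ne_zero hN

theorem dedekindPsi_two : dedekindPsi 2 = 3 := by
  have := Fermat.Agent.S20.dedekindPsi_prime_pow Nat.prime_two 0
  simpa using this

theorem dedekindPsi_three : dedekindPsi 3 = 4 := by
  have := Fermat.Agent.S20.dedekindPsi_prime_pow Nat.prime_three 0
  simpa using this

theorem exists_level (ℓ N : ℕ) (hN : N ≠ 0) (hℓ : ℓ.Prime) (hℓN : ¬ ℓ ∣ N) :
    ∃ M : ℕ, M ≠ 0 ∧ N ∣ M ∧ ¬ ℓ ∣ M ∧ (5 ≤ ℓ ∨ (ℓ = 3 ∧ 2 ∣ M) ∨ (ℓ = 2 ∧ 3 ∣ M)) ∧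
      ∃ e : ℕ, dedekindPsi M / dedekindPsi N = ℓ ^ e := by
  have hpos := dedekindPsi_pos N hN
  have key : ∀ s : ℕ, s.Prime → s ≠ ℓ → (∃ e : ℕ, dedekindPsi s = ℓ ^ e) →
      ∃ M : ℕ, M ≠ 0 ∧ N ∣ M ∧ ¬ ℓ ∣ M ∧ s ∣ M ∧ ∃ e : ℕ, dedekindPsi M / dedekindPsi N = ℓ ^ e := by
    intro s hs hsl ⟨e, he⟩
    by_cases hsN : s ∣ N
    · exact ⟨N, hN, dvd_rfl, hℓN, hsN, 0, by rw [Nat.div_self hpos, pow_zero]⟩
    · refine ⟨s * N, mul_ne_zero hs.ne_zero hN, Dvd.intro_left s rfl, ?_, Dvd.intro N rfl, e, ?_⟩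
      · intro h
        rcases (Nat.Prime.dvd_mul hℓ).1 h with h | h
        · exact hsl ((Nat.prime_dvd_prime_iff_eq hℓ hs).1 h).symm
        · exact hℓN h
      · rw [Fermat.Agent.S20.dedekindPsi_mul ((Nat.Prime.coprime_iff_not_dvd hs).2 hsN), he,
          Nat.mul_div_cancel _ hpos]
  by_cases h5 : 5 ≤ ℓ
  · exact ⟨N, hN, dvd_rfl, hℓN, Or.inl h5, 0, by rw [Nat.div_self hpos, pow_zero]⟩
  · have h2 := hℓ.two_le
    have h4 : ℓ ≠ 4 := by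
      rintro rfl
      exact absurd hℓ (by norm_num)
    have : ℓ = 2 ∨ ℓ = 3 := by omega
    rcases this with rfl | rfl
    · obtain ⟨M, a, b, c, d, e⟩ := key 3 Nat.prime_three (by norm_num) ⟨2, by rw [dedekindPsi_three]; norm_num⟩
      exact ⟨M, a, b, c, Or.inr (Or.inr ⟨rfl, d⟩), e⟩
    · obtain ⟨M, a, b, c, d, e⟩ := key 2 Nat.prime_two (by norm_num) ⟨1, by rw [dedekindPsi_two]; norm_num⟩
      exact ⟨M, a, b, c, Or.inr (Or.inl ⟨rfl, d⟩), e⟩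

end Fermat.Agent.S18.Asm
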