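import Mathlib

set_option autoImplicit false

/-! # S18 [V1]: valued function field data (abstract) -/

namespace Fermat.Agent.S18

open Polynomial IntermediateField

/-- `x` is integral over `K[t]`. -/
def intK (K : Type) {F : Type} [Field K] [Field F] [Algebra K F] (t x : F) : Prop :=
  IsIntegral (Algebra.adjoin K {t}) x

/-- A field `F/L` with a valuation ring `O` whose residue field is `κ/k`, the value group of `F`
being that of `L`. -/
structure VData (L F k κ : Type) [Field L] [Field F] [Algebra L F] [Field k] [Field κ]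
    [Algebra k κ] where
  A : ValuationSubring L
  O : ValuationSubring F
  π : A →+* k
  red : O →+* κ
  π_surj : Function.Surjective π
  red_surj : Function.Surjective red
  mem_iff : ∀ c : L, c ∈ A ↔ algebraMap L F c ∈ O
  red_algebraMap : ∀ (c : A) (h : algebraMap L F (c : L) ∈ O),
    red ⟨algebraMap L F (c : L), h⟩ = algebraMap k κ (π c)
  scale : ∀ x : F, x ≠ 0 → ∃ c : L, c ≠ 0 ∧ ∃ h : algebraMap L F c * x ∈ O,
    red ⟨algebraMap L F c * x, h⟩ ≠ 0

namespace VData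

variable {L F k κ : Type} [Field L] [Field F] [Algebra L F] [Field k] [Field κ] [Algebra k κ]
variable (V : VData L F k κ)

open Classical in
/-- total reduction map (junk value `0` outside `O`). -/
noncomputable def rd (x : F) : κ := if h : x ∈ V.O then V.red ⟨x, h⟩ else 0

theorem rd_of_mem {x : F} (h : x ∈ V.O) : V.rd x = V.red ⟨x, h⟩ := by
  rw [rd, dif_pos h]

theorem rd_of_not_mem {x : F} (h : x ∉ V.O) : V.rd x = 0 := by
  rw [rd, dif_neg h]

@[simp] theorem rd_zero : V.rd 0 = 0 := by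
  rw [V.rd_of_mem (zero_mem V.O)]; exact map_zero V.red

@[simp] theorem rd_one : V.rd 1 = 1 := by
  rw [V.rd_of_mem (one_mem V.O)]; exact map_one V.red

theorem rd_add {x y : F} (hx : x ∈ V.O) (hy : y ∈ V.O) : V.rd (x + y) = V.rd x + V.rd y := by
  rw [V.rd_of_mem hx, V.rd_of_mem hy, V.rd_of_mem (add_mem hx hy), ← map_add]; rfl

theorem rd_mul {x y : F} (hx : x ∈ V.O) (hy : y ∈ V.O) : V.rd (x * y) = V.rd x * V.rd y := by
  rw [V.rd_of_mem hx, V.rd_of_mem hy, V.rd_of_mem (mul_mem hx hy), ← map_mul]; rfl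

theorem rd_neg {x : F} (hx : x ∈ V.O) : V.rd (-x) = - V.rd x := by
  rw [V.rd_of_mem hx, V.rd_of_mem (neg_mem hx), ← map_neg]; rfl

theorem rd_sub {x y : F} (hx : x ∈ V.O) (hy : y ∈ V.O) : V.rd (x - y) = V.rd x - V.rd y := by
  rw [sub_eq_add_neg, V.rd_add hx (neg_mem hy), V.rd_neg hy, sub_eq_add_neg]

theorem rd_pow {x : F} (hx : x ∈ V.O) (n : ℕ) : V.rd (x ^ n) = V.rd x ^ n := by
  rw [V.rd_of_mem hx, V.rd_of_mem (pow_mem hx n), ← map_pow]; rfl

theorem rd_sum {ι : Type} (s : Finset ι) (f : ι → F) (hf : ∀ i ∈ s, f i ∈ V.O) :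
    V.rd (∑ i ∈ s, f i) = ∑ i ∈ s, V.rd (f i) := by
  classical
  induction s using Finset.induction_on with
  | empty => simp
  | insert a s ha ih =>
    rw [Finset.sum_insert ha, Finset.sum_insert ha,
      V.rd_add (hf a (Finset.mem_insert_self a s))
        (sum_mem fun i hi => hf i (Finset.mem_insert_of_mem hi)),
      ih fun i hi => hf i (Finset.mem_insert_of_mem hi)]

theorem rd_surj (y : κ) : ∃ x ∈ V.O, V.rd x = y := by
  obtain ⟨x, hx⟩ := V.red_surj y
  exact ⟨x, x.2, by rw [V.rd_of_mem x.2]; exact hx⟩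

/-- an element of `O` with nonzero reduction is a unit of `O`. -/
theorem inv_mem_of_rd_ne_zero {x : F} (h : V.rd x ≠ 0) : x⁻¹ ∈ V.O := by
  have hx : x ∈ V.O := by
    by_contra hx
    exact h (V.rd_of_not_mem hx)
  by_contra hinv
  -- then `x` lies in the maximal ideal, whose image is a proper ideal of the field `κ`
  have hnu : ¬ IsUnit (⟨x, hx⟩ : V.O) := by
    intro hu
    obtain ⟨u, hu⟩ := hu
    apply hinv
    have h1 : x * ((u⁻¹ : V.Oˣ) : V.O) = 1 := by
      have := congrArg (Subtype.val) (Units.mul_inv u)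
      rw [hu] at this
      simpa using this
    have : x⁻¹ = ((u⁻¹ : V.Oˣ) : V.O) := inv_eq_of_mul_eq_one_right h1
    rw [this]; exact SetLike.coe_mem _
  have hker : RingHom.ker V.red = IsLocalRing.maximalIdeal V.O := by
    have := RingHom.ker_isMaximal_of_surjective V.red V.red_surj
    exact IsLocalRing.eq_maximalIdeal inferInstance
  have : (⟨x, hx⟩ : V.O) ∈ RingHom.ker V.red := by
    rw [hker]; exact (IsLocalRing.mem_maximalIdeal _).2 hnu
  apply h
  rw [V.rd_of_mem hx]; exact this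

theorem mem_of_rd_ne_zero {x : F} (h : V.rd x ≠ 0) : x ∈ V.O := by
  by_contra hx
  exact h (V.rd_of_not_mem hx)

theorem rd_inv {x : F} (h : V.rd x ≠ 0) : V.rd x⁻¹ = (V.rd x)⁻¹ := by
  have hx := V.mem_of_rd_ne_zero h
  have hx' := V.inv_mem_of_rd_ne_zero h
  have hx0 : x ≠ 0 := by rintro rfl; exact h V.rd_zero
  have : V.rd x * V.rd x⁻¹ = 1 := by
    rw [← V.rd_mul hx hx', mul_inv_cancel₀ hx0, V.rd_one]
  exact eq_inv_of_mul_eq_one_right this

/-- if `x ∈ O` and `x⁻¹ ∈ O` then the reduction is nonzero. -/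
theorem rd_ne_zero_of_inv_mem {x : F} (hx0 : x ≠ 0) (hx : x ∈ V.O) (hx' : x⁻¹ ∈ V.O) :
    V.rd x ≠ 0 := by
  intro h
  have : V.rd x * V.rd x⁻¹ = 1 := by
    rw [← V.rd_mul hx hx', mul_inv_cancel₀ hx0, V.rd_one]
  rw [h, zero_mul] at this
  exact zero_ne_one this

theorem rd_zpow {x : F} (h : V.rd x ≠ 0) (n : ℤ) : V.rd (x ^ n) = V.rd x ^ n := by
  have hx := V.mem_of_rd_ne_zero h
  cases n with
  | ofNat n => simpa using V.rd_pow hx n
  | negSucc n =>
    rw [zpow_negSucc, zpow_negSucc, ← inv_pow, V.rd_pow (V.inv_mem_of_rd_ne_zero h), V.rd_inv h,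
      inv_pow]

theorem zpow_mem {x : F} (h : V.rd x ≠ 0) (n : ℤ) : x ^ n ∈ V.O := by
  have hx := V.mem_of_rd_ne_zero h
  cases n with
  | ofNat n => simpa using pow_mem hx n
  | negSucc n =>
    rw [zpow_negSucc, ← inv_pow]; exact pow_mem (V.inv_mem_of_rd_ne_zero h) _

theorem algebraMap_mem {c : L} (hc : c ∈ V.A) : algebraMap L F c ∈ V.O := (V.mem_iff c).1 hc

theorem rd_algebraMap (c : V.A) : V.rd (algebraMap L F (c : L)) = algebraMap k κ (V.π c) := by
  rw [V.rd_of_mem (V.algebraMap_mem c.2)]; exact V.red_algebraMap c _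

/-- `x` or `x⁻¹` is in `O`. -/
theorem mem_or_inv_mem (x : F) : x ∈ V.O ∨ x⁻¹ ∈ V.O := V.O.mem_or_inv_mem x

/-- scaling: every nonzero `x` is `c⁻¹ * u`, `u` a unit of `O`. -/
theorem exists_scale {x : F} (hx : x ≠ 0) :
    ∃ c : L, c ≠ 0 ∧ V.rd (algebraMap L F c * x) ≠ 0 := by
  obtain ⟨c, hc, h, hne⟩ := V.scale x hx
  exact ⟨c, hc, by rw [V.rd_of_mem h]; exact hne⟩

/-- an element of `O` with zero reduction is `a * y`, `a ∈ 𝔪_A`, `y` a unit of `O`. -/
theorem exists_eq_mul_of_rd_eq_zero {x : F} (hx0 : x ≠ 0) (hx : x ∈ V.O) (h : V.rd x = 0) :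
    ∃ (a : V.A) (y : F), V.π a = 0 ∧ (a : L) ≠ 0 ∧ V.rd y ≠ 0 ∧ x = algebraMap L F (a : L) * y := by
  obtain ⟨c, hc, hne⟩ := V.exists_scale hx0
  have hcF : algebraMap L F c ≠ 0 := by simpa using hc
  -- `c⁻¹ ∈ A`
  have hcinv : c⁻¹ ∈ V.A := by
    rw [V.mem_iff, map_inv₀]
    have : (algebraMap L F c)⁻¹ = x * (algebraMap L F c * x)⁻¹ := by
      field_simp
    rw [this]
    exact mul_mem hx (V.inv_mem_of_rd_ne_zero hne)
  refine ⟨⟨c⁻¹, hcinv⟩, algebraMap L F c * x, ?_, inv_ne_zero hc, hne, ?_⟩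
  · have h1 : V.rd x = V.rd (algebraMap L F c⁻¹) * V.rd (algebraMap L F c * x) := by
      rw [← V.rd_mul (V.algebraMap_mem hcinv) (V.mem_of_rd_ne_zero hne)]
      congr 1
      rw [map_inv₀]; field_simp
    rw [h] at h1
    have h2 : V.rd (algebraMap L F c⁻¹) = 0 := by
      rcases mul_eq_zero.1 h1.symm with h2 | h2
      · exact h2
      · exact absurd h2 hne
    have h3 := V.rd_algebraMap ⟨c⁻¹, hcinv⟩
    rw [h2] at h3
    exact (map_eq_zero_iff _ (algebraMap k κ).injective).1 h3.symm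
  · simp only [map_inv₀]; field_simp

end VData

end Fermat.Agent.S18
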