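import Mathlib
import Fermat.Agent.S18.VData

set_option autoImplicit false

/-! # S18 [V1]: Gauss valuation, orthonormal bases, reduction of traces and of integral elements -/

namespace Fermat.Agent.S18

open Polynomial IntermediateField

namespace VData

variable {L F k κ : Type} [Field L] [Field F] [Algebra L F] [Field k] [Field κ] [Algebra k κ]
variable (V : VData L F k κ)

/-- the ring hom `A → O`. -/
def ι : V.A →+* V.O where
  toFun c := ⟨algebraMap L F (c : L), V.algebraMap_mem c.2⟩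
  map_one' := by ext; simp
  map_mul' a b := by ext; simp
  map_zero' := by ext; simp
  map_add' a b := by ext; simp

theorem aeval_eq_eval₂ {t : F} (ht : t ∈ V.O) (P : V.A[X]) :
    aeval t (P.map V.A.subtype) = ((P.eval₂ V.ι ⟨t, ht⟩ : V.O) : F) := by
  have h1 : ((P.eval₂ V.ι ⟨t, ht⟩ : V.O) : F) = V.O.subtype (P.eval₂ V.ι ⟨t, ht⟩) := rfl
  rw [h1, Polynomial.hom_eval₂, aeval_def, eval₂_map]
  rfl

theorem aeval_mem {t : F} (ht : t ∈ V.O) (P : V.A[X]) : aeval t (P.map V.A.subtype) ∈ V.O := by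
  rw [V.aeval_eq_eval₂ ht]; exact SetLike.coe_mem _

theorem rd_aeval {t : F} (ht : t ∈ V.O) (P : V.A[X]) :
    V.rd (aeval t (P.map V.A.subtype)) = aeval (V.rd t) (P.map V.π) := by
  rw [V.rd_of_mem (V.aeval_mem ht P)]
  have h1 : (⟨aeval t (P.map V.A.subtype), V.aeval_mem ht P⟩ : V.O) = P.eval₂ V.ι ⟨t, ht⟩ :=
    Subtype.ext (V.aeval_eq_eval₂ ht P)
  rw [h1, Polynomial.hom_eval₂, aeval_def, eval₂_map, V.rd_of_mem ht]
  congr 1
  ext c
  exact V.red_algebraMap c _

/-- every nonzero polynomial is a constant times a primitive one. -/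
theorem exists_primitive (P : L[X]) (hP : P ≠ 0) :
    ∃ (c : L) (P₁ : V.A[X]), c ≠ 0 ∧ P = C c * P₁.map V.A.subtype ∧ P₁.map V.π ≠ 0 := by
  have hne : P.support.Nonempty := by
    rwa [Finset.nonempty_iff_ne_empty, ne_eq, Polynomial.support_eq_empty]
  obtain ⟨i₀, hi₀, hmax⟩ := Finset.exists_max_image P.support
    (fun i => V.A.valuation (P.coeff i)) hne
  have hc : P.coeff i₀ ≠ 0 := Polynomial.mem_support_iff.1 hi₀
  have hlift : (C (P.coeff i₀)⁻¹ * P) ∈ Polynomial.lifts V.A.subtype := by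
    rw [Polynomial.lifts_iff_coeff_lifts]
    intro n
    rw [coeff_C_mul]
    have : (P.coeff i₀)⁻¹ * P.coeff n ∈ V.A := by
      rw [← ValuationSubring.valuation_le_one_iff, map_mul, map_inv₀]
      by_cases hn : n ∈ P.support
      · have h1 := hmax n hn
        have h2 : 0 < V.A.valuation (P.coeff i₀) :=
          zero_lt_iff.2 ((Valuation.ne_zero_iff _).2 hc)
        rw [inv_mul_le_iff₀ h2, mul_one]
        exact h1
      · rw [Polynomial.notMem_support_iff.1 hn]; simp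
    exact ⟨⟨_, this⟩, rfl⟩
  obtain ⟨P₁, hP₁⟩ := (Polynomial.mem_lifts _).1 hlift
  refine ⟨P.coeff i₀, P₁, hc, ?_, ?_⟩
  · rw [hP₁, ← mul_assoc, ← C_mul, mul_inv_cancel₀ hc, C_1, one_mul]
  · intro h0
    have h1 : (P₁.coeff i₀ : L) = 1 := by
      have := congrArg (fun Q => Q.coeff i₀) hP₁
      simp only [coeff_map, coeff_C_mul] at this
      rw [inv_mul_cancel₀ hc] at this
      exact this
    have h2 : P₁.coeff i₀ = 1 := Subtype.ext h1
    have h3 := congrArg (fun Q => Q.coeff i₀) h0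
    simp only [coeff_map, h2, map_one, coeff_zero] at h3
    exact one_ne_zero h3

section T

variable {t : F} (ht : t ∈ V.O) (htr : Transcendental k (V.rd t))

include htr in
theorem rd_aeval_ne_zero (P₁ : V.A[X]) (h : P₁.map V.π ≠ 0) :
    V.rd (aeval t (P₁.map V.A.subtype)) ≠ 0 := by
  have ht : t ∈ V.O := V.mem_of_rd_ne_zero (fun h0 => htr (h0 ▸ isAlgebraic_zero))
  rw [V.rd_aeval ht]
  exact fun h0 => h ((transcendental_iff.1 htr) _ h0)

include htr in
/-- (G1) -/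
theorem aeval_mem_iff (P : L[X]) : aeval t P ∈ V.O ↔ ∀ i, P.coeff i ∈ V.A := by
  have ht : t ∈ V.O := V.mem_of_rd_ne_zero (fun h0 => htr (h0 ▸ isAlgebraic_zero))
  constructor
  · intro h i
    rcases eq_or_ne P 0 with rfl | hP
    · simp [zero_mem]
    obtain ⟨c, P₁, hc, hPc, hP₁⟩ := V.exists_primitive P hP
    have hu := V.rd_aeval_ne_zero htr P₁ hP₁
    have h1 : algebraMap L F c = aeval t P * (aeval t (P₁.map V.A.subtype))⁻¹ := by
      have h0 : aeval t (P₁.map V.A.subtype) ≠ 0 := by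
        intro h0; rw [h0] at hu; exact hu V.rd_zero
      rw [hPc, map_mul, aeval_C]; field_simp
    have hcA : c ∈ V.A := by
      rw [V.mem_iff, h1]; exact mul_mem h (V.inv_mem_of_rd_ne_zero hu)
    rw [hPc, coeff_C_mul, coeff_map]
    exact mul_mem hcA (P₁.coeff i).2
  · intro h
    have hlift : P ∈ Polynomial.lifts V.A.subtype := by
      rw [Polynomial.lifts_iff_coeff_lifts]
      exact fun n => ⟨⟨_, h n⟩, rfl⟩
    obtain ⟨P₁, hP₁⟩ := (Polynomial.mem_lifts _).1 hlift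
    rw [← hP₁]; exact V.aeval_mem ht P₁

include htr in
theorem transcendental_t : Transcendental L t := by
  rw [transcendental_iff]
  intro P hP
  by_contra hP0
  obtain ⟨c, P₁, hc, hPc, hP₁⟩ := V.exists_primitive P hP0
  have hu := V.rd_aeval_ne_zero htr P₁ hP₁
  rw [hPc, map_mul, aeval_C] at hP
  rcases mul_eq_zero.1 hP with h | h
  · exact hc (by simpa using h)
  · rw [h] at hu; exact hu V.rd_zero

theorem aeval_mem_adjoin_simple {K E : Type} [Field K] [Field E] [Algebra K E] (s : E)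
    (p : K[X]) : aeval s p ∈ K⟮s⟯ :=
  algebra_adjoin_le_adjoin K {s} (Polynomial.aeval_mem_adjoin_singleton K s)

include htr in
/-- reduction maps `O ∩ L(t)` into `k(tbar)`. -/
theorem rd_mem_adjoin {γ : F} (hγ : γ ∈ L⟮t⟯) (hO : γ ∈ V.O) : V.rd γ ∈ k⟮V.rd t⟯ := by
  have ht : t ∈ V.O := V.mem_of_rd_ne_zero (fun h0 => htr (h0 ▸ isAlgebraic_zero))
  obtain ⟨r, s, rfl⟩ := (IntermediateField.mem_adjoin_simple_iff L γ).1 hγ
  rcases eq_or_ne r 0 with rfl | hr
  · simp [zero_mem]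
  rcases eq_or_ne s 0 with rfl | hs
  · simp [zero_mem]
  obtain ⟨c, r₁, hc, hrc, hr₁⟩ := V.exists_primitive r hr
  obtain ⟨d, s₁, hd, hsd, hs₁⟩ := V.exists_primitive s hs
  have hur := V.rd_aeval_ne_zero htr r₁ hr₁
  have hus := V.rd_aeval_ne_zero htr s₁ hs₁
  set ur := aeval t (r₁.map V.A.subtype) with hur_def
  set us := aeval t (s₁.map V.A.subtype) with hus_def
  have hur0 : ur ≠ 0 := by intro h0; rw [h0] at hur; exact hur V.rd_zero
  have hus0 : us ≠ 0 := by intro h0; rw [h0] at hus; exact hus V.rd_zero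
  have hdF : algebraMap L F d ≠ 0 := by simpa using hd
  have hγ' : aeval t r / aeval t s = algebraMap L F (c / d) * (ur * us⁻¹) := by
    rw [hrc, hsd, map_mul, map_mul, aeval_C, aeval_C, map_div₀, ← hur_def, ← hus_def]
    field_simp
  have hcd : c / d ∈ V.A := by
    rw [V.mem_iff]
    have : algebraMap L F (c / d) = (aeval t r / aeval t s) * (us * ur⁻¹) := by
      rw [hγ']; field_simp
    rw [this]
    exact mul_mem hO (mul_mem (V.mem_of_rd_ne_zero hus) (V.inv_mem_of_rd_ne_zero hur))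
  rw [hγ', V.rd_mul (V.algebraMap_mem hcd)
    (mul_mem (V.mem_of_rd_ne_zero hur) (V.inv_mem_of_rd_ne_zero hus)),
    V.rd_mul (V.mem_of_rd_ne_zero hur) (V.inv_mem_of_rd_ne_zero hus), V.rd_inv hus,
    V.rd_algebraMap ⟨c / d, hcd⟩, hur_def, hus_def, V.rd_aeval ht, V.rd_aeval ht]
  exact mul_mem (_root_.algebraMap_mem _ _) (mul_mem (aeval_mem_adjoin_simple _ _)
    (inv_mem (aeval_mem_adjoin_simple _ _)))

end T

section ON

variable {t : F} (htr : Transcendental k (V.rd t))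
variable {n : ℕ} (w : Fin n → F) (hw : ∀ i, w i ∈ V.O)
  (hli : LinearIndependent k⟮V.rd t⟯ (fun i => V.rd (w i)))

include htr hw hli in
theorem rd_sum_ne_zero (γ : Fin n → L⟮t⟯) (hγ : ∀ i, (γ i : F) ∈ V.O) (i₀ : Fin n)
    (h1 : γ i₀ = 1) : V.rd (∑ i, (γ i : F) * w i) ≠ 0 := by
  intro h0
  rw [V.rd_sum _ _ (fun i _ => mul_mem (hγ i) (hw i))] at h0
  let c : Fin n → k⟮V.rd t⟯ := fun i => ⟨V.rd (γ i : F), V.rd_mem_adjoin htr (γ i).2 (hγ i)⟩
  have h2 : ∑ i, c i • V.rd (w i) = 0 := by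
    rw [← h0]
    refine Finset.sum_congr rfl fun i _ => ?_
    rw [V.rd_mul (hγ i) (hw i)]
    rfl
  have h3 := (Fintype.linearIndependent_iff.1 hli) c h2 i₀
  have h4 : (c i₀ : κ) = 1 := by
    show V.rd (γ i₀ : F) = 1
    rw [h1]; simp
  rw [h3] at h4
  exact zero_ne_one h4

theorem exists_max_index (g : Fin n → L⟮t⟯) (i₁ : Fin n) :
    ∃ i₀, V.O.valuation (g i₁ : F) ≤ V.O.valuation (g i₀ : F) ∧
      (g i₀ ≠ 0 → ∀ i, ((g i / g i₀ : L⟮t⟯) : F) ∈ V.O) := by
  obtain ⟨i₀, -, hmax⟩ := Finset.exists_max_image Finset.univ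
    (fun i => V.O.valuation (g i : F)) ⟨i₁, Finset.mem_univ _⟩
  refine ⟨i₀, hmax i₁ (Finset.mem_univ _), fun h0 i => ?_⟩
  have h0' : (g i₀ : F) ≠ 0 := by simpa using h0
  rw [← ValuationSubring.valuation_le_one_iff]
  push_cast
  rw [map_div₀, div_le_one₀ (zero_lt_iff.2 ((Valuation.ne_zero_iff _).2 h0'))]
  exact hmax i (Finset.mem_univ _)

include htr hw hli in
/-- (ON) -/
theorem mem_of_sum_mem (γ : Fin n → L⟮t⟯) (h : ∑ i, (γ i : F) * w i ∈ V.O) (i : Fin n) :
    (γ i : F) ∈ V.O := by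
  by_contra hi
  obtain ⟨i₀, hle, hdiv⟩ := V.exists_max_index γ i
  have hi₀ : (γ i₀ : F) ∉ V.O := by
    intro hmem
    apply hi
    rw [← ValuationSubring.valuation_le_one_iff] at hmem ⊢
    exact hle.trans hmem
  have h0 : γ i₀ ≠ 0 := by
    intro h0; apply hi₀; rw [h0]; simp [zero_mem]
  have h0' : (γ i₀ : F) ≠ 0 := by simpa using h0
  have hy := V.rd_sum_ne_zero htr w hw hli (fun i => γ i / γ i₀) (hdiv h0) i₀ (div_self h0)
  apply hi₀
  have : (γ i₀ : F) = (∑ i, (γ i : F) * w i) *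
      (∑ i, ((γ i / γ i₀ : L⟮t⟯) : F) * w i)⁻¹ := by
    have h2 : ∑ i, (γ i : F) * w i = (γ i₀ : F) * ∑ i, ((γ i / γ i₀ : L⟮t⟯) : F) * w i := by
      rw [Finset.mul_sum]
      refine Finset.sum_congr rfl fun i _ => ?_
      push_cast
      field_simp
    have h3 : (∑ i, ((γ i / γ i₀ : L⟮t⟯) : F) * w i) ≠ 0 := by
      intro h3; rw [h3] at hy; exact hy V.rd_zero
    rw [h2]; field_simp
  rw [this]
  exact mul_mem h (V.inv_mem_of_rd_ne_zero hy)

include htr hw hli in
theorem linearIndependent_lift : LinearIndependent L⟮t⟯ w := by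
  rw [Fintype.linearIndependent_iff]
  intro g hg i
  by_contra hi
  obtain ⟨i₀, hle, hdiv⟩ := V.exists_max_index g i
  have h0 : g i₀ ≠ 0 := by
    intro h0
    rw [h0] at hle
    have : V.O.valuation (g i : F) = 0 := by simpa using hle
    exact hi (by simpa using this)
  have h0' : (g i₀ : F) ≠ 0 := by simpa using h0
  have hy := V.rd_sum_ne_zero htr w hw hli (fun i => g i / g i₀) (hdiv h0) i₀ (div_self h0)
  apply hy
  have h2 : ∑ i, ((g i / g i₀ : L⟮t⟯) : F) * w i = (g i₀ : F)⁻¹ * ∑ i, g i • w i := by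
    rw [Finset.mul_sum]
    refine Finset.sum_congr rfl fun i _ => ?_
    rw [IntermediateField.smul_def]
    push_cast
    rw [smul_eq_mul]
    field_simp
  rw [h2, hg, mul_zero, V.rd_zero]

end ON

/-- a pair of compatible bases. -/
structure ONBasis (V : VData L F k κ) (t : F) (n : ℕ) where
  b : Module.Basis (Fin n) L⟮t⟯ F
  bb : Module.Basis (Fin n) k⟮V.rd t⟯ κ
  mem : ∀ i, b i ∈ V.O
  rd_eq : ∀ i, V.rd (b i) = bb i

section Bases

variable {t : F} (htr : Transcendental k (V.rd t))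

include htr in
theorem exists_onBasis [FiniteDimensional L⟮t⟯ F]
    (hn : Module.finrank L⟮t⟯ F = Module.finrank k⟮V.rd t⟯ κ) :
    Nonempty (ONBasis V t (Module.finrank L⟮t⟯ F)) := by
  have hpos : 0 < Module.finrank k⟮V.rd t⟯ κ := hn ▸ Module.finrank_pos
  have : FiniteDimensional k⟮V.rd t⟯ κ := Module.finite_of_finrank_pos hpos
  have : Nonempty (Fin (Module.finrank L⟮t⟯ F)) := ⟨⟨0, Module.finrank_pos⟩⟩
  let bb0 := Module.finBasis k⟮V.rd t⟯ κ
  let bb : Module.Basis (Fin (Module.finrank L⟮t⟯ F)) k⟮V.rd t⟯ κ :=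
    bb0.reindex (finCongr hn.symm)
  choose w hw hwr using fun i => V.rd_surj (bb i)
  have hli : LinearIndependent k⟮V.rd t⟯ (fun i => V.rd (w i)) := by
    have : (fun i => V.rd (w i)) = bb := funext hwr
    rw [this]; exact bb.linearIndependent
  have hli' := V.linearIndependent_lift htr w hw hli
  let b := basisOfLinearIndependentOfCardEqFinrank hli' (by simp)
  exact ⟨⟨b, bb, fun i => by simpa [b] using hw i, fun i => by simpa [b] using hwr i⟩⟩

variable {n : ℕ} (B : ONBasis V t n)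

include htr in
theorem ONBasis.repr_mem {x : F} (hx : x ∈ V.O) (i : Fin n) : ((B.b.repr x i : L⟮t⟯) : F) ∈ V.O := by
  have hli : LinearIndependent k⟮V.rd t⟯ (fun i => V.rd (B.b i)) := by
    have : (fun i => V.rd (B.b i)) = B.bb := funext B.rd_eq
    rw [this]; exact B.bb.linearIndependent
  refine V.mem_of_sum_mem htr B.b B.mem hli (fun i => B.b.repr x i) ?_ i
  have : ∑ i, ((B.b.repr x i : L⟮t⟯) : F) * B.b i = x := by
    conv_rhs => rw [← B.b.sum_repr x]
    rfl
  rw [this]; exact hx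

include htr in
theorem ONBasis.rd_repr {x : F} (hx : x ∈ V.O) (i : Fin n) :
    V.rd ((B.b.repr x i : L⟮t⟯) : F) = ((B.bb.repr (V.rd x) i : k⟮V.rd t⟯) : κ) := by
  let c : Fin n → k⟮V.rd t⟯ := fun i =>
    ⟨V.rd ((B.b.repr x i : L⟮t⟯) : F), V.rd_mem_adjoin htr (B.b.repr x i).2 (B.repr_mem V htr hx i)⟩
  have h1 : V.rd x = ∑ i, c i • B.bb i := by
    have : x = ∑ i, ((B.b.repr x i : L⟮t⟯) : F) * B.b i := by
      conv_lhs => rw [← B.b.sum_repr x]
      rfl
    conv_lhs => rw [this]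
    rw [V.rd_sum _ _ (fun i _ => mul_mem (B.repr_mem V htr hx i) (B.mem i))]
    refine Finset.sum_congr rfl fun i _ => ?_
    rw [V.rd_mul (B.repr_mem V htr hx i) (B.mem i), B.rd_eq]
    rfl
  rw [h1, B.bb.repr_sum_self]

include htr B in
/-- (TR) -/
theorem ONBasis.trace_mem {x : F} (hx : x ∈ V.O) :
    ((Algebra.trace L⟮t⟯ F x : L⟮t⟯) : F) ∈ V.O := by
  rw [Algebra.trace_eq_matrix_trace B.b, Matrix.trace]
  simp only [Matrix.diag_apply, Algebra.leftMulMatrix_eq_repr_mul]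
  push_cast
  exact sum_mem fun i _ => B.repr_mem V htr (mul_mem hx (B.mem i)) i

include htr B in
theorem ONBasis.rd_trace {x : F} (hx : x ∈ V.O) :
    V.rd ((Algebra.trace L⟮t⟯ F x : L⟮t⟯) : F) =
      ((Algebra.trace k⟮V.rd t⟯ κ (V.rd x) : k⟮V.rd t⟯) : κ) := by
  rw [Algebra.trace_eq_matrix_trace B.b, Algebra.trace_eq_matrix_trace B.bb, Matrix.trace,
    Matrix.trace]
  simp only [Matrix.diag_apply, Algebra.leftMulMatrix_eq_repr_mul]
  push_cast
  rw [V.rd_sum _ _ (fun i _ => B.repr_mem V htr (mul_mem hx (B.mem i)) i)]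
  refine Finset.sum_congr rfl fun i _ => ?_
  rw [B.rd_repr V htr (mul_mem hx (B.mem i)), V.rd_mul hx (B.mem i), B.rd_eq]

end Bases

end VData

end Fermat.Agent.S18
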