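import Mathlib
import Fermat.Agent.S18.Gauss

set_option autoImplicit false

/-! # S18 [V1]: reduction of integral elements -/

namespace Fermat.Agent.S18

open Polynomial IntermediateField

namespace VData

variable {L F k κ : Type} [Field L] [Field F] [Algebra L F] [Field k] [Field κ] [Algebra k κ]
variable (V : VData L F k κ)

section INT

open scoped IntermediateField.algebraAdjoinAdjoin

variable {t : F} (htr : Transcendental k (V.rd t)) {n : ℕ} (B : ONBasis V t n)

include htr B in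
/-- the coefficients of the minimal polynomial over `L(t)` of an element of `O` lie in `O`. -/
theorem ONBasis.minpoly_coeff_mem {x : F} (hx : x ∈ V.O) (i : ℕ) :
    (((minpoly L⟮t⟯ x).coeff i : L⟮t⟯) : F) ∈ V.O := by
  let OE : ValuationSubring L⟮t⟯ := V.O.comap (algebraMap L⟮t⟯ F)
  let M : Matrix (Fin n) (Fin n) OE := fun i j =>
    ⟨Algebra.leftMulMatrix B.b x i j, by
      show ((Algebra.leftMulMatrix B.b x i j : L⟮t⟯) : F) ∈ V.O
      rw [Algebra.leftMulMatrix_eq_repr_mul]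
      exact B.repr_mem V htr (mul_mem hx (B.mem j)) i⟩
  have hM : M.map (algebraMap OE L⟮t⟯) = Algebra.leftMulMatrix B.b x := by
    ext i j; rfl
  have hdvd : minpoly L⟮t⟯ x ∣ M.charpoly.map (algebraMap OE L⟮t⟯) := by
    apply minpoly.dvd
    rw [← Matrix.charpoly_map, hM]
    apply Algebra.leftMulMatrix_injective B.b
    rw [← Polynomial.aeval_algHom_apply, Matrix.aeval_self_charpoly, map_zero]
  obtain ⟨g', hg'⟩ := IsIntegrallyClosed.eq_map_mul_C_of_dvd L⟮t⟯ (Matrix.charpoly_monic M) hdvd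
  have : FiniteDimensional L⟮t⟯ F := Module.Finite.of_basis B.b
  have hmonic : (minpoly L⟮t⟯ x).Monic := minpoly.monic (Algebra.IsIntegral.isIntegral x)
  rw [hmonic.leadingCoeff, C_1, mul_one] at hg'
  rw [← hg', coeff_map]
  exact (g'.coeff i).2

include htr B in
/-- (INT) -/
theorem ONBasis.intK_rd {x : F} (hx : x ∈ V.O) (hint : intK L t x) : intK k (V.rd t) (V.rd x) := by
  have ht : t ∈ V.O := V.mem_of_rd_ne_zero (fun h0 => htr (h0 ▸ isAlgebraic_zero))
  have htL := V.transcendental_t htr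
  let e0 := Polynomial.algEquivOfTranscendental L t htL
  have : IsPrincipalIdealRing (Algebra.adjoin L {t}) :=
    IsPrincipalIdealRing.of_surjective e0.toRingEquiv e0.surjective
  have hmin : minpoly L⟮t⟯ x = (minpoly (Algebra.adjoin L {t}) x).map
      (algebraMap (Algebra.adjoin L {t}) L⟮t⟯) :=
    minpoly.isIntegrallyClosed_eq_field_fractions' L⟮t⟯ hint
  set μ := minpoly L⟮t⟯ x with hμ
  have : FiniteDimensional L⟮t⟯ F := Module.Finite.of_basis B.b
  have hmonic : μ.Monic := minpoly.monic (Algebra.IsIntegral.isIntegral x)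
  -- each coefficient reduces into `k[tbar]`
  have hcoef : ∀ i, V.rd ((μ.coeff i : L⟮t⟯) : F) ∈ Algebra.adjoin k {V.rd t} := by
    intro i
    have h1 : ((μ.coeff i : L⟮t⟯) : F) ∈ Algebra.adjoin L {t} := by
      rw [hmin, coeff_map]
      exact ((minpoly (Algebra.adjoin L {t}) x).coeff i).2
    obtain ⟨P, hP⟩ := Algebra.adjoin_mem_exists_aeval _ _ h1
    have h2 : ((μ.coeff i : L⟮t⟯) : F) ∈ V.O := B.minpoly_coeff_mem V htr hx i
    rw [← hP] at h2 ⊢
    have h3 := (V.aeval_mem_iff htr P).1 h2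
    have hlift : P ∈ Polynomial.lifts V.A.subtype := by
      rw [Polynomial.lifts_iff_coeff_lifts]
      exact fun n => ⟨⟨_, h3 n⟩, rfl⟩
    obtain ⟨P₁, hP₁⟩ := (Polynomial.mem_lifts _).1 hlift
    rw [← hP₁, V.rd_aeval ht]
    exact Polynomial.aeval_mem_adjoin_singleton k _
  let d := μ.natDegree
  let a : Fin d → Algebra.adjoin k {V.rd t} := fun i => ⟨V.rd ((μ.coeff i : L⟮t⟯) : F), hcoef i⟩
  refine ⟨X ^ d + ∑ i : Fin d, C (a i) * X ^ (i : ℕ),
    Polynomial.monic_X_pow_add (Polynomial.degree_sum_fin_lt a), ?_⟩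
  have h0 : aeval x μ = 0 := minpoly.aeval _ _
  have h1 : x ^ d + ∑ i : Fin d, ((μ.coeff i : L⟮t⟯) : F) * x ^ (i : ℕ) = 0 := by
    rw [← h0]
    conv_rhs => rw [hmonic.as_sum]
    simp only [map_add, map_pow, aeval_X, map_sum, map_mul, aeval_C]
    rw [Finset.sum_range]
    rfl
  have hcm : ∀ i : ℕ, ((μ.coeff i : L⟮t⟯) : F) ∈ V.O := fun i => B.minpoly_coeff_mem V htr hx i
  have h2 := congrArg V.rd h1
  have hs : ∑ i : Fin d, ((μ.coeff i : L⟮t⟯) : F) * x ^ (i : ℕ) ∈ V.O :=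
    sum_mem fun i _ => mul_mem (hcm i) (pow_mem hx _)
  rw [V.rd_zero, V.rd_add (pow_mem hx d) hs, V.rd_pow hx,
    V.rd_sum Finset.univ (fun i : Fin d => ((μ.coeff i : L⟮t⟯) : F) * x ^ (i : ℕ))
      (fun i _ => mul_mem (hcm i) (pow_mem hx _))] at h2
  rw [eval₂_add, eval₂_pow, eval₂_X, eval₂_finsetSum, ← h2]
  congr 1
  refine Finset.sum_congr rfl fun i _ => ?_
  rw [eval₂_mul, eval₂_C, eval₂_pow, eval₂_X,
    V.rd_mul (hcm i) (pow_mem hx _), V.rd_pow hx]
  rfl

end INT

end VData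

end Fermat.Agent.S18
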