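import Mathlib
import Fermat.Agent.S18.LSpace

set_option autoImplicit false

/-! # S18: the twisted spaces `V(a,b) = {s | s^p f ∈ L(pa,pb)}` -/

namespace Fermat.Agent.S18

section Twist

variable {K : Type*} {F : Type*} [Field K] [Field F] [Algebra K F]

theorem mixed_mem {t f : F} (ht : t ≠ 0) {p : ℕ} (hp : 0 < p) {a b : ℤ} {s s' : F}
    (hs : s ^ p * f ∈ Lsp K t (p * a) (p * b)) (hs' : s' ^ p * f ∈ Lsp K t (p * a) (p * b))
    {i j : ℕ} (hij : i + j = p) : s ^ i * s' ^ j * f ∈ Lsp K t (p * a) (p * b) := by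
  apply mem_Lsp_of_pow hp
  have h1 := Lsp_mul ht (Lsp_pow ht hs i) (Lsp_pow ht hs' j)
  have h2 : (s ^ i * s' ^ j * f) ^ p = (s ^ p * f) ^ i * (s' ^ p * f) ^ j := by
    subst hij
    ring
  rw [h2]
  have e1 : (i : ℤ) * (p * a) + j * (p * a) = p * (p * a) := by
    have : (i : ℤ) + j = p := by exact_mod_cast hij
    rw [← add_mul, this]
  have e2 : (i : ℤ) * (p * b) + j * (p * b) = p * (p * b) := by
    have : (i : ℤ) + j = p := by exact_mod_cast hij
    rw [← add_mul, this]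
  rwa [e1, e2] at h1

variable (K)

/-- `V(a,b) = {s | s^p f ∈ L(pa,pb)}`. -/
def Vsp (t f : F) (ht : t ≠ 0) (p : ℕ) (hp : 0 < p) (a b : ℤ) : Submodule K F where
  carrier := {s | s ^ p * f ∈ Lsp K t (p * a) (p * b)}
  add_mem' := by
    intro s s' hs hs'
    simp only [Set.mem_ofPred_eq] at hs hs' ⊢
    rw [add_pow, Finset.sum_mul]
    refine Submodule.sum_mem _ fun m hm => ?_
    have hm' : m + (p - m) = p := by
      have := Finset.mem_range.mp hm
      omega
    have h := mixed_mem ht hp hs hs' hm'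
    have e : s ^ m * s' ^ (p - m) * ((p.choose m : ℕ) : F) * f
        = (p.choose m) • (s ^ m * s' ^ (p - m) * f) := by
      rw [nsmul_eq_mul]; ring
    rw [e]
    exact Submodule.smul_of_tower_mem _ _ h
  zero_mem' := by
    simp only [Set.mem_ofPred_eq]
    rw [zero_pow hp.ne', zero_mul]
    exact zero_mem _
  smul_mem' := by
    intro c s hs
    simp only [Set.mem_ofPred_eq] at hs ⊢
    rw [smul_pow, smul_mul_assoc]
    exact Submodule.smul_mem _ _ hs

variable {K}

theorem mem_Vsp {t f : F} {ht : t ≠ 0} {p : ℕ} {hp : 0 < p} {a b : ℤ} {s : F} :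
    s ∈ Vsp K t f ht p hp a b ↔ s ^ p * f ∈ Lsp K t (p * a) (p * b) := Iff.rfl

theorem Vsp_mono {t f : F} (ht : t ≠ 0) {p : ℕ} (hp : 0 < p) {a a' b b' : ℤ} (ha : a ≤ a')
    (hb : b ≤ b') : Vsp K t f ht p hp a b ≤ Vsp K t f ht p hp a' b' := by
  intro s hs
  rw [mem_Vsp] at hs ⊢
  have hp' : (0 : ℤ) ≤ p := by positivity
  exact Lsp_mono ht (mul_le_mul_of_nonneg_left ha hp') (mul_le_mul_of_nonneg_left hb hp') hs

theorem Vsp_inf_le {t f : F} (ht : t ≠ 0) {p : ℕ} (hp : 0 < p) (a a' b b' : ℤ) :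
    Vsp K t f ht p hp a b ⊓ Vsp K t f ht p hp a' b' ≤ Vsp K t f ht p hp (min a a') (min b b') := by
  rintro s ⟨⟨h1, h2⟩, ⟨h3, h4⟩⟩
  refine ⟨?_, ?_⟩
  · rcases min_choice b b' with h | h <;> rw [h] <;> assumption
  · rcases min_choice a a' with h | h <;> rw [h] <;> assumption

theorem Vsp_mul_Lsp {t f : F} (ht : t ≠ 0) {p : ℕ} (hp : 0 < p) {a a' b b' : ℤ} {s u : F}
    (hs : s ∈ Vsp K t f ht p hp a b) (hu : u ∈ Lsp K t a' b') :
    s * u ∈ Vsp K t f ht p hp (a + a') (b + b') := by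
  rw [mem_Vsp] at hs ⊢
  have h := Lsp_mul ht hs (Lsp_pow ht hu p)
  have e : (s * u) ^ p * f = s ^ p * f * u ^ p := by ring
  rw [e, mul_add, mul_add]
  exact h

/-- `V(a,b)` is finite dimensional as soon as `L(pa,pb)` is. -/
theorem finiteDimensional_Vsp {t f : F} (ht : t ≠ 0) (hf : f ≠ 0) {p : ℕ} (hp : 0 < p) (a b : ℤ)
    [FiniteDimensional K (Lsp K t (p * a) (p * b))] :
    FiniteDimensional K (Vsp K t f ht p hp a b) := by
  by_cases h0 : ∃ s₀ ∈ Vsp K t f ht p hp a b, s₀ ≠ 0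
  · obtain ⟨s₀, hs₀, hne⟩ := h0
    have hmem : ∀ s : Vsp K t f ht p hp a b, (s : F) * (s₀ ^ (p - 1) * f) ∈
        Lsp K t (p * a) (p * b) := by
      intro s
      have := mixed_mem ht hp (mem_Vsp.mp s.2) (mem_Vsp.mp hs₀) (i := 1) (j := p - 1) (by omega)
      rw [pow_one, mul_assoc] at this
      exact this
    let φ : Vsp K t f ht p hp a b →ₗ[K] Lsp K t (p * a) (p * b) :=
      { toFun := fun s => ⟨(s : F) * (s₀ ^ (p - 1) * f), hmem s⟩
        map_add' := fun x y => by
          ext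
          simp [add_mul]
        map_smul' := fun c x => by
          ext
          simp [smul_mul_assoc] }
    have hφ : Function.Injective φ := by
      intro x y hxy
      have h1 : (x : F) * (s₀ ^ (p - 1) * f) = (y : F) * (s₀ ^ (p - 1) * f) :=
        congrArg Subtype.val hxy
      exact Subtype.ext (mul_right_cancel₀ (mul_ne_zero (pow_ne_zero _ hne) hf) h1)
    exact FiniteDimensional.of_injective φ hφ
  · push Not at h0
    have : Vsp K t f ht p hp a b = ⊥ := by
      rw [eq_bot_iff]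
      intro s hs
      exact (Submodule.mem_bot K).mpr (h0 s hs)
    rw [this]
    infer_instance

end Twist

end Fermat.Agent.S18
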