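import Mathlib
import Fermat.Agent.S18.R1c
import Fermat.Agent.S18.Twist

set_option autoImplicit false
set_option linter.unusedSectionVars false
set_option linter.style.haveILetI false

/-! # S18 [R1], part d: Riemann's inequality for the twisted spaces `Vsp`. -/

namespace Fermat.Agent.S18.R1

open AlgebraicCurve IntermediateField IsDedekindDomain Fermat.Agent.S24
open scoped Classical
open scoped IntermediateField.algebraAdjoinAdjoin

theorem exists_finsupp {α : Type} (G : α → ℤ) (h0 : ∀ P, 0 ≤ G P)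
    (hfin : (Function.support G).Finite) :
    ∃ Gf : α →₀ ℕ, (∀ P, (Gf P : ℤ) = G P) ∧ ((Gf.sum fun _ n => n : ℕ) : ℤ) = ∑ᶠ P, G P := by
  have hs : (Function.support fun P => (G P).toNat).Finite := by
    refine hfin.subset ?_
    intro P hP
    rw [Function.mem_support] at hP ⊢
    intro h
    rw [h] at hP
    exact hP rfl
  refine ⟨Finsupp.ofSupportFinite (fun P => (G P).toNat) hs, fun P => ?_, ?_⟩
  · show (((G P).toNat : ℕ) : ℤ) = G P
    exact Int.toNat_of_nonneg (h0 P)
  · rw [Finsupp.sum, Nat.cast_sum]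
    rw [finsum_eq_sum_of_support_subset (s := (Finsupp.ofSupportFinite (fun P => (G P).toNat) hs).support)]
    · refine Finset.sum_congr rfl fun P _ => ?_
      show (((G P).toNat : ℕ) : ℤ) = G P
      exact Int.toNat_of_nonneg (h0 P)
    · intro P hP
      rw [Finset.mem_coe, Finsupp.mem_support_iff]
      show (G P).toNat ≠ 0
      rw [Function.mem_support] at hP
      have := h0 P
      omega

variable {K F : Type} [Field K] [Field F] [Algebra K F] [IsAlgClosed K] [CharZero K]

theorem Lsp_eq_Lof (t : F) (ht : Transcendental K t) [FiniteDimensional K⟮t⟯ F] (a b : ℤ) :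
    Lsp K t a b = Lof (Efun (K := K) t a b) := by
  ext x
  rw [mem_Lof_Efun_iff t ht]
  rfl

theorem Vsp_eq_Lof (t : F) (ht : Transcendental K t) (ht0 : t ≠ 0) [FiniteDimensional K⟮t⟯ F]
    (f : F) (hf : f ≠ 0) (p : ℕ) (hp : 0 < p) (hdiv : ∀ P : Place K F, (p : ℤ) ∣ P.ord f)
    (a b : ℤ) :
    Vsp K t f ht0 p hp a b = Lof (fun P : Place K F => Efun t a b P + P.ord f / p) := by
  ext s
  rw [mem_Vsp, Lsp_eq_Lof t ht]
  by_cases hs : s = 0
  · subst hs
    simp [hp.ne']
  rw [mem_Lof_of_ne hs, mem_Lof_of_ne (mul_ne_zero (pow_ne_zero _ hs) hf)]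
  refine forall_congr' fun P => ?_
  rw [P.ord_mul (pow_ne_zero _ hs) hf, ord_pow, Efun_mul]
  obtain ⟨c, hc⟩ := hdiv P
  have hp' : (0 : ℤ) < p := by exact_mod_cast hp
  rw [hc, Int.mul_ediv_cancel_left _ hp'.ne']
  constructor
  · intro h
    have : (p : ℤ) * (-(Efun t a b P + c)) ≤ p * P.ord s := by linarith
    exact le_of_mul_le_mul_left this hp'
  · intro h
    have : (p : ℤ) * (-(Efun t a b P + c)) ≤ p * P.ord s := mul_le_mul_of_nonneg_left h hp'.le
    linarith

theorem finsum_pole (t : F) (ht : Transcendental K t) [FiniteDimensional K⟮t⟯ F] :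
    ∑ᶠ P : Place K F, max (-(P.ord t)) 0 = (Module.finrank K⟮t⟯ F : ℤ) := by
  haveI : FiniteDimensional K⟮t⁻¹⟯ F := by rw [adjoin_inv']; infer_instance
  have h := sum_ord_zeroSet t⁻¹ (transcendental_inv ht)
  have h6 : Module.finrank K⟮t⁻¹⟯ F = Module.finrank K⟮t⟯ F := by
    rw [adjoin_inv']
  rw [h6, finsum_mem_def] at h
  rw [← h]
  refine finsum_congr fun P => ?_
  by_cases hP : P ∈ zeroSet K t⁻¹
  · rw [Set.indicator_of_mem hP]
    have : 0 < P.ord t⁻¹ := hP
    rw [P.ord_inv] at this ⊢
    exact max_eq_left this.le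
  · rw [Set.indicator_of_notMem hP]
    have : ¬ 0 < P.ord t⁻¹ := hP
    rw [P.ord_inv] at this
    exact max_eq_right (by omega)

theorem support_pole_finite (t : F) (ht : Transcendental K t) [FiniteDimensional K⟮t⟯ F] :
    (Function.support fun P : Place K F => max (-(P.ord t)) 0).Finite := by
  have ht0 : t ≠ 0 := by
    rintro rfl
    exact ht isAlgebraic_zero
  refine (finite_support_ord t ht t ht0).subset ?_
  intro P hP
  rw [Function.mem_support] at hP
  show P.ord t ≠ 0
  intro h
  rw [h] at hP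
  simp at hP

/-- every `f` is a quotient `f₁ / f₂` of elements integral over `K[t]`. -/
theorem exists_num (t : F) (ht : Transcendental K t) [FiniteDimensional K⟮t⟯ F] (f : F)
    (hf : f ≠ 0) : ∃ f₁ f₂ : F, f₁ ≠ 0 ∧ f₂ ≠ 0 ∧ f = f₁ / f₂ ∧
      IsIntegral (Algebra.adjoin K {t}) f₁ ∧ IsIntegral (Algebra.adjoin K {t}) f₂ := by
  haveI : IsFractionRing (integralClosure (Algebra.adjoin K {t}) F) F :=
    integralClosure.isFractionRing_of_finite_extension K⟮t⟯ F
  obtain ⟨a, s, hs, rfl⟩ :=
    IsFractionRing.div_surjective (A := integralClosure (Algebra.adjoin K {t}) F) f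
  refine ⟨a, s, ?_, ?_, rfl, a.2, s.2⟩
  · rintro h
    apply hf
    have : algebraMap (integralClosure (Algebra.adjoin K {t}) F) F a = 0 := h
    rw [this, zero_div]
  · rintro h
    apply hf
    have : algebraMap (integralClosure (Algebra.adjoin K {t}) F) F s = 0 := h
    rw [this, div_zero]

end Fermat.Agent.S18.R1
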