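import Mathlib
import Fermat.Agent.S18.R1d

set_option autoImplicit false
set_option linter.unusedSectionVars false
set_option linter.style.haveILetI false

/-! # S18 [R1]: Riemann's inequality for the twisted spaces `Vsp`. -/

namespace Fermat.Agent.S18.R1

open AlgebraicCurve IntermediateField IsDedekindDomain Fermat.Agent.S24
open scoped Classical

variable {K F : Type} [Field K] [Field F] [Algebra K F] [IsAlgClosed K] [CharZero K]

/-- **[R1]**.  If `dim L(a,b) = (a+b) n + 1 - g` for `a + b ≥ m₀` and every `ord_P f` is divisible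
by `p`, then `dim V(a,b) ≥ (a+b) n + 1 - g` for `a + b ≥ m₀`. -/
theorem finrank_Vsp_ge (t : F) (ht : Transcendental K t) (ht0 : t ≠ 0) [FiniteDimensional K⟮t⟯ F]
    (f : F) (hf : f ≠ 0) (p : ℕ) (hp : 0 < p) (hdiv : ∀ P : Place K F, (p : ℤ) ∣ P.ord f)
    (g m₀ : ℤ)
    (hL : ∀ a b : ℤ, m₀ ≤ a + b →
      (Module.finrank K (Lsp K t a b) : ℤ) = (a + b) * Module.finrank K⟮t⟯ F + 1 - g)
    (a b : ℤ) (hab : m₀ ≤ a + b) :
    (a + b) * Module.finrank K⟮t⟯ F + 1 - g ≤ (Module.finrank K (Vsp K t f ht0 p hp a b) : ℤ) := by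
  have hp' : (0 : ℤ) < p := by exact_mod_cast hp
  obtain ⟨f₁, f₂, hf₁, hf₂, hff, hi₁, hi₂⟩ := exists_num t ht f hf
  rw [isIntegral_adjoin_iff t ht] at hi₁ hi₂
  -- the bound at the poles of `t`
  have hpol : {P : Place K F | P.ord t < 0}.Finite := by
    refine (finite_support_ord t ht t ht0).subset ?_
    intro P hP
    have : P.ord t < 0 := hP
    show P.ord t ≠ 0
    omega
  obtain ⟨A₀, hA₀⟩ := (hpol.image (fun P : Place K F => P.ord f / p - P.ord f₁)).bddAbove
  set A₁ : ℤ := max A₀ 0 with hA₁
  have hA₁0 : 0 ≤ A₁ := le_max_right _ _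
  set G : Place K F → ℤ := fun P => A₁ * max (-(P.ord t)) 0 + P.ord f₁ - P.ord f / p with hG
  have hG0 : ∀ P, 0 ≤ G P := by
    intro P
    rcases lt_or_ge (P.ord t) 0 with h | h
    · have h1 : P.ord f / p - P.ord f₁ ≤ A₀ := hA₀ ⟨P, h, rfl⟩
      have h2 : A₀ ≤ A₁ := le_max_left _ _
      have h3 : max (-(P.ord t)) 0 = -(P.ord t) := max_eq_left (by omega)
      simp only [hG, h3]
      nlinarith
    · have h3 : max (-(P.ord t)) 0 = 0 := max_eq_right (by omega)
      have h4 := hi₁ P h
      have h5 := hi₂ P h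
      have h6 : P.ord f = P.ord f₁ - P.ord f₂ := by
        rw [hff, div_eq_mul_inv, P.ord_mul hf₁ (inv_ne_zero hf₂), P.ord_inv]; ring
      simp only [hG, h3, mul_zero, zero_add]
      obtain ⟨c, hc⟩ := hdiv P
      rw [hc, Int.mul_ediv_cancel_left _ hp'.ne']
      by_contra hcon
      push Not at hcon
      have hc1 : 1 ≤ c := by omega
      have : c ≤ p * c := by nlinarith
      omega
  have hs1 := support_pole_finite t ht
  have hs2 : (Function.support fun P : Place K F => P.ord f₁).Finite := finite_support_ord t ht f₁ hf₁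
  have hs3 : (Function.support fun P : Place K F => P.ord f / p).Finite := by
    refine (finite_support_ord t ht f hf).subset ?_
    intro P hP
    rw [Function.mem_support] at hP
    show P.ord f ≠ 0
    intro h
    rw [h] at hP
    simp at hP
  have hs1' : (Function.support fun P : Place K F => A₁ * max (-(P.ord t)) 0).Finite := by
    refine hs1.subset ?_
    intro P hP
    rw [Function.mem_support] at hP ⊢
    intro h
    rw [h] at hP
    simp at hP
  have hGfin : (Function.support G).Finite := by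
    refine ((hs1'.union hs2).union hs3).subset ?_
    intro P hP
    rw [Function.mem_support] at hP
    by_contra hcon
    simp only [Set.mem_union, Function.mem_support, not_or, not_not] at hcon
    apply hP
    simp only [hG]
    rw [hcon.1.1, hcon.1.2, hcon.2]
    ring
  have hsumD : ∑ᶠ P : Place K F, P.ord f / p = 0 := by
    have h1 : (p : ℤ) * ∑ᶠ P : Place K F, P.ord f / p = ∑ᶠ P : Place K F, P.ord f := by
      rw [mul_finsum]
      refine finsum_congr fun P => ?_
      exact Int.mul_ediv_cancel' (hdiv P)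
    rw [finsum_ord_eq_zero t ht f hf] at h1
    rcases mul_eq_zero.1 h1 with h | h
    · omega
    · exact h
  have hsumG : ∑ᶠ P, G P = A₁ * Module.finrank K⟮t⟯ F := by
    have e1 : ∑ᶠ P, G P = ∑ᶠ P : Place K F, (A₁ * max (-(P.ord t)) 0 + P.ord f₁)
        - ∑ᶠ P : Place K F, P.ord f / p := by
      rw [← finsum_sub_distrib _ hs3]
      refine (hs1'.union hs2).subset ?_
      intro P hP
      rw [Function.mem_support] at hP
      by_contra hcon
      simp only [Set.mem_union, Function.mem_support, not_or, not_not] at hcon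
      apply hP
      rw [hcon.1, hcon.2]
      ring
    rw [e1, hsumD, sub_zero, finsum_add_distrib hs1' hs2, finsum_ord_eq_zero t ht f₁ hf₁, add_zero,
      ← mul_finsum, finsum_pole t ht]
  obtain ⟨Gf, hGf, hGfsum⟩ := exists_finsupp G hG0 hGfin
  have key := finrank_Lof_le_sub t ht Gf
    (fun P : Place K F => Efun t (a + A₁) b P - P.ord f₁⁻¹)
  rw [finrank_Lof_sub_ord _ f₁⁻¹ (inv_ne_zero hf₁), ← Lsp_eq_Lof t ht] at key
  have e2 : (fun P : Place K F => Efun t (a + A₁) b P - P.ord f₁⁻¹ - (Gf P : ℤ)) =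
      fun P : Place K F => Efun t a b P + P.ord f / p := by
    funext P
    rw [hGf P, P.ord_inv]
    simp only [hG, Efun]
    ring
  rw [e2, ← Vsp_eq_Lof t ht ht0 f hf p hp hdiv] at key
  have h1 := hL (a + A₁) b (by omega)
  have key' : (Module.finrank K (Lsp K t (a + A₁) b) : ℤ) ≤
      Module.finrank K (Vsp K t f ht0 p hp a b) + ((Gf.sum fun _ n => n : ℕ) : ℤ) := by
    exact_mod_cast key
  rw [hGfsum, hsumG, h1] at key'
  linarith

end Fermat.Agent.S18.R1
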