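import Mathlib

set_option autoImplicit false
set_option linter.unusedSectionVars false
set_option linter.style.haveILetI false

/-!
# S18, block [C1]: the abstract core

Abstract valued function field `(F, v)` over `L` with residue map `rb : F → κ`,
and the "Newton + bounded torsion" argument.
-/

namespace Fermat.Agent.S18

open Module

/-- Abstract valued field datum: `v` a valuation on `F ⊇ L`, `rb` the reduction map (only
meaningful on `v x ≤ 1`), residue field `κ ⊇ k`. -/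
structure IsVF (L k : Type) {F κ Γ : Type} [Field L] [Field F] [Algebra L F] [Field k] [Field κ]
    [Algebra k κ] [LinearOrderedCommGroupWithZero Γ] (v : Valuation F Γ) (rb : F → κ) : Prop where
  rb_add : ∀ x y, v x ≤ 1 → v y ≤ 1 → rb (x + y) = rb x + rb y
  rb_mul : ∀ x y, v x ≤ 1 → v y ≤ 1 → rb (x * y) = rb x * rb y
  rb_one : rb 1 = 1
  rb_eq_zero : ∀ x, v x ≤ 1 → (rb x = 0 ↔ v x < 1)
  rb_const : ∀ c : L, v (algebraMap L F c) ≤ 1 → ∃ c' : k, rb (algebraMap L F c) = algebraMap k κ c'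
  lift_const : ∀ c' : k, ∃ c : L, v (algebraMap L F c) ≤ 1 ∧ rb (algebraMap L F c) = algebraMap k κ c'
  exists_const : ∀ x : F, ∃ c : L, v x = v (algebraMap L F c)
  exists_on : ∀ W : Submodule L F, FiniteDimensional L W → ∃ (r : ℕ) (e : Fin r → F),
    LinearIndependent L e ∧ Submodule.span L (Set.range e) = W ∧
      ∀ c : Fin r → L, (v (∑ i, c i • e i) ≤ 1 ↔ ∀ i, v (algebraMap L F (c i)) ≤ 1)
  rank_one : ∀ c c0 : L, v (algebraMap L F c) < 1 → c0 ≠ 0 →
    ∃ j : ℕ, v (algebraMap L F c) ^ j ≤ v (algebraMap L F c0)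

section Basic

variable {L k F κ Γ : Type} [Field L] [Field F] [Algebra L F] [Field k] [Field κ]
    [Algebra k κ] [LinearOrderedCommGroupWithZero Γ] {v : Valuation F Γ} {rb : F → κ}

namespace IsVF

variable (H : IsVF L k v rb)
include H

theorem rb_zero : rb 0 = 0 := by
  rw [H.rb_eq_zero 0 (by simp)]; simp

theorem rb_neg (x : F) (hx : v x ≤ 1) : rb (-x) = - rb x := by
  have h := H.rb_add x (-x) hx (by rwa [Valuation.map_neg])
  rw [add_neg_cancel, H.rb_zero] at h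
  exact (neg_eq_of_add_eq_zero_right h.symm).symm

theorem rb_sub (x y : F) (hx : v x ≤ 1) (hy : v y ≤ 1) : rb (x - y) = rb x - rb y := by
  rw [sub_eq_add_neg, H.rb_add x (-y) hx (by rwa [Valuation.map_neg]), H.rb_neg y hy,
    sub_eq_add_neg]

theorem rb_pow (x : F) (hx : v x ≤ 1) (n : ℕ) : rb (x ^ n) = rb x ^ n := by
  induction n with
  | zero => simp [H.rb_one]
  | succ n ih =>
    rw [pow_succ, H.rb_mul _ _ (by rw [map_pow]; exact pow_le_one' hx n) hx, ih, pow_succ]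

theorem v_natCast_le (n : ℕ) : v (n : F) ≤ 1 := by
  induction n with
  | zero => simp
  | succ n ih =>
    rw [Nat.cast_succ]
    exact (v.map_add _ _).trans (max_le ih (by simp))

theorem rb_natCast (n : ℕ) : rb (n : F) = (n : κ) := by
  induction n with
  | zero => simp [H.rb_zero]
  | succ n ih =>
    rw [Nat.cast_succ, H.rb_add _ _ (H.v_natCast_le n) (by simp), ih, H.rb_one, Nat.cast_succ]

theorem v_sum_le {ι : Type} (s : Finset ι) (x : ι → F) {γ : Γ} (hx : ∀ i ∈ s, v (x i) ≤ γ) :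
    v (∑ i ∈ s, x i) ≤ γ := by
  classical
  induction s using Finset.induction_on with
  | empty => simp
  | insert a s ha ih =>
    rw [Finset.sum_insert ha]
    exact (v.map_add _ _).trans (max_le (hx a (Finset.mem_insert_self a s))
      (ih (fun i hi => hx i (Finset.mem_insert_of_mem hi))))

theorem rb_sum {ι : Type} (s : Finset ι) (x : ι → F) (hx : ∀ i ∈ s, v (x i) ≤ 1) :
    rb (∑ i ∈ s, x i) = ∑ i ∈ s, rb (x i) := by
  classical
  induction s using Finset.induction_on with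
  | empty => simp [H.rb_zero]
  | insert a s ha ih =>
    rw [Finset.sum_insert ha, Finset.sum_insert ha,
      H.rb_add _ _ (hx a (Finset.mem_insert_self a s))
        (H.v_sum_le s x (fun i hi => hx i (Finset.mem_insert_of_mem hi))),
      ih (fun i hi => hx i (Finset.mem_insert_of_mem hi))]

theorem v_smul (c : L) (x : F) : v (c • x) = v (algebraMap L F c) * v x := by
  rw [Algebra.smul_def, map_mul]

theorem rb_smul (c : L) (x : F) (hc : v (algebraMap L F c) ≤ 1) (hx : v x ≤ 1) :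
    rb (c • x) = rb (algebraMap L F c) * rb x := by
  rw [Algebra.smul_def, H.rb_mul _ _ hc hx]

theorem v_eq_one_of_rb_ne_zero (x : F) (hx : v x ≤ 1) (h : rb x ≠ 0) : v x = 1 := by
  rcases lt_or_eq_of_le hx with h1 | h1
  · exact absurd ((H.rb_eq_zero x hx).2 h1) h
  · exact h1

/-- lifts of `k`-independent residues are "orthonormal". -/
theorem ultra {ι : Type} [Fintype ι] (y : ι → F) (hy : ∀ i, v (y i) ≤ 1)
    (hind : LinearIndependent k (fun i => rb (y i))) (c : ι → L) (i : ι) :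
    v (algebraMap L F (c i)) ≤ v (∑ j, c j • y j) := by
  classical
  obtain ⟨i0, -, hi0⟩ := Finset.exists_max_image (Finset.univ : Finset ι)
    (fun j => v (algebraMap L F (c j))) ⟨i, Finset.mem_univ i⟩
  by_cases h0 : c i0 = 0
  · have := hi0 i (Finset.mem_univ i)
    rw [h0, map_zero, map_zero] at this
    exact this.trans zero_le
  refine (hi0 i (Finset.mem_univ i)).trans ?_
  set γ := c i0 with hγ
  have hγF : algebraMap L F γ ≠ 0 := by
    rwa [Ne, FaithfulSMul.algebraMap_eq_zero_iff]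
  have hvγ : v (algebraMap L F γ) ≠ 0 := (Valuation.ne_zero_iff v).2 hγF
  let c' : ι → L := fun j => γ⁻¹ * c j
  have hc' : ∀ j, v (algebraMap L F (c' j)) ≤ 1 := by
    intro j
    simp only [c', map_mul, map_inv₀]
    rw [inv_mul_le_iff₀ (zero_lt_iff.2 hvγ), mul_one]
    exact hi0 j (Finset.mem_univ j)
  have hsum : ∑ j, c j • y j = γ • ∑ j, c' j • y j := by
    rw [Finset.smul_sum]
    refine Finset.sum_congr rfl (fun j _ => ?_)
    simp only [c']
    rw [smul_smul, mul_inv_cancel_left₀ h0]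
  choose d hd using fun j => H.rb_const (c' j) (hc' j)
  have hterm : ∀ j ∈ (Finset.univ : Finset ι), v (c' j • y j) ≤ 1 := by
    intro j _
    rw [H.v_smul]
    exact mul_le_one' (hc' j) (hy j)
  have hrb : rb (∑ j, c' j • y j) = ∑ j, d j • rb (y j) := by
    rw [H.rb_sum _ _ hterm]
    refine Finset.sum_congr rfl (fun j _ => ?_)
    rw [H.rb_smul _ _ (hc' j) (hy j), hd j, Algebra.smul_def]
  have hd0 : d i0 = 1 := by
    have h1 : c' i0 = 1 := by simp only [c']; rw [← hγ]; exact inv_mul_cancel₀ h0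
    have h2 := hd i0
    rw [h1, map_one, H.rb_one] at h2
    have : algebraMap k κ (d i0) = algebraMap k κ 1 := by rw [← h2, map_one]
    exact (algebraMap k κ).injective this
  have hne : rb (∑ j, c' j • y j) ≠ 0 := by
    rw [hrb]
    intro h
    have := (Fintype.linearIndependent_iff.1 hind) d h i0
    rw [hd0] at this
    exact one_ne_zero this
  have hv1 := H.v_eq_one_of_rb_ne_zero _ (H.v_sum_le _ _ hterm) hne
  rw [hsum, H.v_smul, hv1, mul_one]

theorem linearIndependent_of_rb {ι : Type} [Fintype ι] (y : ι → F) (hy : ∀ i, v (y i) ≤ 1)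
    (hind : LinearIndependent k (fun i => rb (y i))) : LinearIndependent L y := by
  rw [Fintype.linearIndependent_iff]
  intro c hc i
  have := H.ultra y hy hind c i
  rw [hc, map_zero, le_zero_iff, map_eq_zero, FaithfulSMul.algebraMap_eq_zero_iff] at this
  exact this

/-- the reductions of an orthonormal basis are `k`-independent. -/
theorem rb_indep_of_on {r : ℕ} (e : Fin r → F) (hli : LinearIndependent L e)
    (hon : ∀ c : Fin r → L, (v (∑ i, c i • e i) ≤ 1 ↔ ∀ i, v (algebraMap L F (c i)) ≤ 1)) :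
    (∀ i, v (e i) ≤ 1) ∧ LinearIndependent k (fun i => rb (e i)) := by
  classical
  have he : ∀ i, v (e i) ≤ 1 := by
    intro i
    have := (hon (Pi.single i 1)).2 (by
      intro j
      by_cases hj : j = i
      · subst hj; simp
      · simp [Pi.single_eq_of_ne hj])
    simpa [Pi.single_apply, ite_smul] using this
  refine ⟨he, ?_⟩
  rw [Fintype.linearIndependent_iff]
  intro γ hγ i
  choose c hc1 hc2 using fun j => H.lift_const (γ j)
  have hx1 : v (∑ j, c j • e j) ≤ 1 := (hon c).2 hc1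
  have hterm : ∀ j ∈ (Finset.univ : Finset (Fin r)), v (c j • e j) ≤ 1 := by
    intro j _
    rw [H.v_smul]
    exact mul_le_one' (hc1 j) (he j)
  have hrb : rb (∑ j, c j • e j) = 0 := by
    rw [H.rb_sum _ _ hterm, ← hγ]
    refine Finset.sum_congr rfl (fun j _ => ?_)
    rw [H.rb_smul _ _ (hc1 j) (he j), hc2 j, Algebra.smul_def]
  have hlt : v (∑ j, c j • e j) < 1 := (H.rb_eq_zero _ hx1).1 hrb
  obtain ⟨π, hπ⟩ := H.exists_const (∑ j, c j • e j)
  have hci : v (algebraMap L F (c i)) < 1 := by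
    by_cases hπ0 : π = 0
    · rw [hπ0, map_zero, map_zero, map_eq_zero] at hπ
      have := (Fintype.linearIndependent_iff.1 hli) c hπ i
      rw [this]; simp
    · have hπF : v (algebraMap L F π) ≠ 0 := by
        rw [Valuation.ne_zero_iff, Ne, FaithfulSMul.algebraMap_eq_zero_iff]; exact hπ0
      have h1 : v (∑ j, (π⁻¹ * c j) • e j) ≤ 1 := by
        have : ∑ j, (π⁻¹ * c j) • e j = π⁻¹ • ∑ j, c j • e j := by
          rw [Finset.smul_sum]
          exact Finset.sum_congr rfl (fun j _ => by rw [smul_smul])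
        rw [this, H.v_smul, hπ, map_inv₀, map_inv₀, inv_mul_cancel₀ hπF]
      have h2 := (hon _).1 h1 i
      rw [map_mul, map_mul, map_inv₀, map_inv₀, inv_mul_le_iff₀ (zero_lt_iff.2 hπF), mul_one] at h2
      exact h2.trans_lt (hπ ▸ hlt)
  have h3 := (H.rb_eq_zero _ (hc1 i)).2 hci
  rw [hc2 i] at h3
  exact (map_eq_zero (algebraMap k κ)).1 h3

/-- clearing denominators of a finite family. -/
theorem exists_clear {ι : Type} [Fintype ι] (x : ι → F) :
    ∃ c0 : L, c0 ≠ 0 ∧ v (algebraMap L F c0) ≤ 1 ∧ ∀ i, v (c0 • x i) ≤ 1 := by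
  classical
  have h1 : ∀ i, ∃ d : L, d ≠ 0 ∧ v (algebraMap L F d) ≤ 1 ∧ v (d • x i) ≤ 1 := by
    intro i
    by_cases hx : v (x i) ≤ 1
    · exact ⟨1, one_ne_zero, by simp, by simpa using hx⟩
    · obtain ⟨γ, hγ⟩ := H.exists_const (x i)
      have hγ1 : 1 < v (algebraMap L F γ) := by rw [← hγ]; exact not_le.1 hx
      have hγ0 : γ ≠ 0 := by
        rintro rfl
        simp at hγ1
      have hvγ : v (algebraMap L F γ) ≠ 0 := (zero_lt_one.trans hγ1).ne'
      refine ⟨γ⁻¹, inv_ne_zero hγ0, ?_, ?_⟩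
      · rw [map_inv₀, map_inv₀]
        exact inv_le_one_of_one_le₀ hγ1.le
      · rw [H.v_smul, hγ, map_inv₀, map_inv₀, inv_mul_cancel₀ hvγ]
  choose d hd0 hd1 hd2 using h1
  refine ⟨∏ i, d i, Finset.prod_ne_zero_iff.2 (fun i _ => hd0 i), ?_, ?_⟩
  · rw [map_prod, map_prod]
    exact Finset.prod_le_one' (fun i _ => hd1 i)
  · intro i
    rw [← Finset.mul_prod_erase Finset.univ d (Finset.mem_univ i), mul_comm, mul_smul, H.v_smul]
    refine mul_le_one' ?_ (hd2 i)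
    rw [map_prod, map_prod]
    exact Finset.prod_le_one' (fun j _ => hd1 j)

end IsVF

end Basic

/-- The hypotheses on the three families of spaces. -/
structure CoreHyp {L k F κ Γ : Type} [Field L] [Field F] [Algebra L F] [Field k] [Field κ]
    [Algebra k κ] [LinearOrderedCommGroupWithZero Γ] (v : Valuation F Γ) (rb : F → κ)
    (p n m0 : ℕ) (g : ℤ) (f : F) (t0 : κ)
    (LL V : ℕ → ℕ → Submodule L F) (Lb : ℕ → ℕ → Submodule k κ) : Prop where
  p_ne : rb (p : F) ≠ 0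
  LL_mono : ∀ a b a' b', a ≤ a' → b ≤ b' → LL a b ≤ LL a' b'
  V_mono : ∀ a b a' b', a ≤ a' → b ≤ b' → V a b ≤ V a' b'
  Lb_mono : ∀ a b a' b', a ≤ a' → b ≤ b' → Lb a b ≤ Lb a' b'
  V_fin : ∀ a b, FiniteDimensional L (V a b)
  Lb_fin : ∀ a b, FiniteDimensional k (Lb a b)
  one_LL : (1 : F) ∈ LL 0 0
  one_Lb : (1 : κ) ∈ Lb 0 0
  red_LL : ∀ a b x, x ∈ LL a b → v x ≤ 1 → rb x ∈ Lb a b
  Lb_inf : ∀ a b a' b', Lb a b ⊓ Lb a' b' ≤ Lb (min a a') (min b b')
  Lb_dim : ∀ a b, m0 ≤ a + b → (finrank k (Lb a b) : ℤ) = ((a : ℤ) + b) * n + 1 - g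
  Lb_root : ∀ a b y, y ^ p ∈ Lb (p * a) (p * b) → y ∈ Lb a b
  V_dim : ∀ a b, m0 ≤ a + b → ((a : ℤ) + b) * n + 1 - g ≤ (finrank L (V a b) : ℤ)
  V_mul : ∀ a b a' b' x s, x ∈ LL a' b' → s ∈ V a b → x * s ∈ V (a + a') (b + b')
  V_pow : ∀ a b s, s ∈ V a b → s ^ p * f ∈ LL (p * a) (p * b)
  V_inf : ∀ a, V a 0 ⊓ V 0 a ≤ V 0 0
  f_unit : v f = 1
  f_red : rb f = t0 ^ p

section Main

variable {L k F κ Γ : Type} [Field L] [Field F] [Algebra L F] [Field k] [Field κ]
    [Algebra k κ] [LinearOrderedCommGroupWithZero Γ] {v : Valuation F Γ} {rb : F → κ}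
    {p n m0 : ℕ} {g : ℤ} {f : F} {t0 : κ}
    {LL V : ℕ → ℕ → Submodule L F} {Lb : ℕ → ℕ → Submodule k κ}

namespace CoreHyp

variable (H : IsVF L k v rb) (C : CoreHyp v rb p n m0 g f t0 LL V Lb)
include H C

theorem t0_ne : t0 ≠ 0 := by
  intro h
  have h1 : rb f ≠ 0 := by
    intro h2
    have := (H.rb_eq_zero f C.f_unit.le).1 h2
    rw [C.f_unit] at this
    exact lt_irrefl _ this
  have hp : p ≠ 0 := by
    rintro rfl
    apply C.p_ne
    simp [H.rb_zero]
  apply h1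
  rw [C.f_red, h, zero_pow hp]

theorem p_ne_zero : p ≠ 0 := by
  rintro rfl
  apply C.p_ne
  simp [H.rb_zero]

/-- reductions of integral elements of `V a b`, multiplied by `t0`, lie in `Lb a b`. -/
theorem red_V (a b : ℕ) (s : F) (hs : s ∈ V a b) (hv : v s ≤ 1) : t0 * rb s ∈ Lb a b := by
  apply C.Lb_root
  have h1 := C.V_pow a b s hs
  have hvp : v (s ^ p) ≤ 1 := by rw [map_pow]; exact pow_le_one' hv p
  have h2 : v (s ^ p * f) ≤ 1 := by
    rw [map_mul, C.f_unit, mul_one]; exact hvp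
  have h3 := C.red_LL _ _ _ h1 h2
  rw [H.rb_mul _ _ hvp C.f_unit.le, H.rb_pow _ hv, C.f_red, ← mul_pow, mul_comm (rb s)] at h3
  exact h3

theorem indep_mul {ι : Type} [Fintype ι] (z : ι → κ) :
    LinearIndependent k z ↔ LinearIndependent k (fun i => t0 * z i) := by
  have ht := C.t0_ne H
  rw [Fintype.linearIndependent_iff, Fintype.linearIndependent_iff]
  have key : ∀ γ : ι → k, ∑ i, γ i • (t0 * z i) = t0 * ∑ i, γ i • z i := by
    intro γ
    rw [Finset.mul_sum]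
    exact Finset.sum_congr rfl (fun i _ => by rw [mul_smul_comm])
  constructor
  · intro h γ hγ
    rw [key] at hγ
    exact h γ ((mul_eq_zero.1 hγ).resolve_left ht)
  · intro h γ hγ
    exact h γ (by rw [key, hγ, mul_zero])

theorem finrank_V_le (a b : ℕ) : finrank L (V a b) ≤ finrank k (Lb a b) := by
  haveI := C.V_fin a b
  haveI := C.Lb_fin a b
  obtain ⟨r, e, hli, hspan, hon⟩ := H.exists_on (V a b) (C.V_fin a b)
  obtain ⟨he, hind⟩ := H.rb_indep_of_on e hli hon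
  have hr : finrank L (V a b) = r := by
    rw [← hspan, finrank_span_eq_card hli, Fintype.card_fin]
  have hmem : ∀ i, e i ∈ V a b := fun i => hspan ▸ Submodule.subset_span ⟨i, rfl⟩
  let z : Fin r → Lb a b := fun i => ⟨t0 * rb (e i), C.red_V H a b (e i) (hmem i) (he i)⟩
  have hz : LinearIndependent k z := by
    apply LinearIndependent.of_comp (Lb a b).subtype
    exact (C.indep_mul H _).1 hind
  have := hz.fintype_card_le_finrank
  rw [Fintype.card_fin] at this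
  rw [hr]; exact this

/-- Lifting: every element of `Lb a b` is `t0 * rb s` with `s ∈ V a b` integral. -/
theorem lift_V (a b : ℕ) (hab : m0 ≤ a + b) (w : κ) (hw : w ∈ Lb a b) :
    ∃ s ∈ V a b, v s ≤ 1 ∧ t0 * rb s = w := by
  haveI := C.V_fin a b
  haveI := C.Lb_fin a b
  obtain ⟨r, e, hli, hspan, hon⟩ := H.exists_on (V a b) (C.V_fin a b)
  obtain ⟨he, hind⟩ := H.rb_indep_of_on e hli hon
  have hr : finrank L (V a b) = r := by
    rw [← hspan, finrank_span_eq_card hli, Fintype.card_fin]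
  have hmem : ∀ i, e i ∈ V a b := fun i => hspan ▸ Submodule.subset_span ⟨i, rfl⟩
  let z : Fin r → Lb a b := fun i => ⟨t0 * rb (e i), C.red_V H a b (e i) (hmem i) (he i)⟩
  have hz : LinearIndependent k z := by
    apply LinearIndependent.of_comp (Lb a b).subtype
    exact (C.indep_mul H _).1 hind
  have hcard : Fintype.card (Fin r) = finrank k (Lb a b) := by
    rw [Fintype.card_fin]
    have h1 := C.V_dim a b hab
    have h2 := C.Lb_dim a b hab
    have h3 := C.finrank_V_le H a b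
    omega
  have htop := hz.span_eq_top_of_card_eq_finrank' hcard
  have hwm : (⟨w, hw⟩ : Lb a b) ∈ Submodule.span k (Set.range z) := by rw [htop]; trivial
  obtain ⟨γ, hγ⟩ := (Submodule.mem_span_range_iff_exists_fun k).1 hwm
  choose c hc1 hc2 using fun j => H.lift_const (γ j)
  have hterm : ∀ j ∈ (Finset.univ : Finset (Fin r)), v (c j • e j) ≤ 1 := by
    intro j _
    rw [H.v_smul]
    exact mul_le_one' (hc1 j) (he j)
  refine ⟨∑ j, c j • e j, Submodule.sum_mem _ (fun j _ => Submodule.smul_mem _ _ (hmem j)),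
    H.v_sum_le _ _ hterm, ?_⟩
  have hγ' := congrArg Subtype.val hγ
  simp only [Submodule.coe_sum, Submodule.coe_smul, z] at hγ'
  rw [← hγ', H.rb_sum _ _ hterm, Finset.mul_sum]
  refine Finset.sum_congr rfl (fun j _ => ?_)
  rw [H.rb_smul _ _ (hc1 j) (he j), hc2 j, Algebra.smul_def]
  ring

end CoreHyp

end Main

section Main2

variable {L k F κ Γ : Type} [Field L] [Field F] [Algebra L F] [Field k] [Field κ]
    [Algebra k κ] [LinearOrderedCommGroupWithZero Γ] {v : Valuation F Γ} {rb : F → κ}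
    {p n m0 : ℕ} {g : ℤ} {f : F} {t0 : κ}
    {LL V : ℕ → ℕ → Submodule L F} {Lb : ℕ → ℕ → Submodule k κ}

namespace CoreHyp

variable (H : IsVF L k v rb) (C : CoreHyp v rb p n m0 g f t0 LL V Lb)
include H C

theorem Lb_le_sup (a b a' b' : ℕ) (ha : a' ≤ a) (hb : b' ≤ b) (hm : m0 ≤ a' + b') :
    Lb a b ≤ Lb a b' ⊔ Lb a' b := by
  haveI := C.Lb_fin a b
  haveI := C.Lb_fin a b'
  haveI := C.Lb_fin a' b
  haveI := C.Lb_fin a' b'
  have hle : Lb a b' ⊔ Lb a' b ≤ Lb a b :=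
    sup_le (C.Lb_mono _ _ _ _ le_rfl hb) (C.Lb_mono _ _ _ _ ha le_rfl)
  have h1 := Submodule.finrank_sup_add_finrank_inf_eq (Lb a b') (Lb a' b)
  have h2 : finrank k ↥(Lb a b' ⊓ Lb a' b) ≤ finrank k (Lb a' b') := by
    apply Submodule.finrank_mono
    have := C.Lb_inf a b' a' b
    rwa [min_eq_right ha, min_eq_left hb] at this
  have d1 := C.Lb_dim a b (by omega)
  have d2 := C.Lb_dim a b' (by omega)
  have d3 := C.Lb_dim a' b (by omega)
  have d4 := C.Lb_dim a' b' hm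
  have h3 : finrank k (Lb a b) ≤ finrank k ↥(Lb a b' ⊔ Lb a' b) := by
    have e1 : ((finrank k ↥(Lb a b' ⊔ Lb a' b) : ℤ)) + finrank k ↥(Lb a b' ⊓ Lb a' b)
        = finrank k (Lb a b') + finrank k (Lb a' b) := by exact_mod_cast h1
    have e2 : (finrank k ↥(Lb a b' ⊓ Lb a' b) : ℤ) ≤ finrank k (Lb a' b') := by exact_mod_cast h2
    have : (finrank k (Lb a b) : ℤ) ≤ finrank k ↥(Lb a b' ⊔ Lb a' b) := by
      rw [d1]
      rw [d2, d3] at e1
      rw [d4] at e2
      nlinarith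
    exact_mod_cast this
  exact (Submodule.eq_of_le_of_finrank_le hle h3).ge

theorem Lb_three (a a1 : ℕ) (h1 : m0 ≤ a1) (ha : a1 ≤ a) (w : κ) (hw : w ∈ Lb a a) :
    ∃ β0 ∈ Lb a1 a1, ∃ β1 ∈ Lb a 0, ∃ β2 ∈ Lb 0 a, w = β0 + β1 + β2 := by
  have e1 := C.Lb_le_sup H a a a1 a1 ha ha (by omega) hw
  obtain ⟨x, hx, y, hy, rfl⟩ := Submodule.mem_sup.1 e1
  have e2 := C.Lb_le_sup H a a1 a1 0 ha (Nat.zero_le _) (by omega) hx
  have e3 := C.Lb_le_sup H a1 a 0 a1 (Nat.zero_le _) ha (by omega) hy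
  obtain ⟨x1, hx1, x2, hx2, rfl⟩ := Submodule.mem_sup.1 e2
  obtain ⟨y1, hy1, y2, hy2, rfl⟩ := Submodule.mem_sup.1 e3
  exact ⟨x2 + y1, Submodule.add_mem _ hx2 hy1, x1, hx1, y2, hy2, by ring⟩

/-- integral decomposition `V(a,a)° = V(a1,a1)° + V(a,0)° + V(0,a)°`. -/
theorem decomp (a a1 : ℕ) (h1 : m0 ≤ a1) (ha : a1 ≤ a) (x : F) (hx : x ∈ V a a) (hvx : v x ≤ 1) :
    ∃ u0 ∈ V a1 a1, ∃ u1 ∈ V a 0, ∃ u2 ∈ V 0 a, v u0 ≤ 1 ∧ v u1 ≤ 1 ∧ v u2 ≤ 1 ∧
      x = u0 + u1 + u2 := by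
  haveI := C.V_fin a a
  haveI := C.Lb_fin a a
  have ht := C.t0_ne H
  let b := Module.finBasis k (Lb a a)
  have hex : ∀ i, ∃ u0 ∈ V a1 a1, ∃ u1 ∈ V a 0, ∃ u2 ∈ V 0 a, v u0 ≤ 1 ∧ v u1 ≤ 1 ∧ v u2 ≤ 1 ∧
      t0 * rb (u0 + u1 + u2) = (b i : κ) := by
    intro i
    obtain ⟨β0, hβ0, β1, hβ1, β2, hβ2, hsum⟩ := C.Lb_three H a a1 h1 ha (b i : κ) (b i).2
    obtain ⟨u0, hu0, hv0, hr0⟩ := C.lift_V H a1 a1 (by omega) β0 hβ0
    obtain ⟨u1, hu1, hv1, hr1⟩ := C.lift_V H a 0 (by omega) β1 hβ1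
    obtain ⟨u2, hu2, hv2, hr2⟩ := C.lift_V H 0 a (by omega) β2 hβ2
    refine ⟨u0, hu0, u1, hu1, u2, hu2, hv0, hv1, hv2, ?_⟩
    have hv01 : v (u0 + u1) ≤ 1 := (v.map_add _ _).trans (max_le hv0 hv1)
    rw [H.rb_add _ _ hv01 hv2, H.rb_add _ _ hv0 hv1, hsum, ← hr0, ← hr1, ← hr2]
    ring
  choose u0 hu0 u1 hu1 u2 hu2 hv0 hv1 hv2 hr using hex
  let y : Fin (finrank k (Lb a a)) → F := fun i => u0 i + u1 i + u2 i
  have hy1 : ∀ i, v (y i) ≤ 1 := fun i =>
    (v.map_add _ _).trans (max_le ((v.map_add _ _).trans (max_le (hv0 i) (hv1 i))) (hv2 i))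
  have hyV : ∀ i, y i ∈ V a a := fun i =>
    Submodule.add_mem _ (Submodule.add_mem _ (C.V_mono _ _ _ _ ha ha (hu0 i))
      (C.V_mono _ _ _ _ le_rfl (Nat.zero_le _) (hu1 i)))
      (C.V_mono _ _ _ _ (Nat.zero_le _) le_rfl (hu2 i))
  have hind : LinearIndependent k (fun i => rb (y i)) := by
    rw [C.indep_mul H]
    have : (fun i => t0 * rb (y i)) = (Lb a a).subtype ∘ b := by
      funext i
      exact hr i
    rw [this]
    exact b.linearIndependent.map' _ (Submodule.ker_subtype _)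
  have hli := H.linearIndependent_of_rb y hy1 hind
  have hspan : Submodule.span L (Set.range y) = V a a := by
    apply Submodule.eq_of_le_of_finrank_le
    · rw [Submodule.span_le]
      rintro _ ⟨i, rfl⟩
      exact hyV i
    · rw [finrank_span_eq_card hli, Fintype.card_fin]
      exact C.finrank_V_le H a a
  have hxs : x ∈ Submodule.span L (Set.range y) := by rw [hspan]; exact hx
  obtain ⟨c, hc⟩ := (Submodule.mem_span_range_iff_exists_fun L).1 hxs
  have hc1 : ∀ i, v (algebraMap L F (c i)) ≤ 1 := fun i => by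
    have := H.ultra y hy1 hind c i
    rw [hc] at this
    exact this.trans hvx
  have hb : ∀ (u : Fin (finrank k (Lb a a)) → F), (∀ i, v (u i) ≤ 1) →
      v (∑ i, c i • u i) ≤ 1 := by
    intro u hu
    apply H.v_sum_le
    intro i _
    rw [H.v_smul]
    exact mul_le_one' (hc1 i) (hu i)
  refine ⟨∑ i, c i • u0 i, Submodule.sum_mem _ (fun i _ => Submodule.smul_mem _ _ (hu0 i)),
    ∑ i, c i • u1 i, Submodule.sum_mem _ (fun i _ => Submodule.smul_mem _ _ (hu1 i)),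
    ∑ i, c i • u2 i, Submodule.sum_mem _ (fun i _ => Submodule.smul_mem _ _ (hu2 i)),
    hb u0 hv0, hb u1 hv1, hb u2 hv2, ?_⟩
  rw [← hc, ← Finset.sum_add_distrib, ← Finset.sum_add_distrib]
  refine Finset.sum_congr rfl (fun i _ => ?_)
  simp only [y, smul_add]

end CoreHyp

end Main2

section Main3

variable {L k F κ Γ : Type} [Field L] [Field F] [Algebra L F] [Field k] [Field κ]
    [Algebra k κ] [LinearOrderedCommGroupWithZero Γ] {v : Valuation F Γ} {rb : F → κ}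
    {p n m0 : ℕ} {g : ℤ} {f : F} {t0 : κ}
    {LL V : ℕ → ℕ → Submodule L F} {Lb : ℕ → ℕ → Submodule k κ}

namespace CoreHyp

variable (H : IsVF L k v rb) (C : CoreHyp v rb p n m0 g f t0 LL V Lb)
include H C

theorem sup_mono (a a' : ℕ) (h : a ≤ a') : V a 0 ⊔ V 0 a ≤ V a' 0 ⊔ V 0 a' :=
  sup_le_sup (C.V_mono _ _ _ _ h le_rfl) (C.V_mono _ _ _ _ le_rfl h)

/-- bounded torsion. -/
theorem bounded (hV0 : V 0 0 = ⊥) (a1 : ℕ) (h1 : m0 ≤ a1) :
    ∃ c0 : L, c0 ≠ 0 ∧ ∀ a, a1 ≤ a → ∀ s1 ∈ V a 0, ∀ s2 ∈ V 0 a, ∀ c' : L,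
      v (s1 - s2) ≤ v (algebraMap L F c') → v (c0 • s1) ≤ v (algebraMap L F c') := by
  classical
  let W : Submodule L F :=
    { carrier := {u | u ∈ V a1 a1 ∧ ∃ a, u ∈ V a 0 ⊔ V 0 a}
      zero_mem' := ⟨Submodule.zero_mem _, 0, Submodule.zero_mem _⟩
      add_mem' := by
        rintro x y ⟨hx, a, hxa⟩ ⟨hy, b, hyb⟩
        exact ⟨Submodule.add_mem _ hx hy, max a b,
          Submodule.add_mem _ (C.sup_mono H _ _ (le_max_left a b) hxa)
            (C.sup_mono H _ _ (le_max_right a b) hyb)⟩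
      smul_mem' := by
        rintro c x ⟨hx, a, hxa⟩
        exact ⟨Submodule.smul_mem _ _ hx, a, Submodule.smul_mem _ _ hxa⟩ }
  have hWle : W ≤ V a1 a1 := fun u hu => hu.1
  haveI := C.V_fin a1 a1
  have hWfin : FiniteDimensional L W := Submodule.finiteDimensional_of_le hWle
  obtain ⟨r, e, hli, hspan, hon⟩ := H.exists_on W hWfin
  have hmem : ∀ i, e i ∈ W := fun i => hspan ▸ Submodule.subset_span ⟨i, rfl⟩
  have hex : ∀ i, ∃ a, ∃ x ∈ V a 0, ∃ y ∈ V 0 a, x + y = e i := by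
    intro i
    obtain ⟨a, ha⟩ := (hmem i).2
    obtain ⟨x, hx, y, hy, hxy⟩ := Submodule.mem_sup.1 ha
    exact ⟨a, x, hx, y, hy, hxy⟩
  choose aa x hx y hy hxy using hex
  let as : ℕ := Finset.univ.sup aa
  have has : ∀ i, aa i ≤ as := fun i => Finset.le_sup (Finset.mem_univ i)
  obtain ⟨c0, hc0, hc01, hc0x⟩ := H.exists_clear x
  refine ⟨c0, hc0, ?_⟩
  intro a ha s1 hs1 s2 hs2 c' hc'
  by_cases hc'0 : c' = 0
  · rw [hc'0, map_zero, map_zero, le_zero_iff, map_eq_zero, sub_eq_zero] at hc'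
    have : s1 ∈ V a 0 ⊓ V 0 a := ⟨hs1, hc' ▸ hs2⟩
    have h0 := C.V_inf a this
    rw [hV0, Submodule.mem_bot] at h0
    rw [h0, smul_zero, map_zero]
    exact zero_le
  have hvc' : v (algebraMap L F c') ≠ 0 := by
    rw [Valuation.ne_zero_iff, Ne, FaithfulSMul.algebraMap_eq_zero_iff]; exact hc'0
  have hσV : c'⁻¹ • (s1 - s2) ∈ V a a :=
    Submodule.smul_mem _ _ (Submodule.sub_mem _ (C.V_mono _ _ _ _ le_rfl (Nat.zero_le _) hs1)
      (C.V_mono _ _ _ _ (Nat.zero_le _) le_rfl hs2))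
  have hσv : v (c'⁻¹ • (s1 - s2)) ≤ 1 := by
    rw [H.v_smul, map_inv₀, map_inv₀, inv_mul_le_iff₀ (zero_lt_iff.2 hvc'), mul_one]
    exact hc'
  obtain ⟨u0, hu0, u1, hu1, u2, hu2, hv0, hv1, hv2, hsum⟩ := C.decomp H a a1 h1 ha _ hσV hσv
  have hu0W : u0 ∈ W := by
    refine ⟨hu0, a, ?_⟩
    have : u0 = (c'⁻¹ • s1 - u1) + (-(c'⁻¹ • s2) - u2) := by
      have : u0 = c'⁻¹ • (s1 - s2) - u1 - u2 := by rw [hsum]; ring
      rw [this, smul_sub]; ring
    rw [this]
    exact Submodule.add_mem_sup (Submodule.sub_mem _ (Submodule.smul_mem _ _ hs1) hu1)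
      (Submodule.sub_mem _ (Submodule.neg_mem _ (Submodule.smul_mem _ _ hs2)) hu2)
  have hu0s : u0 ∈ Submodule.span L (Set.range e) := by rw [hspan]; exact hu0W
  obtain ⟨α, hα⟩ := (Submodule.mem_span_range_iff_exists_fun L).1 hu0s
  have hα1 : ∀ i, v (algebraMap L F (α i)) ≤ 1 := (hon α).1 (by rw [hα]; exact hv0)
  let a' := max a as
  have hP : c'⁻¹ • s1 - u1 - ∑ i, α i • x i ∈ V a' 0 :=
    Submodule.sub_mem _ (Submodule.sub_mem _
      (Submodule.smul_mem _ _ (C.V_mono _ _ _ _ (le_max_left _ _) le_rfl hs1))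
      (C.V_mono _ _ _ _ (le_max_left _ _) le_rfl hu1))
      (Submodule.sum_mem _ (fun i _ => Submodule.smul_mem _ _
        (C.V_mono _ _ _ _ ((has i).trans (le_max_right _ _)) le_rfl (hx i))))
  have hQ : c'⁻¹ • s2 + u2 + ∑ i, α i • y i ∈ V 0 a' :=
    Submodule.add_mem _ (Submodule.add_mem _
      (Submodule.smul_mem _ _ (C.V_mono _ _ _ _ le_rfl (le_max_left _ _) hs2))
      (C.V_mono _ _ _ _ le_rfl (le_max_left _ _) hu2))
      (Submodule.sum_mem _ (fun i _ => Submodule.smul_mem _ _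
        (C.V_mono _ _ _ _ le_rfl ((has i).trans (le_max_right _ _)) (hy i))))
  have hXY : ∑ i, α i • x i + ∑ i, α i • y i = u0 := by
    rw [← hα, ← Finset.sum_add_distrib]
    exact Finset.sum_congr rfl (fun i _ => by rw [← smul_add, hxy i])
  have hPQ : c'⁻¹ • s1 - u1 - ∑ i, α i • x i = c'⁻¹ • s2 + u2 + ∑ i, α i • y i := by
    have e1 : c'⁻¹ • s1 - c'⁻¹ • s2 = u0 + u1 + u2 := by rw [← smul_sub]; exact hsum
    have e2 : c'⁻¹ • s1 = c'⁻¹ • s2 + (u0 + u1 + u2) := by rw [← e1]; ring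
    rw [e2, ← hXY]; ring
  have hP0 : c'⁻¹ • s1 - u1 - ∑ i, α i • x i = 0 := by
    have : c'⁻¹ • s1 - u1 - ∑ i, α i • x i ∈ V a' 0 ⊓ V 0 a' := ⟨hP, hPQ ▸ hQ⟩
    have h0 := C.V_inf a' this
    rwa [hV0, Submodule.mem_bot] at h0
  have hs1eq : s1 = c' • (u1 + ∑ i, α i • x i) := by
    have e1 : c'⁻¹ • s1 = u1 + ∑ i, α i • x i := by
      have := hP0
      rw [sub_sub, sub_eq_zero] at this
      exact this
    rw [← e1, smul_smul, mul_inv_cancel₀ hc'0, one_smul]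
  rw [hs1eq, smul_comm, H.v_smul]
  refine mul_le_of_le_one_right' ?_
  rw [smul_add]
  refine (v.map_add _ _).trans (max_le ?_ ?_)
  · rw [H.v_smul]; exact mul_le_one' hc01 hv1
  · rw [Finset.smul_sum]
    apply H.v_sum_le
    intro i _
    rw [smul_comm, H.v_smul]
    exact mul_le_one' (hα1 i) (hc0x i)

end CoreHyp

end Main3

section Main4

variable {L k F κ Γ : Type} [Field L] [Field F] [Algebra L F] [Field k] [Field κ]
    [Algebra k κ] [LinearOrderedCommGroupWithZero Γ] {v : Valuation F Γ} {rb : F → κ}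
    {p n m0 : ℕ} {g : ℤ} {f : F} {t0 : κ}
    {LL V : ℕ → ℕ → Submodule L F} {Lb : ℕ → ℕ → Submodule k κ}

theorem one_add_pow_expand (v : Valuation F Γ) (y : F) (hy : v y ≤ 1) (n : ℕ) :
    ∃ h, v h ≤ 1 ∧ (1 + y) ^ n = 1 + n * y + y ^ 2 * h := by
  have hnat : ∀ m : ℕ, v (m : F) ≤ 1 := by
    intro m
    induction m with
    | zero => simp
    | succ m ih =>
      rw [Nat.cast_succ]
      exact (v.map_add _ _).trans (max_le ih (by simp))
  induction n with
  | zero => exact ⟨0, by simp, by simp⟩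
  | succ n ih =>
    obtain ⟨h, hh, he⟩ := ih
    refine ⟨n + h + h * y, ?_, ?_⟩
    · refine (v.map_add _ _).trans (max_le ((v.map_add _ _).trans (max_le (hnat n) hh)) ?_)
      rw [map_mul]; exact mul_le_one' hh hy
    · rw [pow_succ, he]; push_cast; ring

namespace CoreHyp

variable (H : IsVF L k v rb) (C : CoreHyp v rb p n m0 g f t0 LL V Lb)
include H C

theorem v_p : v (p : F) = 1 := H.v_eq_one_of_rb_ne_zero _ (H.v_natCast_le p) C.p_ne

theorem newton_step (a b : ℕ) (s : F) (hs : s ∈ V a b) (hvs : v s ≤ 1) (δ : Γ) (hδ : δ < 1)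
    (herr : v (s ^ p * f - 1) ≤ δ) :
    ∃ s' ∈ V (a + p * a) (b + p * b), v s' ≤ 1 ∧ rb s' = rb s ∧ v (s' ^ p * f - 1) ≤ δ ^ 2 := by
  have hvp := C.v_p H
  have hpF : (p : F) ≠ 0 := by
    intro h; rw [h, map_zero] at hvp; exact zero_ne_one hvp
  set ε := s ^ p * f - 1 with hε
  set η : F := -((p : F)⁻¹ * ε) with hη
  have hvη : v η = v ε := by
    rw [hη, Valuation.map_neg, map_mul, map_inv₀, hvp, inv_one, one_mul]
  have hvη1 : v η < 1 := by rw [hvη]; exact herr.trans_lt hδ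
  have hεLL : ε ∈ LL (p * a) (p * b) :=
    Submodule.sub_mem _ (C.V_pow a b s hs)
      (C.LL_mono _ _ _ _ (Nat.zero_le _) (Nat.zero_le _) C.one_LL)
  have hηLL : η ∈ LL (p * a) (p * b) := by
    have : η = (-(p : L)⁻¹) • ε := by
      rw [hη, Algebra.smul_def, map_neg, map_inv₀, map_natCast]; ring
    rw [this]
    exact Submodule.smul_mem _ _ hεLL
  have hxLL : 1 + η ∈ LL (p * a) (p * b) :=
    Submodule.add_mem _ (C.LL_mono _ _ _ _ (Nat.zero_le _) (Nat.zero_le _) C.one_LL) hηLL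
  have hvx : v (1 + η) ≤ 1 := (v.map_add _ _).trans (max_le (by simp) hvη1.le)
  refine ⟨(1 + η) * s, C.V_mul a b _ _ _ s hxLL hs, ?_, ?_, ?_⟩
  · rw [map_mul]; exact mul_le_one' hvx hvs
  · rw [H.rb_mul _ _ hvx hvs, H.rb_add _ _ (by simp) hvη1.le, H.rb_one,
      (H.rb_eq_zero η hvη1.le).2 hvη1, add_zero, one_mul]
  · obtain ⟨h, hh, he⟩ := one_add_pow_expand v η hvη1.le p
    have hpη : (p : F) * η = -ε := by
      rw [hη]; field_simp
    have hsf : s ^ p * f = 1 + ε := by rw [hε]; ring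
    have key : ((1 + η) * s) ^ p * f - 1 = -ε ^ 2 + η ^ 2 * (h * (1 + ε)) := by
      rw [mul_pow, mul_assoc, hsf, he, hpη]; ring
    rw [key]
    have hvε1 : v ε ≤ 1 := herr.trans hδ.le
    refine (v.map_add _ _).trans (max_le ?_ ?_)
    · rw [Valuation.map_neg, map_pow]
      exact pow_le_pow_left' herr 2
    · rw [map_mul, map_pow, hvη]
      have h1 : v (h * (1 + ε)) ≤ 1 := by
        rw [map_mul]
        exact mul_le_one' hh ((v.map_add _ _).trans (max_le (by simp) hvε1))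
      exact (mul_le_of_le_one_right' h1).trans (pow_le_pow_left' herr 2)

theorem diff_le (s1 s2 : F) (h1 : v s1 ≤ 1) (h2 : v s2 ≤ 1) (τ : κ) (hτ : τ ≠ 0)
    (r1 : rb s1 = τ) (r2 : rb s2 = τ) (δ : Γ)
    (e1 : v (s1 ^ p * f - 1) ≤ δ) (e2 : v (s2 ^ p * f - 1) ≤ δ) : v (s1 - s2) ≤ δ := by
  have hterm : ∀ i ∈ Finset.range p, v (s1 ^ i * s2 ^ (p - 1 - i)) ≤ 1 := by
    intro i _
    rw [map_mul, map_pow, map_pow]
    exact mul_le_one' (pow_le_one' h1 _) (pow_le_one' h2 _)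
  have hG : rb (∑ i ∈ Finset.range p, s1 ^ i * s2 ^ (p - 1 - i)) = (p : κ) * τ ^ (p - 1) := by
    rw [H.rb_sum _ _ hterm]
    have : ∀ i ∈ Finset.range p, rb (s1 ^ i * s2 ^ (p - 1 - i)) = τ ^ (p - 1) := by
      intro i hi
      rw [H.rb_mul _ _ (by rw [map_pow]; exact pow_le_one' h1 _)
        (by rw [map_pow]; exact pow_le_one' h2 _), H.rb_pow _ h1, H.rb_pow _ h2, r1, r2, ← pow_add]
      congr 1
      have := Finset.mem_range.1 hi
      omega
    rw [Finset.sum_congr rfl this, Finset.sum_const, Finset.card_range, nsmul_eq_mul]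
  have hpκ : (p : κ) ≠ 0 := by rw [← H.rb_natCast]; exact C.p_ne
  have hvG : v (∑ i ∈ Finset.range p, s1 ^ i * s2 ^ (p - 1 - i)) = 1 :=
    H.v_eq_one_of_rb_ne_zero _ (H.v_sum_le _ _ hterm)
      (by rw [hG]; exact mul_ne_zero hpκ (pow_ne_zero _ hτ))
  have hgeom := geom_sum₂_mul s1 s2 p
  have h3 : v (s1 - s2) = v (s1 ^ p - s2 ^ p) := by
    rw [← hgeom, map_mul, hvG, one_mul]
  have h4 : v (s1 ^ p - s2 ^ p) = v ((s1 ^ p * f - 1) - (s2 ^ p * f - 1)) := by
    have : (s1 ^ p * f - 1) - (s2 ^ p * f - 1) = (s1 ^ p - s2 ^ p) * f := by ring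
    rw [this, map_mul, C.f_unit, mul_one]
  rw [h3, h4]
  exact (v.map_sub _ _).trans (max_le e1 e2)

/-- **[C1]** the abstract core. -/
theorem core : V 0 0 ≠ ⊥ := by
  intro hV0
  have ht := C.t0_ne H
  set a1 := m0 with ha1
  obtain ⟨c0, hc0, hbd⟩ := C.bounded H hV0 a1 le_rfl
  -- initial approximations
  obtain ⟨s1, hs1, hv1, hr1⟩ := C.lift_V H a1 0 (by omega) 1
    (C.Lb_mono _ _ _ _ (Nat.zero_le _) le_rfl C.one_Lb)
  obtain ⟨s2, hs2, hv2, hr2⟩ := C.lift_V H 0 a1 (by omega) 1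
    (C.Lb_mono _ _ _ _ le_rfl (Nat.zero_le _) C.one_Lb)
  have hr1' : rb s1 = t0⁻¹ := eq_inv_of_mul_eq_one_right hr1
  have hr2' : rb s2 = t0⁻¹ := eq_inv_of_mul_eq_one_right hr2
  have herr0 : ∀ s : F, v s ≤ 1 → rb s = t0⁻¹ → v (s ^ p * f - 1) < 1 := by
    intro s hv hr
    have hvp : v (s ^ p) ≤ 1 := by rw [map_pow]; exact pow_le_one' hv p
    have h1 : v (s ^ p * f) ≤ 1 := by rw [map_mul, C.f_unit, mul_one]; exact hvp
    have h2 : v (s ^ p * f - 1) ≤ 1 := (v.map_sub _ _).trans (max_le h1 (by simp))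
    rw [← H.rb_eq_zero _ h2, H.rb_sub _ _ h1 (by simp), H.rb_mul _ _ hvp C.f_unit.le,
      H.rb_pow _ hv, hr, C.f_red, H.rb_one, ← mul_pow, inv_mul_cancel₀ ht, one_pow, sub_self]
  obtain ⟨c1, hc1⟩ := H.exists_const (s1 ^ p * f - 1)
  obtain ⟨c2, hc2⟩ := H.exists_const (s2 ^ p * f - 1)
  obtain ⟨c, hclt, hce1, hce2⟩ : ∃ c : L, v (algebraMap L F c) < 1 ∧
      v (s1 ^ p * f - 1) ≤ v (algebraMap L F c) ∧ v (s2 ^ p * f - 1) ≤ v (algebraMap L F c) := by
    rcases le_total (v (algebraMap L F c1)) (v (algebraMap L F c2)) with h | h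
    · exact ⟨c2, hc2 ▸ herr0 s2 hv2 hr2', hc1 ▸ h, hc2.le⟩
    · exact ⟨c1, hc1 ▸ herr0 s1 hv1 hr1', hc1.le, hc2 ▸ h⟩
  have good : ∀ j : ℕ, ∃ a, a1 ≤ a ∧ ∃ s1 ∈ V a 0, ∃ s2 ∈ V 0 a, v s1 ≤ 1 ∧ v s2 ≤ 1 ∧
      rb s1 = t0⁻¹ ∧ rb s2 = t0⁻¹ ∧ v (s1 ^ p * f - 1) ≤ v (algebraMap L F c) ^ (j + 1) ∧
      v (s2 ^ p * f - 1) ≤ v (algebraMap L F c) ^ (j + 1) := by
    intro j
    induction j with
    | zero =>
      exact ⟨a1, le_rfl, s1, hs1, s2, hs2, hv1, hv2, hr1', hr2', by simpa using hce1,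
        by simpa using hce2⟩
    | succ j ih =>
      obtain ⟨a, ha, s1, hs1, s2, hs2, hv1, hv2, hr1, hr2, e1, e2⟩ := ih
      have hδ : v (algebraMap L F c) ^ (j + 1) < 1 := pow_lt_one₀ zero_le hclt (by omega)
      obtain ⟨s1', hs1', hv1', hr1', e1'⟩ := C.newton_step H a 0 s1 hs1 hv1 _ hδ e1
      obtain ⟨s2', hs2', hv2', hr2', e2'⟩ := C.newton_step H 0 a s2 hs2 hv2 _ hδ e2
      have hpow : (v (algebraMap L F c) ^ (j + 1)) ^ 2 ≤ v (algebraMap L F c) ^ (j + 1 + 1) := by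
        rw [← pow_mul]
        exact pow_le_pow_right_of_le_one' hclt.le (by omega)
      simp only [mul_zero, add_zero] at hs1' hs2'
      exact ⟨a + p * a, by omega, s1', hs1', s2', hs2', hv1', hv2', hr1'.trans hr1,
        hr2'.trans hr2, e1'.trans hpow, e2'.trans hpow⟩
  -- contradiction
  have hvc0 : v (algebraMap L F c0) ≠ 0 := by
    rw [Valuation.ne_zero_iff, Ne, FaithfulSMul.algebraMap_eq_zero_iff]; exact hc0
  have hall : ∀ j : ℕ, v (algebraMap L F c0) ≤ v (algebraMap L F c) ^ (j + 1) := by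
    intro j
    obtain ⟨a, ha, s1, hs1, s2, hs2, hv1, hv2, hr1, hr2, e1, e2⟩ := good j
    have hd := C.diff_le H s1 s2 hv1 hv2 t0⁻¹ (inv_ne_zero ht) hr1 hr2 _ e1 e2
    have hb := hbd a ha s1 hs1 s2 hs2 (c ^ (j + 1)) (by rw [map_pow, map_pow]; exact hd)
    have hs1u : v s1 = 1 := H.v_eq_one_of_rb_ne_zero _ hv1 (by rw [hr1]; exact inv_ne_zero ht)
    rw [H.v_smul, hs1u, mul_one, map_pow, map_pow] at hb
    exact hb
  by_cases hc : c = 0
  · have := hall 0
    rw [hc, map_zero, map_zero, zero_pow (by omega), le_zero_iff] at this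
    exact hvc0 this
  · obtain ⟨j, hj⟩ := H.rank_one c (c0 * c) hclt (mul_ne_zero hc0 hc)
    have h1 := hall j
    have h2 : v (algebraMap L F c) ^ (j + 1) ≤ v (algebraMap L F c) ^ j :=
      pow_le_pow_right_of_le_one' hclt.le (by omega)
    have h3 : v (algebraMap L F c0) ≤ v (algebraMap L F c0) * v (algebraMap L F c) := by
      rw [← map_mul, ← map_mul]
      exact (h1.trans h2).trans hj
    have h4 : v (algebraMap L F c0) * v (algebraMap L F c) < v (algebraMap L F c0) * 1 :=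
      mul_lt_mul_of_pos_left hclt (zero_lt_iff.2 hvc0)
    rw [mul_one] at h4
    exact lt_irrefl _ (h3.trans_lt h4)

end CoreHyp

end Main4

end Fermat.Agent.S18
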