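import Mathlib

set_option autoImplicit false

/-! # S18 [V1]: reduced echelon bases of finite dimensional subspaces of `ι →₀ L`
with respect to a valuation ring of `L` (maximal pivots). -/

namespace Fermat.Agent.S18

theorem exists_cart_basis {L : Type} [Field L] (A : ValuationSubring L) {ι : Type} :
    ∀ (r : ℕ) (W : Submodule L (ι →₀ L)) [FiniteDimensional L W], Module.finrank L W = r →
    ∃ (σ : Type) (_ : Fintype σ) (e : σ → (ι →₀ L)) (piv : σ → ι),
      (∀ a, e a ∈ W) ∧ (∀ a i, e a i ∈ A) ∧ W ≤ Submodule.span L (Set.range e) ∧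
      (∀ a, e a (piv a) = 1) ∧ (∀ a b, a ≠ b → e a (piv b) = 0) := by
  intro r
  induction r using Nat.strong_induction_on with
  | _ r ih =>
  intro W _ hr
  classical
  by_cases hW : W = ⊥
  · refine ⟨Empty, inferInstance, fun a => a.elim, fun a => a.elim, fun a => a.elim,
      fun a => a.elim, ?_, fun a => a.elim, fun a => a.elim⟩
    rw [hW]; exact bot_le
  obtain ⟨x, hxW, hx0⟩ := Submodule.exists_mem_ne_zero_of_ne_bot hW
  have hne : x.support.Nonempty := by
    rwa [Finset.nonempty_iff_ne_empty, ne_eq, Finsupp.support_eq_empty]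
  obtain ⟨α, hα, hmax⟩ := Finset.exists_max_image x.support (fun i => A.valuation (x i)) hne
  have hxα : x α ≠ 0 := Finsupp.mem_support_iff.1 hα
  set x₁ : ι →₀ L := (x α)⁻¹ • x with hx₁
  have hx₁W : x₁ ∈ W := W.smul_mem _ hxW
  have hx₁α : x₁ α = 1 := by
    rw [hx₁, Finsupp.smul_apply, smul_eq_mul, inv_mul_cancel₀ hxα]
  have hx₁A : ∀ i, x₁ i ∈ A := by
    intro i
    rw [hx₁, Finsupp.smul_apply, smul_eq_mul, ← ValuationSubring.valuation_le_one_iff, map_mul,
      map_inv₀]
    by_cases hi : i ∈ x.support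
    · have h2 : 0 < A.valuation (x α) := zero_lt_iff.2 ((Valuation.ne_zero_iff _).2 hxα)
      rw [inv_mul_le_iff₀ h2, mul_one]
      exact hmax i hi
    · rw [Finsupp.notMem_support_iff.1 hi]; simp
  set W' : Submodule L (ι →₀ L) := W ⊓ LinearMap.ker (Finsupp.lapply α) with hW'
  have hlt : W' < W := by
    refine lt_of_le_of_ne inf_le_left ?_
    intro h
    have : x₁ ∈ W' := h ▸ hx₁W
    have h2 : x₁ α = 0 := this.2
    rw [hx₁α] at h2
    exact one_ne_zero h2
  have hfr : Module.finrank L W' < r := hr ▸ Submodule.finrank_lt_finrank_of_lt hlt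
  have : FiniteDimensional L W' := Submodule.finiteDimensional_of_le hlt.le
  obtain ⟨σ', _, e', piv', he'W, he'A, hspan', hpiv1, hpiv0⟩ := ih _ hfr W' rfl
  have he'α : ∀ a, e' a α = 0 := fun a => (he'W a).2
  set x₂ : ι →₀ L := x₁ - ∑ a, x₁ (piv' a) • e' a with hx₂
  have hx₂app : ∀ i, x₂ i = x₁ i - ∑ a, x₁ (piv' a) * e' a i := by
    intro i
    rw [hx₂, Finsupp.sub_apply, Finsupp.finsetSum_apply]
    simp only [Finsupp.smul_apply, smul_eq_mul]
  have hx₂W : x₂ ∈ W :=
    W.sub_mem hx₁W (W.sum_mem fun a _ => W.smul_mem _ (he'W a).1)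
  have hx₂α : x₂ α = 1 := by
    rw [hx₂app, hx₁α]
    simp [he'α]
  refine ⟨Option σ', inferInstance, fun o => o.elim x₂ e', fun o => o.elim α piv', ?_, ?_, ?_, ?_,
    ?_⟩
  · rintro (_ | a)
    · exact hx₂W
    · exact (he'W a).1
  · rintro (_ | a) i
    · show x₂ i ∈ A
      rw [hx₂app]
      exact sub_mem (hx₁A i) (sum_mem fun a _ => mul_mem (hx₁A _) (he'A a i))
    · exact he'A a i
  · intro y hy
    have h1 : y - y α • x₂ ∈ W' := by
      refine ⟨W.sub_mem hy (W.smul_mem _ hx₂W), ?_⟩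
      show (y - y α • x₂) α = 0
      rw [Finsupp.sub_apply, Finsupp.smul_apply, hx₂α, smul_eq_mul, mul_one, sub_self]
    have h2 : Submodule.span L (Set.range e') ≤
        Submodule.span L (Set.range fun o : Option σ' => o.elim x₂ e') := by
      apply Submodule.span_mono
      rintro _ ⟨a, rfl⟩
      exact ⟨some a, rfl⟩
    have h3 : x₂ ∈ Submodule.span L (Set.range fun o : Option σ' => o.elim x₂ e') :=
      Submodule.subset_span ⟨none, rfl⟩
    have h4 : y = (y - y α • x₂) + y α • x₂ := by abel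
    rw [h4]
    exact Submodule.add_mem _ (h2 (hspan' h1)) (Submodule.smul_mem _ _ h3)
  · rintro (_ | a)
    · exact hx₂α
    · exact hpiv1 a
  · rintro (_ | a) (_ | b) hab
    · exact absurd rfl hab
    · show x₂ (piv' b) = 0
      rw [hx₂app, Finset.sum_eq_single b]
      · rw [hpiv1, mul_one, sub_self]
      · intro a _ hab'
        rw [hpiv0 a b hab', mul_zero]
      · intro h; exact absurd (Finset.mem_univ b) h
    · exact he'α a
    · exact hpiv0 a b (fun h => hab (by rw [h]))

end Fermat.Agent.S18
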