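import Mathlib
import Fermat.Agent.S18.Gauss
import Fermat.Agent.S18.Cart

set_option autoImplicit false

/-! # S18 [V1]: the lattice lemma (orthonormal bases of finite dimensional `L`-subspaces of `F`) -/

namespace Fermat.Agent.S18

open Polynomial IntermediateField

namespace VData

variable {L F k κ : Type} [Field L] [Field F] [Algebra L F] [Field k] [Field κ] [Algebra k κ]
variable (V : VData L F k κ)

open Classical in
/-- total version of `π`. -/
noncomputable def pr (c : L) : k := if h : c ∈ V.A then V.π ⟨c, h⟩ else 0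

theorem pr_of_mem {c : L} (h : c ∈ V.A) : V.pr c = V.π ⟨c, h⟩ := by rw [pr, dif_pos h]

theorem rd_algebraMap' {c : L} (h : c ∈ V.A) :
    V.rd (algebraMap L F c) = algebraMap k κ (V.pr c) := by
  rw [V.pr_of_mem h]; exact V.rd_algebraMap ⟨c, h⟩

theorem pr_surj (y : k) : ∃ c ∈ V.A, V.pr c = y := by
  obtain ⟨c, hc⟩ := V.π_surj y
  exact ⟨c, c.2, by rw [V.pr_of_mem c.2]; exact hc⟩

@[simp] theorem pr_one : V.pr 1 = 1 := by
  rw [V.pr_of_mem (one_mem _)]; exact map_one V.π

section ONL

variable {ι : Type} (e : ι → F) (he : ∀ a, e a ∈ V.O)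
  (hli : LinearIndependent k (fun a => V.rd (e a)))

include he in
theorem rd_sum_smul (s : Finset ι) (c : ι → L) (hc : ∀ a ∈ s, c a ∈ V.A) :
    V.rd (∑ a ∈ s, c a • e a) = ∑ a ∈ s, V.pr (c a) • V.rd (e a) := by
  rw [V.rd_sum _ _ (fun a ha => by
    rw [Algebra.smul_def]; exact mul_mem (V.algebraMap_mem (hc a ha)) (he a))]
  refine Finset.sum_congr rfl fun a ha => ?_
  rw [Algebra.smul_def, V.rd_mul (V.algebraMap_mem (hc a ha)) (he a), V.rd_algebraMap' (hc a ha),
    Algebra.smul_def]

include he hli in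
theorem rd_sum_smul_ne_zero (s : Finset ι) (c : ι → L) (hc : ∀ a ∈ s, c a ∈ V.A) (a₀ : ι)
    (ha₀ : a₀ ∈ s) (h1 : c a₀ = 1) : V.rd (∑ a ∈ s, c a • e a) ≠ 0 := by
  intro h0
  rw [V.rd_sum_smul e he s c hc] at h0
  have := (linearIndependent_iff'.1 hli) s (fun a => V.pr (c a)) h0 a₀ ha₀
  simp only [h1, pr_one] at this
  exact one_ne_zero this

include he hli in
/-- orthonormality of a family with linearly independent reductions. -/
theorem coeff_mem_of_sum_mem (s : Finset ι) (c : ι → L) (h : ∑ a ∈ s, c a • e a ∈ V.O)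
    (a : ι) (ha : a ∈ s) : c a ∈ V.A := by
  by_contra hna
  obtain ⟨a₀, ha₀, hmax⟩ := Finset.exists_max_image s (fun i => V.A.valuation (c i)) ⟨a, ha⟩
  have hna₀ : c a₀ ∉ V.A := by
    intro hmem
    apply hna
    rw [← ValuationSubring.valuation_le_one_iff] at hmem ⊢
    exact (hmax a ha).trans hmem
  have h0 : c a₀ ≠ 0 := by
    intro h0; apply hna₀; rw [h0]; exact zero_mem _
  have hdiv : ∀ i ∈ s, c i / c a₀ ∈ V.A := by
    intro i hi
    rw [← ValuationSubring.valuation_le_one_iff, map_div₀,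
      div_le_one₀ (zero_lt_iff.2 ((Valuation.ne_zero_iff _).2 h0))]
    exact hmax i hi
  have hy := V.rd_sum_smul_ne_zero e he hli s (fun i => c i / c a₀) hdiv a₀ ha₀ (div_self h0)
  apply hna₀
  rw [V.mem_iff]
  have h2 : ∑ i ∈ s, c i • e i = algebraMap L F (c a₀) * ∑ i ∈ s, (c i / c a₀) • e i := by
    rw [Finset.mul_sum]
    refine Finset.sum_congr rfl fun i _ => ?_
    rw [← Algebra.smul_def, smul_smul, mul_div_cancel₀ _ h0]
  have h3 : (∑ i ∈ s, (c i / c a₀) • e i) ≠ 0 := by
    intro h3; rw [h3] at hy; exact hy V.rd_zero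
  have : algebraMap L F (c a₀) = (∑ i ∈ s, c i • e i) * (∑ i ∈ s, (c i / c a₀) • e i)⁻¹ := by
    rw [h2]; field_simp
  rw [this]
  exact mul_mem h (V.inv_mem_of_rd_ne_zero hy)

include he hli in
theorem linearIndependent_of_rd : LinearIndependent L e := by
  rw [linearIndependent_iff']
  intro s c hc a ha
  by_contra hna
  obtain ⟨a₀, ha₀, hmax⟩ := Finset.exists_max_image s (fun i => V.A.valuation (c i)) ⟨a, ha⟩
  have h0 : c a₀ ≠ 0 := by
    intro h0
    have h1 := hmax a ha
    simp only [h0, map_zero, le_zero_iff, map_eq_zero] at h1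
    exact hna h1
  have hdiv : ∀ i ∈ s, c i / c a₀ ∈ V.A := by
    intro i hi
    rw [← ValuationSubring.valuation_le_one_iff, map_div₀,
      div_le_one₀ (zero_lt_iff.2 ((Valuation.ne_zero_iff _).2 h0))]
    exact hmax i hi
  have hy := V.rd_sum_smul_ne_zero e he hli s (fun i => c i / c a₀) hdiv a₀ ha₀ (div_self h0)
  apply hy
  have h2 : ∑ i ∈ s, (c i / c a₀) • e i = (c a₀)⁻¹ • ∑ i ∈ s, c i • e i := by
    rw [Finset.smul_sum]
    refine Finset.sum_congr rfl fun i _ => ?_
    rw [smul_smul, div_eq_inv_mul]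
  rw [h2, hc, smul_zero, V.rd_zero]

include he hli in
/-- lattice lemma inside the span of an orthonormal family. -/
theorem exists_onb_of_le_span (W : Submodule L F) [FiniteDimensional L W]
    (hW : W ≤ Submodule.span L (Set.range e)) :
    ∃ (σ : Type) (_ : Fintype σ) (u : σ → F), (∀ a, u a ∈ W) ∧ (∀ a, u a ∈ V.O) ∧
      LinearIndependent k (fun a => V.rd (u a)) ∧ W ≤ Submodule.span L (Set.range u) := by
  classical
  let Φ : (ι →₀ L) →ₗ[L] F := Finsupp.linearCombination L e
  have hΦinj : Function.Injective Φ := V.linearIndependent_of_rd e he hli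
  have hΦrange : LinearMap.range Φ = Submodule.span L (Set.range e) :=
    Finsupp.range_linearCombination L
  let W' : Submodule L (ι →₀ L) := W.comap Φ
  have : FiniteDimensional L W' := by
    let f : W' →ₗ[L] W := Φ.restrict (fun x hx => hx)
    have hf : Function.Injective f := by
      intro x y hxy
      apply Subtype.ext
      apply hΦinj
      exact congrArg Subtype.val hxy
    exact FiniteDimensional.of_injective f hf
  obtain ⟨σ, hσ, u', piv, hu'W, hu'A, hspan, hp1, hp0⟩ := exists_cart_basis V.A _ W' rfl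
  have hΦapp : ∀ x : ι →₀ L, Φ x = ∑ a ∈ x.support, x a • e a := fun x => by
    rw [Finsupp.linearCombination_apply, Finsupp.sum]
  have hΦO : ∀ x : ι →₀ L, (∀ i, x i ∈ V.A) → Φ x ∈ V.O := by
    intro x hx
    rw [hΦapp]
    exact sum_mem fun a _ => by
      rw [Algebra.smul_def]; exact mul_mem (V.algebraMap_mem (hx a)) (he a)
  refine ⟨σ, hσ, fun a => Φ (u' a), fun a => hu'W a, fun a => hΦO _ (hu'A a), ?_, ?_⟩
  · rw [Fintype.linearIndependent_iff]
    intro g hg b
    choose c hcA hc using fun a => V.pr_surj (g a)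
    -- the integral vector `z = Σ c_a u'_a`
    let z : ι →₀ L := ∑ a, c a • u' a
    have hzapp : ∀ i, z i = ∑ a, c a * u' a i := by
      intro i
      simp only [z, Finsupp.finsetSum_apply, Finsupp.smul_apply, smul_eq_mul]
    have hzA : ∀ i, z i ∈ V.A := by
      intro i; rw [hzapp]
      exact sum_mem fun a _ => mul_mem (hcA a) (hu'A a i)
    have hzb : z (piv b) = c b := by
      rw [hzapp, Finset.sum_eq_single b]
      · rw [hp1, mul_one]
      · intro a _ hab; rw [hp0 a b hab, mul_zero]
      · intro h; exact absurd (Finset.mem_univ b) h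
    have hΦz : Φ z = ∑ a, c a • Φ (u' a) := by
      simp only [z, map_sum, map_smul]
    have h1 : V.rd (Φ z) = 0 := by
      rw [hΦz, V.rd_sum_smul (fun a => Φ (u' a)) (fun a => hΦO _ (hu'A a)) Finset.univ c
        (fun a _ => hcA a), ← hg]
      exact Finset.sum_congr rfl fun a _ => by rw [hc]
    rw [hΦapp, V.rd_sum_smul e he _ _ (fun a _ => hzA a)] at h1
    have h2 := (linearIndependent_iff'.1 hli) z.support (fun a => V.pr (z a)) h1
    by_cases hb : piv b ∈ z.support
    · have := h2 _ hb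
      rw [hzb, hc] at this
      exact this
    · have h3 : z (piv b) = 0 := Finsupp.notMem_support_iff.1 hb
      rw [hzb] at h3
      rw [← hc, h3, V.pr_of_mem (zero_mem _)]
      exact map_zero V.π
  · intro y hy
    have hy' : y ∈ LinearMap.range Φ := hΦrange ▸ hW hy
    obtain ⟨x, rfl⟩ := hy'
    have hx : x ∈ W' := hy
    have h1 := hspan hx
    have h2 : Φ x ∈ (Submodule.span L (Set.range u')).map Φ := Submodule.mem_map_of_mem h1
    rw [Submodule.map_span, ← Set.range_comp] at h2
    exact h2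

end ONL

end VData

end Fermat.Agent.S18
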