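import Mathlib
import Fermat.Agent.S18.Lattice

set_option autoImplicit false

/-! # S18 [V1]: the lattice lemma (ONB) for arbitrary finite dimensional subspaces -/

namespace Fermat.Agent.S18

open Polynomial IntermediateField

namespace VData

variable {L F k κ : Type} [Field L] [Field F] [Algebra L F] [Field k] [Field κ] [Algebra k κ]
variable (V : VData L F k κ)

section Ambient

variable {t : F} (htr : Transcendental k (V.rd t)) {n : ℕ} (B : ONBasis V t n)

/-- the `L`-span of the `t^j b_i`. -/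
def ONBasis.U₀ : Submodule L F := Submodule.span L (Set.range fun p : ℕ × Fin n => t ^ p.1 * B.b p.2)

theorem ONBasis.aeval_mul_mem_U₀ (P : L[X]) {y : F} (hy : y ∈ B.U₀) : aeval t P * y ∈ B.U₀ := by
  induction P using Polynomial.induction_on' with
  | add p q hp hq => rw [map_add, add_mul]; exact B.U₀.add_mem hp hq
  | monomial m c =>
    rw [aeval_monomial]
    induction hy using Submodule.span_induction with
    | mem x hx =>
      obtain ⟨⟨j, i⟩, rfl⟩ := hx
      have : algebraMap L F c * t ^ m * (t ^ j * B.b i) = c • (t ^ (m + j) * B.b i) := by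
        rw [Algebra.smul_def, pow_add]; ring
      rw [this]
      exact B.U₀.smul_mem _ (Submodule.subset_span ⟨(m + j, i), rfl⟩)
    | zero => rw [mul_zero]; exact B.U₀.zero_mem
    | add x y _ _ hx hy => rw [mul_add]; exact B.U₀.add_mem hx hy
    | smul a x _ hx =>
      rw [mul_smul_comm]; exact B.U₀.smul_mem _ hx

theorem ONBasis.common_den {σ : Type} [Fintype σ] (x : σ → F)
    (h : ∀ a, ∃ s : L[X], s ≠ 0 ∧ aeval t s * x a ∈ B.U₀) :
    ∃ s : L[X], s ≠ 0 ∧ ∀ a, aeval t s * x a ∈ B.U₀ := by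
  classical
  choose s hs0 hs using h
  refine ⟨∏ a, s a, Finset.prod_ne_zero_iff.2 fun a _ => hs0 a, fun a => ?_⟩
  rw [← Finset.mul_prod_erase Finset.univ s (Finset.mem_univ a), map_mul, mul_comm (aeval t (s a)),
    mul_assoc]
  exact B.aeval_mul_mem_U₀ V _ (hs a)

theorem ONBasis.exists_den (x : F) : ∃ s : L[X], s ≠ 0 ∧ aeval t s * x ∈ B.U₀ := by
  have h1 : ∀ i, ∃ s : L[X], s ≠ 0 ∧ aeval t s * (((B.b.repr x i : L⟮t⟯) : F) * B.b i) ∈ B.U₀ := by
    intro i
    obtain ⟨r, s, hrs⟩ := (IntermediateField.mem_adjoin_simple_iff L _).1 (B.b.repr x i).2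
    have hb : B.b i ∈ B.U₀ := Submodule.subset_span ⟨(0, i), by simp⟩
    by_cases hs : aeval t s = 0
    · refine ⟨1, one_ne_zero, ?_⟩
      rw [hrs, hs, div_zero, zero_mul, mul_zero]; exact B.U₀.zero_mem
    · refine ⟨s, fun h => hs (by rw [h, map_zero]), ?_⟩
      rw [hrs, ← mul_assoc, mul_div_cancel₀ _ hs]
      exact B.aeval_mul_mem_U₀ V _ hb
  obtain ⟨s, hs0, hs⟩ := B.common_den V _ h1
  refine ⟨s, hs0, ?_⟩
  have : x = ∑ i, ((B.b.repr x i : L⟮t⟯) : F) * B.b i := by
    conv_lhs => rw [← B.b.sum_repr x]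
    rfl
  rw [this, Finset.mul_sum]
  exact B.U₀.sum_mem fun i _ => hs i

include htr in
theorem ONBasis.linearIndependent_fam {u : F} (hu : V.rd u ≠ 0) :
    LinearIndependent k (fun p : ℕ × Fin n => V.rd (t ^ p.1 * B.b p.2 * u)) := by
  have ht : t ∈ V.O := V.mem_of_rd_ne_zero (fun h0 => htr (h0 ▸ isAlgebraic_zero))
  have hgen : Transcendental k (AdjoinSimple.gen k (V.rd t)) := by
    intro halg
    apply htr
    have := halg.algebraMap (A := κ)
    simpa using this
  have h1 : LinearIndependent k (fun j : ℕ => (AdjoinSimple.gen k (V.rd t)) ^ j) := by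
    have h2 := (Polynomial.basisMonomials k).linearIndependent.map'
      (aeval (AdjoinSimple.gen k (V.rd t))).toLinearMap
      (LinearMap.ker_eq_bot.2 (transcendental_iff_injective.1 hgen))
    have h5 : (fun j : ℕ => (AdjoinSimple.gen k (V.rd t)) ^ j) =
        (aeval (AdjoinSimple.gen k (V.rd t))).toLinearMap ∘ (Polynomial.basisMonomials k) := by
      funext j
      simp [Polynomial.coe_basisMonomials]
    rw [h5]; exact h2
  have h3 := linearIndependent_smul h1 B.bb.linearIndependent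
  have h4 := h3.map' (LinearMap.mulRight k (V.rd u))
    (LinearMap.ker_eq_bot.2 (mul_left_injective₀ hu))
  have h6 : (fun p : ℕ × Fin n => V.rd (t ^ p.1 * B.b p.2 * u)) =
      (LinearMap.mulRight k (V.rd u)) ∘
        (fun p : ℕ × Fin n => (AdjoinSimple.gen k (V.rd t)) ^ p.1 • B.bb p.2) := by
    funext ⟨j, i⟩
    simp only [Function.comp_apply, LinearMap.mulRight_apply]
    rw [V.rd_mul (mul_mem (pow_mem ht _) (B.mem i)) (V.mem_of_rd_ne_zero hu),
      V.rd_mul (pow_mem ht _) (B.mem i), V.rd_pow ht, B.rd_eq]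
    rfl
  rw [h6]; exact h4

include htr B in
/-- (ONB) the lattice lemma. -/
theorem ONBasis.exists_onb (W : Submodule L F) [FiniteDimensional L W] :
    ∃ (σ : Type) (_ : Fintype σ) (u : σ → F), (∀ a, u a ∈ W) ∧ (∀ a, u a ∈ V.O) ∧
      LinearIndependent k (fun a => V.rd (u a)) ∧ W ≤ Submodule.span L (Set.range u) := by
  have ht : t ∈ V.O := V.mem_of_rd_ne_zero (fun h0 => htr (h0 ▸ isAlgebraic_zero))
  let β := Module.finBasis L W
  obtain ⟨s, hs0, hs⟩ := B.common_den V (fun a => ((β a : W) : F)) (fun a => B.exists_den V _)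
  obtain ⟨c, s₁, hc, hsc, hs₁⟩ := V.exists_primitive s hs0
  have hu' := V.rd_aeval_ne_zero htr s₁ hs₁
  set d := aeval t (s₁.map V.A.subtype) with hd
  have hd0 : d ≠ 0 := by intro h0; rw [h0] at hu'; exact hu' V.rd_zero
  have hu : V.rd d⁻¹ ≠ 0 := by rw [V.rd_inv hu']; exact inv_ne_zero hu'
  have hmem : ∀ p : ℕ × Fin n, t ^ p.1 * B.b p.2 * d⁻¹ ∈ V.O := fun p =>
    mul_mem (mul_mem (pow_mem ht _) (B.mem _)) (V.mem_of_rd_ne_zero hu)
  refine V.exists_onb_of_le_span (fun p : ℕ × Fin n => t ^ p.1 * B.b p.2 * d⁻¹) hmem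
    (B.linearIndependent_fam V htr hu) W ?_
  -- `W` is contained in the span
  have hU : ∀ y ∈ B.U₀, y * d⁻¹ ∈
      Submodule.span L (Set.range fun p : ℕ × Fin n => t ^ p.1 * B.b p.2 * d⁻¹) := by
    intro y hy
    have h1 : y * d⁻¹ ∈ B.U₀.map (LinearMap.mulRight L d⁻¹) := ⟨y, hy, rfl⟩
    rw [ONBasis.U₀, Submodule.map_span, ← Set.range_comp] at h1
    exact h1
  have hβ : ∀ a, ((β a : W) : F) ∈
      Submodule.span L (Set.range fun p : ℕ × Fin n => t ^ p.1 * B.b p.2 * d⁻¹) := by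
    intro a
    have h1 := hU _ (hs a)
    have hcF : algebraMap L F c ≠ 0 := by simpa using hc
    have h2 : ((β a : W) : F) = c⁻¹ • (aeval t s * ((β a : W) : F) * d⁻¹) := by
      rw [hsc, map_mul, aeval_C, ← hd, Algebra.smul_def, map_inv₀]
      field_simp
    rw [h2]
    exact Submodule.smul_mem _ _ h1
  intro y hy
  have h1 : (⟨y, hy⟩ : W) = ∑ a, β.repr ⟨y, hy⟩ a • β a := (β.sum_repr _).symm
  have h2 : y = ∑ a, β.repr ⟨y, hy⟩ a • ((β a : W) : F) := by
    have h3 := congrArg (W.subtype) h1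
    rw [map_sum] at h3
    simpa only [map_smul, Submodule.subtype_apply] using h3
  rw [h2]
  exact Submodule.sum_mem _ fun a _ => Submodule.smul_mem _ _ (hβ a)

end Ambient

end VData

end Fermat.Agent.S18
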