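import Mathlib
import Fermat.Agent.S18.Core
import Fermat.Agent.S18.LatticeB

set_option autoImplicit false

/-! # S18 [C1-inst]: a `VData` with an orthonormal basis and rank one gives an `IsVF` -/

namespace Fermat.Agent.S18

open Polynomial IntermediateField

namespace VData

variable {L F k κ : Type} [Field L] [Field F] [Algebra L F] [Field k] [Field κ] [Algebra k κ]
variable (V : VData L F k κ)

theorem val_le_one_iff (x : F) : V.O.valuation x ≤ 1 ↔ x ∈ V.O :=
  ValuationSubring.valuation_le_one_iff _ _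

theorem val_lt_one_iff {x : F} (hx : x ∈ V.O) : V.O.valuation x < 1 ↔ V.rd x = 0 := by
  rcases eq_or_ne x 0 with rfl | hx0
  · simp
  have hv0 : V.O.valuation x ≠ 0 := (Valuation.ne_zero_iff _).2 hx0
  constructor
  · intro h
    by_contra hne
    have h1 := V.inv_mem_of_rd_ne_zero hne
    rw [← V.val_le_one_iff, map_inv₀, inv_le_one₀ (zero_lt_iff.2 hv0)] at h1
    exact absurd h (not_lt.2 h1)
  · intro h
    by_contra hlt
    have h1 : x⁻¹ ∈ V.O := by
      rw [← V.val_le_one_iff, map_inv₀, inv_le_one₀ (zero_lt_iff.2 hv0)]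
      exact not_lt.1 hlt
    exact V.rd_ne_zero_of_inv_mem hx0 hx h1 h

theorem val_algebraMap_le_iff (c d : L) :
    V.O.valuation (algebraMap L F c) ≤ V.O.valuation (algebraMap L F d) ↔
      V.A.valuation c ≤ V.A.valuation d := by
  rcases eq_or_ne d 0 with rfl | hd
  · simp
  have hdF : algebraMap L F d ≠ 0 := by simpa using hd
  have h1 : 0 < V.O.valuation (algebraMap L F d) := zero_lt_iff.2 ((Valuation.ne_zero_iff _).2 hdF)
  have h2 : 0 < V.A.valuation d := zero_lt_iff.2 ((Valuation.ne_zero_iff _).2 hd)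
  rw [← div_le_one₀ h1, ← div_le_one₀ h2, ← map_div₀, ← map_div₀, ← map_div₀,
    V.val_le_one_iff, ValuationSubring.valuation_le_one_iff, V.mem_iff]

theorem val_algebraMap_lt_iff (c d : L) :
    V.O.valuation (algebraMap L F c) < V.O.valuation (algebraMap L F d) ↔
      V.A.valuation c < V.A.valuation d := by
  rw [← not_le, ← not_le, V.val_algebraMap_le_iff]

/-- **[C1-inst]** -/
theorem isVF {t : F} (htr : Transcendental k (V.rd t)) {n : ℕ} (B : ONBasis V t n)
    (hrk : ∀ c c0 : L, V.A.valuation c < 1 → c0 ≠ 0 →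
      ∃ j : ℕ, V.A.valuation c ^ j ≤ V.A.valuation c0) :
    IsVF L k V.O.valuation V.rd where
  rb_add x y hx hy := V.rd_add ((V.val_le_one_iff x).1 hx) ((V.val_le_one_iff y).1 hy)
  rb_mul x y hx hy := V.rd_mul ((V.val_le_one_iff x).1 hx) ((V.val_le_one_iff y).1 hy)
  rb_one := V.rd_one
  rb_eq_zero x hx := (V.val_lt_one_iff ((V.val_le_one_iff x).1 hx)).symm
  rb_const c hc := by
    have hcA : c ∈ V.A := (V.mem_iff c).2 ((V.val_le_one_iff _).1 hc)
    exact ⟨V.π ⟨c, hcA⟩, V.rd_algebraMap ⟨c, hcA⟩⟩
  lift_const c' := by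
    obtain ⟨c, hc⟩ := V.π_surj c'
    exact ⟨c, (V.val_le_one_iff _).2 (V.algebraMap_mem c.2), by rw [V.rd_algebraMap, hc]⟩
  exists_const x := by
    rcases eq_or_ne x 0 with rfl | hx0
    · exact ⟨0, by simp⟩
    obtain ⟨c, hc, hne⟩ := V.exists_scale hx0
    have hcF : algebraMap L F c ≠ 0 := by simpa using hc
    have hmem := V.mem_of_rd_ne_zero hne
    have h1 : V.O.valuation (algebraMap L F c * x) = 1 := by
      rcases lt_or_eq_of_le ((V.val_le_one_iff _).2 hmem) with h | h
      · exact absurd ((V.val_lt_one_iff hmem).1 h) hne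
      · exact h
    refine ⟨c⁻¹, ?_⟩
    rw [map_mul] at h1
    rw [map_inv₀, map_inv₀]
    exact eq_inv_of_mul_eq_one_right h1
  exists_on W hW := by
    obtain ⟨σ, hσ, u, huW, huO, hli, hspan⟩ := B.exists_onb V htr W
    let e := Fintype.equivFin σ
    have hliL : LinearIndependent L u := V.linearIndependent_of_rd u huO hli
    refine ⟨Fintype.card σ, u ∘ e.symm, hliL.comp _ e.symm.injective, ?_, ?_⟩
    · rw [Set.range_comp, e.symm.surjective.range_eq, Set.image_univ]
      refine le_antisymm ?_ hspan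
      rw [Submodule.span_le]
      rintro _ ⟨a, rfl⟩
      exact huW a
    · intro c
      have hsum : ∑ i, c i • (u ∘ e.symm) i = ∑ a, c (e a) • u a := by
        rw [← Equiv.sum_comp e]
        simp
      rw [hsum, V.val_le_one_iff]
      constructor
      · intro h i
        have := V.coeff_mem_of_sum_mem u huO hli Finset.univ (fun a => c (e a)) h (e.symm i)
          (Finset.mem_univ _)
        rw [V.val_le_one_iff]
        apply V.algebraMap_mem
        simpa using this
      · intro h
        refine sum_mem fun a _ => ?_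
        rw [Algebra.smul_def]
        exact mul_mem ((V.val_le_one_iff _).1 (h (e a))) (huO a)
  rank_one c c0 hc hc0 := by
    have h1 : V.A.valuation c < 1 := by
      have := (V.val_algebraMap_lt_iff c 1).1 (by simpa using hc)
      simpa using this
    obtain ⟨j, hj⟩ := hrk c c0 h1 hc0
    refine ⟨j, ?_⟩
    rw [← map_pow, ← map_pow, V.val_algebraMap_le_iff, map_pow]
    exact hj

end VData

end Fermat.Agent.S18
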