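import Mathlib
import Fermat.Agent.S18.VFInst
import Fermat.Agent.S18.GaussInt
import Fermat.Agent.S18.Twist
import Fermat.Agent.S18.NormalBasisF
import Fermat.Agent.S18.R1

set_option autoImplicit false
set_option linter.unusedSectionVars false
set_option linter.style.haveILetI false

/-! # S18: the abstract main theorem (CORE in the `VData` setting) -/

namespace Fermat.Agent.S18

open Polynomial IntermediateField AlgebraicCurve

section Const

variable {K F : Type} [Field K] [Field F] [Algebra K F]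

/-- elements of `L(0,0)` are constants. -/
theorem Lsp_zero_const [IsAlgClosed K] {t : F} (ht0 : t ≠ 0) [FiniteDimensional K (Lsp K t 0 0)]
    {y : F} (hy : y ∈ Lsp K t 0 0) : ∃ c : K, y = algebraMap K F c := by
  let S : Subalgebra K F :=
    { carrier := Lsp K t 0 0
      mul_mem' := fun {a b} ha hb => by simpa using Lsp_mul ht0 ha hb
      add_mem' := fun {a b} ha hb => (Lsp K t 0 0).add_mem ha hb
      algebraMap_mem' := fun c => by
        rw [Algebra.algebraMap_eq_smul_one]
        exact (Lsp K t 0 0).smul_mem c (one_mem_Lsp t) }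
  have hS : S.toSubmodule = Lsp K t 0 0 := rfl
  have hfg : S.toSubmodule.FG := by
    rw [hS]; exact (Submodule.fg_iff_finiteDimensional _).2 inferInstance
  have hint : IsIntegral K y := IsIntegral.of_mem_of_fg S hfg y hy
  have hdeg := IsAlgClosed.degree_eq_one_of_irreducible K (minpoly.irreducible hint)
  obtain ⟨c, hc⟩ := minpoly.mem_range_of_degree_eq_one K y hdeg
  exact ⟨c, hc.symm⟩

end Const

namespace VData

variable {L F k κ : Type} [Field L] [Field F] [Algebra L F] [Field k] [Field κ] [Algebra k κ]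
variable (V : VData L F k κ)

theorem rd_t_ne_zero {t : F} (htr : Transcendental k (V.rd t)) : V.rd t ≠ 0 :=
  fun h0 => htr (h0 ▸ isAlgebraic_zero)

theorem transcendental_rd_inv {t : F} (htr : Transcendental k (V.rd t)) :
    Transcendental k (V.rd t⁻¹) := by
  rw [V.rd_inv (V.rd_t_ne_zero htr)]
  exact NB.transcendental_inv htr

theorem exists_onBasis_inv {t : F} (htr : Transcendental k (V.rd t)) [FiniteDimensional L⟮t⟯ F]
    (hn : Module.finrank L⟮t⟯ F = Module.finrank k⟮V.rd t⟯ κ) :
    ∃ n : ℕ, Nonempty (ONBasis V t⁻¹ n) := by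
  have h1 : L⟮t⟯ = L⟮t⁻¹⟯ := NB.adjoin_inv_eq t
  have h2 : k⟮V.rd t⟯ = k⟮V.rd t⁻¹⟯ := by
    rw [V.rd_inv (V.rd_t_ne_zero htr)]; exact NB.adjoin_inv_eq _
  haveI : FiniteDimensional L⟮t⁻¹⟯ F := h1 ▸ (inferInstance : FiniteDimensional L⟮t⟯ F)
  have hn' : Module.finrank L⟮t⁻¹⟯ F = Module.finrank k⟮V.rd t⁻¹⟯ κ := by
    rw [← h1, ← h2]; exact hn
  exact ⟨_, V.exists_onBasis (V.transcendental_rd_inv htr) hn'⟩

/-- reduction maps `L(a,b) ∩ O` into `Lbar(a,b)`. -/
theorem rd_mem_Lsp {t : F} (htr : Transcendental k (V.rd t)) [FiniteDimensional L⟮t⟯ F]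
    (hn : Module.finrank L⟮t⟯ F = Module.finrank k⟮V.rd t⟯ κ) {a b : ℤ} {x : F}
    (hx : x ∈ Lsp L t a b) (hxO : x ∈ V.O) : V.rd x ∈ Lsp k (V.rd t) a b := by
  have h0 := V.rd_t_ne_zero htr
  obtain ⟨B⟩ := V.exists_onBasis htr hn
  obtain ⟨n', ⟨B'⟩⟩ := V.exists_onBasis_inv htr hn
  obtain ⟨h1, h2⟩ := hx
  refine ⟨?_, ?_⟩
  · have := B.intK_rd V htr (mul_mem (V.zpow_mem h0 b) hxO) h1
    rwa [V.rd_mul (V.zpow_mem h0 b) hxO, V.rd_zpow h0] at this
  · have := B'.intK_rd V (V.transcendental_rd_inv htr) (mul_mem (V.zpow_mem h0 (-a)) hxO) h2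
    rwa [V.rd_mul (V.zpow_mem h0 (-a)) hxO, V.rd_zpow h0, V.rd_inv h0] at this

end VData

section Main

variable {L F k κ : Type} [Field L] [IsAlgClosed L] [CharZero L] [Field F] [Algebra L F]
  [Field k] [Field κ] [Algebra k κ]

/-- **CORE, abstract form.** -/
theorem abs_core (V : VData L F k κ) (t : F) (htr : Transcendental k (V.rd t))
    [FiniteDimensional L⟮t⟯ F]
    (hn : Module.finrank L⟮t⟯ F = Module.finrank k⟮V.rd t⟯ κ)
    (hrk : ∀ c c0 : L, V.A.valuation c < 1 → c0 ≠ 0 →
      ∃ j : ℕ, V.A.valuation c ^ j ≤ V.A.valuation c0)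
    (hGR : ∃ m1 : ℤ, ∀ a b : ℤ, m1 ≤ a + b →
      Module.finrank k (Lsp k (V.rd t) a b) = Module.finrank L (Lsp L t a b))
    (m : ℕ) (hm : (m : k) ≠ 0) (f : F) (t0 : κ) (ht0 : t0 ≠ 0) (hf : V.rd f = t0 ^ m)
    (hdiv : ∀ P : Place L F, (m : ℤ) ∣ P.ord f) : ∃ s : F, f = s ^ m := by
  have hmpos : 0 < m := by
    rcases Nat.eq_zero_or_pos m with rfl | h
    · simp at hm
    · exact h
  have hrt := V.rd_t_ne_zero htr
  have htL : Transcendental L t := V.transcendental_t htr
  have htne : t ≠ 0 := by rintro rfl; exact hrt V.rd_zero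
  have hrf : V.rd f ≠ 0 := by rw [hf]; exact pow_ne_zero _ ht0
  have hfne : f ≠ 0 := by rintro rfl; exact hrf V.rd_zero
  obtain ⟨B⟩ := V.exists_onBasis htr hn
  have H : IsVF L k V.O.valuation V.rd := V.isVF htr B hrk
  obtain ⟨g, mL, hfdL, hLdim, -⟩ := NB.exists_Lsp_formula (K := L) htL
  obtain ⟨m1, hGR⟩ := hGR
  set n := Module.finrank L⟮t⟯ F with hndef
  have hnpos : 0 < n := Module.finrank_pos
  -- finite dimensionality on the special fibre
  have hfdk : ∀ a b : ℤ, FiniteDimensional k (Lsp k (V.rd t) a b) := by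
    intro a b
    set a' : ℤ := max a (max (max mL m1) g - b + 1 + |g|) with ha'
    have h1 : mL ≤ a' + b := by
      have := le_max_right a (max (max mL m1) g - b + 1 + |g|)
      have h3 := le_max_left (max mL m1) g
      have h4 := le_max_left mL m1
      have h5 := abs_nonneg g
      omega
    have h2 : m1 ≤ a' + b := by
      have := le_max_right a (max (max mL m1) g - b + 1 + |g|)
      have h3 := le_max_left (max mL m1) g
      have h4 := le_max_right mL m1
      have h5 := abs_nonneg g
      omega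
    have h3 : g ≤ a' + b := by
      have := le_max_right a (max (max mL m1) g - b + 1 + |g|)
      have h3 := le_max_right (max mL m1) g
      have h5 := abs_nonneg g
      omega
    have h3' : 0 ≤ a' + b := by
      have := le_max_right a (max (max mL m1) g - b + 1 + |g|)
      have h3 := le_max_right (max mL m1) g
      have h5 := neg_abs_le g
      omega
    have h4 : 0 < Module.finrank k (Lsp k (V.rd t) a' b) := by
      rw [hGR a' b h2]
      have := hLdim a' b h1
      have h5 : (a' + b) * 1 ≤ (a' + b) * (n : ℤ) :=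
        mul_le_mul_of_nonneg_left (by exact_mod_cast hnpos) h3'
      have : (0 : ℤ) < (Module.finrank L (Lsp L t a' b) : ℤ) := by rw [this]; omega
      exact_mod_cast this
    haveI : FiniteDimensional k (Lsp k (V.rd t) a' b) := Module.finite_of_finrank_pos h4
    exact Submodule.finiteDimensional_of_le
      (Lsp_mono hrt (le_max_left _ _ : a ≤ a') (le_refl b))
  set m0 : ℕ := (max mL m1).toNat with hm0
  have hm0L : ∀ a b : ℕ, m0 ≤ a + b → mL ≤ (a : ℤ) + b := by
    intro a b h
    have h1 : max mL m1 ≤ (m0 : ℤ) := Int.self_le_toNat _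
    have h2 := le_max_left mL m1
    have h3 : (m0 : ℤ) ≤ (a : ℤ) + b := by exact_mod_cast h
    omega
  have hm01 : ∀ a b : ℕ, m0 ≤ a + b → m1 ≤ (a : ℤ) + b := by
    intro a b h
    have h1 : max mL m1 ≤ (m0 : ℤ) := Int.self_le_toNat _
    have h2 := le_max_right mL m1
    have h3 : (m0 : ℤ) ≤ (a : ℤ) + b := by exact_mod_cast h
    omega
  have C : CoreHyp V.O.valuation V.rd m n m0 g f t0
      (fun a b => Lsp L t a b) (fun a b => Vsp L t f htne m hmpos a b)
      (fun a b => Lsp k (V.rd t) a b) :=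
    { p_ne := by
        rw [H.rb_natCast]
        intro h
        apply hm
        have h2 : algebraMap k κ (m : k) = 0 := by rw [map_natCast]; exact h
        exact (map_eq_zero_iff _ (algebraMap k κ).injective).1 h2
      LL_mono := fun a b a' b' ha hb =>
        Lsp_mono htne (by exact_mod_cast ha) (by exact_mod_cast hb)
      V_mono := fun a b a' b' ha hb =>
        Vsp_mono htne hmpos (by exact_mod_cast ha) (by exact_mod_cast hb)
      Lb_mono := fun a b a' b' ha hb =>
        Lsp_mono hrt (by exact_mod_cast ha) (by exact_mod_cast hb)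
      V_fin := fun a b => by
        haveI := hfdL (m * a) (m * b)
        exact finiteDimensional_Vsp htne hfne hmpos a b
      Lb_fin := fun a b => hfdk a b
      one_LL := by simpa using one_mem_Lsp (K := L) t
      one_Lb := by simpa using one_mem_Lsp (K := k) (V.rd t)
      red_LL := fun a b x hx hv => V.rd_mem_Lsp htr hn hx ((V.val_le_one_iff x).1 hv)
      Lb_inf := fun a b a' b' => by
        have := Lsp_inf_le (K := k) (t := V.rd t) (a : ℤ) a' b b'
        simpa only [Nat.cast_min] using this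
      Lb_dim := fun a b hab => by
        rw [hGR a b (hm01 a b hab)]
        exact hLdim a b (hm0L a b hab)
      Lb_root := fun a b y hy => by
        apply mem_Lsp_of_pow hmpos
        simpa only [Nat.cast_mul] using hy
      V_dim := fun a b hab =>
        R1.finrank_Vsp_ge t htL htne f hfne m hmpos hdiv g mL hLdim a b (hm0L a b hab)
      V_mul := fun a b a' b' x s hx hs => by
        have := Vsp_mul_Lsp htne hmpos hs hx
        rw [mul_comm]
        simpa only [Nat.cast_add] using this
      V_pow := fun a b s hs => by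
        have := mem_Vsp.1 hs
        simpa only [Nat.cast_mul] using this
      V_inf := fun a => by
        have := Vsp_inf_le (K := L) (f := f) htne hmpos (a : ℤ) (0 : ℕ) (0 : ℕ) a
        have h1 : min (a : ℤ) ((0 : ℕ) : ℤ) = ((0 : ℕ) : ℤ) := by simp
        have h2 : min ((0 : ℕ) : ℤ) (a : ℤ) = ((0 : ℕ) : ℤ) := by simp
        rwa [h1, h2] at this
      f_unit := H.v_eq_one_of_rb_ne_zero f ((V.val_le_one_iff f).2 (V.mem_of_rd_ne_zero hrf)) hrf
      f_red := hf }
  have hcore := C.core H
  obtain ⟨s, hs, hs0⟩ := Submodule.exists_mem_ne_zero_of_ne_bot hcore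
  have hs' : s ^ m * f ∈ Lsp L t 0 0 := by
    have := mem_Vsp.1 hs
    simpa using this
  haveI := hfdL 0 0
  obtain ⟨c, hc⟩ := Lsp_zero_const htne hs'
  obtain ⟨d, hd⟩ := IsAlgClosed.exists_pow_nat_eq c hmpos
  refine ⟨algebraMap L F d / s, ?_⟩
  rw [div_pow, ← map_pow, hd, ← hc]
  field_simp

end Main

end Fermat.Agent.S18
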