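import Mathlib
import Fermat.Agent.S18.AbsMain
import Fermat.Prelude.Def_ModularCurve_X0ModL

set_option autoImplicit false
set_option linter.unusedSectionVars false
set_option linter.style.haveILetI false

/-! # S18 (Asm-k): a function without poles is constant (any characteristic) -/

namespace Fermat.Agent.S18.AsmK

open AlgebraicCurve IntermediateField IsDedekindDomain Fermat.Agent.S24
open scoped Classical
open scoped IntermediateField.algebraAdjoinAdjoin

variable {K F : Type} [Field K] [Field F] [Algebra K F]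

/-- an element which is regular at every place where `t` is regular is integral over `K[t]`
(separable case, any characteristic). -/
theorem intOver_of_ord_nonneg (t : F) (ht : Transcendental K t) [FiniteDimensional K⟮t⟯ F]
    [Algebra.IsSeparable K⟮t⟯ F] (x : F) (h : ∀ P : Place K F, 0 ≤ P.ord t → 0 ≤ P.ord x) :
    IntOver K t x := by
  let e0 := Polynomial.algEquivOfTranscendental K t ht
  haveI : IsPrincipalIdealRing (Algebra.adjoin K {t}) :=
    IsPrincipalIdealRing.of_surjective e0.toRingEquiv e0.surjective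
  haveI : IsDedekindDomain (integralClosure (Algebra.adjoin K {t}) F) :=
    integralClosure.isDedekindDomain (Algebra.adjoin K {t}) K⟮t⟯ F
  haveI : IsFractionRing (integralClosure (Algebra.adjoin K {t}) F) F :=
    integralClosure.isFractionRing_of_finite_extension K⟮t⟯ F
  by_cases hx0 : x = 0
  · rw [hx0]; exact isIntegral_zero
  have hval : ∀ w : HeightOneSpectrum (integralClosure (Algebra.adjoin K {t}) F),
      w.valuation F x ≤ 1 := by
    intro w
    have ht' : 0 ≤ (Place.ofHeightOneSpectrum (K := K) w).ord t := by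
      have hmem : t ∈ integralClosure (Algebra.adjoin K {t}) F :=
        (isIntegral_algebraMap (R := Algebra.adjoin K {t}) (A := F)
          (x := ⟨t, Algebra.self_mem_adjoin_singleton K t⟩))
      have h1 : w.valuation F (algebraMap (integralClosure (Algebra.adjoin K {t}) F) F ⟨t, hmem⟩) ≤ 1 :=
        w.valuation_le_one _
      have h2 : algebraMap (integralClosure (Algebra.adjoin K {t}) F) F ⟨t, hmem⟩ = t := rfl
      rw [h2] at h1
      rw [ord_ofHeightOneSpectrum]
      have ht0 : t ≠ 0 := by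
        rintro rfl
        exact ht isAlgebraic_zero
      have h3 : w.valuation F t ≠ 0 := (Valuation.ne_zero_iff _).2 ht0
      have h4 : WithZero.log (w.valuation F t) ≤ 0 := by
        rw [WithZero.log_le_iff_le_exp h3]
        simpa using h1
      omega
    have h5 := h _ ht'
    rw [ord_ofHeightOneSpectrum] at h5
    have h3 : w.valuation F x ≠ 0 := (Valuation.ne_zero_iff _).2 hx0
    have h6 : WithZero.log (w.valuation F x) ≤ 0 := by omega
    rw [WithZero.log_le_iff_le_exp h3] at h6
    simpa using h6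
  obtain ⟨b, hb⟩ := HeightOneSpectrum.mem_integers_of_valuation_le_one F x hval
  rw [← hb]
  exact b.2

/-- a function without poles is constant. -/
theorem const_of_ord_nonneg [IsAlgClosed K] (t : F) (ht : Transcendental K t)
    [FiniteDimensional K⟮t⟯ F] [Algebra.IsSeparable K⟮t⟯ F] (g : F)
    (h : ∀ P : Place K F, 0 ≤ P.ord g) : ∃ c : K, g = algebraMap K F c := by
  have ht0 : t ≠ 0 := by
    rintro rfl
    exact ht isAlgebraic_zero
  have e : K⟮t⟯ = K⟮t⁻¹⟯ := NB.adjoin_inv_eq t
  haveI : FiniteDimensional K⟮t⁻¹⟯ F := e ▸ (inferInstance : FiniteDimensional K⟮t⟯ F)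
  haveI : Algebra.IsSeparable K⟮t⁻¹⟯ F := e ▸ (inferInstance : Algebra.IsSeparable K⟮t⟯ F)
  have h1 := intOver_of_ord_nonneg t ht g (fun P _ => h P)
  have h2 := intOver_of_ord_nonneg t⁻¹ (NB.transcendental_inv ht) g (fun P _ => h P)
  have hmem : g ∈ Lsp K t 0 0 := by
    rw [mem_Lsp]
    simpa using ⟨h1, h2⟩
  obtain ⟨_, _, hfd, -, -⟩ := NB.exists_Lsp_formula (K := K) (F := F) ht
  haveI := hfd 0 0
  exact Lsp_zero_const ht0 hmem

/-- transfer of "finite separable over `k(j)`" to a subfield containing `j`. -/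
theorem transfer {k Ω : Type} [Field k] [Field Ω] [Algebra k Ω] (E κ : IntermediateField k Ω)
    (hle : E ≤ κ) (jE : E) (jκ : κ) (hj : (jE : Ω) = (jκ : Ω)) (htr : Transcendental k jκ)
    [FiniteDimensional k⟮jκ⟯ κ] [Algebra.IsSeparable k⟮jκ⟯ κ] :
    Transcendental k jE ∧ FiniteDimensional k⟮jE⟯ E ∧ Algebra.IsSeparable k⟮jE⟯ E := by
  let ι : E →ₐ[k] κ := IntermediateField.inclusion hle
  have hι : ι jE = jκ := Subtype.ext hj
  have h1 : Transcendental k jE := by
    intro halg
    apply htr
    rw [← hι]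
    exact halg.algHom ι
  have hmap : (k⟮jE⟯).map ι = k⟮jκ⟯ := by
    rw [IntermediateField.adjoin_map, Set.image_singleton, hι]
  let e₁ : k⟮jE⟯ ≃ₐ[k] k⟮jκ⟯ :=
    (IntermediateField.equivMap k⟮jE⟯ ι).trans (IntermediateField.equivOfEq hmap)
  letI : Algebra E κ := ι.toRingHom.toAlgebra
  have hcomp : (algebraMap k⟮jE⟯ κ).comp (e₁.symm : k⟮jκ⟯ ≃+* k⟮jE⟯).toRingHom =
      ((RingEquiv.refl κ : κ ≃+* κ) : κ →+* κ).comp (algebraMap k⟮jκ⟯ κ) := by
    ext x
    obtain ⟨y, rfl⟩ := e₁.surjective x
    simp only [RingHom.comp_apply]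
    have : (e₁.symm : k⟮jκ⟯ ≃+* k⟮jE⟯).toRingHom (e₁ y) = y := e₁.symm_apply_apply y
    rw [this]
    rfl
  haveI : Algebra.IsSeparable k⟮jE⟯ κ :=
    Algebra.IsSeparable.of_equiv_equiv (e₁.symm : k⟮jκ⟯ ≃+* k⟮jE⟯) (RingEquiv.refl κ) hcomp
  haveI : FiniteDimensional k⟮jE⟯ κ :=
    Module.Finite.of_equiv_equiv (e₁.symm : k⟮jκ⟯ ≃+* k⟮jE⟯) (RingEquiv.refl κ) hcomp
  exact ⟨h1, FiniteDimensional.left k⟮jE⟯ E κ,
    Algebra.isSeparable_tower_bot_of_isSeparable k⟮jE⟯ E κ⟩

open ModularCurve in
/-- (Asm-k) a function of `modularFunctionFieldFullC k N` without poles is constant, given a finite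
separable extension `κ` of `k(j)` inside `k((q))` containing it. -/
theorem const_fullC {k : Type} [Field k] [IsAlgClosed k] (N : ℕ)
    (κ : IntermediateField k (LaurentSeries k)) (hle : modularFunctionFieldFullC k N ≤ κ)
    (jκ : κ) (hj : (jκ : LaurentSeries k) = jqModC k) (htr : Transcendental k jκ)
    [FiniteDimensional k⟮jκ⟯ κ] [Algebra.IsSeparable k⟮jκ⟯ κ]
    (g : modularFunctionFieldFullC k N)
    (h : ∀ Q : Place k (modularFunctionFieldFullC k N), 0 ≤ Q.ord g) :
    ∃ c : k, g = algebraMap k (modularFunctionFieldFullC k N) c := by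
  obtain ⟨h1, h2, h3⟩ := transfer (modularFunctionFieldFullC k N) κ hle
    ⟨jqModC k, jqModC_mem_full k N⟩ jκ hj.symm htr
  exact const_of_ord_nonneg _ h1 g h

end Fermat.Agent.S18.AsmK
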