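import Mathlib
import Fermat.Agent.S18.VData
import Fermat.Agent.S28.Gauss
import Fermat.Prelude.Def_ModularCurve_LaurentCoeff

set_option autoImplicit false

/-! # S18 [Mo1] part a: the Gauss valuation ring of a subfield of `L((q))` (abstract) -/

namespace Fermat.Agent.S18.Mo1

noncomputable section

open ModularCurve
open Fermat.Agent.S28 (gaussRing gaussFun gaussMap mem_gaussRing gaussFun_eq_div gaussFun_map
  gaussMap_apply)

variable {L k : Type} [Field L] [Field k] (A : ValuationSubring L) (π : A →+* k)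
  (F : IntermediateField L (LaurentSeries L))

theorem coeffMap_subtype_inj : Function.Injective (coeffMap A.subtype) := by
  intro x y h
  ext n
  have := congrArg (fun z => z.coeff n) h
  simpa using this

/-- the elements of `A((q))` lying in `F`. -/
def WF : Subring (LaurentSeries A) := F.toSubfield.toSubring.comap (coeffMap A.subtype)

theorem mem_WF {y : LaurentSeries A} : y ∈ WF A F ↔ coeffMap A.subtype y ∈ F := Iff.rfl

/-- the inclusion of `F ∩ A((q))` in `F`. -/
def iW : WF A F →+* F where
  toFun y := ⟨coeffMap A.subtype y.1, y.2⟩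
  map_one' := Subtype.ext (map_one _)
  map_mul' x y := Subtype.ext (map_mul _ _ _)
  map_zero' := Subtype.ext (map_zero _)
  map_add' x y := Subtype.ext (map_add _ _ _)

@[simp] theorem iW_coe (y : WF A F) : ((iW A F y : F) : LaurentSeries L) = coeffMap A.subtype y.1 :=
  rfl

theorem iW_injective : Function.Injective (iW A F) := by
  intro x y h
  apply Subtype.ext
  apply coeffMap_subtype_inj A
  exact congrArg Subtype.val h

/-- coefficientwise reduction on `F ∩ A((q))`. -/
def rW : WF A F →+* LaurentSeries k := (coeffMap π).comp (WF A F).subtype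

@[simp] theorem rW_apply (y : WF A F) : rW A π F y = coeffMap π y.1 := rfl

/-- constants. -/
def cW : A →+* WF A F where
  toFun c := ⟨HahnSeries.C c, by
    rw [mem_WF]
    have : coeffMap A.subtype (HahnSeries.C c) = algebraMap L (LaurentSeries L) (c : L) := by
      rw [algebraMap_laurentSeries_eq_single]
      exact coeffMap_single _ _ _
    rw [this]
    exact F.algebraMap_mem _⟩
  map_one' := Subtype.ext (map_one _)
  map_mul' x y := Subtype.ext (map_mul _ _ _)
  map_zero' := Subtype.ext (map_zero _)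
  map_add' x y := Subtype.ext (map_add _ _ _)

theorem iW_cW (c : A) : iW A F (cW A F c) = algebraMap L F (c : L) := by
  apply Subtype.ext
  show coeffMap A.subtype (HahnSeries.C c) = algebraMap L (LaurentSeries L) (c : L)
  rw [algebraMap_laurentSeries_eq_single]
  exact coeffMap_single _ _ _

theorem rW_cW (c : A) : rW A π F (cW A F c) = algebraMap k (LaurentSeries k) (π c) := by
  show coeffMap π (HahnSeries.C c) = algebraMap k (LaurentSeries k) (π c)
  rw [algebraMap_laurentSeries_eq_single]
  exact coeffMap_single _ _ _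

/-- every nonzero element of `F` is a constant times a quotient of two integral elements with
nonzero reduction. -/
def NormHyp : Prop :=
  ∀ z : F, z ≠ 0 → ∃ (c : L) (a b : WF A F), c ≠ 0 ∧ rW A π F a ≠ 0 ∧ rW A π F b ≠ 0 ∧
    iW A F b * z = algebraMap L F c * iW A F a

variable {A π F}

theorem isUnit_of_map_ne_zero (hπ : Function.Surjective π) {c : A} (hc : π c ≠ 0) : IsUnit c := by
  by_contra hnu
  have hker : RingHom.ker π = IsLocalRing.maximalIdeal A := by
    have := RingHom.ker_isMaximal_of_surjective π hπ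
    exact IsLocalRing.eq_maximalIdeal inferInstance
  have : c ∈ RingHom.ker π := by
    rw [hker]; exact (IsLocalRing.mem_maximalIdeal _).2 hnu
  exact hc this

/-- if `c ∉ A` then `c⁻¹ ∈ A` reduces to `0`. -/
theorem exists_inv_of_not_mem (hπ : Function.Surjective π) {c : L} (hc : c ∉ A) :
    ∃ d : A, (d : L) = c⁻¹ ∧ π d = 0 := by
  have h1 : c⁻¹ ∈ A := (A.mem_or_inv_mem c).resolve_left hc
  refine ⟨⟨c⁻¹, h1⟩, rfl, ?_⟩
  by_contra hne
  obtain ⟨u, hu⟩ := isUnit_of_map_ne_zero hπ hne
  apply hc
  have h2 : ((u⁻¹ : Aˣ) : A) * (⟨c⁻¹, h1⟩ : A) = 1 := by rw [← hu]; exact Units.inv_mul u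
  have h3 : (((u⁻¹ : Aˣ) : A) : L) * c⁻¹ = 1 := congrArg Subtype.val h2
  have hc0 : c ≠ 0 := by
    rintro rfl
    exact hc (zero_mem A)
  have h4 : c = (((u⁻¹ : Aˣ) : A) : L) := by
    field_simp at h3
    exact h3.symm
  rw [h4]
  exact SetLike.coe_mem _

/-- the Gauss valuation ring. -/
def OV (h : NormHyp A π F) : ValuationSubring F :=
  { gaussRing (iW A F) (rW A π F) with
    mem_or_inv_mem' := by
      intro x
      rcases eq_or_ne x 0 with rfl | hx
      · exact Or.inl (zero_mem (gaussRing (iW A F) (rW A π F)))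
      obtain ⟨c, a, b, hc, ha, hb, e⟩ := h x hx
      rcases A.mem_or_inv_mem c with hcA | hcA
      · left
        refine ⟨b, cW A F ⟨c, hcA⟩ * a, hb, ?_⟩
        rw [map_mul, iW_cW, e]
      · right
        refine ⟨a, cW A F ⟨c⁻¹, hcA⟩ * b, ha, ?_⟩
        rw [map_mul, iW_cW]
        have hcF : algebraMap L F c ≠ 0 := by simpa using hc
        show iW A F a * x⁻¹ = algebraMap L F c⁻¹ * iW A F b
        rw [map_inv₀]
        field_simp
        rw [mul_comm x, e, mul_comm] }

theorem mem_OV (h : NormHyp A π F) {x : F} :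
    x ∈ OV h ↔ ∃ s a : WF A F, rW A π F s ≠ 0 ∧ iW A F s * x = iW A F a := Iff.rfl

variable (A π F) in
/-- the reduction, as a total function. -/
def rdF (x : F) : LaurentSeries k := gaussFun (iW A F) (rW A π F) x

theorem rdF_eq_div {x : F} {s a : WF A F} (hs : rW A π F s ≠ 0) (e : iW A F s * x = iW A F a) :
    rdF A π F x = rW A π F a / rW A π F s :=
  gaussFun_eq_div (iW_injective A F) hs e

theorem rdF_iW (a : WF A F) : rdF A π F (iW A F a) = rW A π F a :=
  gaussFun_map (iW_injective A F) a

theorem rdF_add (h : NormHyp A π F) {x y : F} (hx : x ∈ OV h) (hy : y ∈ OV h) :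
    rdF A π F (x + y) = rdF A π F x + rdF A π F y := by
  obtain ⟨s, a, hs, e⟩ := hx
  obtain ⟨s', a', hs', e'⟩ := hy
  rw [rdF_eq_div hs e, rdF_eq_div hs' e',
    rdF_eq_div (s := s * s') (a := a * s' + a' * s) (by rw [map_mul]; exact mul_ne_zero hs hs')
      (by rw [map_mul, map_add, map_mul, map_mul, ← e, ← e']; ring), map_mul, map_add, map_mul,
      map_mul]
  field_simp

theorem rdF_mul (h : NormHyp A π F) {x y : F} (hx : x ∈ OV h) (hy : y ∈ OV h) :
    rdF A π F (x * y) = rdF A π F x * rdF A π F y := by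
  obtain ⟨s, a, hs, e⟩ := hx
  obtain ⟨s', a', hs', e'⟩ := hy
  rw [rdF_eq_div hs e, rdF_eq_div hs' e',
    rdF_eq_div (s := s * s') (a := a * a') (by rw [map_mul]; exact mul_ne_zero hs hs')
      (by rw [map_mul, map_mul, ← e, ← e']; ring), map_mul, map_mul]
  field_simp

theorem rdF_one : rdF A π F 1 = 1 := by
  have := rdF_iW (A := A) (π := π) (F := F) 1
  rwa [map_one, map_one] at this

theorem rdF_zero : rdF A π F 0 = 0 := by
  have := rdF_iW (A := A) (π := π) (F := F) 0
  rwa [map_zero, map_zero] at this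

/-- the residue field, inside `k((q))`. -/
def kap (h : NormHyp A π F) (hπ : Function.Surjective π) :
    IntermediateField k (LaurentSeries k) where
  carrier := {y | ∃ x ∈ OV h, rdF A π F x = y}
  mul_mem' := by
    rintro _ _ ⟨x, hx, rfl⟩ ⟨y, hy, rfl⟩
    exact ⟨x * y, mul_mem hx hy, rdF_mul h hx hy⟩
  one_mem' := ⟨1, one_mem _, rdF_one⟩
  add_mem' := by
    rintro _ _ ⟨x, hx, rfl⟩ ⟨y, hy, rfl⟩
    exact ⟨x + y, add_mem hx hy, rdF_add h hx hy⟩
  zero_mem' := ⟨0, zero_mem _, rdF_zero⟩
  algebraMap_mem' := by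
    intro c
    obtain ⟨c', rfl⟩ := hπ c
    refine ⟨iW A F (cW A F c'), ⟨1, cW A F c', by simp, by simp⟩, ?_⟩
    rw [rdF_iW, rW_cW]
  inv_mem' := by
    rintro _ ⟨x, ⟨s, a, hs, e⟩, rfl⟩
    rw [rdF_eq_div hs e]
    rcases eq_or_ne (rW A π F a) 0 with ha | ha
    · rw [ha, zero_div, inv_zero]
      exact ⟨0, zero_mem _, rdF_zero⟩
    · have hs0 : iW A F s ≠ 0 := by
        intro h0
        rw [map_eq_zero_iff _ (iW_injective A F)] at h0
        rw [h0, map_zero] at hs
        exact hs rfl
      have ha0 : iW A F a ≠ 0 := by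
        intro h0
        rw [map_eq_zero_iff _ (iW_injective A F)] at h0
        rw [h0, map_zero] at ha
        exact ha rfl
      have hx0 : x ≠ 0 := by
        rintro rfl
        rw [mul_zero] at e
        exact ha0 e.symm
      have e' : iW A F a * x⁻¹ = iW A F s := by
        rw [← e]; field_simp
      exact ⟨x⁻¹, ⟨a, s, ha, e'⟩, by rw [rdF_eq_div ha e', inv_div]⟩

theorem mem_kap (h : NormHyp A π F) (hπ : Function.Surjective π) {y : LaurentSeries k} :
    y ∈ kap h hπ ↔ ∃ x ∈ OV h, rdF A π F x = y := Iff.rfl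

/-- the reduction map. -/
def redV (h : NormHyp A π F) (hπ : Function.Surjective π) : OV h →+* kap h hπ where
  toFun x := ⟨rdF A π F x.1, x.1, x.2, rfl⟩
  map_one' := Subtype.ext rdF_one
  map_mul' x y := Subtype.ext (rdF_mul h x.2 y.2)
  map_zero' := Subtype.ext rdF_zero
  map_add' x y := Subtype.ext (rdF_add h x.2 y.2)

/-- the valued function field data. -/
def vdata (h : NormHyp A π F) (hπ : Function.Surjective π) :
    VData L F k (kap h hπ) where
  A := A
  O := OV h
  π := π
  red := redV h hπ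
  π_surj := hπ
  red_surj := by
    rintro ⟨_, x, hx, rfl⟩
    exact ⟨⟨x, hx⟩, rfl⟩
  mem_iff := by
    intro c
    constructor
    · intro hc
      exact ⟨1, cW A F ⟨c, hc⟩, by simp, by rw [map_one, one_mul, iW_cW]⟩
    · rintro ⟨s, a, hs, e⟩
      by_contra hc
      obtain ⟨d, hd, hd0⟩ := exists_inv_of_not_mem hπ hc
      have hc0 : c ≠ 0 := by
        rintro rfl
        exact hc (zero_mem A)
      have h1 : s = cW A F d * a := by
        apply iW_injective A F
        rw [map_mul, iW_cW, ← e, hd, map_inv₀]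
        have hcF : algebraMap L F c ≠ 0 := by simpa using hc0
        field_simp
      apply hs
      rw [h1, map_mul, rW_cW, hd0, map_zero, zero_mul]
  red_algebraMap := by
    intro c hc
    apply Subtype.ext
    show rdF A π F (algebraMap L F (c : L)) = algebraMap k (LaurentSeries k) (π c)
    rw [← iW_cW, rdF_iW, rW_cW]
  scale := by
    intro x hx
    obtain ⟨c, a, b, hc, ha, hb, e⟩ := h x hx
    have hcF : algebraMap L F c ≠ 0 := by simpa using hc
    have e' : iW A F b * (algebraMap L F c⁻¹ * x) = iW A F a := by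
      rw [map_inv₀, mul_left_comm, e]
      field_simp
    refine ⟨c⁻¹, inv_ne_zero hc, ⟨b, a, hb, e'⟩, ?_⟩
    intro h0
    have h1 : rdF A π F (algebraMap L F c⁻¹ * x) = 0 := congrArg Subtype.val h0
    rw [rdF_eq_div hb e', div_eq_zero_iff] at h1
    exact h1.elim ha hb

@[simp] theorem vdata_A (h : NormHyp A π F) (hπ : Function.Surjective π) : (vdata h hπ).A = A := rfl

@[simp] theorem vdata_π (h : NormHyp A π F) (hπ : Function.Surjective π) : (vdata h hπ).π = π := rfl

@[simp] theorem vdata_O (h : NormHyp A π F) (hπ : Function.Surjective π) :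
    (vdata h hπ).O = OV h := rfl

theorem vdata_rd (h : NormHyp A π F) (hπ : Function.Surjective π) {x : F} (hx : x ∈ OV h) :
    (((vdata h hπ).rd x : kap h hπ) : LaurentSeries k) = rdF A π F x := by
  rw [(vdata h hπ).rd_of_mem hx]
  rfl

/-- LINK: an element of `F` with integral `q`-expansion lies in `O`, and its reduction is the
coefficientwise reduction. -/
theorem vdata_link (h : NormHyp A π F) (hπ : Function.Surjective π) (y : LaurentSeries A)
    (hy : coeffMap A.subtype y ∈ F) :
    (⟨coeffMap A.subtype y, hy⟩ : F) ∈ (vdata h hπ).O ∧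
      (((vdata h hπ).rd ⟨coeffMap A.subtype y, hy⟩ : kap h hπ) : LaurentSeries k) =
        coeffMap π y := by
  have h1 : (⟨coeffMap A.subtype y, hy⟩ : F) ∈ OV h :=
    ⟨1, ⟨y, hy⟩, by simp, by rw [map_one, one_mul]; rfl⟩
  refine ⟨h1, ?_⟩
  rw [vdata_rd h hπ h1]
  exact rdF_iW (⟨y, hy⟩ : WF A F)

end

end Fermat.Agent.S18.Mo1
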