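import Mathlib
import Fermat.Agent.S18.Mo1a
import Fermat.Agent.S28.Rat

set_option autoImplicit false

/-! # S18 [Mo1] part b: `NormHyp` from generators `j, u` with independent reductions -/

namespace Fermat.Agent.S18.Mo1

noncomputable section

open ModularCurve Polynomial
open Fermat.Agent.S28.RAT (ev1 coeffMap_eval₂_ev1)

variable {L k : Type} [Field L] [Field k] {A : ValuationSubring L} {π : A →+* k}
  {F : IntermediateField L (LaurentSeries L)}

/-- scaling of a bivariate polynomial. -/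
theorem scale_poly2 (P : L[X][X]) (hP : P ≠ 0) :
    ∃ (c : L) (P₀ : (↥A)[X][X]), c ≠ 0 ∧ P = C (C c) * P₀.map (mapRingHom A.subtype) ∧
      P₀.map (mapRingHom π) ≠ 0 ∧ P₀.degree = P.degree := by
  classical
  set T : Finset (ℕ × ℕ) :=
    P.support.biUnion (fun i => (P.coeff i).support.image (fun a => (i, a))) with hT
  have hmemT : ∀ i a, (i, a) ∈ T ↔ (P.coeff i).coeff a ≠ 0 := by
    intro i a
    rw [hT, Finset.mem_biUnion]
    constructor
    · rintro ⟨i', -, h⟩
      rw [Finset.mem_image] at h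
      obtain ⟨a', ha', e⟩ := h
      obtain ⟨rfl, rfl⟩ := Prod.mk.inj e
      exact mem_support_iff.mp ha'
    · intro h
      refine ⟨i, ?_, Finset.mem_image.mpr ⟨a, mem_support_iff.mpr h, rfl⟩⟩
      rw [mem_support_iff]
      rintro h0
      rw [h0, coeff_zero] at h
      exact h rfl
  have hTne : T.Nonempty := by
    obtain ⟨i, hi⟩ : ∃ i, P.coeff i ≠ 0 := by
      by_contra hcon
      push Not at hcon
      exact hP (Polynomial.ext fun i => by rw [hcon i, coeff_zero])
    obtain ⟨a, ha⟩ : ∃ a, (P.coeff i).coeff a ≠ 0 := by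
      by_contra hcon
      push Not at hcon
      exact hi (Polynomial.ext fun a => by rw [hcon a, coeff_zero])
    exact ⟨(i, a), (hmemT i a).mpr ha⟩
  obtain ⟨⟨i₀, a₀⟩, hmem, hmax⟩ :=
    T.exists_max_image (fun p => A.valuation ((P.coeff p.1).coeff p.2)) hTne
  set c := (P.coeff i₀).coeff a₀ with hc
  have hc0 : c ≠ 0 := (hmemT i₀ a₀).mp hmem
  have hle : ∀ i a, A.valuation ((P.coeff i).coeff a) ≤ A.valuation c := by
    intro i a
    by_cases h : (P.coeff i).coeff a = 0
    · rw [h, map_zero]; exact zero_le'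
    · exact hmax (i, a) ((hmemT i a).mpr h)
  have hmemA : ∀ i a, c⁻¹ * (P.coeff i).coeff a ∈ A := by
    intro i a
    rw [← A.valuation_le_one_iff, map_mul, map_inv₀]
    have hv : A.valuation c ≠ 0 := (A.valuation.ne_zero_iff).mpr hc0
    rw [inv_mul_le_iff₀ (zero_lt_iff.mpr hv), mul_one]
    exact hle i a
  have hlift : C (C c⁻¹) * P ∈ Polynomial.lifts (mapRingHom A.subtype) := by
    rw [Polynomial.lifts_iff_coeff_lifts]
    intro i
    have h1 : (C (C c⁻¹) * P).coeff i ∈ Polynomial.lifts A.subtype := by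
      rw [Polynomial.lifts_iff_coeff_lifts]
      intro a
      rw [coeff_C_mul, coeff_C_mul]
      exact ⟨⟨_, hmemA i a⟩, rfl⟩
    obtain ⟨p, hp⟩ := (Polynomial.mem_lifts _).mp h1
    exact ⟨p, hp⟩
  obtain ⟨P₀, hP₀⟩ := (Polynomial.mem_lifts _).mp hlift
  have hinj : Function.Injective (mapRingHom A.subtype) :=
    Polynomial.map_injective _ Subtype.val_injective
  have hCC : (C (C c) : L[X][X]) * C (C c⁻¹) = 1 := by
    rw [← C_mul, ← C_mul, mul_inv_cancel₀ hc0, C_1, C_1]
  have hPeq : P = C (C c) * P₀.map (mapRingHom A.subtype) := by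
    rw [hP₀, ← mul_assoc, hCC, one_mul]
  refine ⟨c, P₀, hc0, hPeq, ?_, ?_⟩
  · intro h0
    have h1 : ((P₀.coeff i₀).coeff a₀ : L) = 1 := by
      have h2 := congrArg (fun p => (p.coeff i₀).coeff a₀) hP₀
      simp only [coeff_map, coe_mapRingHom, coeff_C_mul] at h2
      rw [← hc, inv_mul_cancel₀ hc0] at h2
      exact h2
    have h3 : (P₀.coeff i₀).coeff a₀ = 1 := Subtype.ext h1
    have h4 := congrArg (fun p => (p.coeff i₀).coeff a₀) h0
    simp only [coeff_map, coe_mapRingHom, coeff_zero] at h4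
    rw [h3, map_one] at h4
    exact one_ne_zero h4
  · rw [hPeq, degree_C_mul (by simpa using hc0), degree_map_eq_of_injective hinj]

/-- generators of `F` with independent reductions. -/
structure GenData (A : ValuationSubring L) (π : A →+* k)
    (F : IntermediateField L (LaurentSeries L)) where
  u : LaurentSeries A
  Ψ : (↥A)[X][X]
  monic : Ψ.Monic
  root : Ψ.eval₂ (ev1 A) u = 0
  indep : ∀ Q : k[X][X], Q.degree < Ψ.degree → Q.eval₂ (ev1 k) (coeffMap π u) = 0 → Q = 0
  gen : F = IntermediateField.adjoin L {jqModC L, coeffMap A.subtype u}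
  sep : ((derivative Ψ).map (mapRingHom π)).eval₂ (ev1 k) (coeffMap π u) ≠ 0

namespace GenData

variable (G : GenData A π F)

/-- `u` over `L`. -/
def U : LaurentSeries L := coeffMap A.subtype G.u

/-- `u` over `k`. -/
def ub : LaurentSeries k := coeffMap π G.u

theorem mem_iff (x : LaurentSeries L) :
    x ∈ F ↔ x ∈ IntermediateField.adjoin L {jqModC L, coeffMap A.subtype G.u} :=
  SetLike.ext_iff.mp G.gen x

include G in
theorem j_mem : jqModC L ∈ F :=
  (G.mem_iff _).mpr (IntermediateField.subset_adjoin _ _ (by simp))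

theorem U_mem : G.U ∈ F :=
  (G.mem_iff _).mpr (IntermediateField.subset_adjoin _ _ (by simp [U]))

theorem C_eq_algebraMap {K : Type} [Field K] (c : K) :
    (HahnSeries.C c : LaurentSeries K) = algebraMap K (LaurentSeries K) c := by
  rw [algebraMap_laurentSeries_eq_single]; rfl

theorem ev1_mem {K : Type} [Field K] (E : IntermediateField K (LaurentSeries K))
    (hj : jqModC K ∈ E) (p : K[X]) : ev1 K p ∈ E := by
  rw [ev1, Polynomial.coe_eval₂RingHom, Polynomial.eval₂_eq_sum_range]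
  refine sum_mem fun i _ => mul_mem ?_ (pow_mem hj i)
  rw [C_eq_algebraMap]
  exact E.algebraMap_mem _

theorem eval₂_mem {K : Type} [Field K] (E : IntermediateField K (LaurentSeries K))
    (hj : jqModC K ∈ E) {x : LaurentSeries K} (hx : x ∈ E) (P : K[X][X]) :
    P.eval₂ (ev1 K) x ∈ E := by
  rw [Polynomial.eval₂_eq_sum_range]
  exact sum_mem fun i _ => mul_mem (ev1_mem E hj _) (pow_mem hx i)

/-- the integral element `P(j,u)`. -/
def evW (P : (↥A)[X][X]) : WF A F :=
  ⟨P.eval₂ (ev1 A) G.u, by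
    rw [mem_WF, coeffMap_eval₂_ev1]
    exact eval₂_mem F G.j_mem G.U_mem _⟩

theorem iW_evW (P : (↥A)[X][X]) :
    ((iW A F (G.evW P) : F) : LaurentSeries L) =
      (P.map (mapRingHom A.subtype)).eval₂ (ev1 L) G.U := by
  rw [iW_coe]
  exact coeffMap_eval₂_ev1 _ _ _

theorem rW_evW (P : (↥A)[X][X]) :
    rW A π F (G.evW P) = (P.map (mapRingHom π)).eval₂ (ev1 k) G.ub := by
  rw [rW_apply]
  exact coeffMap_eval₂_ev1 _ _ _

theorem rW_evW_ne_zero (P : (↥A)[X][X]) (hdeg : P.degree < G.Ψ.degree)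
    (hP : P.map (mapRingHom π) ≠ 0) : rW A π F (G.evW P) ≠ 0 := by
  rw [rW_evW]
  intro h0
  exact hP (G.indep _ (lt_of_le_of_lt degree_map_le hdeg) h0)

/-- `Ψ` over `L`. -/
def ΨL : L[X][X] := G.Ψ.map (mapRingHom A.subtype)

theorem monic_ΨL : G.ΨL.Monic := G.monic.map _

theorem degree_ΨL : G.ΨL.degree = G.Ψ.degree := G.monic.degree_map _

theorem root_ΨL : G.ΨL.eval₂ (ev1 L) G.U = 0 := by
  rw [ΨL, U, ← coeffMap_eval₂_ev1, G.root, map_zero]

theorem exists_repr {z : LaurentSeries L}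
    (hz : z ∈ Algebra.adjoin L {jqModC L, coeffMap A.subtype G.u}) :
    ∃ P : L[X][X], P.degree < G.Ψ.degree ∧ P.eval₂ (ev1 L) G.U = z := by
  have h1 : ∃ P : L[X][X], P.eval₂ (ev1 L) G.U = z := by
    induction hz using Algebra.adjoin_induction with
    | mem x hx =>
      rcases hx with rfl | hx
      · exact ⟨C X, by simp [ev1]⟩
      · rw [Set.mem_singleton_iff] at hx
        subst hx
        exact ⟨X, by simp [U]⟩
    | algebraMap c =>
      exact ⟨C (C c), by simpa [ev1] using (algebraMap_laurentSeries_eq_single L c).symm⟩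
    | add x y _ _ hx hy =>
      obtain ⟨P, rfl⟩ := hx
      obtain ⟨Q, rfl⟩ := hy
      exact ⟨P + Q, eval₂_add _ _⟩
    | mul x y _ _ hx hy =>
      obtain ⟨P, rfl⟩ := hx
      obtain ⟨Q, rfl⟩ := hy
      exact ⟨P * Q, eval₂_mul _ _⟩
  obtain ⟨P, rfl⟩ := h1
  refine ⟨P %ₘ G.ΨL, ?_, ?_⟩
  · rw [← G.degree_ΨL]
    exact degree_modByMonic_lt _ G.monic_ΨL
  · conv_rhs => rw [← Polynomial.modByMonic_add_div P G.ΨL]
    rw [Polynomial.eval₂_add, Polynomial.eval₂_mul, G.root_ΨL, zero_mul, add_zero]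

/-- a nonzero element of `L[j,u]` is a constant times an integral element with nonzero reduction,
which is the value of a polynomial. -/
theorem exists_scale_of_mem {z : LaurentSeries L}
    (hz : z ∈ Algebra.adjoin L {jqModC L, coeffMap A.subtype G.u}) (hz0 : z ≠ 0) :
    ∃ (c : L) (P₀ : (↥A)[X][X]), c ≠ 0 ∧ rW A π F (G.evW P₀) ≠ 0 ∧
      z = algebraMap L (LaurentSeries L) c * ((iW A F (G.evW P₀) : F) : LaurentSeries L) := by
  obtain ⟨P, hdeg, rfl⟩ := G.exists_repr hz
  have hP : P ≠ 0 := by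
    rintro rfl
    exact hz0 (eval₂_zero _ _)
  obtain ⟨c, P₀, hc, hPeq, hne, hd⟩ := scale_poly2 (A := A) (π := π) P hP
  refine ⟨c, P₀, hc, G.rW_evW_ne_zero P₀ (hd ▸ hdeg) hne, ?_⟩
  rw [iW_evW]
  conv_lhs => rw [hPeq]
  rw [eval₂_mul, eval₂_C]
  congr 1
  simpa [ev1] using (algebraMap_laurentSeries_eq_single L c).symm

include G in
theorem normHyp : NormHyp A π F := by
  intro z hz
  have hzF : (z : LaurentSeries L) ∈ IntermediateField.adjoin L
      {jqModC L, coeffMap A.subtype G.u} := (G.mem_iff _).mp z.2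
  obtain ⟨r, hr, s, hs, e⟩ := IntermediateField.mem_adjoin_iff_div.mp hzF
  have hz0 : (z : LaurentSeries L) ≠ 0 := fun h => hz (Subtype.ext h)
  have hr0 : r ≠ 0 := by
    rintro rfl
    rw [zero_div] at e
    exact hz0 e
  have hs0 : s ≠ 0 := by
    rintro rfl
    rw [div_zero] at e
    exact hz0 e
  obtain ⟨c, P, hc, hP, eP⟩ := G.exists_scale_of_mem hr hr0
  obtain ⟨d, Q, hd, hQ, eQ⟩ := G.exists_scale_of_mem hs hs0
  refine ⟨c / d, G.evW P, G.evW Q, div_ne_zero hc hd, hP, hQ, ?_⟩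
  apply Subtype.ext
  show ((iW A F (G.evW Q) : F) : LaurentSeries L) * (z : LaurentSeries L) =
    algebraMap L (LaurentSeries L) (c / d) * ((iW A F (G.evW P) : F) : LaurentSeries L)
  have hdF : algebraMap L (LaurentSeries L) d ≠ 0 := by simpa using hd
  rw [e, eP, map_div₀]
  rw [eQ] at hs0 ⊢
  have h2 := right_ne_zero_of_mul hs0
  field_simp

end GenData

end

end Fermat.Agent.S18.Mo1
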