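import Mathlib

set_option autoImplicit false

/-! # S18 [Mo1] part c: degree of `K(j,x)` over `K(j)` from independence (abstract) -/

namespace Fermat.Agent.S18.Mo1

noncomputable section

open Polynomial IntermediateField

variable {K E : Type} [Field K] [Field E] [Algebra K E] (j x : E) (Ψ : K[X][X])

/-- `p ↦ p(j)`, with values in `E`. -/
def phE : K[X] →+* E := (aeval j : K[X] →ₐ[K] E).toRingHom

/-- `p ↦ p(j)`, with values in `K(j)`. -/
def ph1 : K[X] →+* K⟮j⟯ := (aeval (AdjoinSimple.gen K j) : K[X] →ₐ[K] K⟮j⟯).toRingHom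

theorem algebraMap_ph1 (p : K[X]) : algebraMap K⟮j⟯ E (ph1 j p) = phE j p := by
  show algebraMap K⟮j⟯ E (aeval (AdjoinSimple.gen K j) p) = aeval j p
  rw [← aeval_algebraMap_apply, AdjoinSimple.algebraMap_gen]

theorem algebraMap_comp_ph1 : (algebraMap K⟮j⟯ E).comp (ph1 j) = phE (K := K) j :=
  RingHom.ext (algebraMap_ph1 j)

theorem aeval_map_ph1 (Q : K[X][X]) : aeval x (Q.map (ph1 j)) = Q.eval₂ (phE j) x := by
  rw [aeval_def, eval₂_map, algebraMap_comp_ph1]

/-- the hypotheses. -/
structure Indep : Prop where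
  monic : Ψ.Monic
  root : Ψ.eval₂ (phE j) x = 0
  indep : ∀ Q : K[X][X], Q.degree < Ψ.degree → Q.eval₂ (phE j) x = 0 → Q = 0
  gen : adjoin K {j, x} = ⊤

variable {j x Ψ}

namespace Indep

variable (H : Indep j x Ψ)

include H

theorem degree_pos : 0 < Ψ.degree := by
  by_contra hcon
  have h1 : Ψ.degree ≤ 0 := not_lt.mp hcon
  have h2 : Ψ = 1 := by
    have h3 := eq_C_of_degree_le_zero h1
    have h4 : Ψ.natDegree = 0 := natDegree_eq_zero_iff_degree_le_zero.mpr h1
    have h5 := H.monic.coeff_natDegree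
    rw [h4] at h5
    rw [h3, h5, C_1]
  have := H.root
  rw [h2, eval₂_one] at this
  exact one_ne_zero this

theorem phE_injective : Function.Injective (phE (K := K) j) := by
  rw [injective_iff_map_eq_zero]
  intro p hp
  have h1 : (C p : K[X][X]) = 0 :=
    H.indep (C p) (lt_of_le_of_lt degree_C_le H.degree_pos) (by rw [eval₂_C, hp])
  exact C_eq_zero.mp h1

theorem transcendental : Transcendental K j := by
  rw [transcendental_iff_injective]
  exact H.phE_injective

theorem ph1_injective : Function.Injective (ph1 (K := K) j) := by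
  intro p q h
  apply H.phE_injective
  rw [← algebraMap_ph1, ← algebraMap_ph1, h]

theorem ph1_surj (z : K⟮j⟯) : ∃ r s : K[X], z = ph1 j r / ph1 j s := by
  obtain ⟨r, s, h⟩ := (mem_adjoin_simple_iff K (z : E)).mp z.2
  refine ⟨r, s, ?_⟩
  apply (algebraMap K⟮j⟯ E).injective
  rw [map_div₀, algebraMap_ph1, algebraMap_ph1]
  exact h

/-- clearing denominators. -/
theorem exists_clear (q : K⟮j⟯[X]) :
    ∃ (b : K[X]) (Q : K[X][X]), b ≠ 0 ∧ Q.map (ph1 j) = C (ph1 j b) * q ∧ Q.degree ≤ q.degree := by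
  letI : Algebra K[X] K⟮j⟯ := (ph1 j).toAlgebra
  haveI : FaithfulSMul K[X] K⟮j⟯ := (faithfulSMul_iff_algebraMap_injective _ _).mpr H.ph1_injective
  haveI : IsFractionRing K[X] K⟮j⟯ := IsFractionRing.of_field _ _ H.ph1_surj
  obtain ⟨b, hb, e⟩ := IsLocalization.integerNormalization_spec (nonZeroDivisors K[X]) q
  refine ⟨b, IsLocalization.integerNormalization (nonZeroDivisors K[X]) q,
    nonZeroDivisors.ne_zero hb, ?_, degree_mono (IsLocalization.integerNormalization_support _ q)⟩
  have e' : (IsLocalization.integerNormalization (nonZeroDivisors K[X]) q).map (ph1 j) = b • q := e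
  rw [e']
  ext n
  rw [coeff_smul, coeff_C_mul]
  rfl

theorem monic_map : (Ψ.map (ph1 j)).Monic := H.monic.map _

theorem aeval_map : aeval x (Ψ.map (ph1 j)) = 0 := by
  rw [aeval_map_ph1, H.root]

theorem isIntegral : IsIntegral K⟮j⟯ x := ⟨_, H.monic_map, H.aeval_map⟩

theorem minpoly_eq : minpoly K⟮j⟯ x = Ψ.map (ph1 j) := by
  symm
  apply minpoly.unique' _ _ H.monic_map H.aeval_map
  intro q hq
  by_contra hcon
  push Not at hcon
  obtain ⟨hq0, hq1⟩ := hcon
  obtain ⟨b, Q, hb, e, hdeg⟩ := H.exists_clear q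
  have h1 : Q = 0 := by
    apply H.indep Q
    · rw [H.monic.degree_map] at hq
      exact lt_of_le_of_lt hdeg hq
    · rw [← aeval_map_ph1, e, map_mul, hq1, mul_zero]
  rw [h1, Polynomial.map_zero] at e
  have h2 : ph1 j b ≠ 0 := (map_ne_zero_iff _ H.ph1_injective).mpr hb
  rcases mul_eq_zero.mp e.symm with h3 | h3
  · exact h2 (C_eq_zero.mp h3)
  · exact hq0 h3

theorem adjoin_eq_top : K⟮j⟯⟮x⟯ = ⊤ := by
  apply IntermediateField.restrictScalars_injective K
  rw [adjoin_adjoin_left, restrictScalars_top]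
  have : ({j} ∪ {x} : Set E) = {j, x} := rfl
  rw [this, H.gen]

theorem finrank_eq : Module.finrank K⟮j⟯ E = Ψ.natDegree := by
  rw [← IntermediateField.finrank_top', ← H.adjoin_eq_top, adjoin.finrank H.isIntegral,
    H.minpoly_eq, H.monic.natDegree_map]

theorem finiteDimensional : FiniteDimensional K⟮j⟯ E := by
  have h1 := adjoin.finiteDimensional H.isIntegral
  rw [H.adjoin_eq_top] at h1
  exact (IntermediateField.topEquiv (F := K⟮j⟯) (E := E)).toLinearEquiv.finiteDimensional

theorem isSeparable (hsep : (derivative Ψ).eval₂ (phE j) x ≠ 0) :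
    Algebra.IsSeparable K⟮j⟯ E := by
  have h1 : IsSeparable K⟮j⟯ x := by
    rw [IsSeparable, separable_iff_derivative_ne_zero (minpoly.irreducible H.isIntegral),
      H.minpoly_eq, derivative_map]
    intro h0
    apply hsep
    rw [← aeval_map_ph1, h0, map_zero]
  have h2 := (isSeparable_adjoin_simple_iff_isSeparable K⟮j⟯ E).mpr h1
  rw [H.adjoin_eq_top] at h2
  exact Algebra.IsSeparable.of_algHom _ _
    (IntermediateField.topEquiv (F := K⟮j⟯) (E := E)).symm.toAlgHom

end Indep

end

end Fermat.Agent.S18.Mo1
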