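import Mathlib
import Fermat.Agent.S18.Mo1b
import Fermat.Agent.S18.Mo1c

set_option autoImplicit false

/-! # S18 [Mo1] part d: the residue field, degrees, separability -/

namespace Fermat.Agent.S18.Mo1

noncomputable section

open ModularCurve Polynomial IntermediateField
open Fermat.Agent.S28.RAT (ev1 coeffMap_eval₂_ev1)

section bridge

variable {K : Type} [Field K] (E : IntermediateField K (LaurentSeries K))
  (hj : jqModC K ∈ E) {x : LaurentSeries K} (hx : x ∈ E)

theorem val_comp_phE :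
    (E.val.toRingHom).comp (phE (K := K) (⟨jqModC K, hj⟩ : E)) = ev1 K := by
  apply Polynomial.ringHom_ext
  · intro a
    show ((aeval (⟨jqModC K, hj⟩ : E) (C a) : E) : LaurentSeries K) = ev1 K (C a)
    rw [aeval_C]
    simpa [ev1] using (algebraMap_laurentSeries_eq_single K a)
  · show ((aeval (⟨jqModC K, hj⟩ : E) X : E) : LaurentSeries K) = ev1 K X
    rw [aeval_X]
    simp [ev1]

theorem coe_eval₂_phE (Q : K[X][X]) :
    ((Q.eval₂ (phE (⟨jqModC K, hj⟩ : E)) (⟨x, hx⟩ : E) : E) : LaurentSeries K) =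
      Q.eval₂ (ev1 K) x := by
  have := Polynomial.hom_eval₂ Q (phE (⟨jqModC K, hj⟩ : E)) E.val.toRingHom (⟨x, hx⟩ : E)
  rw [val_comp_phE] at this
  exact this

theorem adjoin_eq_top_of_eq (hE : E = adjoin K {jqModC K, x}) :
    adjoin K {(⟨jqModC K, hj⟩ : E), (⟨x, hx⟩ : E)} = ⊤ := by
  apply IntermediateField.lift_injective E
  rw [lift_adjoin, lift_top, Set.image_pair]
  exact hE.symm

theorem indep_of (Ψ : K[X][X]) (hm : Ψ.Monic) (hroot : Ψ.eval₂ (ev1 K) x = 0)
    (hind : ∀ Q : K[X][X], Q.degree < Ψ.degree → Q.eval₂ (ev1 K) x = 0 → Q = 0)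
    (hE : E = adjoin K {jqModC K, x}) :
    Indep (⟨jqModC K, hj⟩ : E) (⟨x, hx⟩ : E) Ψ where
  monic := hm
  root := Subtype.ext (by rw [coe_eval₂_phE, hroot]; rfl)
  indep Q hdeg h0 := hind Q hdeg (by rw [← coe_eval₂_phE E hj hx, h0]; rfl)
  gen := adjoin_eq_top_of_eq E hj hx hE

end bridge

variable {L k : Type} [Field L] [Field k] {A : ValuationSubring L} {π : A →+* k}
  {F : IntermediateField L (LaurentSeries L)}

namespace GenData

variable (G : GenData A π F)

/-- refined form of `normHyp`. -/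
theorem normHyp' (z : F) (hz : z ≠ 0) :
    ∃ (c : L) (P Q : (↥A)[X][X]), c ≠ 0 ∧ rW A π F (G.evW P) ≠ 0 ∧ rW A π F (G.evW Q) ≠ 0 ∧
      iW A F (G.evW Q) * z = algebraMap L F c * iW A F (G.evW P) := by
  have hzF : (z : LaurentSeries L) ∈ IntermediateField.adjoin L
      {jqModC L, coeffMap A.subtype G.u} := (G.mem_iff _).mp z.2
  obtain ⟨r, hr, s, hs, e⟩ := IntermediateField.mem_adjoin_iff_div.mp hzF
  have hz0 : (z : LaurentSeries L) ≠ 0 := fun h => hz (Subtype.ext h)
  have hr0 : r ≠ 0 := by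
    rintro rfl
    rw [zero_div] at e
    exact hz0 e
  have hs0 : s ≠ 0 := by
    rintro rfl
    rw [div_zero] at e
    exact hz0 e
  obtain ⟨c, P, hc, hP, eP⟩ := G.exists_scale_of_mem hr hr0
  obtain ⟨d, Q, hd, hQ, eQ⟩ := G.exists_scale_of_mem hs hs0
  refine ⟨c / d, P, Q, div_ne_zero hc hd, hP, hQ, ?_⟩
  apply Subtype.ext
  show ((iW A F (G.evW Q) : F) : LaurentSeries L) * (z : LaurentSeries L) =
    algebraMap L (LaurentSeries L) (c / d) * ((iW A F (G.evW P) : F) : LaurentSeries L)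
  have hdF : algebraMap L (LaurentSeries L) d ≠ 0 := by simpa using hd
  rw [e, eP, map_div₀]
  rw [eQ] at hs0 ⊢
  have h2 := right_ne_zero_of_mul hs0
  field_simp

variable (hπ : Function.Surjective π)

/-- the residue field. -/
abbrev kp : IntermediateField k (LaurentSeries k) := kap G.normHyp hπ

/-- the valued field data. -/
abbrev V : VData L F k (G.kp hπ) := vdata G.normHyp hπ

include G in
theorem jA_mem : coeffMap A.subtype (jqModC A) ∈ F := by
  rw [coeffMap_jqModC]; exact G.j_mem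

theorem jb_mem : jqModC k ∈ G.kp hπ := by
  have := (vdata_link G.normHyp hπ (jqModC A) G.jA_mem).2
  rw [coeffMap_jqModC π] at this
  rw [← this]
  exact SetLike.coe_mem _

theorem ub_mem : G.ub ∈ G.kp hπ := by
  have := (vdata_link G.normHyp hπ G.u G.U_mem).2
  rw [ub, ← this]
  exact SetLike.coe_mem _

theorem kp_eq : G.kp hπ = adjoin k {jqModC k, G.ub} := by
  apply le_antisymm
  · rintro _ ⟨x, hx, rfl⟩
    rcases eq_or_ne x 0 with rfl | hx0
    · rw [rdF_zero]; exact zero_mem _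
    obtain ⟨c, P, Q, hc, hP, hQ, e⟩ := G.normHyp' x hx0
    obtain ⟨s, a, hs, e'⟩ := hx
    have hcA : c ∈ A := by
      by_contra hcA
      obtain ⟨d, hd, hd0⟩ := exists_inv_of_not_mem hπ hcA
      have h1 : s * G.evW P = cW A F d * (G.evW Q * a) := by
        apply iW_injective A F
        rw [map_mul, map_mul, map_mul, iW_cW, ← e', hd, map_inv₀]
        have hcF : algebraMap L F c ≠ 0 := by simpa using hc
        have : iW A F (G.evW Q) * (iW A F s * x) = iW A F s * (iW A F (G.evW Q) * x) := by ring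
        rw [this, e]
        field_simp
      have h2 := congrArg (rW A π F) h1
      rw [map_mul, map_mul, rW_cW, hd0, map_zero, zero_mul] at h2
      exact mul_ne_zero hs hP h2
    have e2 : iW A F (G.evW Q) * x = iW A F (cW A F ⟨c, hcA⟩ * G.evW P) := by
      rw [map_mul, iW_cW, e]
    rw [rdF_eq_div hQ e2, map_mul, rW_cW, rW_evW, rW_evW]
    have hj : jqModC k ∈ adjoin k {jqModC k, G.ub} := subset_adjoin _ _ (by simp)
    have hu : G.ub ∈ adjoin k {jqModC k, G.ub} := subset_adjoin _ _ (by simp)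
    exact div_mem (mul_mem (IntermediateField.algebraMap_mem _ _) (eval₂_mem _ hj hu _)) (eval₂_mem _ hj hu _)
  · rw [adjoin_le_iff]
    rintro y (rfl | hy)
    · exact G.jb_mem hπ
    · rw [Set.mem_singleton_iff] at hy
      subst hy
      exact G.ub_mem hπ

/-- `j` in `F`. -/
def jF : F := ⟨jqModC L, G.j_mem⟩

/-- `u` in `F`. -/
def uF : F := ⟨G.U, G.U_mem⟩

/-- `j` in the residue field. -/
def jb : G.kp hπ := ⟨jqModC k, G.jb_mem hπ⟩

/-- `u` in the residue field. -/
def ubk : G.kp hπ := ⟨G.ub, G.ub_mem hπ⟩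

theorem jF_mem : G.jF ∈ (G.V hπ).O := by
  have := (vdata_link G.normHyp hπ (jqModC A) G.jA_mem).1
  convert this using 1
  exact Subtype.ext (coeffMap_jqModC _).symm

theorem rd_jF : (G.V hπ).rd G.jF = G.jb hπ := by
  have h1 := (vdata_link G.normHyp hπ (jqModC A) G.jA_mem).2
  apply Subtype.ext
  rw [coeffMap_jqModC π] at h1
  rw [← show (⟨coeffMap A.subtype (jqModC A), G.jA_mem⟩ : F) = G.jF from
    Subtype.ext (coeffMap_jqModC _)]
  exact h1

/-- `Ψ` over `k`. -/
def Ψk : k[X][X] := G.Ψ.map (mapRingHom π)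

theorem indepL : Indep G.jF G.uF G.ΨL := by
  apply indep_of F G.j_mem G.U_mem G.ΨL G.monic_ΨL G.root_ΨL _ G.gen
  intro Q hdeg h0
  by_contra hQ
  obtain ⟨c, Q₀, hc, hQeq, hne, hd⟩ := scale_poly2 (A := A) (π := π) Q hQ
  rw [G.degree_ΨL] at hdeg
  have h1 := G.rW_evW_ne_zero Q₀ (hd ▸ hdeg) hne
  apply h1
  have h2 : G.evW Q₀ = 0 := by
    apply iW_injective A F
    apply Subtype.ext
    rw [iW_evW, map_zero]
    rw [hQeq, eval₂_mul, eval₂_C] at h0
    rcases mul_eq_zero.mp h0 with h3 | h3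
    · exfalso
      have : ev1 L (C c) = algebraMap L (LaurentSeries L) c := by
        simpa [ev1] using (algebraMap_laurentSeries_eq_single L c).symm
      rw [this] at h3
      exact hc (by simpa using h3)
    · exact h3
  rw [h2, map_zero]

theorem indepk : Indep (G.jb hπ) (G.ubk hπ) G.Ψk := by
  apply indep_of (G.kp hπ) (G.jb_mem hπ) (G.ub_mem hπ) G.Ψk (G.monic.map _) _ _ (G.kp_eq hπ)
  · rw [Ψk, ub, ← coeffMap_eval₂_ev1, G.root, map_zero]
  · intro Q hdeg h0
    rw [Ψk, G.monic.degree_map] at hdeg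
    exact G.indep Q hdeg h0

theorem finrank_F : Module.finrank L⟮G.jF⟯ F = G.Ψ.natDegree := by
  rw [G.indepL.finrank_eq, ΨL, G.monic.natDegree_map]

theorem finrank_kp : Module.finrank k⟮G.jb hπ⟯ (G.kp hπ) = G.Ψ.natDegree := by
  rw [(G.indepk hπ).finrank_eq, Ψk, G.monic.natDegree_map]

theorem finiteDimensional_F : FiniteDimensional L⟮G.jF⟯ F := G.indepL.finiteDimensional

theorem finiteDimensional_kp : FiniteDimensional k⟮G.jb hπ⟯ (G.kp hπ) :=
  (G.indepk hπ).finiteDimensional

theorem transcendental_jb : Transcendental k (G.jb hπ) := (G.indepk hπ).transcendental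

theorem transcendental_jF : Transcendental L G.jF := G.indepL.transcendental

theorem isSeparable_kp : Algebra.IsSeparable k⟮G.jb hπ⟯ (G.kp hπ) := by
  apply (G.indepk hπ).isSeparable
  intro h0
  apply G.sep
  have := coe_eval₂_phE (G.kp hπ) (G.jb_mem hπ) (G.ub_mem hπ) (derivative G.Ψk)
  rw [Ψk, derivative_map] at this
  rw [← ub, ← this]
  have h1 : (derivative G.Ψk).eval₂ (phE (G.jb hπ)) (G.ubk hπ) = 0 := h0
  rw [Ψk, derivative_map] at h1
  exact congrArg Subtype.val h1

end GenData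

end

end Fermat.Agent.S18.Mo1
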