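import Mathlib
import Fermat.Agent.S18.Mo1d
import Fermat.Agent.S28.AnData
import Fermat.Agent.S24.EngineAlg
import Fermat.Prelude.Def_FLTPrelim_Ramification

set_option autoImplicit false

/-! # S18 [Mo1] part e: the analytic data over `R = iota(A)` -/

namespace Fermat.Agent.S18.Mo1

noncomputable section

open ModularCurve Polynomial IntermediateField
open Fermat.Agent.S24 (Kb iota)
open Fermat.Agent.S28 (AnData exists_anData)

variable (A : ValuationSubring Kb)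

/-- the image of `A` in `ℂ`. -/
def RA : Subring ℂ := A.toSubring.map iota

/-- `A → R`. -/
def eA : ↥A →+* ↥(RA A) where
  toFun c := ⟨iota c, ⟨c, c.2, rfl⟩⟩
  map_one' := Subtype.ext (map_one _)
  map_mul' _ _ := Subtype.ext (map_mul _ _ _)
  map_zero' := Subtype.ext (map_zero _)
  map_add' _ _ := Subtype.ext (map_add _ _ _)

theorem eA_bijective : Function.Bijective (eA A) := by
  constructor
  · intro x y h
    apply Subtype.ext
    apply iota.injective
    exact congrArg Subtype.val h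
  · rintro ⟨_, c, hc, rfl⟩
    exact ⟨⟨c, hc⟩, rfl⟩

/-- `A ≃ R`. -/
def eAR : ↥A ≃+* ↥(RA A) := RingEquiv.ofBijective (eA A) (eA_bijective A)

/-- `R → A`. -/
def eR : ↥(RA A) →+* ↥A := (eAR A).symm.toRingHom

theorem eR_comp_eA : (eR A).comp (eA A) = RingHom.id _ :=
  RingHom.ext fun x => (eAR A).symm_apply_apply x

theorem eA_comp_eR : (eA A).comp (eR A) = RingHom.id _ :=
  RingHom.ext fun x => (eAR A).apply_symm_apply x

theorem mem_of_pow_eq_one {x : Kb} {n : ℕ} (hn : n ≠ 0) (h : x ^ n = 1) : x ∈ A := by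
  have hx : IsIntegral ℤ x := by
    refine ⟨X ^ n - 1, monic_X_pow_sub_C 1 hn, ?_⟩
    simp [h]
  have h1 : IsIntegral A x := hx.tower_top
  obtain ⟨y, hy⟩ := (IsIntegrallyClosed.isIntegral_iff (R := A) (K := Kb)).mp h1
  rw [← hy]
  exact y.2

theorem root_mem_RA (n : ℕ) [NeZero n] (ω : ℂ) (h : ω ^ n = 1) : ω ∈ RA A := by
  obtain ⟨ζ, hζ⟩ := HasEnoughRootsOfUnity.exists_primitiveRoot Kb n
  have hζ' : IsPrimitiveRoot (iota ζ) n := hζ.map_of_injective iota.injective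
  obtain ⟨i, -, hi⟩ := hζ'.eq_pow_of_pow_eq_one h
  rw [← hi, ← map_pow]
  refine ⟨ζ ^ i, mem_of_pow_eq_one A (NeZero.ne n) ?_, rfl⟩
  rw [← pow_mul, mul_comm, pow_mul, hζ.pow_eq_one, one_pow]

theorem natCast_inv_mem {ℓ : ℕ} (hA : A.LiesOverPrime ℓ) (hℓ : ℓ.Prime) (n : ℕ) (hn : ¬ ℓ ∣ n) :
    ((n : Kb))⁻¹ ∈ A := by
  have h1 : A.valuation (ℓ : Kb) < 1 := A.mem_nonunits_iff.mp hA
  have hint : ∀ z : ℤ, A.valuation (z : Kb) ≤ 1 := fun z =>
    (A.valuation_le_one_iff _).mpr (intCast_mem A z)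
  have hcop : IsCoprime (n : ℤ) (ℓ : ℤ) := by
    rw [Nat.isCoprime_iff_coprime]
    exact ((Nat.Prime.coprime_iff_not_dvd hℓ).mpr hn).symm
  obtain ⟨a, b, hab⟩ := hcop
  have h2 : A.valuation (n : Kb) = 1 := by
    apply le_antisymm
    · exact_mod_cast hint n
    · by_contra hlt
      rw [not_le] at hlt
      have h3 : (a : Kb) * n + b * ℓ = 1 := by exact_mod_cast congrArg (Int.cast : ℤ → Kb) hab
      have h4 : A.valuation ((a : Kb) * n + b * ℓ) < 1 := by
        apply A.valuation.map_add_lt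
        · rw [map_mul]
          exact (mul_le_of_le_one_left' (hint a)).trans_lt hlt
        · rw [map_mul]
          exact (mul_le_of_le_one_left' (hint b)).trans_lt h1
      rw [h3, map_one] at h4
      exact lt_irrefl _ h4
  rw [← A.valuation_le_one_iff, map_inv₀, h2, inv_one]

theorem natCast_inv_mem_RA {ℓ : ℕ} (hA : A.LiesOverPrime ℓ) (hℓ : ℓ.Prime) (n : ℕ)
    (hn : ¬ ℓ ∣ n) : ((n : ℂ))⁻¹ ∈ RA A :=
  ⟨((n : Kb))⁻¹, natCast_inv_mem A hA hℓ n hn, by simp⟩

theorem exists_anData_RA {ℓ : ℕ} (hA : A.LiesOverPrime ℓ) (hℓ : ℓ.Prime) (M : ℕ) [NeZero M]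
    (hM : ¬ ℓ ∣ M) : Nonempty (AnData M (RA A)) :=
  exists_anData M (RA A) (root_mem_RA A M) (natCast_inv_mem_RA A hA hℓ M hM)

end

end Fermat.Agent.S18.Mo1
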