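import Mathlib
import Fermat.Agent.S18.Mo1e

set_option autoImplicit false

/-! # S18 [Mo1] part f: `GenData` for `Kb(j,u)` -/

namespace Fermat.Agent.S18.Mo1

noncomputable section

open ModularCurve Polynomial IntermediateField
open Fermat.Agent.S24 (Kb iota)
open Fermat.Agent.S28 (AnData exists_anData evJN eval₂_C_injective)
open Fermat.Agent.S28.RAT

variable {A : ValuationSubring Kb} {M : ℕ} [NeZero M] (D : AnData M (RA A))
  {k : Type} [Field k] (π : ↥A →+* k)

/-- the modular unit over `A`. -/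
def uA : LaurentSeries A := coeffMap (Int.castRingHom A) D.u

/-- its polynomial over `A`. -/
def ΨA : (↥A)[X][X] := D.Ψ.map (mapRingHom (eR A))

theorem map_eR_map_eA (P : (↥(RA A))[X][X]) :
    (P.map (mapRingHom (eR A))).map (mapRingHom (eA A)) = P := by
  rw [Polynomial.map_map, Polynomial.mapRingHom_comp, eA_comp_eR]
  simp

theorem ΨA_map : (ΨA D).map (mapRingHom (eA A)) = D.Ψ := map_eR_map_eA _

theorem monic_ΨA : (ΨA D).Monic := (monic_Ψ D).map _

theorem Th_uA : Th M (eA A) (uA D) = D.r D.q₀ := by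
  rw [Th_apply, uA, coeffMap_coeffMap, D.r₀,
    RingHom.ext_int ((eA A).comp (Int.castRingHom A)) (Int.castRingHom _)]

theorem Th_eA_injective : Function.Injective (Th M (eA A)) :=
  Th_injective M (eA A) (eA_bijective A).1

theorem root_ΨA : (ΨA D).eval₂ (ev1 A) (uA D) = 0 := by
  apply Th_eA_injective (M := M)
  rw [Th_eval₂, ΨA_map, Th_uA, root_Ψ, map_zero]

/-- `R → k`. -/
def πR : ↥(RA A) →+* k := π.comp (eR A)

theorem map_eR_map_π (P : (↥(RA A))[X][X]) :
    (P.map (mapRingHom (eR A))).map (mapRingHom π) = P.map (mapRingHom (πR π)) := by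
  rw [Polynomial.map_map, Polynomial.mapRingHom_comp]
  rfl

theorem order_jqModC_neg (K : Type) [Field K] : (jqModC K).order < 0 := by
  have h2 : (jqModC K).order ≤ -1 :=
    HahnSeries.order_le_of_coeff_ne_zero (by rw [coeff_jqModC_neg_one]; exact one_ne_zero)
  linarith

theorem ev1_injective (K : Type) [Field K] : Function.Injective (ev1 K) :=
  eval₂_C_injective (jqModC K) (order_jqModC_neg K)

theorem root_k : ((ΨA D).map (mapRingHom π)).eval₂ (ev1 k) (coeffMap π (uA D)) = 0 := by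
  rw [← coeffMap_eval₂_ev1, root_ΨA, map_zero]

theorem indep_k (Q : k[X][X]) (hdeg : Q.degree < (ΨA D).degree)
    (hQ : Q.eval₂ (ev1 k) (coeffMap π (uA D)) = 0) : Q = 0 := by
  obtain ⟨ι, hι'⟩ : ∃ ι : RatFunc k →+* LaurentSeries k,
      ∀ x, ι (algebraMap k[X] (RatFunc k) x) = ev1 k x :=
    ⟨IsFractionRing.lift (ev1_injective k), IsFractionRing.lift_algebraMap _⟩
  have hι : ι.comp (algebraMap k[X] (RatFunc k)) = ev1 k := RingHom.ext hι'
  have hainj : Function.Injective (algebraMap k[X] (RatFunc k)) := IsFractionRing.injective _ _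
  have h1 : ((ΨA D).map (mapRingHom π)).map (algebraMap k[X] (RatFunc k)) ∣
      Q.map (algebraMap k[X] (RatFunc k)) := by
    apply dvd_of_root ι (coeffMap π (uA D)) _ _
    · rw [ΨA, map_eR_map_π]
      exact irreducible_map D (πR π)
    · rw [Polynomial.eval₂_map, hι]
      exact root_k D π
    · rw [Polynomial.eval₂_map, hι, hQ]
  have h2 := Polynomial.eq_zero_of_dvd_of_degree_lt h1 (by
    rw [Polynomial.degree_map_eq_of_injective hainj, Polynomial.degree_map_eq_of_injective hainj,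
      (monic_ΨA D).degree_map]
    exact hdeg)
  exact (Polynomial.map_eq_zero_iff hainj).mp h2

theorem rbar_ne (q : S20.Quo M) (hq : q ≠ D.q₀) :
    coeffMap (πR π) (D.r D.q₀) ≠ coeffMap (πR π) (D.r q) := by
  intro h
  have h1 : 0 ≤ (coeffMap (πR π) (D.r D.q₀)).order :=
    order_nonneg_of_const D.q₀ (evJN M k) (fun a => by simp [evJN])
      (fun q => coeffMap (πR π) (D.r q)) (r_map_ne_zero D (πR π)) (r_map_order D (πR π))
      _ (split_map D (πR π)) _ (const_map D (πR π))
  have h2 := r_map_order D (πR π) q hq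
  rw [← h] at h2
  omega

theorem Th_π_uA : Th M π (uA D) = coeffMap (πR π) (D.r D.q₀) := by
  rw [Th_apply, uA, coeffMap_coeffMap, D.r₀, coeffMap_qExpand, coeffMap_coeffMap,
    RingHom.ext_int (π.comp (Int.castRingHom A)) (Int.castRingHom k),
    RingHom.ext_int ((πR π).comp (Int.castRingHom _)) (Int.castRingHom k)]

theorem sep_k :
    ((derivative (ΨA D)).map (mapRingHom π)).eval₂ (ev1 k) (coeffMap π (uA D)) ≠ 0 := by
  rw [← coeffMap_eval₂_ev1]
  intro h0
  have h1 : Th M π ((derivative (ΨA D)).eval₂ (ev1 A) (uA D)) = 0 := by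
    rw [Th_apply, h0, map_zero]
  rw [Th_eval₂, Th_π_uA, ΨA, derivative_map, map_eR_map_π, ← coeffMap_eval₂, eval₂_derivative_Ψ,
    map_prod, Finset.prod_eq_zero_iff] at h1
  obtain ⟨q, hq, h2⟩ := h1
  rw [map_sub, sub_eq_zero] at h2
  exact rbar_ne D π q (Finset.ne_of_mem_erase hq) h2

/-- the field `Kb(j,u)`. -/
def Fu : IntermediateField Kb (LaurentSeries Kb) :=
  adjoin Kb {jqModC Kb, coeffMap A.subtype (uA D)}

/-- the generator data for `Kb(j,u)`. -/
def genFu : GenData A π (Fu D) where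
  u := uA D
  Ψ := ΨA D
  monic := monic_ΨA D
  root := root_ΨA D
  indep := indep_k D π
  gen := rfl
  sep := sep_k D π

theorem natDegree_ΨA : (ΨA D).natDegree = Fintype.card (S20.Quo M) := by
  rw [ΨA, (monic_Ψ D).natDegree_map, ← (monic_Ψ D).natDegree_map (evJN M _), D.split,
    natDegree_prod_of_monic _ _ fun q _ => monic_X_sub_C _]
  simp

/-- `j(q^d) ∈ Kb(j,u)`. -/
theorem jd_mem_Fu (d : ℕ) [NeZero d] (hd : d ∣ M) : qExpand Kb d (jqModC Kb) ∈ Fu D := by
  obtain ⟨G', hG', -⟩ := exists_numerator D d hd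
  set G : (↥A)[X][X] := G'.map (mapRingHom (eR A)) with hG
  have h1 : G.eval₂ (ev1 A) (uA D) = qExpand A d (jqModC A) *
      (derivative (ΨA D)).eval₂ (ev1 A) (uA D) := by
    apply Th_eA_injective (M := M)
    rw [map_mul, Th_eval₂, Th_eval₂, Th_uA, hG, map_eR_map_eA, ← Polynomial.derivative_map, ΨA_map,
      hG', Th_apply, coeffMap_qExpand, coeffMap_jqModC]
  have h2 : (derivative (ΨA D)).eval₂ (ev1 A) (uA D) ≠ 0 := by
    intro h
    apply eval₂_derivative_Ψ_ne_zero D
    have := Th_eval₂ M (eA A) (derivative (ΨA D)) (uA D)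
    rw [h, map_zero, Th_uA, ← Polynomial.derivative_map, ΨA_map] at this
    exact this.symm
  have h3 := congrArg (coeffMap A.subtype) h1
  rw [map_mul, coeffMap_eval₂_ev1, coeffMap_eval₂_ev1, coeffMap_qExpand, coeffMap_jqModC] at h3
  have h4 : ((derivative (ΨA D)).map (mapRingHom A.subtype)).eval₂ (ev1 Kb)
      (coeffMap A.subtype (uA D)) ≠ 0 := by
    rw [← coeffMap_eval₂_ev1]
    exact fun h => h2 (coeffMap_subtype_inj A (by rw [h, map_zero]))
  have h5 : qExpand Kb d (jqModC Kb) = (G.map (mapRingHom A.subtype)).eval₂ (ev1 Kb)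
      (coeffMap A.subtype (uA D)) / ((derivative (ΨA D)).map (mapRingHom A.subtype)).eval₂ (ev1 Kb)
      (coeffMap A.subtype (uA D)) := by
    rw [eq_div_iff h4]
    exact h3.symm
  rw [h5]
  have hj : jqModC Kb ∈ Fu D := subset_adjoin _ _ (by simp)
  have hx : coeffMap A.subtype (uA D) ∈ Fu D := subset_adjoin _ _ (by simp)
  exact div_mem (GenData.eval₂_mem _ hj hx _) (GenData.eval₂_mem _ hj hx _)

end

end Fermat.Agent.S18.Mo1
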