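import Mathlib
import Fermat.Agent.S24.Degree
import Fermat.Agent.S24.Integral
import Fermat.Agent.S24.Local
import Fermat.Agent.S24.NormProd
import Fermat.Agent.S24.EngineAlg
import Fermat.Agent.S18.LSpace
import Fermat.Agent.S18.R1c

set_option autoImplicit false
set_option linter.style.haveILetI false

/-! # S18 [Mo2]: branch analysis of `FN N / Kb(j)`; the radical condition off the branch set -/

namespace Fermat.Agent.S18.Mo2

open AlgebraicCurve IntermediateField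
open Fermat.Agent.S24
open Fermat.Agent.S20 (Quo sl)

section general

variable {K F : Type} [Field K] [Field F] [Algebra K F]

theorem sub_algebraMap_ne_zero {t : F} (ht : Transcendental K t) (c : K) :
    t - algebraMap K F c ≠ 0 := by
  intro h
  apply ht
  rw [sub_eq_zero.1 h]
  exact isAlgebraic_algebraMap c

/-- `0 ≤ ord t` implies `0 ≤ ord (t - c)`. -/
theorem ord_sub_algebraMap_nonneg (P : Place K F) {t : F} (h : 0 ≤ P.ord t) (c : K) :
    0 ≤ P.ord (t - algebraMap K F c) := by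
  by_cases h0 : t - algebraMap K F c = 0
  · rw [h0, P.ord_zero]
  · have h1 : t + -algebraMap K F c ≠ 0 := by rwa [← sub_eq_add_neg]
    have := ord_add_ge P h1
    rw [ord_neg, ord_algebraMap, ← sub_eq_add_neg] at this
    exact (le_min h le_rfl).trans this

/-- (Rad-gen): if `t = c` is unbranched then `(t - c) B₀` is a radical ideal of the integral
closure `B₀` of `K[t]`. -/
theorem radical_of_unramified [IsAlgClosed K] [CharZero K] (t : F) (ht : Transcendental K t)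
    [FiniteDimensional K⟮t⟯ F] (c : K)
    (hun : ∀ P : Place K F, 0 < P.ord (t - algebraMap K F c) → P.ord (t - algebraMap K F c) = 1)
    (y : F) (hy : IntOver K t y)
    (h : ∃ (N : ℕ) (z : F), IntOver K t z ∧ y ^ N = (t - algebraMap K F c) * z) :
    ∃ z, IntOver K t z ∧ y = (t - algebraMap K F c) * z := by
  obtain ⟨N, z, hz, hyz⟩ := h
  have htc := sub_algebraMap_ne_zero ht c
  refine ⟨y / (t - algebraMap K F c), ?_, by field_simp⟩
  by_cases hy0 : y = 0
  · rw [hy0, zero_div]; exact IntOver.zero t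
  have hz0 : z ≠ 0 := by
    rintro rfl
    rw [mul_zero] at hyz
    exact hy0 (pow_eq_zero_iff (n := N) (by
      rintro rfl
      simp at hyz) |>.1 hyz)
  refine (R1.isIntegral_adjoin_iff t ht _).2 ?_
  intro P hP
  have hyP := (R1.isIntegral_adjoin_iff t ht y).1 hy P hP
  have hzP := (R1.isIntegral_adjoin_iff t ht z).1 hz P hP
  have h1 := ord_sub_algebraMap_nonneg P hP c
  rw [div_eq_mul_inv, P.ord_mul hy0 (inv_ne_zero htc), P.ord_inv]
  rcases h1.eq_or_lt with h2 | h2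
  · rw [← h2]; simpa using hyP
  · rw [hun P h2]
    have h3 := congrArg P.ord hyz
    rw [ord_pow, P.ord_mul htc hz0, hun P h2] at h3
    have h4 : 0 < (N : ℤ) * P.ord y := by omega
    have h5 : 0 < P.ord y := by
      rcases hyP.eq_or_lt with h6 | h6
      · rw [← h6] at h4; simp at h4
      · exact h6
    omega

/-- Möbius change: `ord (x⁻¹ - c)` in terms of `ord (x - c⁻¹)`. -/
theorem ord_inv_sub (P : Place K F) {x : F} (hx : x ≠ 0) {c : K} (hc : c ≠ 0)
    (h : 0 < P.ord (x⁻¹ - algebraMap K F c)) :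
    P.ord (x⁻¹ - algebraMap K F c) = P.ord (x - algebraMap K F c⁻¹) := by
  have hcF : algebraMap K F c ≠ 0 := by simpa using hc
  have hne : x⁻¹ - algebraMap K F c ≠ 0 := by
    intro h0
    rw [h0, P.ord_zero] at h
    exact lt_irrefl _ h
  -- `ord x = 0`
  have hx0 : P.ord x⁻¹ = 0 := by
    have h1 : x⁻¹ = algebraMap K F c + (x⁻¹ - algebraMap K F c) := by ring
    rw [h1]
    have := ord_add_eq_of_lt P hcF (g := x⁻¹ - algebraMap K F c) (by rw [ord_algebraMap]; exact h)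
    rw [this, ord_algebraMap]
  have hne' : x - algebraMap K F c⁻¹ ≠ 0 := by
    intro h0
    apply hne
    rw [sub_eq_zero.1 h0, map_inv₀, inv_inv, sub_self]
  have key : x⁻¹ - algebraMap K F c = (-algebraMap K F c) * ((x - algebraMap K F c⁻¹) * x⁻¹) := by
    rw [map_inv₀]
    field_simp
    ring
  rw [key, P.ord_mul (neg_ne_zero.2 hcF) (mul_ne_zero hne' (inv_ne_zero hx)),
    P.ord_mul hne' (inv_ne_zero hx), ord_neg, ord_algebraMap, hx0]
  ring

end general

section modular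

variable (N : ℕ) [NeZero N]

theorem finiteDimensional_jF : FiniteDimensional Kb⟮jF N⟯ (FN N) := (finrank_FN_le N).1

theorem card_quo_eq_finrank : Fintype.card (Quo N) = Module.finrank Kb⟮jF N⟯ (FN N) := by
  obtain ⟨hfd, hle⟩ := finrank_FN_le N
  haveI := hfd
  obtain ⟨Linf, -⟩ := exists_localData_inf N
  apply le_antisymm
  · have hfd' : FiniteDimensional Kb⟮(jF N)⁻¹⟯ (FN N) := by rw [adjoin_inv']; exact hfd
    have := card_le_finrank (jF N)⁻¹ Linf.σ Linf.σ_inj Linf.σ_y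
    rwa [adjoin_inv'] at this
  · rwa [Nat.card_eq_fintype_card] at hle

/-- (U): `j = a` is unbranched in `FN N` for `a ≠ 0, 1728`. -/
theorem ord_jF_sub_eq_one (a : Kb) (h0 : a ≠ 0) (h1 : a ≠ 1728) (P : Place Kb (FN N))
    (hP : 0 < P.ord (jF N - algebraMap Kb (FN N) a)) :
    P.ord (jF N - algebraMap Kb (FN N) a) = 1 := by
  haveI := finiteDimensional_jF N
  obtain ⟨L, hL⟩ := exists_localData_generic N a h0 h1
  haveI : FiniteDimensional Kb⟮jF N - algebraMap Kb (FN N) a⟯ (FN N) := by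
    rw [adjoin_sub_algebraMap]; infer_instance
  have hcard : Fintype.card (Quo N) = Module.finrank Kb⟮jF N - algebraMap Kb (FN N) a⟯ (FN N) := by
    rw [adjoin_sub_algebraMap]; exact card_quo_eq_finrank N
  haveI : Nonempty (Quo N) := ⟨QuotientGroup.mk 1⟩
  exact ord_eq_one_of_eps_eq_one _ L.transcendental L hcard hL P hP

/-- the coordinate `t = 1/(j - a₀)`. -/
noncomputable def tF (a₀ : Kb) : FN N := (jF N - algebraMap Kb (FN N) a₀)⁻¹

theorem jF_sub_ne_zero (a₀ : Kb) : jF N - algebraMap Kb (FN N) a₀ ≠ 0 :=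
  sub_algebraMap_ne_zero (transcendental_jF N) a₀

theorem tF_ne_zero (a₀ : Kb) : tF N a₀ ≠ 0 := inv_ne_zero (jF_sub_ne_zero N a₀)

theorem tF_inv (a₀ : Kb) : (tF N a₀)⁻¹ = jF N - algebraMap Kb (FN N) a₀ := inv_inv _

theorem adjoin_tF (a₀ : Kb) : Kb⟮tF N a₀⟯ = Kb⟮jF N⟯ := by
  rw [tF, adjoin_inv', adjoin_sub_algebraMap]

theorem adjoin_tF_inv (a₀ : Kb) : Kb⟮(tF N a₀)⁻¹⟯ = Kb⟮jF N⟯ := by
  rw [adjoin_inv', adjoin_tF]

theorem transcendental_jF_sub (a₀ : Kb) :
    Transcendental Kb (jF N - algebraMap Kb (FN N) a₀) := by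
  intro h
  apply transcendental_jF N
  have := h.add (isAlgebraic_algebraMap (A := FN N) a₀)
  simpa using this

theorem transcendental_tF (a₀ : Kb) : Transcendental Kb (tF N a₀) :=
  transcendental_inv (transcendental_jF_sub N a₀)

theorem transcendental_tF_inv (a₀ : Kb) : Transcendental Kb (tF N a₀)⁻¹ := by
  rw [tF_inv]; exact transcendental_jF_sub N a₀

theorem finiteDimensional_tF (a₀ : Kb) : FiniteDimensional Kb⟮tF N a₀⟯ (FN N) := by
  rw [adjoin_tF]; exact finiteDimensional_jF N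

theorem finiteDimensional_tF_inv (a₀ : Kb) : FiniteDimensional Kb⟮(tF N a₀)⁻¹⟯ (FN N) := by
  rw [adjoin_tF_inv]; exact finiteDimensional_jF N

theorem finrank_tF (a₀ : Kb) :
    Module.finrank Kb⟮tF N a₀⟯ (FN N) = Module.finrank Kb⟮jF N⟯ (FN N) := by
  rw [adjoin_tF]

/-- `t = c` is unbranched for `c ∉ {0, -1/a₀, 1/(1728 - a₀)}`. -/
theorem ord_tF_sub_eq_one (a₀ c : Kb) (hc0 : c ≠ 0) (hc1 : a₀ + c⁻¹ ≠ 0) (hc2 : a₀ + c⁻¹ ≠ 1728)
    (P : Place Kb (FN N)) (hP : 0 < P.ord (tF N a₀ - algebraMap Kb (FN N) c)) :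
    P.ord (tF N a₀ - algebraMap Kb (FN N) c) = 1 := by
  have h1 := ord_inv_sub P (jF_sub_ne_zero N a₀) hc0 hP
  have h2 : jF N - algebraMap Kb (FN N) a₀ - algebraMap Kb (FN N) c⁻¹ =
      jF N - algebraMap Kb (FN N) (a₀ + c⁻¹) := by rw [map_add]; ring
  rw [tF] at hP ⊢
  rw [h1, h2] at hP ⊢
  exact ord_jF_sub_eq_one N _ hc1 hc2 P hP

/-- `1/t = c'` is unbranched for `c' ∉ {-a₀, 1728 - a₀}`. -/
theorem ord_tF_inv_sub_eq_one (a₀ c : Kb) (hc1 : a₀ + c ≠ 0) (hc2 : a₀ + c ≠ 1728)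
    (P : Place Kb (FN N)) (hP : 0 < P.ord ((tF N a₀)⁻¹ - algebraMap Kb (FN N) c)) :
    P.ord ((tF N a₀)⁻¹ - algebraMap Kb (FN N) c) = 1 := by
  have h2 : jF N - algebraMap Kb (FN N) a₀ - algebraMap Kb (FN N) c =
      jF N - algebraMap Kb (FN N) (a₀ + c) := by rw [map_add]; ring
  rw [tF_inv, h2] at hP ⊢
  exact ord_jF_sub_eq_one N _ hc1 hc2 P hP

/-- [Mo2], chart `t`. -/
theorem radical_tF (a₀ c : Kb) (hc0 : c ≠ 0) (hc1 : a₀ + c⁻¹ ≠ 0) (hc2 : a₀ + c⁻¹ ≠ 1728)
    (y : FN N) (hy : IntOver Kb (tF N a₀) y)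
    (h : ∃ (n : ℕ) (z : FN N), IntOver Kb (tF N a₀) z ∧
      y ^ n = (tF N a₀ - algebraMap Kb (FN N) c) * z) :
    ∃ z, IntOver Kb (tF N a₀) z ∧ y = (tF N a₀ - algebraMap Kb (FN N) c) * z := by
  haveI := finiteDimensional_tF N a₀
  exact radical_of_unramified _ (transcendental_tF N a₀) c
    (ord_tF_sub_eq_one N a₀ c hc0 hc1 hc2) y hy h

/-- [Mo2], chart `1/t`. -/
theorem radical_tF_inv (a₀ c : Kb) (hc1 : a₀ + c ≠ 0) (hc2 : a₀ + c ≠ 1728)
    (y : FN N) (hy : IntOver Kb (tF N a₀)⁻¹ y)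
    (h : ∃ (n : ℕ) (z : FN N), IntOver Kb (tF N a₀)⁻¹ z ∧
      y ^ n = ((tF N a₀)⁻¹ - algebraMap Kb (FN N) c) * z) :
    ∃ z, IntOver Kb (tF N a₀)⁻¹ z ∧ y = ((tF N a₀)⁻¹ - algebraMap Kb (FN N) c) * z := by
  haveI := finiteDimensional_tF_inv N a₀
  exact radical_of_unramified _ (transcendental_tF_inv N a₀) c
    (ord_tF_inv_sub_eq_one N a₀ c hc1 hc2) y hy h

open Polynomial in
/-- branch polynomial for the chart `t = 1/(j - a₀)`. -/
noncomputable def betaT (a₀ : Kb) : Polynomial Kb := X * (C a₀ * X + 1) * (C (1728 - a₀) * X - 1)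

open Polynomial in
/-- branch polynomial for the chart `1/t = j - a₀`. -/
noncomputable def betaI (a₀ : Kb) : Polynomial Kb := (X + C a₀) * (X + C (a₀ - 1728))

/-- the `hunr` hypothesis of `RadOver.of_dualOver` for `t = 1/(j - a₀)`. -/
theorem hunr_tF (a₀ : Kb) : ∀ c, (betaT a₀).eval c ≠ 0 → ∀ y z : FN N, IntOver Kb (tF N a₀) y →
    IntOver Kb (tF N a₀) z → y ^ 2 = (tF N a₀ - algebraMap Kb (FN N) c) * z →
    ∃ z', IntOver Kb (tF N a₀) z' ∧ y = (tF N a₀ - algebraMap Kb (FN N) c) * z' := by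
  intro c hc y z hy hz hyz
  simp only [betaT, Polynomial.eval_mul, Polynomial.eval_add, Polynomial.eval_sub,
    Polynomial.eval_X, Polynomial.eval_C, Polynomial.eval_one, mul_ne_zero_iff] at hc
  obtain ⟨⟨hc0, hc1⟩, hc2⟩ := hc
  refine radical_tF N a₀ c hc0 ?_ ?_ y hy ⟨2, z, hz, hyz⟩
  · intro h
    apply hc1
    have : a₀ * c + 1 = (a₀ + c⁻¹) * c := by field_simp
    rw [this, h, zero_mul]
  · intro h
    apply hc2
    have : (1728 - a₀) * c - 1 = (1728 - (a₀ + c⁻¹)) * c := by field_simp; ring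
    rw [this, h, sub_self, zero_mul]

/-- the `hunr` hypothesis of `RadOver.of_dualOver` for `1/t = j - a₀`. -/
theorem hunr_tF_inv (a₀ : Kb) : ∀ c, (betaI a₀).eval c ≠ 0 → ∀ y z : FN N,
    IntOver Kb (tF N a₀)⁻¹ y →
    IntOver Kb (tF N a₀)⁻¹ z → y ^ 2 = ((tF N a₀)⁻¹ - algebraMap Kb (FN N) c) * z →
    ∃ z', IntOver Kb (tF N a₀)⁻¹ z' ∧ y = ((tF N a₀)⁻¹ - algebraMap Kb (FN N) c) * z' := by
  intro c hc y z hy hz hyz
  simp only [betaI, Polynomial.eval_mul, Polynomial.eval_add,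
    Polynomial.eval_X, Polynomial.eval_C, mul_ne_zero_iff] at hc
  obtain ⟨hc1, hc2⟩ := hc
  refine radical_tF_inv N a₀ c ?_ ?_ y hy ⟨2, z, hz, hyz⟩
  · intro h
    apply hc1
    rw [add_comm]; exact h
  · intro h
    apply hc2
    rw [← h]; ring

end modular

end Fermat.Agent.S18.Mo2
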