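import Mathlib
import Fermat.Agent.S18.LatticeB
import Fermat.Agent.S18.GaussInt
import Fermat.Agent.S18.Core
import Fermat.Agent.S18.LSpace

set_option autoImplicit false

/-! # S18 [V1]: user-facing summary of the valuation-theoretic block -/

namespace Fermat.Agent.S18

open Polynomial IntermediateField Module

namespace VData

variable {L F k κ : Type} [Field L] [Field F] [Algebra L F] [Field k] [Field κ] [Algebra k κ]
variable (V : VData L F k κ)

/-- `t` is a good coordinate: its reduction is transcendental and the degrees agree. -/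
structure GoodCoord (t : F) : Prop where
  htr : Transcendental k (V.rd t)
  fd : FiniteDimensional L⟮t⟯ F
  hn : finrank L⟮t⟯ F = finrank k⟮V.rd t⟯ κ

variable {V}

theorem GoodCoord.mem {t : F} (h : V.GoodCoord t) : t ∈ V.O :=
  V.mem_of_rd_ne_zero (fun h0 => h.htr (h0 ▸ isAlgebraic_zero))

theorem GoodCoord.rd_ne_zero {t : F} (h : V.GoodCoord t) : V.rd t ≠ 0 :=
  fun h0 => h.htr (h0 ▸ isAlgebraic_zero)

theorem GoodCoord.ne_zero {t : F} (h : V.GoodCoord t) : t ≠ 0 := by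
  intro h0; apply h.rd_ne_zero; rw [h0, V.rd_zero]

theorem GoodCoord.transcendental {t : F} (h : V.GoodCoord t) : Transcendental L t :=
  V.transcendental_t h.htr

theorem GoodCoord.fd' {t : F} (h : V.GoodCoord t) : FiniteDimensional k⟮V.rd t⟯ κ := by
  have := h.fd
  have hpos : 0 < finrank k⟮V.rd t⟯ κ := h.hn ▸ finrank_pos
  exact finite_of_finrank_pos hpos

theorem GoodCoord.exists_onBasis {t : F} (h : V.GoodCoord t) :
    Nonempty (ONBasis V t (finrank L⟮t⟯ F)) :=
  have := h.fd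
  V.exists_onBasis h.htr h.hn

variable (V)

theorem valuation_le_one_iff (x : F) : V.O.valuation x ≤ 1 ↔ x ∈ V.O :=
  V.O.valuation_le_one_iff x

theorem rd_eq_zero_iff {x : F} (hx : x ∈ V.O) : V.rd x = 0 ↔ V.O.valuation x < 1 := by
  by_cases hx0 : x = 0
  · subst hx0; simp
  constructor
  · intro h
    rw [← not_le]
    intro h1
    have h2 : x⁻¹ ∈ V.O := by
      rw [← V.O.valuation_le_one_iff, map_inv₀]
      exact inv_le_one_of_one_le₀ h1
    exact V.rd_ne_zero_of_inv_mem hx0 hx h2 h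
  · intro h
    by_contra hne
    have h2 := V.inv_mem_of_rd_ne_zero hne
    rw [← V.O.valuation_le_one_iff, map_inv₀] at h2
    have h3 : V.O.valuation x ≠ 0 := (Valuation.ne_zero_iff _).2 hx0
    have h4 : 1 ≤ V.O.valuation x := by
      rwa [inv_le_one₀ (zero_lt_iff.2 h3)] at h2
    exact absurd h (not_lt.2 h4)

theorem exists_const (x : F) : ∃ c : L, V.O.valuation x = V.O.valuation (algebraMap L F c) := by
  by_cases hx0 : x = 0
  · exact ⟨0, by simp [hx0]⟩
  obtain ⟨c, hc, hne⟩ := V.exists_scale hx0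
  have hcF : algebraMap L F c ≠ 0 := by simpa using hc
  refine ⟨c⁻¹, ?_⟩
  have h1 : V.O.valuation (algebraMap L F c * x) = 1 := by
    have hmem := V.mem_of_rd_ne_zero hne
    rcases lt_or_eq_of_le ((V.O.valuation_le_one_iff _).2 hmem) with h | h
    · exact absurd ((V.rd_eq_zero_iff hmem).2 h) hne
    · exact h
  rw [map_mul] at h1
  rw [map_inv₀, map_inv₀]
  exact eq_inv_of_mul_eq_one_right h1

variable {V}

/-- (ONB) in `Fin r` form. -/
theorem GoodCoord.exists_on {t : F} (h : V.GoodCoord t) (W : Submodule L F)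
    (hW : FiniteDimensional L W) : ∃ (r : ℕ) (e : Fin r → F),
      (∀ i, e i ∈ V.O) ∧ LinearIndependent k (fun i => V.rd (e i)) ∧
      LinearIndependent L e ∧ Submodule.span L (Set.range e) = W ∧
      ∀ c : Fin r → L, (∑ i, c i • e i ∈ V.O ↔ ∀ i, c i ∈ V.A) := by
  obtain ⟨B⟩ := h.exists_onBasis
  obtain ⟨σ, _, u, huW, huO, hli, hsp⟩ := B.exists_onb V h.htr W
  let φ := (Fintype.equivFin σ).symm
  have hli' : LinearIndependent k (fun i => V.rd (u (φ i))) :=
    hli.comp φ φ.injective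
  have hO' : ∀ i, u (φ i) ∈ V.O := fun i => huO _
  refine ⟨Fintype.card σ, fun i => u (φ i), hO', hli', V.linearIndependent_of_rd _ hO' hli', ?_, ?_⟩
  · apply le_antisymm
    · rw [Submodule.span_le]; rintro _ ⟨i, rfl⟩; exact huW _
    · refine hsp.trans (Submodule.span_mono ?_)
      rintro _ ⟨a, rfl⟩
      exact ⟨φ.symm a, by simp⟩
  · intro c
    constructor
    · intro hs i
      exact V.coeff_mem_of_sum_mem _ hO' hli' Finset.univ c hs i (Finset.mem_univ i)
    · intro hc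
      refine sum_mem fun i _ => ?_
      rw [Algebra.smul_def]
      exact mul_mem (V.algebraMap_mem (hc i)) (hO' i)

/-- the `IsVF` structure of helper1's `Core.lean`. -/
theorem GoodCoord.isVF {t : F} (h : V.GoodCoord t)
    (hrk : ∀ c c0 : L, V.O.valuation (algebraMap L F c) < 1 → c0 ≠ 0 →
      ∃ j : ℕ, V.O.valuation (algebraMap L F c) ^ j ≤ V.O.valuation (algebraMap L F c0)) :
    IsVF L k V.O.valuation V.rd where
  rb_add x y hx hy := V.rd_add ((V.valuation_le_one_iff x).1 hx) ((V.valuation_le_one_iff y).1 hy)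
  rb_mul x y hx hy := V.rd_mul ((V.valuation_le_one_iff x).1 hx) ((V.valuation_le_one_iff y).1 hy)
  rb_one := V.rd_one
  rb_eq_zero x hx := V.rd_eq_zero_iff ((V.valuation_le_one_iff x).1 hx)
  rb_const c hc := by
    have hc' : c ∈ V.A := (V.mem_iff c).2 ((V.valuation_le_one_iff _).1 hc)
    exact ⟨V.π ⟨c, hc'⟩, V.rd_algebraMap ⟨c, hc'⟩⟩
  lift_const c' := by
    obtain ⟨c, hc⟩ := V.π_surj c'
    exact ⟨c, (V.valuation_le_one_iff _).2 (V.algebraMap_mem c.2), by rw [V.rd_algebraMap, hc]⟩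
  exists_const := V.exists_const
  exists_on W hW := by
    obtain ⟨r, e, -, -, hli, hsp, hc⟩ := h.exists_on W hW
    refine ⟨r, e, hli, hsp, fun c => ?_⟩
    rw [V.valuation_le_one_iff, hc]
    exact forall_congr' fun i => by rw [V.valuation_le_one_iff, V.mem_iff]
  rank_one := hrk

variable (V)

/-- the reduction of a subspace. -/
def redSpace (W : Submodule L F) : Submodule k κ where
  carrier := {y | ∃ x ∈ W, x ∈ V.O ∧ V.rd x = y}
  add_mem' := by
    rintro _ _ ⟨x, hx, hxO, rfl⟩ ⟨y, hy, hyO, rfl⟩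
    exact ⟨x + y, W.add_mem hx hy, add_mem hxO hyO, V.rd_add hxO hyO⟩
  zero_mem' := ⟨0, W.zero_mem, zero_mem _, V.rd_zero⟩
  smul_mem' := by
    rintro c _ ⟨x, hx, hxO, rfl⟩
    obtain ⟨c₀, hc₀⟩ := V.π_surj c
    refine ⟨(c₀ : L) • x, W.smul_mem _ hx, ?_, ?_⟩
    · rw [Algebra.smul_def]; exact mul_mem (V.algebraMap_mem c₀.2) hxO
    · rw [Algebra.smul_def, V.rd_mul (V.algebraMap_mem c₀.2) hxO, V.rd_algebraMap, hc₀,
        Algebra.smul_def]

theorem mem_redSpace {W : Submodule L F} {y : κ} :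
    y ∈ V.redSpace W ↔ ∃ x ∈ W, x ∈ V.O ∧ V.rd x = y := Iff.rfl

theorem redSpace_mono {W W' : Submodule L F} (h : W ≤ W') : V.redSpace W ≤ V.redSpace W' := by
  rintro _ ⟨x, hx, hxO, rfl⟩
  exact ⟨x, h hx, hxO, rfl⟩

variable {V}

/-- (DIM) the reduction of a finite-dimensional subspace has the same dimension. -/
theorem GoodCoord.finrank_redSpace {t : F} (h : V.GoodCoord t) (W : Submodule L F)
    [hW : FiniteDimensional L W] :
    FiniteDimensional k (V.redSpace W) ∧ finrank k (V.redSpace W) = finrank L W := by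
  obtain ⟨r, e, heO, hlik, hliL, hsp, hc⟩ := h.exists_on W hW
  have hspk : Submodule.span k (Set.range fun i => V.rd (e i)) = V.redSpace W := by
    apply le_antisymm
    · rw [Submodule.span_le]
      rintro _ ⟨i, rfl⟩
      exact ⟨e i, hsp ▸ Submodule.subset_span ⟨i, rfl⟩, heO i, rfl⟩
    · rintro _ ⟨x, hx, hxO, rfl⟩
      rw [← hsp] at hx
      obtain ⟨c, rfl⟩ := (Submodule.mem_span_range_iff_exists_fun L).1 hx
      have hcA := (hc c).1 hxO
      rw [V.rd_sum_smul e heO Finset.univ c (fun i _ => hcA i)]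
      exact Submodule.sum_mem _ fun i _ =>
        Submodule.smul_mem _ _ (Submodule.subset_span ⟨i, rfl⟩)
  have h1 : finrank k (V.redSpace W) = r := by
    rw [← hspk, finrank_span_eq_card hlik, Fintype.card_fin]
  have h2 : finrank L W = r := by
    rw [← hsp, finrank_span_eq_card hliL, Fintype.card_fin]
  refine ⟨?_, h1.trans h2.symm⟩
  rw [← hspk]
  exact FiniteDimensional.span_of_finite k (Set.finite_range _)

/-! ### Möbius changes of the coordinate -/

theorem GoodCoord.of_adjoin_eq {t t' : F} (h : V.GoodCoord t) (h1 : L⟮t'⟯ = L⟮t⟯)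
    (h2 : k⟮V.rd t'⟯ = k⟮V.rd t⟯) : V.GoodCoord t' := by
  have htr' : Transcendental k (V.rd t') := by
    intro halg
    apply h.htr
    have h3 : V.rd t ∈ k⟮V.rd t'⟯ := h2 ▸ mem_adjoin_simple_self k (V.rd t)
    have : Algebra.IsAlgebraic k k⟮V.rd t'⟯ := isAlgebraic_adjoin_simple halg.isIntegral
    have h4 := Algebra.IsAlgebraic.isAlgebraic (R := k) (⟨V.rd t, h3⟩ : k⟮V.rd t'⟯)
    exact (isAlgebraic_algebraMap_iff (A := κ) (algebraMap k⟮V.rd t'⟯ κ).injective).2 h4
  refine ⟨htr', ?_, ?_⟩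
  · rw [h1]; exact h.fd
  · rw [h1, h2]; exact h.hn

theorem adjoin_simple_inv_eq {K E : Type} [Field K] [Field E] [Algebra K E] (x : E) :
    K⟮x⁻¹⟯ = K⟮x⟯ := by
  apply le_antisymm
  · rw [adjoin_simple_le_iff]
    exact inv_mem (mem_adjoin_simple_self K x)
  · rw [adjoin_simple_le_iff]
    have h1 : (x⁻¹)⁻¹ ∈ K⟮x⁻¹⟯ := inv_mem (mem_adjoin_simple_self K _)
    rwa [inv_inv] at h1

theorem adjoin_simple_sub_eq {K E : Type} [Field K] [Field E] [Algebra K E] (x : E) (a : K) :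
    K⟮x - algebraMap K E a⟯ = K⟮x⟯ := by
  apply le_antisymm
  · rw [adjoin_simple_le_iff]
    exact sub_mem (mem_adjoin_simple_self K x) (IntermediateField.algebraMap_mem _ a)
  · rw [adjoin_simple_le_iff]
    have h1 : (x - algebraMap K E a) + algebraMap K E a ∈ K⟮x - algebraMap K E a⟯ :=
      add_mem (mem_adjoin_simple_self K _) (IntermediateField.algebraMap_mem _ a)
    rwa [sub_add_cancel] at h1

theorem adjoin_simple_mul_eq {K E : Type} [Field K] [Field E] [Algebra K E] (x : E) {a : K}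
    (ha : a ≠ 0) : K⟮algebraMap K E a * x⟯ = K⟮x⟯ := by
  apply le_antisymm
  · rw [adjoin_simple_le_iff]
    exact mul_mem (IntermediateField.algebraMap_mem _ a) (mem_adjoin_simple_self K x)
  · rw [adjoin_simple_le_iff]
    have h1 : algebraMap K E a⁻¹ * (algebraMap K E a * x) ∈ K⟮algebraMap K E a * x⟯ :=
      mul_mem (IntermediateField.algebraMap_mem _ _) (mem_adjoin_simple_self K _)
    rwa [← mul_assoc, ← map_mul, inv_mul_cancel₀ ha, map_one, one_mul] at h1

/-- (Mob) `t⁻¹` is a good coordinate. -/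
theorem GoodCoord.inv {t : F} (h : V.GoodCoord t) : V.GoodCoord t⁻¹ :=
  h.of_adjoin_eq (adjoin_simple_inv_eq t) (by rw [V.rd_inv h.rd_ne_zero, adjoin_simple_inv_eq])

/-- (Mob) `t - a` is a good coordinate, `a ∈ A`. -/
theorem GoodCoord.sub_const {t : F} (h : V.GoodCoord t) {a : L} (ha : a ∈ V.A) :
    V.GoodCoord (t - algebraMap L F a) :=
  h.of_adjoin_eq (adjoin_simple_sub_eq t a) (by
    rw [V.rd_sub h.mem (V.algebraMap_mem ha), V.rd_algebraMap' ha, adjoin_simple_sub_eq])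

/-- (Mob) `a * t` is a good coordinate, `a ∈ A^×`. -/
theorem GoodCoord.const_mul {t : F} (h : V.GoodCoord t) {a : L} (ha : a ∈ V.A)
    (ha' : V.pr a ≠ 0) : V.GoodCoord (algebraMap L F a * t) :=
  h.of_adjoin_eq (adjoin_simple_mul_eq t (by rintro rfl; apply ha'; rw [V.pr_of_mem ha]; exact map_zero _)) (by
    rw [V.rd_mul (V.algebraMap_mem ha) h.mem, V.rd_algebraMap' ha, adjoin_simple_mul_eq _ ha'])

/-! ### Reduction of integral elements and of the spaces `Lsp` -/

/-- (INT) -/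
theorem GoodCoord.intOver_rd {t : F} (h : V.GoodCoord t) {x : F} (hx : x ∈ V.O)
    (hint : IntOver L t x) : IntOver k (V.rd t) (V.rd x) := by
  obtain ⟨B⟩ := h.exists_onBasis
  exact B.intK_rd V h.htr hx hint

/-- (TR) -/
theorem GoodCoord.trace_mem {t : F} (h : V.GoodCoord t) {x : F} (hx : x ∈ V.O) :
    ((Algebra.trace L⟮t⟯ F x : L⟮t⟯) : F) ∈ V.O := by
  obtain ⟨B⟩ := h.exists_onBasis
  exact B.trace_mem V h.htr hx

/-- (TR) -/
theorem GoodCoord.rd_trace {t : F} (h : V.GoodCoord t) {x : F} (hx : x ∈ V.O) :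
    V.rd ((Algebra.trace L⟮t⟯ F x : L⟮t⟯) : F) =
      ((Algebra.trace k⟮V.rd t⟯ κ (V.rd x) : k⟮V.rd t⟯) : κ) := by
  obtain ⟨B⟩ := h.exists_onBasis
  exact B.rd_trace V h.htr hx

/-- the reduction of `Lsp L t a b ∩ O` lies in `Lsp k (rd t) a b`. -/
theorem GoodCoord.rd_mem_Lsp {t : F} (h : V.GoodCoord t) {a b : ℤ} {x : F}
    (hx : x ∈ Lsp L t a b) (hxO : x ∈ V.O) : V.rd x ∈ Lsp k (V.rd t) a b := by
  obtain ⟨h1, h2⟩ := mem_Lsp.1 hx
  refine mem_Lsp.2 ⟨?_, ?_⟩
  · have h3 := h.intOver_rd (mul_mem (V.zpow_mem h.rd_ne_zero b) hxO) h1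
    rwa [V.rd_mul (V.zpow_mem h.rd_ne_zero b) hxO, V.rd_zpow h.rd_ne_zero] at h3
  · have h3 := h.inv.intOver_rd (mul_mem (V.zpow_mem h.rd_ne_zero (-a)) hxO) h2
    rwa [V.rd_mul (V.zpow_mem h.rd_ne_zero (-a)) hxO, V.rd_zpow h.rd_ne_zero,
      V.rd_inv h.rd_ne_zero] at h3

theorem GoodCoord.redSpace_Lsp_le {t : F} (h : V.GoodCoord t) (a b : ℤ) :
    V.redSpace (Lsp L t a b) ≤ Lsp k (V.rd t) a b := by
  rintro _ ⟨x, hx, hxO, rfl⟩
  exact h.rd_mem_Lsp hx hxO

end VData

end Fermat.Agent.S18
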