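import Mathlib
import Fermat.Agent.S18.Mo1f
import Fermat.Agent.S18.Mo2
import Fermat.Agent.S18.V1

set_option autoImplicit false
set_option synthInstance.maxHeartbeats 400000

/-! # S18 [Mo1] part g: `FN M = Kb(j,u)`; the valued field data on `FN M` -/

namespace Fermat.Agent.S18.Mo1

noncomputable section

open ModularCurve Polynomial IntermediateField
open Fermat.Agent.S24 (Kb iota FN jF Jd)
open Fermat.Agent.S28 (AnData)

theorem relfinrank_adjoin_simple {K Ω : Type} [Field K] [Field Ω] [Algebra K Ω]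
    (E : IntermediateField K Ω) (y : E) :
    relfinrank K⟮(y : Ω)⟯ E = Module.finrank K⟮y⟯ E := by
  have h1 : K⟮(y : Ω)⟯ = (K⟮y⟯).map E.val := (lift_adjoin_simple K E y).symm
  have h2 : E = (⊤ : IntermediateField K E).map E.val := (lift_top K E).symm
  calc relfinrank K⟮(y : Ω)⟯ E = relfinrank ((K⟮y⟯).map E.val)
        ((⊤ : IntermediateField K E).map E.val) := by rw [← h1, ← h2]
    _ = relfinrank K⟮y⟯ (⊤ : IntermediateField K E) := relfinrank_map_map _ _ _
    _ = Module.finrank K⟮y⟯ E := relfinrank_top_right _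

variable {A : ValuationSubring Kb} {M : ℕ} [NeZero M] (D : AnData M (RA A))

theorem coe_Jd_eq (d : S24.Dv M) :
    haveI : NeZero d.1 := ⟨d.ne_zero⟩
    ((Jd M d : FN M) : LaurentSeries Kb) = qExpand Kb d.1 (jqModC Kb) := by
  haveI : NeZero d.1 := ⟨d.ne_zero⟩
  rw [S24.coe_Jd, coeffEmb, coeffMap_qExpand, ← jqModC_rat, coeffMap_jqModC]

theorem coe_jF_eq : ((jF M : FN M) : LaurentSeries Kb) = jqModC Kb := by
  rw [S24.coe_jF, coeffEmb, ← jqModC_rat, coeffMap_jqModC]

theorem FM_le_Fu : modularFunctionFieldBar M ≤ Fu D := by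
  have h1 : modularFunctionFieldBar M =
      adjoin Kb (Subtype.val '' Set.range (Jd M)) := by
    rw [← lift_adjoin, S24.adjoin_range_Jd, lift_top]
  rw [h1, adjoin_le_iff]
  rintro _ ⟨_, ⟨d, rfl⟩, rfl⟩
  haveI : NeZero d.1 := ⟨d.ne_zero⟩
  rw [coe_Jd_eq]
  exact jd_mem_Fu D d.1 d.2

theorem Fu_eq : Fu D = modularFunctionFieldBar M := by
  apply le_antisymm _ (FM_le_Fu D)
  set G := genFu D (IsLocalRing.residue A) with hG
  have h1 : relfinrank Kb⟮jqModC Kb⟯ (modularFunctionFieldBar M) = Fintype.card (S20.Quo M) := by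
    rw [← coe_jF_eq (M := M), relfinrank_adjoin_simple, Mo2.card_quo_eq_finrank]
  have h2 : relfinrank Kb⟮jqModC Kb⟯ (Fu D) = Fintype.card (S20.Quo M) := by
    have := relfinrank_adjoin_simple (Fu D) G.jF
    rw [G.finrank_F] at this
    rw [← natDegree_ΨA D]
    exact this
  have hle : Kb⟮jqModC Kb⟯ ≤ modularFunctionFieldBar M := by
    rw [adjoin_simple_le_iff, ← coe_jF_eq (M := M)]
    exact SetLike.coe_mem _
  have h3 := relfinrank_mul_relfinrank hle (FM_le_Fu D)
  rw [h1, h2] at h3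
  have hpos : 0 < Fintype.card (S20.Quo M) := Fintype.card_pos_iff.mpr ⟨QuotientGroup.mk 1⟩
  have h4 : relfinrank (modularFunctionFieldBar M) (Fu D) = 1 := by
    have : Fintype.card (S20.Quo M) * relfinrank (modularFunctionFieldBar M) (Fu D) =
      Fintype.card (S20.Quo M) * 1 := by rw [h3, mul_one]
    exact Nat.eq_of_mul_eq_mul_left hpos this
  exact relfinrank_eq_one_iff.mp h4

variable {k : Type} [Field k] (π : ↥A →+* k)

/-- the generator data for `FN M`. -/
def genFM : GenData A π (modularFunctionFieldBar M) where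
  u := uA D
  Ψ := ΨA D
  monic := monic_ΨA D
  root := root_ΨA D
  indep := indep_k D π
  gen := (Fu_eq D).symm
  sep := sep_k D π

theorem exists_genData {ℓ : ℕ} (hℓ : ℓ.Prime) (A : ValuationSubring Kb) (hA : A.LiesOverPrime ℓ)
    (M : ℕ) [NeZero M] (hM : ¬ ℓ ∣ M) {k : Type} [Field k] (π : ↥A →+* k) :
    Nonempty (GenData A π (modularFunctionFieldBar M)) := by
  obtain ⟨D⟩ := exists_anData_RA A hA hℓ M hM
  exact ⟨genFM D π⟩

namespace GenData

variable {π} (G : GenData A π (modularFunctionFieldBar M)) (hπ : Function.Surjective π)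

theorem jF_eq : G.jF = S24.jF M := Subtype.ext coe_jF_eq.symm

theorem rd_jF' : (G.V hπ).rd (S24.jF M) = G.jb hπ := by rw [← G.jF_eq, G.rd_jF]

/-- `j` is a good coordinate. -/
theorem goodCoord : (G.V hπ).GoodCoord (S24.jF M) where
  htr := by rw [G.rd_jF' hπ]; exact G.transcendental_jb hπ
  fd := by rw [← G.jF_eq]; exact G.finiteDimensional_F
  hn := by rw [G.rd_jF' hπ, ← G.jF_eq, G.finrank_F, G.finrank_kp]

theorem isSeparable : Algebra.IsSeparable k⟮(G.V hπ).rd (S24.jF M)⟯ (G.kp hπ) := by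
  rw [G.rd_jF' hπ]; exact G.isSeparable_kp hπ

/-- the field `k(j(q^d) : d ∣ M)` is contained in the residue field. -/
theorem fullC_le : modularFunctionFieldFullC k M ≤ G.kp hπ := by
  rw [modularFunctionFieldFullC, adjoin_le_iff]
  rintro _ ⟨d, hd0, hd, rfl⟩
  haveI := hd0
  have hy : coeffMap A.subtype (qExpand A d (jqModC A)) ∈ modularFunctionFieldBar M := by
    rw [coeffMap_qExpand, coeffMap_jqModC, ← coe_Jd_eq (M := M) ⟨d, hd⟩]
    exact SetLike.coe_mem _
  have := (vdata_link G.normHyp hπ _ hy).2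
  have e : coeffMap π (qExpand A d (jqModC A)) = qExpand k d (jqModC k) := by
    rw [coeffMap_qExpand, coeffMap_jqModC]
  rw [e] at this
  rw [← this]
  exact SetLike.coe_mem _

end GenData

end

end Fermat.Agent.S18.Mo1
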