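import Mathlib
import Fermat.Agent.S18.AsmK
import Fermat.Agent.S18.AsmDefs
import Fermat.Agent.S18.Mo1g

set_option autoImplicit false
set_option linter.unusedSectionVars false
set_option linter.style.haveILetI false

/-! # S18 [Asm-B]: the function field in characteristic `ℓ` is finite separable over `k(j)` -/

namespace Fermat.Agent.S18.Asm

open ModularCurve AlgebraicCurve HahnSeries IntermediateField Fermat.Agent.S24

theorem barHyp {ℓ : ℕ} (hℓ : ℓ.Prime) (A : ValuationSubring Kb) (hA : A.LiesOverPrime ℓ)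
    (N : ℕ) [NeZero N] (hN : ¬ ℓ ∣ N) {k : Type} [Field k] (π : A →+* k)
    (hπ : Function.Surjective π) : BarHyp k N := by
  obtain ⟨G⟩ := Mo1.exists_genData hℓ A hA N hN π
  haveI := G.finiteDimensional_kp hπ
  haveI := G.isSeparable_kp hπ
  exact ⟨⟨jqModC k, jqModC_mem_full k N⟩,
    AsmK.transfer (modularFunctionFieldFullC k N) (G.kp hπ) (G.fullC_le hπ)
      ⟨jqModC k, jqModC_mem_full k N⟩ (G.jb hπ) rfl (G.transcendental_jb hπ)⟩

end Fermat.Agent.S18.Asm
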