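import Mathlib
import Fermat.Agent.S24.PlaceBasic
import Fermat.Agent.S24.Count
import Fermat.Agent.S24.Principal

set_option autoImplicit false
set_option linter.style.haveILetI false

/-! # S18 [Mo3b], abstract part: branch analysis of `t` when `α j t = Q(t)` -/

namespace Fermat.Agent.S18.Mo3b

open AlgebraicCurve IntermediateField Fermat.Agent.S24 Polynomial

variable {K F : Type} [Field K] [Field F] [Algebra K F]

theorem ord_nonneg_of_sub (P : Place K F) (t : F) (c : K)
    (hP : 0 < P.ord (t - algebraMap K F c)) : 0 ≤ P.ord t := by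
  have h1 : t - algebraMap K F c ∈ P.toValuationSubring :=
    (mem_valuationSubring_iff P _).2 (Or.inr hP.le)
  have h2 : algebraMap K F c ∈ P.toValuationSubring := P.algebraMap_mem' c
  have h3 : t ∈ P.toValuationSubring := by
    have := add_mem h1 h2
    rwa [sub_add_cancel] at this
  rcases (mem_valuationSubring_iff P t).1 h3 with h | h
  · rw [h]; simp
  · exact h

/-- `R(t)` is a unit at a place where `t ≡ c`, `R(c) ≠ 0`. -/
theorem ord_aeval_eq_zero (P : Place K F) (t : F) (c : K)
    (hP : 0 < P.ord (t - algebraMap K F c)) (R : K[X]) (hR : R.eval c ≠ 0) :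
    P.ord (aeval t R) = 0 := by
  obtain ⟨S, hS⟩ : (X - C c) ∣ R - C (R.eval c) := by
    rw [dvd_iff_isRoot]; simp
  have h1 : aeval t R = algebraMap K F (R.eval c) + (t - algebraMap K F c) * aeval t S := by
    have := congrArg (aeval t) hS
    simp only [map_sub, map_mul, aeval_X, aeval_C] at this
    rw [← this]; ring
  rw [h1]
  have hRc : algebraMap K F (R.eval c) ≠ 0 := by simpa using hR
  by_cases hS0 : aeval t S = 0
  · rw [hS0, mul_zero, add_zero, ord_algebraMap]
  have htc : t - algebraMap K F c ≠ 0 := by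
    intro h; rw [h] at hP; simp at hP
  rw [ord_add_eq_of_lt P hRc, ord_algebraMap]
  rw [ord_algebraMap, P.ord_mul htc hS0]
  have := ord_aeval_nonneg P (ord_nonneg_of_sub P t c hP) S
  omega

/-- the polynomial whose roots are the values of `t` over `j = a`. -/
noncomputable def Gpol (α : K) (Q : K[X]) (a : K) : K[X] := Q - C (a * α) * X

theorem Gpol_eval_zero (α : K) (Q : K[X]) (a : K) : (Gpol α Q a).eval 0 = Q.eval 0 := by
  simp [Gpol]

theorem Gpol_ne_zero (α : K) (Q : K[X]) (a : K) (hQ0 : Q.eval 0 ≠ 0) : Gpol α Q a ≠ 0 := by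
  intro h
  apply hQ0
  rw [← Gpol_eval_zero α Q a, h, eval_zero]

theorem aeval_Gpol (α : K) (Q : K[X]) (a : K) (j t : F)
    (hrel : algebraMap K F α * j * t = aeval t Q) :
    aeval t (Gpol α Q a) = algebraMap K F α * t * (j - algebraMap K F a) := by
  simp only [Gpol, map_sub, map_mul, aeval_X, aeval_C, ← hrel]
  ring

/-- the value of `j` over `t = c`. -/
noncomputable def jval (α : K) (Q : K[X]) (c : K) : K := Q.eval c / (α * c)

theorem isRoot_Gpol_jval (α : K) (Q : K[X]) (c : K) (hα : α ≠ 0) (hc : c ≠ 0) :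
    (Gpol α Q (jval α Q c)).IsRoot c := by
  simp only [Gpol, jval, IsRoot.def, eval_sub, eval_mul, eval_C, eval_X]
  field_simp
  ring

theorem jval_eq_of_isRoot (α : K) (Q : K[X]) (a c : K) (hα : α ≠ 0) (hc : c ≠ 0)
    (h : (Gpol α Q a).IsRoot c) : jval α Q c = a := by
  simp only [Gpol, IsRoot.def, eval_sub, eval_mul, eval_C, eval_X, sub_eq_zero] at h
  rw [jval, h]
  field_simp

theorem ne_zero_of_isRoot (α : K) (Q : K[X]) (a c : K) (hQ0 : Q.eval 0 ≠ 0)
    (h : (Gpol α Q a).IsRoot c) : c ≠ 0 := by
  rintro rfl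
  rw [IsRoot.def, Gpol_eval_zero] at h
  exact hQ0 h

/-- `ord_P (j - a) = μ * ord_P (t - c)`. -/
theorem ord_sub_eq_mul (α : K) (hα : α ≠ 0) (Q : K[X]) (hQ0 : Q.eval 0 ≠ 0) (j t : F)
    (hrel : algebraMap K F α * j * t = aeval t Q) (a c : K) (hc : c ≠ 0)
    (P : Place K F) (hP : 0 < P.ord (t - algebraMap K F c)) :
    P.ord (j - algebraMap K F a) =
      (rootMultiplicity c (Gpol α Q a) : ℤ) * P.ord (t - algebraMap K F c) := by
  have hG := Gpol_ne_zero α Q a hQ0
  obtain ⟨R, hR, hRc⟩ := exists_eq_pow_rootMultiplicity_mul_and_not_dvd (Gpol α Q a) hG c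
  rw [dvd_iff_isRoot, IsRoot.def] at hRc
  have h1 := aeval_Gpol α Q a j t hrel
  have h2 : aeval t (Gpol α Q a) =
      (t - algebraMap K F c) ^ (rootMultiplicity c (Gpol α Q a)) * aeval t R := by
    conv_lhs => rw [hR]
    simp only [map_mul, map_pow, map_sub, aeval_X, aeval_C]
  have htc : t - algebraMap K F c ≠ 0 := by
    intro h; rw [h] at hP; simp at hP
  have hRt := ord_aeval_eq_zero P t c hP R hRc
  have hRt0 : aeval t R ≠ 0 := by
    intro h
    -- then `G(t) = 0`, so `t` is a root of `G`, in particular algebraic: use orders directly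
    have h3 : aeval t (X : K[X]) = t := aeval_X t
    have hX := ord_aeval_eq_zero P t c hP X (by simpa using hc)
    rw [h3] at hX
    -- `R(t) = R(c) + (t-c) S(t)`; order zero and non-vanishing
    obtain ⟨S, hS⟩ : (X - C c) ∣ R - C (R.eval c) := by
      rw [dvd_iff_isRoot]; simp
    have h4 : aeval t R = algebraMap K F (R.eval c) + (t - algebraMap K F c) * aeval t S := by
      have := congrArg (aeval t) hS
      simp only [map_sub, map_mul, aeval_X, aeval_C] at this
      rw [← this]; ring
    rw [h] at h4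
    have h5 : (t - algebraMap K F c) * aeval t S = - algebraMap K F (R.eval c) := by
      linear_combination -h4
    have h6 := congrArg P.ord h5
    have hS0 : aeval t S ≠ 0 := by
      intro h0
      rw [h0, mul_zero] at h5
      have : algebraMap K F (R.eval c) = 0 := by linear_combination h5
      exact hRc (by simpa using this)
    rw [P.ord_mul htc hS0, ord_neg, ord_algebraMap] at h6
    have := ord_aeval_nonneg P (ord_nonneg_of_sub P t c hP) S
    omega
  have ht : P.ord t = 0 := by
    have hX := ord_aeval_eq_zero P t c hP X (by simpa using hc)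
    rwa [aeval_X] at hX
  have ht0 : t ≠ 0 := by
    rintro rfl
    rw [zero_sub, ord_neg, ord_algebraMap] at hP
    exact lt_irrefl _ hP
  have hα' : algebraMap K F α ≠ 0 := by simpa using hα
  have hja : j - algebraMap K F a ≠ 0 := by
    intro h
    rw [h, mul_zero] at h1
    rw [h1] at h2
    exact (mul_ne_zero (pow_ne_zero _ htc) hRt0) h2.symm
  have h3 := congrArg P.ord (h1.symm.trans h2)
  rw [P.ord_mul (mul_ne_zero hα' ht0) hja, P.ord_mul hα' ht0, ord_algebraMap, ht,
    P.ord_mul (pow_ne_zero _ htc) hRt0, ord_pow, hRt] at h3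
  linarith

end Fermat.Agent.S18.Mo3b
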