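import Mathlib
import Fermat.Agent.S18.Mo3bA

set_option autoImplicit false
set_option linter.style.haveILetI false

/-! # S18 [Mo3b], abstract part 2: counting roots against places -/

namespace Fermat.Agent.S18.Mo3b

open AlgebraicCurve IntermediateField Fermat.Agent.S24 Polynomial

variable {K F : Type} [Field K] [Field F] [Algebra K F]

theorem transcendental_sub {t : F} (ht : Transcendental K t) (c : K) :
    Transcendental K (t - algebraMap K F c) := by
  intro h
  apply ht
  have := h.add (isAlgebraic_algebraMap (A := F) c)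
  rwa [sub_add_cancel] at this

/-- combinatorics: multiplicities in `{1, e}`. -/
theorem card_bad_add {α : Type} [DecidableEq α] (R : Multiset α) (e : ℕ) (he : 1 ≤ e)
    (h : ∀ c ∈ R, R.count c = 1 ∨ R.count c = e) :
    (e - 1) * (R.toFinset.filter fun c => R.count c = 1).card + R.card = e * R.toFinset.card := by
  rw [← Multiset.toFinset_sum_count_eq R, Finset.card_filter, Finset.mul_sum, ← Finset.sum_add_distrib,
    mul_comm e, Finset.card_eq_sum_ones, Finset.sum_mul]
  refine Finset.sum_congr rfl fun c hc => ?_
  rcases h c (Multiset.mem_toFinset.1 hc) with h1 | h1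
  · rw [if_pos h1, h1]; omega
  · by_cases h2 : R.count c = 1
    · rw [if_pos h2, h2]; omega
    · rw [if_neg h2, h1]; omega

section count

variable [IsAlgClosed K] [CharZero K]

theorem exists_zero (x : F) (hx : Transcendental K x) [FiniteDimensional K⟮x⟯ F] (t : F)
    (ht : Transcendental K t) (c : K) : ∃ P : Place K F, 0 < P.ord (t - algebraMap K F c) := by
  have hy := transcendental_sub ht c
  haveI := finiteDimensional_adjoin_of_transcendental x _ hx hy
  have h1 := sum_ord_zeroSet _ hy
  by_contra hne
  push Not at hne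
  have h2 : zeroSet K (t - algebraMap K F c) = ∅ := by
    ext P
    simp only [zeroSet, Set.mem_ofPred_eq, Set.mem_empty_iff_false, iff_false, not_lt]
    exact hne P
  rw [h2] at h1
  simp only [Set.mem_empty_iff_false, finsum_false, finsum_zero] at h1
  have := Module.finrank_pos (R := K⟮t - algebraMap K F c⟯) (M := F)
  omega

theorem transcendental_of_rel (α : K) (hα : α ≠ 0) (Q : K[X]) (hQ0 : Q.eval 0 ≠ 0) (j t : F)
    (hrel : algebraMap K F α * j * t = aeval t Q) (hj : Transcendental K j) :
    Transcendental K t := by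
  intro halg
  obtain ⟨c, rfl⟩ := exists_algebraMap_eq_of_isAlgebraic halg
  rw [aeval_algebraMap_apply_eq_algebraMap_eval] at hrel
  by_cases hc : c = 0
  · subst hc
    rw [map_zero, mul_zero] at hrel
    exact hQ0 (by simpa using hrel.symm)
  · apply hj
    have : j = algebraMap K F (Q.eval c / (α * c)) := by
      have hα' : algebraMap K F α ≠ 0 := by simpa using hα
      have hc' : algebraMap K F c ≠ 0 := by simpa using hc
      rw [map_div₀, map_mul, ← hrel]
      field_simp
    rw [this]
    exact isAlgebraic_algebraMap _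

variable (α : K) (hα : α ≠ 0) (Q : K[X]) (hQ0 : Q.eval 0 ≠ 0) (j t : F)
  (hrel : algebraMap K F α * j * t = aeval t Q) (hj : Transcendental K j)
  [FiniteDimensional K⟮j⟯ F]

open scoped Classical in
include hα hQ0 hrel hj in
theorem card_roots_le (a : K) :
    (Gpol α Q a).roots.toFinset.card ≤ Nat.card (zeroSet K (j - algebraMap K F a)) := by
  have ht := transcendental_of_rel α hα Q hQ0 j t hrel hj
  have hja := transcendental_sub hj a
  haveI : FiniteDimensional K⟮j - algebraMap K F a⟯ F := by
    rw [adjoin_sub_algebraMap]; infer_instance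
  haveI : Finite (zeroSet K (j - algebraMap K F a)) := (finite_zeroSet _ hja).to_subtype
  have hG := Gpol_ne_zero α Q a hQ0
  choose Pl hPl using fun c : K => exists_zero j hj t ht c
  have hmem : ∀ c : (Gpol α Q a).roots.toFinset, Pl c.1 ∈ zeroSet K (j - algebraMap K F a) := by
    rintro ⟨c, hc⟩
    rw [Multiset.mem_toFinset, mem_roots hG] at hc
    show 0 < (Pl c).ord (j - algebraMap K F a)
    rw [ord_sub_eq_mul α hα Q hQ0 j t hrel a c (ne_zero_of_isRoot α Q a c hQ0 hc) (Pl c) (hPl c)]
    have h1 : 0 < rootMultiplicity c (Gpol α Q a) := (rootMultiplicity_pos hG).2 hc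
    have h2 := hPl c
    positivity
  let φ : (Gpol α Q a).roots.toFinset → zeroSet K (j - algebraMap K F a) :=
    fun c => ⟨Pl c.1, hmem c⟩
  have hφ : Function.Injective φ := by
    rintro ⟨c, hc⟩ ⟨c', hc'⟩ h
    have h1 : Pl c = Pl c' := congrArg Subtype.val h
    apply Subtype.ext
    show c = c'
    by_contra hne
    have h2 := ord_aeval_eq_zero (Pl c) t c (hPl c) (X - C c') (by simpa [sub_eq_zero] using hne)
    simp only [map_sub, aeval_X, aeval_C] at h2
    have h3 := hPl c'
    rw [← h1, h2] at h3
    exact lt_irrefl _ h3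
  have := Nat.card_le_card_of_injective φ hφ
  rwa [Nat.card_eq_fintype_card, Fintype.card_coe] at this

include hα hQ0 hrel hj in
theorem rootMultiplicity_dvd (a : K) (e : ℕ)
    (he : ∀ P : Place K F, 0 < P.ord (j - algebraMap K F a) →
      P.ord (j - algebraMap K F a) ∣ (e : ℤ)) (c : K) (hc : (Gpol α Q a).IsRoot c) :
    rootMultiplicity c (Gpol α Q a) ∣ e := by
  have ht := transcendental_of_rel α hα Q hQ0 j t hrel hj
  have hG := Gpol_ne_zero α Q a hQ0
  obtain ⟨P, hP⟩ := exists_zero j hj t ht c
  have h0 := ord_sub_eq_mul α hα Q hQ0 j t hrel a c (ne_zero_of_isRoot α Q a c hQ0 hc) P hP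
  have h1 : 0 < rootMultiplicity c (Gpol α Q a) := (rootMultiplicity_pos hG).2 hc
  have h2 : 0 < P.ord (j - algebraMap K F a) := by rw [h0]; positivity
  have h3 := he P h2
  rw [h0] at h3
  exact_mod_cast (Dvd.intro _ rfl : (rootMultiplicity c (Gpol α Q a) : ℤ) ∣ _).trans h3

/-- the roots over `j = a` which have multiplicity one. -/
noncomputable def badSet (α : K) (Q : K[X]) (a : K) : Finset K :=
  open Classical in
  (Gpol α Q a).roots.toFinset.filter fun c => rootMultiplicity c (Gpol α Q a) = 1

theorem natDegree_Gpol (a : K) (hd : 2 ≤ Q.natDegree) : (Gpol α Q a).natDegree = Q.natDegree := by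
  apply natDegree_sub_eq_left_of_natDegree_lt
  calc (C (a * α) * X).natDegree ≤ 1 := (natDegree_C_mul_le _ _).trans natDegree_X_le
    _ < Q.natDegree := by omega

include hα hQ0 hrel hj in
theorem card_badSet (a : K) (e : ℕ) (hep : e.Prime) (hd : 2 ≤ Q.natDegree)
    (he : ∀ P : Place K F, 0 < P.ord (j - algebraMap K F a) →
      P.ord (j - algebraMap K F a) ∣ (e : ℤ)) :
    (e - 1) * (badSet α Q a).card + Q.natDegree ≤
      e * Nat.card (zeroSet K (j - algebraMap K F a)) := by
  classical
  have hG := Gpol_ne_zero α Q a hQ0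
  have h1 := card_bad_add (Gpol α Q a).roots e hep.one_lt.le (by
    intro c hc
    rw [count_roots]
    exact (Nat.dvd_prime hep).1
      (rootMultiplicity_dvd α hα Q hQ0 j t hrel hj a e he c ((mem_roots hG).1 hc)))
  rw [IsAlgClosed.card_roots_eq_natDegree, natDegree_Gpol α Q a hd] at h1
  have h2 : (badSet α Q a) = (Gpol α Q a).roots.toFinset.filter
      fun c => (Gpol α Q a).roots.count c = 1 := by
    unfold badSet
    refine Finset.filter_congr fun c _ => ?_
    rw [count_roots]
  rw [h2, h1]
  exact Nat.mul_le_mul_left _ (card_roots_le α hα Q hQ0 j t hrel hj a)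

end count

end Fermat.Agent.S18.Mo3b
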