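import Mathlib
import Fermat.Agent.S18.Mo3bB
import Fermat.Agent.S18.ModB

set_option autoImplicit false
set_option linter.style.haveILetI false
set_option linter.unusedSectionVars false

/-! # S18 [Mo3b]: branch values of a coordinate `t` with `α j t = Q(t)` on `FN M` -/

namespace Fermat.Agent.S18.Mo3b

open AlgebraicCurve IntermediateField Fermat.Agent.S24 Polynomial

section abstract

variable {K F : Type} [Field K] [Field F] [Algebra K F]

theorem mem_badSet_iff (α : K) (Q : K[X]) (hQ0 : Q.eval 0 ≠ 0) (a c : K) :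
    c ∈ badSet α Q a ↔ (Gpol α Q a).IsRoot c ∧ rootMultiplicity c (Gpol α Q a) = 1 := by
  classical
  unfold badSet
  rw [Finset.mem_filter, Multiset.mem_toFinset, mem_roots (Gpol_ne_zero α Q a hQ0)]

theorem eq_one_of_mul_dvd_prime {μ : ℕ} {o : ℤ} {e : ℕ} (he : e.Prime) (ho : 2 ≤ o)
    (h : (μ : ℤ) * o ∣ (e : ℤ)) : μ = 1 := by
  lift o to ℕ using (by omega)
  have h1 : μ * o ∣ e := by exact_mod_cast h
  have h2 : o ∣ e := (Dvd.intro_left _ rfl).trans h1
  rcases (Nat.dvd_prime he).1 h2 with h3 | h3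
  · omega
  · subst h3
    have h4 : μ * o ∣ 1 * o := by simpa using h1
    have h5 : μ ∣ 1 := Nat.dvd_of_mul_dvd_mul_right he.pos h4
    exact Nat.dvd_one.1 h5

/-- level `M`: `t - c` is unbranched unless `c = 0` or `c` is a simple root over `0` or `1728`. -/
theorem ord_sub_le_one_of (α : K) (hα : α ≠ 0) (Q : K[X]) (hQ0 : Q.eval 0 ≠ 0) (j t : F)
    (hrel : algebraMap K F α * j * t = aeval t Q)
    (hgen : ∀ a : K, a ≠ 0 → a ≠ 1728 → ∀ P : Place K F, P.ord (j - algebraMap K F a) ≤ 1)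
    (h0 : ∀ P : Place K F, 0 < P.ord (j - algebraMap K F 0) → P.ord (j - algebraMap K F 0) ∣ 3)
    (h1 : ∀ P : Place K F, 0 < P.ord (j - algebraMap K F 1728) →
      P.ord (j - algebraMap K F 1728) ∣ 2)
    (c : K) (hc : c ≠ 0) (hc0 : c ∉ badSet α Q 0) (hc1 : c ∉ badSet α Q 1728) (P : Place K F) :
    P.ord (t - algebraMap K F c) ≤ 1 := by
  by_contra hlt
  push Not at hlt
  have hroot := isRoot_Gpol_jval α Q c hα hc
  set a := jval α Q c with ha
  have hG := Gpol_ne_zero α Q a hQ0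
  have hμ : 0 < rootMultiplicity c (Gpol α Q a) := (rootMultiplicity_pos hG).2 hroot
  have hord := ord_sub_eq_mul α hα Q hQ0 j t hrel a c hc P (by omega)
  have hpos : 0 < P.ord (j - algebraMap K F a) := by
    rw [hord]
    have : (0 : ℤ) < P.ord (t - algebraMap K F c) := by omega
    positivity
  by_cases ha0 : a = 0
  · rw [ha0] at hord hpos hroot
    have h2 := h0 P hpos
    rw [hord] at h2
    have h3 := eq_one_of_mul_dvd_prime (e := 3) (o := P.ord (t - algebraMap K F c))
      Nat.prime_three (by omega) (by exact_mod_cast h2)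
    exact hc0 ((mem_badSet_iff α Q hQ0 0 c).2 ⟨hroot, h3⟩)
  by_cases ha1 : a = 1728
  · rw [ha1] at hord hpos hroot
    have h2 := h1 P hpos
    rw [hord] at h2
    have h3 := eq_one_of_mul_dvd_prime (e := 2) (o := P.ord (t - algebraMap K F c))
      Nat.prime_two (by omega) (by exact_mod_cast h2)
    exact hc1 ((mem_badSet_iff α Q hQ0 1728 c).2 ⟨hroot, h3⟩)
  have h2 := hgen a ha0 ha1 P
  rw [hord] at h2
  have h3 : (1 : ℤ) ≤ rootMultiplicity c (Gpol α Q a) := by exact_mod_cast hμ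
  nlinarith

/-- elements of the bad set are units of every valuation ring over which the relation is
integral with unit constant term. -/
theorem unit_of_isRoot (A : ValuationSubring K) (α : K) (Q : K[X]) (hQm : Q.Monic)
    (hd : 2 ≤ Q.natDegree) (hQA : ∀ n, Q.coeff n ∈ A) (hQ0 : Q.eval 0 ≠ 0)
    (hQ0A : (Q.eval 0)⁻¹ ∈ A) (a : K) (haα : a * α ∈ A) (c : K) (hc : (Gpol α Q a).IsRoot c) :
    c ∈ A ∧ c⁻¹ ∈ A := by
  have hGA : ∀ n, (Gpol α Q a).coeff n ∈ A := by
    intro n
    rw [Gpol, coeff_sub, coeff_C_mul, coeff_X]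
    split_ifs
    · rw [mul_one]; exact sub_mem (hQA n) haα
    · rw [mul_zero, sub_zero]; exact hQA n
  have hGm : (Gpol α Q a).Monic := by
    apply hQm.sub_of_left
    calc (C (a * α) * X).degree ≤ 1 := by
          exact degree_C_mul_X_le _
      _ < Q.degree := by
          rw [degree_eq_natDegree hQm.ne_zero]
          exact_mod_cast (by omega : 1 < Q.natDegree)
  have hcA : c ∈ A := by
    have hl : Gpol α Q a ∈ lifts (algebraMap A K) := by
      rw [lifts_iff_coeff_lifts]
      intro n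
      exact ⟨⟨_, hGA n⟩, rfl⟩
    obtain ⟨q, hq, -, hqm⟩ := lifts_and_natDegree_eq_and_monic hl hGm
    have hint : IsIntegral A c := by
      refine ⟨q, hqm, ?_⟩
      rw [← eval_map, hq]
      exact hc
    obtain ⟨z, hz⟩ := IsIntegrallyClosed.isIntegral_iff.1 hint
    rw [← hz]
    exact z.2
  refine ⟨hcA, ?_⟩
  have hc0 := ne_zero_of_isRoot α Q a c hQ0 hc
  have h1 := divX_mul_X_add (Gpol α Q a)
  have h2 := congrArg (eval c) h1
  rw [eval_add, eval_mul, eval_X, eval_C, hc.eq_zero, coeff_zero_eq_eval_zero, Gpol_eval_zero] at h2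
  have h3 : (divX (Gpol α Q a)).eval c ∈ A := by
    rw [eval_eq_sum_range]
    refine Subring.sum_mem A.toSubring fun i _ => ?_
    rw [coeff_divX]
    exact mul_mem (hGA _) (pow_mem hcA i)
  have h4 : c⁻¹ = - ((divX (Gpol α Q a)).eval c) * (Q.eval 0)⁻¹ := by
    field_simp
    linear_combination h2
  rw [h4]
  exact mul_mem (neg_mem h3) hQ0A

end abstract

/-! ## the modular function fields -/

theorem psi_two : ModularCurve.dedekindPsi 2 = 3 := by
  have : (Nat.divisors 2) = {1, 2} := by decide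
  rw [ModularCurve.dedekindPsi, this, Finset.sum_filter, Finset.sum_pair (by norm_num),
    if_pos squarefree_one, if_pos Nat.prime_two.squarefree]

theorem psi_three : ModularCurve.dedekindPsi 3 = 4 := by
  have : (Nat.divisors 3) = {1, 3} := by decide
  rw [ModularCurve.dedekindPsi, this, Finset.sum_filter, Finset.sum_pair (by norm_num),
    if_pos squarefree_one, if_pos Nat.prime_three.squarefree]

theorem nuTwo_two : ModularCurve.nuTwo 2 = 1 := by
  rw [ModularCurve.nuTwo, Nat.card_eq_fintype_card]; decide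

theorem nuTwo_three : ModularCurve.nuTwo 3 = 0 := by
  rw [ModularCurve.nuTwo, Nat.card_eq_fintype_card]; decide

theorem nuThree_two : ModularCurve.nuThree 2 = 0 := by
  rw [ModularCurve.nuThree, Nat.card_eq_fintype_card]; decide

theorem nuThree_three : ModularCurve.nuThree 3 = 1 := by
  rw [ModularCurve.nuThree, Nat.card_eq_fintype_card]; decide

/-- the finite branch values `≠ 0` of `t`. -/
noncomputable def brSet (α : Kb) (Q : Kb[X]) : Finset Kb :=
  open Classical in badSet α Q 0 ∪ badSet α Q 1728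

theorem ord_sub_le_one_FN (M : ℕ) [NeZero M] (α : Kb) (hα : α ≠ 0) (Q : Kb[X])
    (hQ0 : Q.eval 0 ≠ 0) (t : FN M)
    (hrel : algebraMap Kb (FN M) α * jF M * t = aeval t Q) (c : Kb) (hc : c ≠ 0)
    (hcB : c ∉ brSet α Q) (P : Place Kb (FN M)) :
    P.ord (t - algebraMap Kb (FN M) c) ≤ 1 := by
  classical
  unfold brSet at hcB
  rw [Finset.mem_union, not_or] at hcB
  exact ord_sub_le_one_of α hα Q hQ0 (jF M) t hrel (ModB.ord_sub_le_one M)
    (ModB.ord_sub_zero_dvd M) (ModB.ord_sub_1728_dvd M) c hc hcB.1 hcB.2 P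

theorem card_brSet_two (α : Kb) (hα : α ≠ 0) (Q : Kb[X]) (hQ0 : Q.eval 0 ≠ 0)
    (hd : Q.natDegree = 3) (t : FN 2)
    (hrel : algebraMap Kb (FN 2) α * jF 2 * t = aeval t Q) : (brSet α Q).card ≤ 1 := by
  classical
  haveI := ModB.finiteDimensional_FN 2
  have h0 := card_badSet α hα Q hQ0 (jF 2) t hrel (transcendental_jF 2) 0 3 Nat.prime_three
    (by omega) (ModB.ord_sub_zero_dvd 2)
  have h1 := card_badSet α hα Q hQ0 (jF 2) t hrel (transcendental_jF 2) 1728 2 Nat.prime_two
    (by omega) (ModB.ord_sub_1728_dvd 2)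
  have e0 := ModB.three_mul_card_zeroSet 2
  have e1 := ModB.two_mul_card_zeroSet 2
  rw [psi_two, nuThree_two] at e0
  rw [psi_two, nuTwo_two] at e1
  have := Finset.card_union_le (badSet α Q 0) (badSet α Q 1728)
  unfold brSet
  omega

theorem card_brSet_three (α : Kb) (hα : α ≠ 0) (Q : Kb[X]) (hQ0 : Q.eval 0 ≠ 0)
    (hd : Q.natDegree = 4) (t : FN 3)
    (hrel : algebraMap Kb (FN 3) α * jF 3 * t = aeval t Q) : (brSet α Q).card ≤ 1 := by
  classical
  haveI := ModB.finiteDimensional_FN 3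
  have h0 := card_badSet α hα Q hQ0 (jF 3) t hrel (transcendental_jF 3) 0 3 Nat.prime_three
    (by omega) (ModB.ord_sub_zero_dvd 3)
  have h1 := card_badSet α hα Q hQ0 (jF 3) t hrel (transcendental_jF 3) 1728 2 Nat.prime_two
    (by omega) (ModB.ord_sub_1728_dvd 3)
  have e0 := ModB.three_mul_card_zeroSet 3
  have e1 := ModB.two_mul_card_zeroSet 3
  rw [psi_three, nuThree_three] at e0
  rw [psi_three, nuTwo_three] at e1
  have := Finset.card_union_le (badSet α Q 0) (badSet α Q 1728)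
  unfold brSet
  omega

theorem unit_of_mem_brSet (A : ValuationSubring Kb) (α : Kb) (hαA : α ∈ A) (Q : Kb[X])
    (hQm : Q.Monic) (hd : 2 ≤ Q.natDegree) (hQA : ∀ n, Q.coeff n ∈ A) (hQ0 : Q.eval 0 ≠ 0)
    (hQ0A : (Q.eval 0)⁻¹ ∈ A) (c : Kb) (hc : c ∈ brSet α Q) : c ∈ A ∧ c⁻¹ ∈ A := by
  classical
  unfold brSet at hc
  rw [Finset.mem_union] at hc
  rcases hc with hc | hc
  · exact unit_of_isRoot A α Q hQm hd hQA hQ0 hQ0A 0 (by rw [zero_mul]; exact zero_mem _) c
      ((mem_badSet_iff α Q hQ0 0 c).1 hc).1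
  · refine unit_of_isRoot A α Q hQm hd hQA hQ0 hQ0A 1728 (mul_mem ?_ hαA) c
      ((mem_badSet_iff α Q hQ0 1728 c).1 hc).1
    exact_mod_cast natCast_mem A 1728

end Fermat.Agent.S18.Mo3b
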