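import Mathlib
import Fermat.Agent.S18.NormalBasisF

set_option autoImplicit false
set_option linter.style.haveILetI false

/-! # S18 [P1], part G: trace duals -/

namespace Fermat.Agent.S18.NB

open Polynomial IntermediateField

variable {K F : Type*} [Field K] [Field F] [Algebra K F] {n : ℕ}

/-- `x` lies in the trace dual of the integral closure of `K[u]` (trace taken over `E`). -/
def DualK (K : Type*) {F : Type*} [Field K] [Field F] [Algebra K F] (E : IntermediateField K F)
    (u x : F) : Prop :=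
  ∀ b, IntOver K u b → ∃ p : K[X], algebraMap E F (Algebra.trace E F (x * b)) = aeval u p

theorem DualK.congr_field {E E' : IntermediateField K F} (h : E = E') (u x : F) :
    DualK K E u x ↔ DualK K E' u x := by
  subst h; rfl

theorem DualK.add {E : IntermediateField K F} {u x y : F} (hx : DualK K E u x)
    (hy : DualK K E u y) : DualK K E u (x + y) := by
  intro b hb
  obtain ⟨p, hp⟩ := hx b hb
  obtain ⟨q, hq⟩ := hy b hb
  exact ⟨p + q, by rw [add_mul, map_add, map_add, hp, hq, map_add]⟩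

theorem DualK.zero (E : IntermediateField K F) (u : F) : DualK K E u 0 := by
  intro b _
  exact ⟨0, by simp⟩

theorem DualK.smul {E : IntermediateField K F} {u x : F} (c : K) (hx : DualK K E u x) :
    DualK K E u (c • x) := by
  intro b hb
  obtain ⟨p, hp⟩ := hx b hb
  refine ⟨C c * p, ?_⟩
  have h1 : (c • x) * b = (algebraMap K E c) • (x * b) := by
    rw [smul_mul_assoc, algebraMap_smul]
  rw [h1, map_smul, smul_eq_mul, map_mul, hp, map_mul, aeval_C]
  rfl

/-- the dual analogue of `Lsp` -/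
def Nsp (K : Type*) {F : Type*} [Field K] [Field F] [Algebra K F] (t : F) (a b : ℤ) :
    Submodule K F where
  carrier := {x | DualK K K⟮t⟯ t (t ^ b * x) ∧ DualK K K⟮t⟯ t⁻¹ (t ^ (-a) * x)}
  add_mem' := by
    rintro x y ⟨hx, hx'⟩ ⟨hy, hy'⟩
    refine ⟨?_, ?_⟩
    · rw [mul_add]; exact hx.add hy
    · rw [mul_add]; exact hx'.add hy'
  zero_mem' := by
    refine ⟨?_, ?_⟩ <;> rw [mul_zero] <;> exact DualK.zero _ _
  smul_mem' := by
    rintro c x ⟨hx, hx'⟩
    refine ⟨?_, ?_⟩
    · rw [mul_smul_comm]; exact hx.smul c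
    · rw [mul_smul_comm]; exact hx'.smul c

theorem mem_Nsp {t : F} {a b : ℤ} {x : F} :
    x ∈ Nsp K t a b ↔ DualK K K⟮t⟯ t (t ^ b * x) ∧ DualK K K⟮t⟯ t⁻¹ (t ^ (-a) * x) := Iff.rfl

/-- it suffices to test duality on module generators -/
theorem dualK_iff (E : IntermediateField K F) (u : F) (hu : ∀ r : K[X], aeval u r ∈ E)
    (v : Fin n → F) (hv : ∀ b, IntOver K u b ↔ ∃ r : Fin n → K[X], b = ∑ j, aeval u (r j) * v j)
    (x : F) :
    DualK K E u x ↔ ∀ j, ∃ p : K[X], algebraMap E F (Algebra.trace E F (x * v j)) = aeval u p := by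
  classical
  constructor
  · intro h j
    apply h
    refine (hv _).mpr ⟨Pi.single j 1, ?_⟩
    rw [Finset.sum_eq_single j]
    · simp
    · intro i _ hi
      simp [Pi.single_eq_of_ne hi]
    · simp
  · intro h b hb
    obtain ⟨r, rfl⟩ := (hv b).mp hb
    choose p hp using h
    refine ⟨∑ j, r j * p j, ?_⟩
    have h1 : x * ∑ j, aeval u (r j) * v j = ∑ j, (⟨aeval u (r j), hu _⟩ : E) • (x * v j) := by
      rw [Finset.mul_sum]
      apply Finset.sum_congr rfl
      intro j _
      rw [IntermediateField.smul_def, smul_eq_mul]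
      ring
    rw [h1, map_sum, map_sum, map_sum]
    apply Finset.sum_congr rfl
    intro j _
    rw [map_smul, smul_eq_mul, map_mul, hp, map_mul]
    rfl

theorem IsNormalBasis.exists_dual {t : F} (ht : Transcendental K t) [FiniteDimensional K⟮t⟯ F]
    [Algebra.IsSeparable K⟮t⟯ F] (hn : n = Module.finrank K⟮t⟯ F) {w : Fin n → F} {d : Fin n → ℤ}
    (h : IsNormalBasis K t w d) :
    ∃ w' : Fin n → F, IsNormal K t (DualK K K⟮t⟯ t) (DualK K K⟮t⟯ t⁻¹) w' (fun i => -d i) := by
  classical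
  have ht0 : t ≠ 0 := Transcendental.ne_zero' ht
  haveI : Nonempty (Fin n) := by
    have : 0 < n := hn ▸ Module.finrank_pos
    exact ⟨⟨0, this⟩⟩
  let B := basisOfLinearIndependentOfCardEqFinrank h.li (by simp [hn])
  have hB : ∀ i, B i = w i := fun i => by
    simp [B, coe_basisOfLinearIndependentOfCardEqFinrank]
  have hrepr : ∀ x j, B.traceDual.repr x j = Algebra.trace K⟮t⟯ F (x * w j) := by
    intro x j
    rw [Module.Basis.traceDual_repr_apply, Algebra.traceForm_apply, hB]
  have hsum : ∀ x, x = ∑ j, algebraMap K⟮t⟯ F (Algebra.trace K⟮t⟯ F (x * w j)) * B.traceDual j := by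
    intro x
    conv_lhs => rw [← B.traceDual.sum_repr x]
    apply Finset.sum_congr rfl
    intro j _
    rw [hrepr, Algebra.smul_def]
  have huniq : ∀ (c : Fin n → F) (hc : ∀ j, c j ∈ K⟮t⟯) (j : Fin n),
      algebraMap K⟮t⟯ F (Algebra.trace K⟮t⟯ F ((∑ i, c i * B.traceDual i) * w j)) = c j := by
    intro c hc j
    have h1 : ∑ i, c i * B.traceDual i = ∑ i, (⟨c i, hc i⟩ : K⟮t⟯) • B.traceDual i := by
      apply Finset.sum_congr rfl
      intro i _
      rw [IntermediateField.smul_def, smul_eq_mul]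
    rw [← hrepr, h1, B.traceDual.repr_sum_self]
    rfl
  have h0 := dualK_iff (K := K) K⟮t⟯ t (aeval_mem_simple t) w
    (fun b => by rw [← intK_iff_intOver]; exact h.int0 b)
  have hinf := dualK_iff (K := K) K⟮t⟯ t⁻¹ (aeval_inv_mem_simple t) (fun i => t ^ (-d i) * w i)
    (fun b => by rw [← intK_iff_intOver]; exact h.intinf b)
  have htr : ∀ x j, algebraMap K⟮t⟯ F (Algebra.trace K⟮t⟯ F (x * (t ^ (-d j) * w j)))
      = t ^ (-d j) * algebraMap K⟮t⟯ F (Algebra.trace K⟮t⟯ F (x * w j)) := by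
    intro x j
    have h1 : x * (t ^ (-d j) * w j) = (⟨t ^ (-d j), zpow_mem_simple t _⟩ : K⟮t⟯) • (x * w j) := by
      rw [IntermediateField.smul_def, smul_eq_mul]; ring
    rw [h1, map_smul, smul_eq_mul, map_mul]
    rfl
  refine ⟨B.traceDual, B.traceDual.linearIndependent, fun x => ?_, fun x => ?_⟩
  · rw [h0]
    constructor
    · intro hx
      choose p hp using hx
      refine ⟨p, ?_⟩
      conv_lhs => rw [hsum x]
      exact Finset.sum_congr rfl fun j _ => by rw [hp]
    · rintro ⟨p, rfl⟩ j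
      exact ⟨p j, huniq _ (fun j => aeval_mem_simple t _) j⟩
  · rw [hinf]
    constructor
    · intro hx
      choose q hq using hx
      refine ⟨q, ?_⟩
      conv_lhs => rw [hsum x]
      apply Finset.sum_congr rfl
      intro j _
      rw [← hq, htr, neg_neg]
      have h3 : t ^ (-d j) * t ^ (d j) = 1 := by
        rw [← zpow_add₀ ht0]; simp
      linear_combination (-(algebraMap K⟮t⟯ F (Algebra.trace K⟮t⟯ F (x * w j))) * B.traceDual j) * h3
    · rintro ⟨q, rfl⟩ j
      refine ⟨q j, ?_⟩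
      rw [htr]
      have h1 : ∑ i, aeval t⁻¹ (q i) * (t ^ (- -d i) * B.traceDual i)
          = ∑ i, (aeval t⁻¹ (q i) * t ^ (d i)) * B.traceDual i := by
        apply Finset.sum_congr rfl
        intro i _
        rw [neg_neg]; ring
      rw [h1, huniq _ (fun j => mul_mem (aeval_inv_mem_simple t _) (zpow_mem_simple t _)) j]
      have h3 : t ^ (-d j) * t ^ (d j) = 1 := by
        rw [← zpow_add₀ ht0]; simp
      linear_combination (aeval t⁻¹ (q j)) * h3

theorem IsNormalBasis.finrank_Nsp {t : F} (ht : Transcendental K t) [FiniteDimensional K⟮t⟯ F]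
    [Algebra.IsSeparable K⟮t⟯ F] (hn : n = Module.finrank K⟮t⟯ F) {w : Fin n → F} {d : Fin n → ℤ}
    (h : IsNormalBasis K t w d) (a b : ℤ) :
    FiniteDimensional K (Nsp K t a b) ∧
      Module.finrank K (Nsp K t a b) = ∑ i, (a + b + d i + 1).toNat := by
  obtain ⟨w', hw'⟩ := h.exists_dual ht hn
  have := hw'.finrank_eq ht a b (Nsp K t a b) fun _ => Iff.rfl
  simpa only [sub_neg_eq_add] using this

/-- **[P1], complete.** -/
theorem exists_Lsp_Nsp_formula {t : F} (ht : Transcendental K t) [FiniteDimensional K⟮t⟯ F]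
    [Algebra.IsSeparable K⟮t⟯ F] :
    ∃ g m0 : ℤ, (∀ a b : ℤ, FiniteDimensional K (Lsp K t a b)) ∧
      (∀ a b : ℤ, m0 ≤ a + b → (Module.finrank K (Lsp K t a b) : ℤ)
        = (a + b) * Module.finrank K⟮t⟯ F + 1 - g) ∧
      (∀ a b a' b' : ℤ, a' ≤ a → b' ≤ b → m0 ≤ a' + b' →
        Lsp K t a b = Lsp K t a b' ⊔ Lsp K t a' b) ∧
      (∀ a b : ℤ, FiniteDimensional K (Nsp K t a b)) ∧
      (∀ a b : ℤ, m0 ≤ a + b → (Module.finrank K (Nsp K t a b) : ℤ)
        = (a + b) * Module.finrank K⟮t⟯ F + 2 * Module.finrank K⟮t⟯ F - 1 + g) := by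
  obtain ⟨w, d, h⟩ := exists_normal_basis ht
  obtain ⟨m0, hm0⟩ := exists_bound d
  have hfd : ∀ a b : ℤ, FiniteDimensional K (Lsp K t a b) := fun a b => (h.finrank_Lsp ht a b).1
  have hL : ∀ a b : ℤ, m0 ≤ a + b → (Module.finrank K (Lsp K t a b) : ℤ)
        = (a + b) * Module.finrank K⟮t⟯ F + 1 - (∑ i, d i - Module.finrank K⟮t⟯ F + 1) := by
    intro a b hab
    rw [(h.finrank_Lsp ht a b).2, sum_toNat_eq d (a + b) fun i => (hm0 i).1.trans hab]
    ring
  refine ⟨_, m0, hfd, hL, fun a b a' b' ha hb hab =>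
    Lsp_eq_sup_of_finrank (Transcendental.ne_zero' ht) _ _ m0 hfd hL ha hb hab,
    fun a b => (h.finrank_Nsp ht rfl a b).1, fun a b hab => ?_⟩
  rw [(h.finrank_Nsp ht rfl a b).2]
  have := sum_toNat_eq (fun i => -d i) (a + b) fun i => (hm0 i).2.trans hab
  simp only [sub_neg_eq_add, Finset.sum_neg_distrib] at this
  rw [this]
  ring

end Fermat.Agent.S18.NB
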