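import Mathlib
import Fermat.Agent.S18.NormalBasisG
import Fermat.Agent.S18.GaussInt
import Fermat.Agent.S18.LatticeB

set_option autoImplicit false
set_option linter.style.haveILetI false

/-! # S18 [V2]: good reduction of the spaces `Lsp` (abstract form) -/

namespace Fermat.Agent.S18.GR

open Polynomial IntermediateField Fermat.Agent.S18.NB

variable {L F k κ : Type} [Field L] [Field F] [Algebra L F] [Field k] [Field κ] [Algebra k κ]
variable (V : VData L F k κ)

theorem finrank_congr_field {K E : Type*} [Field K] [Field E] [Algebra K E]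
    {E₁ E₂ : IntermediateField K E} (h : E₁ = E₂) : Module.finrank E₁ E = Module.finrank E₂ E := by
  subst h; rfl

theorem finiteDimensional_congr_field {K E : Type*} [Field K] [Field E] [Algebra K E]
    {E₁ E₂ : IntermediateField K E} (h : E₁ = E₂) [FiniteDimensional E₁ E] :
    FiniteDimensional E₂ E := by
  subst h; infer_instance

section dims

variable {t : F} (htr : Transcendental k (V.rd t)) {n : ℕ} (B : VData.ONBasis V t n)

include htr B in
/-- dimension inequality and lifting in case of equality -/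
theorem finrank_le_of_rd_mem (W : Submodule L F) [FiniteDimensional L W] (Wb : Submodule k κ)
    [FiniteDimensional k Wb] (h : ∀ x ∈ W, x ∈ V.O → V.rd x ∈ Wb) :
    Module.finrank L W ≤ Module.finrank k Wb ∧
      (Module.finrank L W = Module.finrank k Wb →
        ∀ y ∈ Wb, ∃ x ∈ W, x ∈ V.O ∧ V.rd x = y) := by
  classical
  obtain ⟨σ, _, u, huW, huO, hli, hspan⟩ := B.exists_onb V htr W
  have h1 : Module.finrank L W ≤ Fintype.card σ := by
    haveI : Module.Finite L (Submodule.span L (Set.range u)) :=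
      FiniteDimensional.span_of_finite L (Set.finite_range u)
    calc Module.finrank L W ≤ Module.finrank L (Submodule.span L (Set.range u)) :=
          Submodule.finrank_mono hspan
      _ ≤ Fintype.card σ := finrank_range_le_card u
  let ub : σ → Wb := fun a => ⟨V.rd (u a), h _ (huW a) (huO a)⟩
  have hli' : LinearIndependent k ub := by
    apply LinearIndependent.of_comp Wb.subtype
    exact hli
  have h2 : Fintype.card σ ≤ Module.finrank k Wb := hli'.fintype_card_le_finrank
  refine ⟨h1.trans h2, fun heq y hy => ?_⟩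
  have hcard : Fintype.card σ = Module.finrank k Wb := le_antisymm h2 (heq ▸ h1)
  have hsp : ⊤ ≤ Submodule.span k (Set.range ub) :=
    (hli'.span_eq_top_of_card_eq_finrank' hcard).ge
  have hy' : (⟨y, hy⟩ : Wb) ∈ Submodule.span k (Set.range ub) := hsp trivial
  obtain ⟨c, hc⟩ := (Submodule.mem_span_range_iff_exists_fun k).mp hy'
  choose c' hc'A hc' using fun a => V.pr_surj (c a)
  refine ⟨∑ a, c' a • u a, Submodule.sum_mem _ fun a _ => Submodule.smul_mem _ _ (huW a),
    sum_mem fun a _ => ?_, ?_⟩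
  · rw [Algebra.smul_def]; exact mul_mem (V.algebraMap_mem (hc'A a)) (huO a)
  · rw [V.rd_sum_smul u huO _ c' fun a _ => hc'A a]
    have := congrArg (fun z : Wb => (z : κ)) hc
    simp only [AddSubmonoidClass.coe_finsetSum, Submodule.coe_smul] at this
    rw [← this]
    exact Finset.sum_congr rfl fun a _ => by rw [hc']

end dims

/-- the hypotheses on the coordinate -/
structure GoodCoord (V : VData L F k κ) (t : F) : Prop where
  htr : Transcendental k (V.rd t)
  fd : FiniteDimensional L⟮t⟯ F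
  hn : Module.finrank L⟮t⟯ F = Module.finrank k⟮V.rd t⟯ κ
  sep : Algebra.IsSeparable L⟮t⟯ F
  sepb : Algebra.IsSeparable k⟮V.rd t⟯ κ

variable {V}

theorem GoodCoord.rd_ne_zero {t : F} (h : GoodCoord V t) : V.rd t ≠ 0 :=
  fun h0 => h.htr (h0 ▸ isAlgebraic_zero)

theorem GoodCoord.fdb {t : F} (h : GoodCoord V t) : FiniteDimensional k⟮V.rd t⟯ κ := by
  haveI := h.fd
  have hpos : 0 < Module.finrank k⟮V.rd t⟯ κ := h.hn ▸ Module.finrank_pos
  exact Module.finite_of_finrank_pos hpos

theorem isSeparable_congr_field {K E : Type*} [Field K] [Field E] [Algebra K E]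
    {E₁ E₂ : IntermediateField K E} (h : E₁ = E₂) [Algebra.IsSeparable E₁ E] :
    Algebra.IsSeparable E₂ E := by
  subst h; infer_instance

theorem GoodCoord.inv {t : F} (h : GoodCoord V t) : GoodCoord V t⁻¹ := by
  have hrd : V.rd t⁻¹ = (V.rd t)⁻¹ := V.rd_inv h.rd_ne_zero
  haveI := h.fd
  haveI := h.sep
  haveI := h.sepb
  refine ⟨?_, finiteDimensional_congr_field (adjoin_inv_eq t), ?_,
    isSeparable_congr_field (adjoin_inv_eq t), ?_⟩
  · rw [hrd]; exact transcendental_inv h.htr
  · rw [hrd, ← finrank_congr_field (adjoin_inv_eq t),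
      ← finrank_congr_field (adjoin_inv_eq (K := k) (V.rd t))]
    exact h.hn
  · rw [hrd]; exact isSeparable_congr_field (adjoin_inv_eq (K := k) (V.rd t))

theorem GoodCoord.intOver_rd {t : F} (h : GoodCoord V t) {x : F} (hx : x ∈ V.O)
    (hint : IntOver L t x) : IntOver k (V.rd t) (V.rd x) := by
  haveI := h.fd
  obtain ⟨B⟩ := V.exists_onBasis h.htr h.hn
  exact B.intK_rd V h.htr hx hint

theorem GoodCoord.rd_mem_Lsp {t : F} (h : GoodCoord V t) {a b : ℤ} {x : F} (hx : x ∈ Lsp L t a b)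
    (hxO : x ∈ V.O) : V.rd x ∈ Lsp k (V.rd t) a b := by
  have h0 := h.rd_ne_zero
  constructor
  · have := h.intOver_rd (mul_mem (V.zpow_mem h0 b) hxO) hx.1
    rwa [V.rd_mul (V.zpow_mem h0 b) hxO, V.rd_zpow h0] at this
  · have := h.inv.intOver_rd (mul_mem (V.zpow_mem h0 (-a)) hxO) hx.2
    rwa [V.rd_mul (V.zpow_mem h0 (-a)) hxO, V.rd_zpow h0, V.rd_inv h0] at this

/-- reduction of duals (to be deduced from the branch hypotheses) -/
def DualRed (V : VData L F k κ) (t u : F) : Prop :=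
  ∀ x ∈ V.O, DualK L L⟮t⟯ u x → DualK k k⟮V.rd t⟯ (V.rd u) (V.rd x)

theorem GoodCoord.rd_mem_Nsp {t : F} (h : GoodCoord V t) (h1 : DualRed V t t)
    (h2 : DualRed V t t⁻¹) {a b : ℤ} {x : F} (hx : x ∈ Nsp L t a b)
    (hxO : x ∈ V.O) : V.rd x ∈ Nsp k (V.rd t) a b := by
  have h0 := h.rd_ne_zero
  constructor
  · have := h1 _ (mul_mem (V.zpow_mem h0 b) hxO) hx.1
    rwa [V.rd_mul (V.zpow_mem h0 b) hxO, V.rd_zpow h0] at this
  · have := h2 _ (mul_mem (V.zpow_mem h0 (-a)) hxO) hx.2
    rwa [V.rd_mul (V.zpow_mem h0 (-a)) hxO, V.rd_zpow h0, V.rd_inv h0] at this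

/-- **[V2], abstract form**: same genus constant on both sides, and lifting. -/
theorem GoodCoord.good_reduction {t : F} (h : GoodCoord V t) (h1 : DualRed V t t)
    (h2 : DualRed V t t⁻¹) :
    ∃ g m0 : ℤ,
      (∀ a b : ℤ, FiniteDimensional L (Lsp L t a b)) ∧
      (∀ a b : ℤ, FiniteDimensional k (Lsp k (V.rd t) a b)) ∧
      (∀ a b : ℤ, m0 ≤ a + b → (Module.finrank L (Lsp L t a b) : ℤ)
        = (a + b) * Module.finrank L⟮t⟯ F + 1 - g) ∧
      (∀ a b : ℤ, m0 ≤ a + b → (Module.finrank k (Lsp k (V.rd t) a b) : ℤ)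
        = (a + b) * Module.finrank L⟮t⟯ F + 1 - g) ∧
      (∀ a b a' b' : ℤ, a' ≤ a → b' ≤ b → m0 ≤ a' + b' →
        Lsp L t a b = Lsp L t a b' ⊔ Lsp L t a' b) ∧
      (∀ a b a' b' : ℤ, a' ≤ a → b' ≤ b → m0 ≤ a' + b' →
        Lsp k (V.rd t) a b = Lsp k (V.rd t) a b' ⊔ Lsp k (V.rd t) a' b) ∧
      (∀ a b : ℤ, m0 ≤ a + b → ∀ y ∈ Lsp k (V.rd t) a b,
        ∃ x ∈ Lsp L t a b, x ∈ V.O ∧ V.rd x = y) := by
  haveI := h.fd
  haveI := h.sep
  haveI := h.sepb
  haveI := h.fdb
  have htL : Transcendental L t := V.transcendental_t h.htr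
  obtain ⟨B⟩ := V.exists_onBasis h.htr h.hn
  obtain ⟨g, m0, hfd, hL, hsup, hfdN, hN⟩ := exists_Lsp_Nsp_formula htL
  obtain ⟨g', m0', hfd', hL', hsup', hfdN', hN'⟩ := exists_Lsp_Nsp_formula h.htr
  rw [← h.hn] at hL' hN'
  have hg : g = g' := by
    set m := max m0 m0' with hm
    haveI := hfd m 0
    haveI := hfd' m 0
    haveI := hfdN m 0
    haveI := hfdN' m 0
    have e1 := (finrank_le_of_rd_mem V h.htr B (Lsp L t m 0) (Lsp k (V.rd t) m 0)
      fun x hx hxO => h.rd_mem_Lsp hx hxO).1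
    have e2 := (finrank_le_of_rd_mem V h.htr B (Nsp L t m 0) (Nsp k (V.rd t) m 0)
      fun x hx hxO => h.rd_mem_Nsp h1 h2 hx hxO).1
    have f1 := hL m 0 (by simp [hm])
    have f2 := hL' m 0 (by simp [hm])
    have f3 := hN m 0 (by simp [hm])
    have f4 := hN' m 0 (by simp [hm])
    have e1' : (Module.finrank L (Lsp L t m 0) : ℤ) ≤ Module.finrank k (Lsp k (V.rd t) m 0) := by
      exact_mod_cast e1
    have e2' : (Module.finrank L (Nsp L t m 0) : ℤ) ≤ Module.finrank k (Nsp k (V.rd t) m 0) := by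
      exact_mod_cast e2
    rw [f1, f2] at e1'
    rw [f3, f4] at e2'
    omega
  subst hg
  refine ⟨g, max m0 m0', hfd, hfd', fun a b hab => hL a b (le_trans (le_max_left _ _) hab),
    fun a b hab => hL' a b (le_trans (le_max_right _ _) hab),
    fun a b a' b' ha hb hab => hsup a b a' b' ha hb (le_trans (le_max_left _ _) hab),
    fun a b a' b' ha hb hab => hsup' a b a' b' ha hb (le_trans (le_max_right _ _) hab),
    fun a b hab => ?_⟩
  haveI := hfd a b
  haveI := hfd' a b
  apply (finrank_le_of_rd_mem V h.htr B (Lsp L t a b) (Lsp k (V.rd t) a b)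
      fun x hx hxO => h.rd_mem_Lsp hx hxO).2
  have f1 := hL a b (le_trans (le_max_left _ _) hab)
  have f2 := hL' a b (le_trans (le_max_right _ _) hab)
  have : (Module.finrank L (Lsp L t a b) : ℤ) = Module.finrank k (Lsp k (V.rd t) a b) := by
    rw [f1, f2]
  exact_mod_cast this

end Fermat.Agent.S18.GR
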