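import Mathlib

set_option autoImplicit false

namespace Fermat.Agent.S18

open Algebra Module nonZeroDivisors IsDedekindDomain

attribute [local instance] FractionRing.liftAlgebra FractionRing.isScalarTower_liftAlgebra

section Abstract

variable (A K L B : Type*) [CommRing A] [Field K] [CommRing B] [Field L]
  [Algebra A K] [Algebra B L] [Algebra A B] [Algebra K L] [Algebra A L]
  [IsScalarTower A K L] [IsScalarTower A B L]
  [IsFractionRing A K] [IsFractionRing B L] [IsIntegralClosure B A L]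
  [FiniteDimensional K L] [Algebra.IsSeparable K L]
  [IsDedekindDomain A] [IsDedekindDomain B] [Module.IsTorsionFree A B] [Module.Finite A B]

omit [IsFractionRing B L] [IsIntegralClosure B A L] [IsFractionRing A K] [Algebra A K] [Algebra B L]
  [Algebra K L] [Algebra A L] [IsScalarTower A K L] [IsScalarTower A B L] [FiniteDimensional K L]
  [Algebra.IsSeparable K L] in
/-- [P2], abstract form: the trace of an element nilpotent modulo `p` lies in `p`. -/
theorem intTrace_mem_of_pow_mem (p : Ideal A) [p.IsMaximal] (y : B) (N : ℕ)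
    (hy : y ^ N ∈ p.map (algebraMap A B)) : Algebra.intTrace A B y ∈ p := by
  rw [← Ideal.Quotient.eq_zero_iff_mem, ← Algebra.trace_quotient_eq_of_isDedekindDomain,
    ← isNilpotent_iff_eq_zero]
  refine Algebra.isNilpotent_trace_of_isNilpotent ⟨N, ?_⟩
  rw [← map_pow, Ideal.Quotient.eq_zero_iff_mem]
  exact hy

include K L in
theorem isSeparable_fractionRing :
    Algebra.IsSeparable (FractionRing A) (FractionRing B) := by
  have H : RingHom.comp (algebraMap (FractionRing A) (FractionRing B))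
      ↑(FractionRing.algEquiv A K).symm.toRingEquiv =
        RingHom.comp ↑(FractionRing.algEquiv B L).symm.toRingEquiv (algebraMap K L) := by
    apply IsLocalization.ringHom_ext A⁰
    ext
    simp only [RingHom.coe_comp, RingHom.coe_coe,
      AlgEquiv.coe_ringEquiv, Function.comp_apply, AlgEquiv.commutes,
      ← IsScalarTower.algebraMap_apply]
    rw [IsScalarTower.algebraMap_apply A B L, AlgEquiv.commutes, ← IsScalarTower.algebraMap_apply]
  exact Algebra.IsSeparable.of_equiv_equiv _ _ H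

omit [IsFractionRing B L] [IsIntegralClosure B A L] [IsFractionRing A K] [Algebra A K] [Algebra B L]
  [Algebra K L] [Algebra A L] [IsScalarTower A K L] [IsScalarTower A B L] [FiniteDimensional K L]
  [Algebra.IsSeparable K L] in
/-- Tameness: if `pB = P * Q` with `P`, `Q` coprime, `P` proper and `A/p` of characteristic zero,
then `P` does not divide the different. (Apply with `P = 𝔓 ^ e`.) -/
theorem not_dvd_differentIdeal_of_charZero
    [Algebra.IsSeparable (FractionRing A) (FractionRing B)]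
    {p : Ideal A} [p.IsMaximal] [CharZero (A ⧸ p)] (P Q : Ideal B) (hPtop : P ≠ ⊤)
    (hPQ : IsCoprime P Q) (hP : P * Q = Ideal.map (algebraMap A B) p) :
    ¬ P ∣ differentIdeal A B := by
  let _ := Ideal.Quotient.field p
  let _ : Algebra (A ⧸ p) (B ⧸ P) := Ideal.Quotient.algebraQuotientOfLEComap (by
      rw [← Ideal.map_le_iff_le_comap, ← hP]
      exact Ideal.mul_le_left)
  let _ : Algebra (A ⧸ p) (B ⧸ Q) := Ideal.Quotient.algebraQuotientOfLEComap (by
      rw [← Ideal.map_le_iff_le_comap, ← hP]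
      exact Ideal.mul_le_right)
  have : IsScalarTower A (A ⧸ p) (B ⧸ P) := .of_algebraMap_eq' rfl
  have : IsScalarTower A (A ⧸ p) (B ⧸ Q) := .of_algebraMap_eq' rfl
  have : Module.Finite (A ⧸ p) (B ⧸ P) :=
    Module.Finite.of_restrictScalars_finite A (A ⧸ p) (B ⧸ P)
  have : Module.Finite (A ⧸ p) (B ⧸ Q) :=
    Module.Finite.of_restrictScalars_finite A (A ⧸ p) (B ⧸ Q)
  have : Nontrivial (B ⧸ P) := Ideal.Quotient.nontrivial_iff.mpr hPtop
  let e : (B ⧸ p.map (algebraMap A B)) ≃ₐ[A ⧸ p] ((B ⧸ P) × B ⧸ Q) :=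
    { __ := (Ideal.quotEquivOfEq hP.symm).trans (Ideal.quotientMulEquivQuotientProd P Q hPQ),
      commutes' := Quotient.ind fun _ ↦ rfl }
  obtain ⟨y, hy⟩ := Ideal.Quotient.mk_surjective (e.symm ((1 : B ⧸ P), 0))
  refine not_dvd_differentIdeal_of_intTrace_not_mem A P Q hP y ?_ ?_
  · have := congr((e $hy).2)
    simp at this
    simpa [e, Ideal.Quotient.eq_zero_iff_mem] using this
  · rw [← Ideal.Quotient.eq_zero_iff_mem, ← Algebra.trace_quotient_eq_of_isDedekindDomain,
      hy, Algebra.trace_eq_of_algEquiv, Algebra.trace_prod_apply]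
    have h1 : Algebra.trace (A ⧸ p) (B ⧸ P) 1 = (Module.finrank (A ⧸ p) (B ⧸ P) : A ⧸ p) := by
      have := Algebra.trace_algebraMap (R := A ⧸ p) (S := B ⧸ P) 1
      simpa using this
    simp only [map_zero, add_zero, h1]
    exact_mod_cast (Module.finrank_pos (R := A ⧸ p) (M := B ⧸ P)).ne'

/-- Elementwise form of `x ∈ B^∨` (trace dual of `B`). -/
def InDual (x : L) : Prop :=
  ∀ b : B, Algebra.trace K L (x * algebraMap B L b) ∈ (algebraMap A K).range

variable {L}

omit [Module.Finite A B] in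
theorem InDual.mul_mem {x : L} (hx : InDual A K L B x) {d : B}
    (hd : d ∈ differentIdeal A B) : ∃ z : B, algebraMap B L z = x * algebraMap B L d := by
  have h1 : algebraMap B L d ∈ IsLocalization.coeSubmodule L (differentIdeal A B) :=
    ⟨d, hd, rfl⟩
  rw [coeSubmodule_differentIdeal A K, Submodule.mem_div_iff_forall_mul_mem] at h1
  have h2 : x ∈ Submodule.traceDual A K (1 : Submodule B L) := by
    rw [Submodule.mem_traceDual]
    rintro a ha
    obtain ⟨b, rfl⟩ := Submodule.mem_one.mp ha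
    exact hx b
  obtain ⟨z, hz⟩ := Submodule.mem_one.mp (h1 x h2)
  exact ⟨z, by rw [hz, mul_comm]⟩

theorem InDual.exists_not_mem_pow [Algebra.IsSeparable (FractionRing A) (FractionRing B)]
    {x : L} (hx : InDual A K L B x) (𝔓 : HeightOneSpectrum B)
    (p : Ideal A) [p.IsMaximal] [CharZero (A ⧸ p)] (e : ℕ) (he : e ≠ 0) (Q : Ideal B)
    (hQ : p.map (algebraMap A B) = 𝔓.asIdeal ^ e * Q) (hnd : ¬ 𝔓.asIdeal ∣ Q) :
    ∃ d : B, d ∉ 𝔓.asIdeal ^ e ∧ ∃ z : B, algebraMap B L z = x * algebraMap B L d := by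
  have hmax : 𝔓.asIdeal.IsMaximal := 𝔓.isMaximal
  have hcop : IsCoprime 𝔓.asIdeal Q := by
    rw [Ideal.isCoprime_iff_sup_eq]
    refine hmax.1.2 _ (lt_of_le_of_ne le_sup_left fun h => hnd ?_)
    rw [Ideal.dvd_iff_le, h]
    exact le_sup_right
  have htop : 𝔓.asIdeal ^ e ≠ ⊤ := by
    intro h
    exact hmax.ne_top (eq_top_iff.mpr (h ▸ Ideal.pow_le_self he))
  have hnot := not_dvd_differentIdeal_of_charZero A B (p := p) (𝔓.asIdeal ^ e) Q htop
    hcop.pow_left hQ.symm
  rw [Ideal.dvd_iff_le, SetLike.not_le_iff_exists] at hnot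
  obtain ⟨d, hd, hd'⟩ := hnot
  exact ⟨d, hd', hx.mul_mem A K B hd⟩

theorem InDual.valuation_mul_lt_one [Algebra.IsSeparable (FractionRing A) (FractionRing B)]
    {x : L} (hx : InDual A K L B x) (𝔓 : HeightOneSpectrum B)
    (p : Ideal A) [p.IsMaximal] [CharZero (A ⧸ p)] (hp0 : p ≠ ⊥)
    (hle : p.map (algebraMap A B) ≤ 𝔓.asIdeal) (a : A) (ha : a ∈ p) :
    𝔓.valuation L (x * algebraMap A L a) < 1 := by
  have hpB : p.map (algebraMap A B) ≠ ⊥ :=
    (Ideal.map_eq_bot_iff_of_injective (FaithfulSMul.algebraMap_injective A B)).not.mpr hp0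
  have hfin : FiniteMultiplicity 𝔓.asIdeal (p.map (algebraMap A B)) :=
    FiniteMultiplicity.of_not_isUnit (by
      rw [Ideal.isUnit_iff]; exact 𝔓.isMaximal.ne_top) hpB
  obtain ⟨Q, hQ, hnd⟩ := hfin.exists_eq_pow_mul_and_not_dvd
  set e := multiplicity 𝔓.asIdeal (p.map (algebraMap A B)) with he
  have he0 : e ≠ 0 := by
    intro h0
    rw [h0, pow_zero, one_mul] at hQ
    exact hnd (hQ ▸ Ideal.dvd_iff_le.mpr hle)
  obtain ⟨d, hd, z, hz⟩ := hx.exists_not_mem_pow A K B 𝔓 p e he0 Q hQ hnd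
  rcases eq_or_ne x 0 with rfl | hx0
  · simp
  have hvx : 𝔓.valuation L x ≠ 0 := (Valuation.ne_zero_iff _).mpr hx0
  have h1 : 𝔓.valuation L x * 𝔓.valuation L (algebraMap B L d) ≤ 1 := by
    rw [← map_mul, ← hz]
    exact 𝔓.valuation_le_one z
  have h2 : WithZero.exp (-(e : ℤ)) < 𝔓.valuation L (algebraMap B L d) := by
    rw [𝔓.valuation_of_algebraMap, ← not_le, 𝔓.intValuation_le_pow_iff_mem]
    exact hd
  have h3 : 𝔓.valuation L (algebraMap A L a) ≤ WithZero.exp (-(e : ℤ)) := by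
    rw [IsScalarTower.algebraMap_apply A B L, 𝔓.valuation_of_algebraMap,
      𝔓.intValuation_le_pow_iff_mem]
    have : algebraMap A B a ∈ p.map (algebraMap A B) := Ideal.mem_map_of_mem _ ha
    rw [hQ] at this
    exact Ideal.mul_le_left this
  rw [map_mul]
  calc 𝔓.valuation L x * 𝔓.valuation L (algebraMap A L a)
      ≤ 𝔓.valuation L x * WithZero.exp (-(e : ℤ)) := by gcongr
    _ < 𝔓.valuation L x * 𝔓.valuation L (algebraMap B L d) := by
        exact mul_lt_mul_of_pos_left h2 (zero_lt_iff.mpr hvx)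
    _ ≤ 1 := h1

theorem InDual.valuation_le_one [Algebra.IsSeparable (FractionRing A) (FractionRing B)]
    {x : L} (hx : InDual A K L B x) (𝔓 : HeightOneSpectrum B)
    (p : Ideal A) [p.IsMaximal] [CharZero (A ⧸ p)]
    (hle : p.map (algebraMap A B) ≤ 𝔓.asIdeal)
    (hunr : ¬ 𝔓.asIdeal ^ 2 ∣ p.map (algebraMap A B)) :
    𝔓.valuation L x ≤ 1 := by
  obtain ⟨Q, hQ⟩ := Ideal.dvd_iff_le.mpr hle
  have hnd : ¬ 𝔓.asIdeal ∣ Q := by
    rintro ⟨Q', rfl⟩
    exact hunr ⟨Q', by rw [hQ, pow_two, mul_assoc]⟩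
  obtain ⟨d, hd, z, hz⟩ := hx.exists_not_mem_pow A K B 𝔓 p 1 one_ne_zero Q
    (by rw [pow_one]; exact hQ) hnd
  rw [pow_one] at hd
  have h1 : 𝔓.valuation L (algebraMap B L d) = 1 := 𝔓.valuation_eq_one_iff_notMem.mpr hd
  have h2 : 𝔓.valuation L x * 𝔓.valuation L (algebraMap B L d) ≤ 1 := by
    rw [← map_mul, ← hz]
    exact 𝔓.valuation_le_one z
  rwa [h1, mul_one] at h2

/-- [P3], abstract form. -/
theorem InDual.mul_mem_radical [Algebra.IsSeparable (FractionRing A) (FractionRing B)]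
    (hchar : ∀ p : Ideal A, p.IsMaximal → CharZero (A ⧸ p))
    {x : L} (hx : InDual A K L B x) (β : A) (hβ : β ≠ 0)
    (hunr : ∀ 𝔓 : HeightOneSpectrum B, algebraMap A B β ∉ 𝔓.asIdeal →
      ¬ 𝔓.asIdeal ^ 2 ∣ (𝔓.asIdeal.comap (algebraMap A B)).map (algebraMap A B)) :
    ∃ y : B, algebraMap B L y = x * algebraMap A L β ∧
      y ∈ (Ideal.span {algebraMap A B β}).radical := by
  have hint : Algebra.IsIntegral A B := IsIntegralClosure.isIntegral_algebra A L
  have key : ∀ 𝔓 : HeightOneSpectrum B, 𝔓.valuation L (x * algebraMap A L β) ≤ 1 ∧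
      (algebraMap A B β ∈ 𝔓.asIdeal → 𝔓.valuation L (x * algebraMap A L β) < 1) := by
    intro 𝔓
    have hmax : 𝔓.asIdeal.IsMaximal := 𝔓.isMaximal
    have hpmax : (𝔓.asIdeal.comap (algebraMap A B)).IsMaximal :=
      Ideal.isMaximal_comap_of_isIntegral_of_isMaximal 𝔓.asIdeal
    have := hchar _ hpmax
    have hp0 : 𝔓.asIdeal.comap (algebraMap A B) ≠ ⊥ :=
      Ideal.IsIntegral.comap_ne_bot (R := A) 𝔓.ne_bot
    have hle : (𝔓.asIdeal.comap (algebraMap A B)).map (algebraMap A B) ≤ 𝔓.asIdeal :=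
      Ideal.map_comap_le
    by_cases hmem : algebraMap A B β ∈ 𝔓.asIdeal
    · have := hx.valuation_mul_lt_one A K B 𝔓 _ hp0 hle β hmem
      exact ⟨this.le, fun _ => this⟩
    · refine ⟨?_, fun h => absurd h hmem⟩
      have h1 := hx.valuation_le_one A K B 𝔓 _ hle (hunr 𝔓 hmem)
      have h2 : 𝔓.valuation L (algebraMap A L β) ≤ 1 := by
        rw [IsScalarTower.algebraMap_apply A B L]
        exact 𝔓.valuation_le_one _
      rw [map_mul]
      exact mul_le_one' h1 h2
  obtain ⟨y, hy⟩ := HeightOneSpectrum.mem_integers_of_valuation_le_one L _ fun 𝔓 => (key 𝔓).1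
  refine ⟨y, hy, ?_⟩
  rw [Ideal.radical_eq_sInf, Ideal.mem_sInf]
  rintro J ⟨hJ, hJp⟩
  have hβB : algebraMap A B β ≠ 0 := by
    rw [Ne, FaithfulSMul.algebraMap_eq_zero_iff]
    exact hβ
  have hβJ : algebraMap A B β ∈ J := hJ (Ideal.mem_span_singleton_self _)
  have hJ0 : J ≠ ⊥ := by
    rintro rfl
    exact hβB (by simpa using hβJ)
  have := (key ⟨J, hJp, hJ0⟩).2 hβJ
  rw [← hy] at this
  exact (HeightOneSpectrum.valuation_lt_one_iff_mem (K := L) ⟨J, hJp, hJ0⟩ y).mp this

end Abstract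

end Fermat.Agent.S18
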