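import Mathlib
import Fermat.Agent.S18.TameDifferent
import Fermat.Agent.S18.LSpace

set_option autoImplicit false
set_option linter.style.haveILetI false

/-! # S18, blocks [P2] and [P3]: trace dual of the integral closure versus radicals -/

namespace Fermat.Agent.S18

open Algebra Module nonZeroDivisors IsDedekindDomain Polynomial IntermediateField

attribute [local instance] FractionRing.liftAlgebra FractionRing.isScalarTower_liftAlgebra

section Elementwise

variable (A E F : Type*) [CommRing A] [IsDedekindDomain A] [Field E] [Field F] [Algebra A E]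
  [IsFractionRing A E] [Algebra E F] [Algebra A F] [IsScalarTower A E F] [FiniteDimensional E F]
  [Algebra.IsSeparable E F]

/-- [P2], elementwise over a Dedekind domain. -/
theorem trace_mem_range_of_rad (β : A) (hβ0 : β ≠ 0) (hrad : (Ideal.span {β}).IsRadical) (x : F)
    (hy : IsIntegral A (x * algebraMap A F β)) (N : ℕ) (z : F) (hz : IsIntegral A z)
    (hN : (x * algebraMap A F β) ^ N = algebraMap A F β * z) (b : F) (hb : IsIntegral A b) :
    Algebra.trace E F (x * b) ∈ (algebraMap A E).range := by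
  let B := integralClosure A F
  haveI : IsDedekindDomain B := integralClosure.isDedekindDomain A E F
  haveI : IsFractionRing B F := integralClosure.isFractionRing_of_finite_extension E F
  haveI : Module.Finite A B := IsIntegralClosure.finite A E F B
  haveI : FaithfulSMul A F := by
    rw [faithfulSMul_iff_algebraMap_injective, IsScalarTower.algebraMap_eq A E F]
    exact (algebraMap E F).injective.comp (IsFractionRing.injective A E)
  haveI : Module.IsTorsionFree A B := by
    rw [Module.isTorsionFree_iff_algebraMap_injective]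
    intro a a' h
    apply FaithfulSMul.algebraMap_injective A F
    exact congrArg (algebraMap B F) h
  let y' : B := ⟨x * algebraMap A F β * b, hy.mul hb⟩
  let z' : B := ⟨z * b ^ N, hz.mul (hb.pow N)⟩
  have hpow : y' ^ N = algebraMap A B β * z' := by
    apply Subtype.ext
    show (x * algebraMap A F β * b) ^ N = algebraMap A F β * (z * b ^ N)
    rw [mul_pow, hN, mul_assoc]
  have hmem : Algebra.intTrace A B y' ∈ Ideal.span {β} := by
    rw [← hrad.radical, Ideal.radical_eq_sInf, Ideal.mem_sInf]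
    rintro p ⟨hp, hpp⟩
    have hβp : β ∈ p := hp (Ideal.mem_span_singleton_self β)
    have hp0 : p ≠ ⊥ := by
      rintro rfl
      exact hβ0 (by simpa using hβp)
    haveI : p.IsMaximal := hpp.isMaximal hp0
    refine intTrace_mem_of_pow_mem A B p y' N ?_
    rw [hpow]
    exact Ideal.mul_mem_right _ _ (Ideal.mem_map_of_mem _ hβp)
  obtain ⟨a, ha⟩ := Ideal.mem_span_singleton'.mp hmem
  refine ⟨a, ?_⟩
  have h1 : algebraMap A E (Algebra.intTrace A B y') = Algebra.trace E F (algebraMap B F y') :=
    Algebra.algebraMap_intTrace (A := A) (K := E) (L := F) y'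
  have h2 : algebraMap B F y' = algebraMap A E β • (x * b) := by
    show x * algebraMap A F β * b = _
    rw [Algebra.smul_def, ← IsScalarTower.algebraMap_apply]
    ring
  rw [h2, map_smul, ← ha, map_mul, smul_eq_mul, mul_comm] at h1
  have hβE : algebraMap A E β ≠ 0 := by
    rw [Ne, FaithfulSMul.algebraMap_eq_zero_iff]
    exact hβ0
  exact mul_left_cancel₀ hβE h1

/-- [P3], elementwise over a PID all of whose residue fields have characteristic zero. -/
theorem rad_of_trace_mem_range [IsPrincipalIdealRing A]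
    (hchar : ∀ p : Ideal A, p.IsMaximal → CharZero (A ⧸ p)) (β : A) (hβ0 : β ≠ 0)
    (hunr : ∀ π : A, Prime π → ¬ π ∣ β → ∀ y : F, IsIntegral A y → ∀ z : F, IsIntegral A z →
      y ^ 2 = algebraMap A F π * z → ∃ z' : F, IsIntegral A z' ∧ y = algebraMap A F π * z')
    (x : F) (hx : ∀ b : F, IsIntegral A b → Algebra.trace E F (x * b) ∈ (algebraMap A E).range) :
    IsIntegral A (x * algebraMap A F β) ∧ ∃ (N : ℕ) (z : F), IsIntegral A z ∧
      (x * algebraMap A F β) ^ N = algebraMap A F β * z := by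
  let B := integralClosure A F
  haveI : IsDedekindDomain B := integralClosure.isDedekindDomain A E F
  haveI : IsFractionRing B F := integralClosure.isFractionRing_of_finite_extension E F
  haveI : Module.Finite A B := IsIntegralClosure.finite A E F B
  haveI : FaithfulSMul A F := by
    rw [faithfulSMul_iff_algebraMap_injective, IsScalarTower.algebraMap_eq A E F]
    exact (algebraMap E F).injective.comp (IsFractionRing.injective A E)
  haveI : Module.IsTorsionFree A B := by
    rw [Module.isTorsionFree_iff_algebraMap_injective]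
    intro a a' h
    apply FaithfulSMul.algebraMap_injective A F
    exact congrArg (algebraMap B F) h
  haveI : Algebra.IsSeparable (FractionRing A) (FractionRing B) :=
    isSeparable_fractionRing A E F B
  haveI : Algebra.IsIntegral A B := IsIntegralClosure.isIntegral_algebra A F
  have hdual : InDual A E F B x := fun b => hx _ b.2
  have hunr' : ∀ 𝔓 : HeightOneSpectrum B, algebraMap A B β ∉ 𝔓.asIdeal →
      ¬ 𝔓.asIdeal ^ 2 ∣ (𝔓.asIdeal.comap (algebraMap A B)).map (algebraMap A B) := by
    rintro 𝔓 hβ𝔓 ⟨C, hC⟩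
    have hmax : 𝔓.asIdeal.IsMaximal := 𝔓.isMaximal
    have hpmax : (𝔓.asIdeal.comap (algebraMap A B)).IsMaximal :=
      Ideal.isMaximal_comap_of_isIntegral_of_isMaximal 𝔓.asIdeal
    have hp0 : 𝔓.asIdeal.comap (algebraMap A B) ≠ ⊥ :=
      Ideal.IsIntegral.comap_ne_bot (R := A) 𝔓.ne_bot
    obtain ⟨π, hπ⟩ := IsPrincipalIdealRing.principal (𝔓.asIdeal.comap (algebraMap A B))
    have hπ' : 𝔓.asIdeal.comap (algebraMap A B) = Ideal.span {π} := hπ
    have hπ0 : π ≠ 0 := by
      rintro rfl
      exact hp0 (by rw [hπ']; simp)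
    have hπprime : Prime π := by
      rw [← Ideal.span_singleton_prime hπ0, ← hπ']
      exact hpmax.isPrime
    have hπβ : ¬ π ∣ β := by
      intro hdvd
      apply hβ𝔓
      have : β ∈ 𝔓.asIdeal.comap (algebraMap A B) := by
        rw [hπ']; exact Ideal.mem_span_singleton.mpr hdvd
      exact this
    rw [hπ', Ideal.map_span, Set.image_singleton] at hC
    have hspan0 : Ideal.span {algebraMap A B π} ≠ ⊥ := by
      rw [Ne, Ideal.span_singleton_eq_bot, FaithfulSMul.algebraMap_eq_zero_iff]
      exact hπ0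
    have hPC0 : 𝔓.asIdeal * C ≠ 0 := by
      intro h0
      apply hspan0
      rw [hC, pow_two, mul_assoc, h0, mul_zero, Ideal.zero_eq_bot]
    have hlt : ¬ 𝔓.asIdeal * C ≤ 𝔓.asIdeal ^ 2 * C := by
      intro hle
      have hdvd : 𝔓.asIdeal * (𝔓.asIdeal * C) ∣ 1 * (𝔓.asIdeal * C) := by
        rw [one_mul, ← mul_assoc, ← pow_two]
        exact Ideal.dvd_iff_le.mpr hle
      have := (mul_dvd_mul_iff_right hPC0).mp hdvd
      exact hmax.ne_top (Ideal.isUnit_iff.mp (isUnit_of_dvd_one this))
    obtain ⟨y, hy1, hy2⟩ := SetLike.not_le_iff_exists.mp hlt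
    have hy3 : y ^ 2 ∈ Ideal.span {algebraMap A B π} := by
      rw [hC, pow_two y]
      have := Ideal.mul_mem_mul hy1 hy1
      have hle : 𝔓.asIdeal * C * (𝔓.asIdeal * C) ≤ 𝔓.asIdeal ^ 2 * C := by
        rw [show 𝔓.asIdeal * C * (𝔓.asIdeal * C) = (𝔓.asIdeal ^ 2 * C) * C by ring]
        exact Ideal.mul_le_left
      exact hle this
    obtain ⟨w, hw⟩ := Ideal.mem_span_singleton'.mp hy3
    obtain ⟨z', hz', hyz⟩ := hunr π hπprime hπβ (y : F) y.2 (w : F) w.2 (by
      have := congrArg (algebraMap B F) hw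
      rw [map_mul, map_pow] at this
      rw [mul_comm]
      exact this.symm)
    apply hy2
    rw [← hC]
    refine Ideal.mem_span_singleton'.mpr ⟨⟨z', hz'⟩, ?_⟩
    apply Subtype.ext
    show z' * algebraMap A F π = (y : F)
    rw [hyz, mul_comm]
  obtain ⟨y, hy, hyrad⟩ := hdual.mul_mem_radical A E B hchar β hβ0 hunr'
  have hy' : (y : F) = x * algebraMap A F β := hy
  refine ⟨hy' ▸ y.2, ?_⟩
  obtain ⟨N, hN⟩ := hyrad
  obtain ⟨w, hw⟩ := Ideal.mem_span_singleton'.mp hN
  refine ⟨N, w, w.2, ?_⟩
  have := congrArg (algebraMap B F) hw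
  rw [map_mul, map_pow] at this
  rw [← hy', mul_comm]
  exact this.symm

end Elementwise

section Concrete

variable (K : Type*) {F : Type*} [Field K] [Field F] [Algebra K F]

/-- `x ∈ B0^∨`: the trace dual of the integral closure `B0` of `K[t]` in `F`. -/
def DualOver (t x : F) : Prop :=
  ∀ b : F, IntOver K t b → ((Algebra.trace K⟮t⟯ F (x * b) : K⟮t⟯) : F) ∈ Algebra.adjoin K {t}

/-- `y ∈ rad(β(t) B0)`. -/
def RadOver (t : F) (β : K[X]) (y : F) : Prop :=
  IntOver K t y ∧ ∃ (N : ℕ) (z : F), IntOver K t z ∧ y ^ N = aeval t β * z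

/-- The `K[X]`-algebra structure on `F` given by `X ↦ t`. -/
noncomputable abbrev polyAlg (t : F) : Algebra K[X] F := (aeval t : K[X] →ₐ[K] F).toRingHom.toAlgebra

/-- The `K[X]`-algebra structure on `K(t)` given by `X ↦ t`. -/
noncomputable abbrev polyAlgE (t : F) : Algebra K[X] K⟮t⟯ :=
  (aeval (AdjoinSimple.gen K t) : K[X] →ₐ[K] K⟮t⟯).toRingHom.toAlgebra

theorem coe_aeval_gen (t : F) (P : K[X]) :
    ((aeval (AdjoinSimple.gen K t) P : K⟮t⟯) : F) = aeval t P := by
  have := Polynomial.aeval_algebraMap_apply F (AdjoinSimple.gen K t) P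
  rw [AdjoinSimple.algebraMap_gen] at this
  exact this.symm

theorem isIntegral_poly_iff (t x : F) :
    (letI := polyAlg K t; IsIntegral K[X] x) ↔ IntOver K t x := by
  letI := polyAlg K t
  let φ : K[X] →+* Algebra.adjoin K {t} :=
    ((aeval t : K[X] →ₐ[K] F).codRestrict (Algebra.adjoin K {t})
      (fun P => aeval_mem_adjoin_singleton K t)).toRingHom
  have hφ : (algebraMap (Algebra.adjoin K {t}) F).comp φ = algebraMap K[X] F := rfl
  have hsurj : Function.Surjective φ := by
    rintro ⟨y, hy⟩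
    rw [Algebra.adjoin_singleton_eq_range_aeval] at hy
    obtain ⟨P, rfl⟩ := hy
    exact ⟨P, rfl⟩
  constructor
  · intro h
    exact h.map_of_comp_eq φ (RingHom.id F) (by rw [hφ]; rfl)
  · rintro ⟨P, hP, hPx⟩
    obtain ⟨Q, hQ, -, hQm⟩ := Polynomial.lifts_and_natDegree_eq_and_monic
      ((Polynomial.mem_lifts P).mpr (Polynomial.map_surjective φ hsurj P)) hP
    refine ⟨Q, hQm, ?_⟩
    rw [← hφ, ← Polynomial.eval₂_map, hQ]
    exact hPx

theorem trace_mem_iff (t : F) (y : K⟮t⟯) :
    (letI := polyAlgE K t; y ∈ (algebraMap K[X] K⟮t⟯).range) ↔ (y : F) ∈ Algebra.adjoin K {t} := by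
  letI := polyAlgE K t
  rw [Algebra.adjoin_singleton_eq_range_aeval]
  constructor
  · rintro ⟨P, rfl⟩
    exact ⟨P, (coe_aeval_gen K t P).symm⟩
  · rintro ⟨P, hP⟩
    exact ⟨P, Subtype.ext ((coe_aeval_gen K t P).trans hP)⟩

variable {K}

theorem isFractionRing_poly {t : F} (ht : Transcendental K t) :
    (letI := polyAlgE K t; IsFractionRing K[X] K⟮t⟯) := by
  letI := polyAlgE K t
  haveI : FaithfulSMul K[X] K⟮t⟯ := by
    rw [faithfulSMul_iff_algebraMap_injective]
    intro P Q h
    have h' : aeval t P = aeval t Q := by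
      rw [← coe_aeval_gen K t P, ← coe_aeval_gen K t Q]
      exact congrArg (fun y : K⟮t⟯ => (y : F)) h
    exact (transcendental_iff_injective.mp ht) h'
  refine IsFractionRing.of_field _ _ fun ⟨z, hz⟩ => ?_
  obtain ⟨r, s, rfl⟩ := (mem_adjoin_simple_iff K z).mp hz
  refine ⟨r, s, Subtype.ext ?_⟩
  show _ = ((aeval (AdjoinSimple.gen K t) r / aeval (AdjoinSimple.gen K t) s : K⟮t⟯) : F)
  rw [IntermediateField.coe_div, coe_aeval_gen, coe_aeval_gen]

/-- **[P2]** -/
theorem DualOver.of_radOver {t : F} (ht : Transcendental K t) [FiniteDimensional K⟮t⟯ F]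
    [Algebra.IsSeparable K⟮t⟯ F] (β : K[X]) (hβ : Squarefree β) (x : F)
    (h : RadOver K t β (x * aeval t β)) : DualOver K t x := by
  letI := polyAlg K t
  letI := polyAlgE K t
  haveI : IsScalarTower K[X] K⟮t⟯ F :=
    IsScalarTower.of_algebraMap_eq fun P => (coe_aeval_gen K t P).symm
  haveI := isFractionRing_poly ht
  obtain ⟨hy, N, z, hz, hN⟩ := h
  intro b hb
  rw [← trace_mem_iff]
  exact trace_mem_range_of_rad K[X] K⟮t⟯ F β hβ.ne_zero
    (isRadical_iff_span_singleton.mp hβ.isRadical) x ((isIntegral_poly_iff K t _).mpr hy) N z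
    ((isIntegral_poly_iff K t _).mpr hz) hN b ((isIntegral_poly_iff K t _).mpr hb)

/-- **[P3]** (characteristic zero, algebraically closed constants): if `(t - c) B0` is radical
for every `c` which is not a root of `β`, then `B0^∨ ⊆ β⁻¹ rad(β B0)`. -/
theorem RadOver.of_dualOver [CharZero K] [IsAlgClosed K] {t : F} (ht : Transcendental K t)
    [FiniteDimensional K⟮t⟯ F] (β : K[X]) (hβ : β ≠ 0)
    (hunr : ∀ c : K, β.eval c ≠ 0 → ∀ y z : F, IntOver K t y → IntOver K t z →
      y ^ 2 = (t - algebraMap K F c) * z → ∃ z' : F, IntOver K t z' ∧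
        y = (t - algebraMap K F c) * z')
    (x : F) (hx : DualOver K t x) : RadOver K t β (x * aeval t β) := by
  letI := polyAlg K t
  letI := polyAlgE K t
  haveI : IsScalarTower K[X] K⟮t⟯ F :=
    IsScalarTower.of_algebraMap_eq fun P => (coe_aeval_gen K t P).symm
  haveI := isFractionRing_poly ht
  haveI : CharZero K⟮t⟯ := charZero_of_injective_algebraMap (algebraMap K K⟮t⟯).injective
  haveI : Algebra.IsSeparable K⟮t⟯ F := Algebra.IsSeparable.of_integral K⟮t⟯ F
  have hchar : ∀ p : Ideal K[X], p.IsMaximal → CharZero (K[X] ⧸ p) := by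
    intro p hp
    haveI : Nontrivial (K[X] ⧸ p) := Ideal.Quotient.nontrivial_iff.mpr hp.ne_top
    exact charZero_of_injective_algebraMap (algebraMap K (K[X] ⧸ p)).injective
  have hunr' : ∀ π : K[X], Prime π → ¬ π ∣ β → ∀ y : F, IsIntegral K[X] y → ∀ z : F,
      IsIntegral K[X] z → y ^ 2 = algebraMap K[X] F π * z →
      ∃ z' : F, IsIntegral K[X] z' ∧ y = algebraMap K[X] F π * z' := by
    intro π hπ hπβ y hy z hz hyz
    have hdeg : π.degree = 1 := IsAlgClosed.degree_eq_one_of_irreducible K hπ.irreducible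
    obtain ⟨c, hc⟩ := IsAlgClosed.exists_root π (by rw [hdeg]; exact one_ne_zero)
    obtain ⟨q, hq⟩ := Polynomial.dvd_iff_isRoot.mpr hc
    have hq0 : q ≠ 0 := by
      rintro rfl
      exact hπ.ne_zero (by rw [hq, mul_zero])
    have hqdeg : q.degree = 0 := by
      have := congrArg Polynomial.degree hq
      rw [hdeg, Polynomial.degree_mul, Polynomial.degree_X_sub_C] at this
      have h2 : q.degree = (q.natDegree : WithBot ℕ) := Polynomial.degree_eq_natDegree hq0
      rw [h2] at this ⊢
      have h3 : (1 : WithBot ℕ) = ((1 + q.natDegree : ℕ) : WithBot ℕ) := by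
        rw [this]; push_cast; rfl
      have h4 : 1 = 1 + q.natDegree := by exact_mod_cast h3
      have h5 : q.natDegree = 0 := by omega
      rw [h5]; rfl
    obtain ⟨a, ha⟩ : ∃ a : K, q = C a := ⟨_, Polynomial.eq_C_of_degree_eq_zero hqdeg⟩
    have ha0 : a ≠ 0 := by
      rintro rfl
      exact hq0 (by rw [ha, map_zero])
    have hπt : algebraMap K[X] F π = (t - algebraMap K F c) * algebraMap K F a := by
      show aeval t π = _
      rw [hq, ha, map_mul, map_sub, aeval_X, aeval_C, aeval_C]
    have hβc : β.eval c ≠ 0 := by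
      intro h0
      apply hπβ
      obtain ⟨r, hr⟩ := Polynomial.dvd_iff_isRoot.mpr (show β.IsRoot c from h0)
      refine ⟨C a⁻¹ * r, ?_⟩
      rw [hr, hq, ha]
      have : (C a : K[X]) * C a⁻¹ = 1 := by rw [← C_mul, mul_inv_cancel₀ ha0, C_1]
      calc (X - C c) * r = (X - C c) * (C a * C a⁻¹) * r := by rw [this, mul_one]
        _ = (X - C c) * C a * (C a⁻¹ * r) := by ring
    obtain ⟨z', hz', hyz'⟩ := hunr c hβc y (algebraMap K F a * z) ((isIntegral_poly_iff K t _).mp hy)
      ((IntOver.algebraMap t a).mul ((isIntegral_poly_iff K t _).mp hz))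
      (by rw [hyz, hπt]; ring)
    refine ⟨algebraMap K F a⁻¹ * z',
      (isIntegral_poly_iff K t _).mpr ((IntOver.algebraMap t a⁻¹).mul hz'), ?_⟩
    rw [hπt, hyz']
    have : algebraMap K F a * algebraMap K F a⁻¹ = 1 := by
      rw [← map_mul, mul_inv_cancel₀ ha0, map_one]
    calc (t - algebraMap K F c) * z'
        = (t - algebraMap K F c) * (algebraMap K F a * algebraMap K F a⁻¹) * z' := by
          rw [this, mul_one]
      _ = _ := by ring
  obtain ⟨h1, N, z, hz, hN⟩ := rad_of_trace_mem_range K[X] K⟮t⟯ F hchar β hβ hunr' x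
    (fun b hb => (trace_mem_iff K t _).mpr (hx b ((isIntegral_poly_iff K t _).mp hb)))
  exact ⟨(isIntegral_poly_iff K t _).mp h1, N, z, (isIntegral_poly_iff K t _).mp hz, hN⟩

end Concrete

end Fermat.Agent.S18
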