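import Mathlib
import Fermat.Agent.S18.GoodRed
import Fermat.Agent.S18.TraceDual

set_option autoImplicit false
set_option linter.style.haveILetI false

/-! # S18 [V2a]: trace duals reduce to trace duals; good reduction from branch hypotheses -/

namespace Fermat.Agent.S18.GR

open Polynomial IntermediateField Fermat.Agent.S18.NB

theorem dualOver_iff_dualK {K F : Type*} [Field K] [Field F] [Algebra K F] (u x : F) :
    DualOver K u x ↔ DualK K K⟮u⟯ u x := by
  unfold DualOver DualK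
  refine forall_congr' fun b => imp_congr_right fun _ => ?_
  rw [Algebra.adjoin_singleton_eq_range_aeval]
  constructor
  · rintro ⟨p, hp⟩
    exact ⟨p, hp.symm⟩
  · rintro ⟨p, hp⟩
    exact ⟨p, hp.symm⟩

variable {L F k κ : Type} [Field L] [Field F] [Algebra L F] [Field k] [Field κ] [Algebra k κ]
variable {V : VData L F k κ}

/-- the unramifiedness hypothesis, in the shape of `RadOver.of_dualOver` -/
def Hunr (L : Type) {F : Type} [Field L] [Field F] [Algebra L F] (u : F) (β : L[X]) : Prop :=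
  ∀ c : L, β.eval c ≠ 0 → ∀ y z : F, IntOver L u y → IntOver L u z →
      y ^ 2 = (u - algebraMap L F c) * z → ∃ z' : F, IntOver L u z' ∧
        y = (u - algebraMap L F c) * z'

theorem GoodCoord.dualOver_rd [CharZero L] [IsAlgClosed L] {u : F} (h : GoodCoord V u)
    (β : V.A[X]) (hsq : Squarefree (β.map V.π)) (hunr : Hunr L u (β.map V.A.subtype))
    {x : F} (hxO : x ∈ V.O) (hx : DualOver L u x) : DualOver k (V.rd u) (V.rd x) := by
  haveI := h.fd
  haveI := h.sepb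
  haveI := h.fdb
  have hu : u ∈ V.O := V.mem_of_rd_ne_zero h.rd_ne_zero
  have htL : Transcendental L u := V.transcendental_t h.htr
  have hβb0 : β.map V.π ≠ 0 := hsq.ne_zero
  have hβ0 : β.map V.A.subtype ≠ 0 := by
    intro h0
    apply hβb0
    have : β = 0 := by
      apply Polynomial.map_injective V.A.subtype Subtype.val_injective
      rw [h0, Polynomial.map_zero]
    rw [this, Polynomial.map_zero]
  obtain ⟨hy, N, z, hz, hN⟩ := RadOver.of_dualOver htL (β.map V.A.subtype) hβ0 hunr x hx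
  set βu := aeval u (β.map V.A.subtype) with hβu
  have hβuO : βu ∈ V.O := V.aeval_mem hu β
  have hβurd : V.rd βu = aeval (V.rd u) (β.map V.π) := V.rd_aeval hu β
  have hβune : V.rd βu ≠ 0 := V.rd_aeval_ne_zero h.htr β hβb0
  have hβu0 : βu ≠ 0 := by
    intro h0; rw [h0] at hβune; exact hβune V.rd_zero
  have hyO : x * βu ∈ V.O := mul_mem hxO hβuO
  have hzeq : z = βu⁻¹ * (x * βu) ^ N := by
    rw [hN, inv_mul_cancel_left₀ hβu0]
  have hzO : z ∈ V.O := by
    rw [hzeq]; exact mul_mem (V.inv_mem_of_rd_ne_zero hβune) (pow_mem hyO N)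
  apply DualOver.of_radOver h.htr (β.map V.π) hsq
  rw [← hβurd, ← V.rd_mul hxO hβuO]
  refine ⟨h.intOver_rd hyO hy, N, V.rd z, h.intOver_rd hzO hz, ?_⟩
  rw [← V.rd_pow hyO, hN, V.rd_mul hβuO hzO, hβurd]

theorem GoodCoord.dualRed_self [CharZero L] [IsAlgClosed L] {t : F} (h : GoodCoord V t)
    (β : V.A[X]) (hsq : Squarefree (β.map V.π)) (hunr : Hunr L t (β.map V.A.subtype)) :
    DualRed V t t := by
  intro x hxO hx
  rw [← dualOver_iff_dualK] at hx ⊢
  exact h.dualOver_rd β hsq hunr hxO hx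

theorem GoodCoord.dualRed_inv [CharZero L] [IsAlgClosed L] {t : F} (h : GoodCoord V t)
    (β : V.A[X]) (hsq : Squarefree (β.map V.π)) (hunr : Hunr L t⁻¹ (β.map V.A.subtype)) :
    DualRed V t t⁻¹ := by
  intro x hxO hx
  rw [DualK.congr_field (adjoin_inv_eq t), ← dualOver_iff_dualK] at hx
  have h1 := h.inv.dualOver_rd β hsq hunr hxO hx
  rw [dualOver_iff_dualK] at h1
  have h2 : k⟮V.rd t⁻¹⟯ = k⟮V.rd t⟯ := by
    rw [V.rd_inv h.rd_ne_zero]; exact (adjoin_inv_eq _).symm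
  rwa [DualK.congr_field h2] at h1

/-- **[V2]**: good reduction from the branch hypotheses. -/
theorem GoodCoord.good_reduction_of_hunr [CharZero L] [IsAlgClosed L] {t : F} (h : GoodCoord V t)
    (β₀ β₁ : V.A[X]) (hsq₀ : Squarefree (β₀.map V.π)) (hsq₁ : Squarefree (β₁.map V.π))
    (hunr₀ : Hunr L t (β₀.map V.A.subtype)) (hunr₁ : Hunr L t⁻¹ (β₁.map V.A.subtype)) :
    ∃ g m0 : ℤ,
      (∀ a b : ℤ, FiniteDimensional L (Lsp L t a b)) ∧
      (∀ a b : ℤ, FiniteDimensional k (Lsp k (V.rd t) a b)) ∧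
      (∀ a b : ℤ, m0 ≤ a + b → (Module.finrank L (Lsp L t a b) : ℤ)
        = (a + b) * Module.finrank L⟮t⟯ F + 1 - g) ∧
      (∀ a b : ℤ, m0 ≤ a + b → (Module.finrank k (Lsp k (V.rd t) a b) : ℤ)
        = (a + b) * Module.finrank L⟮t⟯ F + 1 - g) ∧
      (∀ a b a' b' : ℤ, a' ≤ a → b' ≤ b → m0 ≤ a' + b' →
        Lsp L t a b = Lsp L t a b' ⊔ Lsp L t a' b) ∧
      (∀ a b a' b' : ℤ, a' ≤ a → b' ≤ b → m0 ≤ a' + b' →
        Lsp k (V.rd t) a b = Lsp k (V.rd t) a b' ⊔ Lsp k (V.rd t) a' b) ∧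
      (∀ a b : ℤ, m0 ≤ a + b → ∀ y ∈ Lsp k (V.rd t) a b,
        ∃ x ∈ Lsp L t a b, x ∈ V.O ∧ V.rd x = y) :=
  h.good_reduction (h.dualRed_self β₀ hsq₀ hunr₀) (h.dualRed_inv β₁ hsq₁ hunr₁)

end Fermat.Agent.S18.GR
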