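import Mathlib
import Fermat.Agent.S18.V1

set_option autoImplicit false

/-! # S18 [V1+]: change of coordinate -/

namespace Fermat.Agent.S18

open Polynomial IntermediateField Module

namespace VData

variable {L F k κ : Type} [Field L] [Field F] [Algebra L F] [Field k] [Field κ] [Algebra k κ]
variable (V : VData L F k κ)

/-- every element of `k(t̄)` lifts to `O ∩ L(t)`. -/
theorem exists_lift_adjoin {t : F} (ht : t ∈ V.O) {y : κ} (hy : y ∈ k⟮V.rd t⟯) :
    ∃ x ∈ L⟮t⟯, x ∈ V.O ∧ V.rd x = y := by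
  obtain ⟨r, s, rfl⟩ := (mem_adjoin_simple_iff k y).1 hy
  by_cases hs : aeval (V.rd t) s = 0
  · exact ⟨0, zero_mem _, zero_mem _, by rw [hs, div_zero, V.rd_zero]⟩
  obtain ⟨R, rfl⟩ := Polynomial.map_surjective V.π V.π_surj r
  obtain ⟨S, rfl⟩ := Polynomial.map_surjective V.π V.π_surj s
  rw [← V.rd_aeval ht] at hs
  refine ⟨aeval t (R.map V.A.subtype) / aeval t (S.map V.A.subtype), ?_, ?_, ?_⟩
  · exact div_mem (aeval_mem_adjoin_simple t _) (aeval_mem_adjoin_simple t _)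
  · rw [div_eq_mul_inv]
    exact mul_mem (V.aeval_mem ht R) (V.inv_mem_of_rd_ne_zero hs)
  · rw [div_eq_mul_inv, V.rd_mul (V.aeval_mem ht R) (V.inv_mem_of_rd_ne_zero hs), V.rd_inv hs,
      V.rd_aeval ht, V.rd_aeval ht, div_eq_mul_inv]

/-- the residue degree is at most the degree. -/
theorem finrank_rd_le {t : F} (htr : Transcendental k (V.rd t)) [FiniteDimensional L⟮t⟯ F] :
    finrank k⟮V.rd t⟯ κ ≤ finrank L⟮t⟯ F := by
  by_cases hfd : FiniteDimensional k⟮V.rd t⟯ κ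
  · let bb := Module.finBasis k⟮V.rd t⟯ κ
    choose w hw hwr using fun i => V.rd_surj (bb i)
    have hli : LinearIndependent k⟮V.rd t⟯ (fun i => V.rd (w i)) := by
      have : (fun i => V.rd (w i)) = bb := funext hwr
      rw [this]; exact bb.linearIndependent
    have hli' := V.linearIndependent_lift htr w hw hli
    simpa using hli'.fintype_card_le_finrank
  · rw [finrank_of_not_finite hfd]; exact Nat.zero_le _

/-- relative version. -/
theorem relfinrank_rd_le {j t : F} (hj : Transcendental k (V.rd j)) (ht : t ∈ V.O)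
    [FiniteDimensional L⟮j⟯ F] (h : L⟮j⟯ ≤ L⟮t⟯) (hb : k⟮V.rd j⟯ ≤ k⟮V.rd t⟯) :
    relfinrank k⟮V.rd j⟯ k⟮V.rd t⟯ ≤ relfinrank L⟮j⟯ L⟮t⟯ := by
  rw [relfinrank_eq_finrank_of_le h, relfinrank_eq_finrank_of_le hb]
  by_cases hfd : FiniteDimensional k⟮V.rd j⟯ (extendScalars hb)
  · have hfree : Module.Free k⟮V.rd j⟯ (extendScalars hb) := Module.Free.of_divisionRing _ _
    let bb := Module.finBasis k⟮V.rd j⟯ (extendScalars hb)
    choose w hwt hw hwr using fun i => V.exists_lift_adjoin ht (y := ((bb i : extendScalars hb) : κ))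
      (bb i).2
    have hli : LinearIndependent k⟮V.rd j⟯ (fun i => V.rd (w i)) := by
      have : (fun i => V.rd (w i)) = (extendScalars hb).val.toLinearMap ∘ bb := funext hwr
      rw [this]
      exact bb.linearIndependent.map' _ (LinearMap.ker_eq_bot.2 (extendScalars hb).val.injective)
    have hli' := V.linearIndependent_lift hj w hw hli
    let w' : Fin (finrank k⟮V.rd j⟯ (extendScalars hb)) → extendScalars h := fun i => ⟨w i, hwt i⟩
    have hli'' : LinearIndependent L⟮j⟯ w' :=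
      LinearIndependent.of_comp (extendScalars h).val.toLinearMap hli'
    simpa using hli''.fintype_card_le_finrank
  · rw [finrank_of_not_finite hfd]; exact Nat.zero_le _

variable {V}

/-- (MoT) change of coordinate. -/
theorem GoodCoord.of_mem_adjoin {j t : F} (hj : V.GoodCoord j)
    (htr : Transcendental k (V.rd t)) (hjt : j ∈ L⟮t⟯) : V.GoodCoord t := by
  have ht : t ∈ V.O := V.mem_of_rd_ne_zero (fun h0 => htr (h0 ▸ isAlgebraic_zero))
  have h : L⟮j⟯ ≤ L⟮t⟯ := adjoin_simple_le_iff.2 hjt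
  have hb : k⟮V.rd j⟯ ≤ k⟮V.rd t⟯ := adjoin_simple_le_iff.2 (V.rd_mem_adjoin htr hjt hj.mem)
  have := hj.fd
  have := hj.fd'
  have e1 := relfinrank_mul_finrank_top h
  have e2 := relfinrank_mul_finrank_top hb
  have hpos : 0 < finrank L⟮j⟯ F := finrank_pos
  have hpos1 : 0 < finrank L⟮t⟯ F := by
    rcases Nat.eq_zero_or_pos (finrank L⟮t⟯ F) with h0 | h0
    · rw [h0, mul_zero] at e1; omega
    · exact h0
  have hfd : FiniteDimensional L⟮t⟯ F := finite_of_finrank_pos hpos1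
  have i1 := V.finrank_rd_le htr
  have i2 := V.relfinrank_rd_le hj.htr ht h hb
  refine ⟨htr, hfd, ?_⟩
  rw [← hj.hn, ← e1] at e2
  rw [← e1] at hpos
  have hd : 0 < relfinrank L⟮j⟯ L⟮t⟯ := Nat.pos_of_mul_pos_right hpos
  rcases Nat.lt_or_ge (finrank k⟮V.rd t⟯ κ) (finrank L⟮t⟯ F) with hlt | hge
  · exfalso
    have h3 : relfinrank k⟮V.rd j⟯ k⟮V.rd t⟯ * finrank k⟮V.rd t⟯ κ ≤
        relfinrank L⟮j⟯ L⟮t⟯ * finrank k⟮V.rd t⟯ κ := Nat.mul_le_mul_right _ i2
    have h4 : relfinrank L⟮j⟯ L⟮t⟯ * finrank k⟮V.rd t⟯ κ <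
        relfinrank L⟮j⟯ L⟮t⟯ * finrank L⟮t⟯ F := Nat.mul_lt_mul_of_pos_left hlt hd
    omega
  · exact le_antisymm hge i1

/-- separability goes up. -/
theorem isSeparable_of_adjoin_le {K E : Type} [Field K] [Field E] [Algebra K E] {x y : E}
    (h : K⟮x⟯ ≤ K⟮y⟯) [Algebra.IsSeparable K⟮x⟯ E] : Algebra.IsSeparable K⟮y⟯ E := by
  let _ : Algebra K⟮x⟯ K⟮y⟯ := (IntermediateField.inclusion h).toRingHom.toAlgebra
  have : IsScalarTower K⟮x⟯ K⟮y⟯ E := IsScalarTower.of_algebraMap_eq (fun _ => rfl)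
  exact Algebra.isSeparable_tower_top_of_isSeparable K⟮x⟯ K⟮y⟯ E

theorem GoodCoord.isSeparable_of_mem_adjoin {j t : F} (hj : V.GoodCoord j)
    (htr : Transcendental k (V.rd t)) (hjt : j ∈ L⟮t⟯) [Algebra.IsSeparable k⟮V.rd j⟯ κ] :
    Algebra.IsSeparable k⟮V.rd t⟯ κ :=
  isSeparable_of_adjoin_le (adjoin_simple_le_iff.2 (V.rd_mem_adjoin htr hjt hj.mem))

end VData

end Fermat.Agent.S18
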