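import Mathlib
import Fermat.Agent.S18.AbsMain
import Fermat.Agent.S18.DualRed
import Fermat.Agent.S18.V1b
import Fermat.Agent.S18.Mo2

set_option autoImplicit false
set_option linter.style.haveILetI false
set_option linter.unusedSectionVars false

/-! # S18: CORE for a coordinate with three branch values `0, c₂, ∞` having distinct reductions -/

namespace Fermat.Agent.S18.ThreePt

open AlgebraicCurve IntermediateField Polynomial Fermat.Agent.S24

section poly

variable {k : Type} [Field k]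

theorem squarefree_linear (u w : k) (hu : u ≠ 0) : Squarefree (C u * X + C w : k[X]) :=
  (irreducible_of_degree_eq_one (degree_linear hu)).squarefree

theorem squarefree_beta0 (u w : k) (hu : u ≠ 0) (hw : w ≠ 0) (huw : u + w ≠ 0) :
    Squarefree (X * (C u * X + 1) * (C w * X - 1) : k[X]) := by
  have h1 : IsCoprime (X : k[X]) (C u * X + 1) := ⟨-C u, 1, by ring⟩
  have h2 : IsCoprime (X : k[X]) (C w * X - 1) := ⟨C w, -1, by ring⟩
  have h3 : IsCoprime (C u * X + 1 : k[X]) (C w * X - 1) := by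
    refine ⟨C ((u + w)⁻¹ * w), -C ((u + w)⁻¹ * u), ?_⟩
    have : (C ((u + w)⁻¹ * w) * (C u * X + 1) + -C ((u + w)⁻¹ * u) * (C w * X - 1) : k[X])
        = C ((u + w)⁻¹ * (u + w)) := by
      simp only [map_mul, map_add]
      ring
    rw [this, inv_mul_cancel₀ huw, map_one]
  have s1 : Squarefree (X : k[X]) := irreducible_X.squarefree
  have s2 : Squarefree (C u * X + 1 : k[X]) := by
    have := squarefree_linear u 1 hu
    rwa [map_one] at this
  have s3 : Squarefree (C w * X - 1 : k[X]) := by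
    have := squarefree_linear w (-1) hw
    rwa [map_neg, map_one, ← sub_eq_add_neg] at this
  rw [squarefree_mul_iff, squarefree_mul_iff]
  exact ⟨(h2.mul_left h3).isRelPrime, ⟨h1.isRelPrime, s1, s2⟩, s3⟩

theorem squarefree_beta1 (u w : k) (h : u ≠ w) : Squarefree ((X + C u) * (X + C w) : k[X]) := by
  have h3 : IsCoprime (X + C u : k[X]) (X + C w) := by
    refine ⟨C (u - w)⁻¹, -C (u - w)⁻¹, ?_⟩
    have : (C (u - w)⁻¹ * (X + C u) + -C (u - w)⁻¹ * (X + C w) : k[X])
        = C ((u - w)⁻¹ * (u - w)) := by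
      simp only [map_mul, map_sub]
      ring
    rw [this, inv_mul_cancel₀ (sub_ne_zero.2 h), map_one]
  have s : ∀ v : k, Squarefree (X + C v : k[X]) := by
    intro v
    have := squarefree_linear 1 v one_ne_zero
    rwa [map_one, one_mul] at this
  rw [squarefree_mul_iff]
  exact ⟨h3.isRelPrime, s u, s w⟩

end poly

section hunr

variable {L F : Type} [Field L] [IsAlgClosed L] [CharZero L] [Field F] [Algebra L F]

theorem hunr_of_ord (t : F) (ht : Transcendental L t) [FiniteDimensional L⟮t⟯ F] (β : L[X])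
    (h : ∀ c, β.eval c ≠ 0 → ∀ P : Place L F, P.ord (t - algebraMap L F c) ≤ 1) :
    GR.Hunr L t β := fun c hc y z hy hz hyz =>
  Mo2.radical_of_unramified t ht c (fun P hP => by have := h c hc P; omega) y hy ⟨2, z, hz, hyz⟩

end hunr

section main

variable {L F k κ : Type} [Field L] [IsAlgClosed L] [CharZero L] [Field F] [Algebra L F]
  [Field k] [Field κ] [Algebra k κ]

/-- the branch polynomial for the chart `t = 1/(x - a₀)`. -/
noncomputable def beta0 {R : Type} [CommRing R] (a₀ c₂ : R) : R[X] :=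
  X * (C a₀ * X + 1) * (C (c₂ - a₀) * X - 1)

/-- the branch polynomial for the chart `1/t = x - a₀`. -/
noncomputable def beta1 {R : Type} [CommRing R] (a₀ c₂ : R) : R[X] :=
  (X + C a₀) * (X + C (a₀ - c₂))

theorem map_beta0 {R S : Type} [CommRing R] [CommRing S] (φ : R →+* S) (a₀ c₂ : R) :
    (beta0 a₀ c₂).map φ = beta0 (φ a₀) (φ c₂) := by
  simp [beta0]

theorem map_beta1 {R S : Type} [CommRing R] [CommRing S] (φ : R →+* S) (a₀ c₂ : R) :
    (beta1 a₀ c₂).map φ = beta1 (φ a₀) (φ c₂) := by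
  simp [beta1]

variable (V : VData L F k κ) (x : F) (hx : V.GoodCoord x) [Algebra.IsSeparable k⟮V.rd x⟯ κ]
  (a₀ c₂ : V.A) (ha₀ : V.π a₀ ≠ 0) (hc₂ : V.π c₂ ≠ 0) (hne : V.π a₀ ≠ V.π c₂)
  (hunb : ∀ c : L, c ≠ 0 → c ≠ c₂ → ∀ P : Place L F, P.ord (x - algebraMap L F c) ≤ 1)

include hx in
theorem goodCoord : GR.GoodCoord V (x - algebraMap L F (a₀ : L))⁻¹ := by
  have h1 : V.GoodCoord (x - algebraMap L F (a₀ : L))⁻¹ := (hx.sub_const a₀.2).inv
  haveI := h1.fd
  haveI : CharZero L⟮(x - algebraMap L F (a₀ : L))⁻¹⟯ :=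
    charZero_of_injective_algebraMap (algebraMap L L⟮(x - algebraMap L F (a₀ : L))⁻¹⟯).injective
  have hmem : x ∈ L⟮(x - algebraMap L F (a₀ : L))⁻¹⟯ := by
    have h2 : x = ((x - algebraMap L F (a₀ : L))⁻¹)⁻¹ + algebraMap L F (a₀ : L) := by
      rw [inv_inv]; ring
    have h3 : ((x - algebraMap L F (a₀ : L))⁻¹)⁻¹ + algebraMap L F (a₀ : L) ∈
        L⟮(x - algebraMap L F (a₀ : L))⁻¹⟯ :=
      add_mem (inv_mem (mem_adjoin_simple_self L _)) (IntermediateField.algebraMap_mem _ _)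
    rwa [← h2] at h3
  exact ⟨h1.htr, h1.fd, h1.hn, inferInstance, hx.isSeparable_of_mem_adjoin h1.htr hmem⟩

include hx hunb in
theorem hunr0 : GR.Hunr L (x - algebraMap L F (a₀ : L))⁻¹ ((beta0 a₀ c₂).map V.A.subtype) := by
  have h1 : V.GoodCoord (x - algebraMap L F (a₀ : L))⁻¹ := (hx.sub_const a₀.2).inv
  haveI := h1.fd
  apply hunr_of_ord _ h1.transcendental
  intro c hc P
  rw [map_beta0] at hc
  simp only [beta0, eval_mul, eval_add, eval_sub, eval_X, eval_C, eval_one, mul_ne_zero_iff,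
    ValuationSubring.subtype_apply] at hc
  obtain ⟨⟨hc0, hc1⟩, hc2⟩ := hc
  by_contra hlt
  push Not at hlt
  have hu : x - algebraMap L F (a₀ : L) ≠ 0 := (hx.sub_const a₀.2).ne_zero
  have h2 := Mo2.ord_inv_sub P hu hc0 (by omega)
  have h3 : x - algebraMap L F (a₀ : L) - algebraMap L F c⁻¹ =
      x - algebraMap L F ((a₀ : L) + c⁻¹) := by rw [map_add]; ring
  rw [h3] at h2
  have h4 := hunb ((a₀ : L) + c⁻¹) ?_ ?_ P
  · omega
  · intro h
    apply hc1
    have : (a₀ : L) * c + 1 = ((a₀ : L) + c⁻¹) * c := by field_simp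
    rw [this, h, zero_mul]
  · intro h
    apply hc2
    have : ((c₂ : L) - a₀) * c - 1 = ((c₂ : L) - ((a₀ : L) + c⁻¹)) * c := by field_simp; ring
    rw [this, h, sub_self, zero_mul]

include hx hunb in
theorem hunr1 : GR.Hunr L ((x - algebraMap L F (a₀ : L))⁻¹)⁻¹ ((beta1 a₀ c₂).map V.A.subtype) := by
  rw [inv_inv]
  have h1 : V.GoodCoord (x - algebraMap L F (a₀ : L)) := hx.sub_const a₀.2
  haveI := h1.fd
  apply hunr_of_ord _ h1.transcendental
  intro c hc P
  rw [map_beta1] at hc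
  simp only [beta1, eval_mul, eval_add, eval_X, eval_C, mul_ne_zero_iff,
    ValuationSubring.subtype_apply] at hc
  obtain ⟨hc1, hc2⟩ := hc
  have h3 : x - algebraMap L F (a₀ : L) - algebraMap L F c =
      x - algebraMap L F ((a₀ : L) + c) := by rw [map_add]; ring
  rw [h3]
  refine hunb _ ?_ ?_ P
  · intro h; apply hc1; rw [add_comm]; exact h
  · intro h; apply hc2; rw [← h]; ring

include hx ha₀ hc₂ hne hunb in
/-- good reduction for the coordinate `t = 1/(x - a₀)`. -/
theorem good_reduction : ∃ m1 : ℤ, ∀ a b : ℤ, m1 ≤ a + b →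
    Module.finrank k (Lsp k (V.rd (x - algebraMap L F (a₀ : L))⁻¹) a b) =
      Module.finrank L (Lsp L (x - algebraMap L F (a₀ : L))⁻¹ a b) := by
  have hsq0 : Squarefree ((beta0 a₀ c₂).map V.π) := by
    rw [map_beta0]
    exact squarefree_beta0 _ _ ha₀ (sub_ne_zero.2 hne.symm) (by simpa using hc₂)
  have hsq1 : Squarefree ((beta1 a₀ c₂).map V.π) := by
    rw [map_beta1]
    refine squarefree_beta1 _ _ ?_
    intro h
    apply hc₂
    linear_combination h
  obtain ⟨g, m0, -, -, h3, h4, -⟩ := (goodCoord V x hx a₀).good_reduction_of_hunr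
    (beta0 a₀ c₂) (beta1 a₀ c₂) hsq0 hsq1 (hunr0 V x hx a₀ c₂ hunb) (hunr1 V x hx a₀ c₂ hunb)
  refine ⟨m0, fun a b hab => ?_⟩
  have e1 := h3 a b hab
  have e2 := h4 a b hab
  exact_mod_cast e2.trans e1.symm

include hx ha₀ hc₂ hne hunb in
/-- **CORE** for a good coordinate `x` whose branch values are among `0, c₂, ∞`. -/
theorem core (hrk : ∀ c c0 : L, V.A.valuation c < 1 → c0 ≠ 0 →
      ∃ j : ℕ, V.A.valuation c ^ j ≤ V.A.valuation c0)
    (m : ℕ) (hm : (m : k) ≠ 0) (f : F) (t0 : κ) (ht0 : t0 ≠ 0) (hf : V.rd f = t0 ^ m)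
    (hdiv : ∀ P : Place L F, (m : ℤ) ∣ P.ord f) : ∃ s : F, f = s ^ m := by
  have h := goodCoord V x hx a₀
  haveI := h.fd
  exact abs_core V _ h.htr h.hn hrk (good_reduction V x hx a₀ c₂ ha₀ hc₂ hne hunb) m hm f t0 ht0
    hf hdiv

end main

end Fermat.Agent.S18.ThreePt
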