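import Mathlib
import Fermat.Agent.S18.ThreePt
import Fermat.Agent.S18.Mo3bC

set_option autoImplicit false
set_option linter.style.haveILetI false
set_option linter.unusedSectionVars false

/-! # S18: CORE for `FN M`, given the valuation data of [Mo1] (and the Hauptmodul relation) -/

namespace Fermat.Agent.S18.Mo3c

open AlgebraicCurve IntermediateField Polynomial Fermat.Agent.S24

section abstract

variable {L F k κ : Type} [Field L] [Field F] [Algebra L F]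
  [Field k] [Field κ] [Algebra k κ]
variable (V : VData L F k κ)

theorem pi_ne_zero_of_inv_mem {c : L} (hc : c ∈ V.A) (hc' : c⁻¹ ∈ V.A) (h0 : c ≠ 0) :
    V.π ⟨c, hc⟩ ≠ 0 := by
  intro h
  have h1 : (⟨c, hc⟩ : V.A) * ⟨c⁻¹, hc'⟩ = 1 := Subtype.ext (mul_inv_cancel₀ h0)
  have h2 := congrArg V.π h1
  rw [map_mul, h, zero_mul, map_one] at h2
  exact zero_ne_one h2

theorem isAlgebraic_aeval {x : κ} (hx : IsAlgebraic k x) (p : k[X]) :
    IsAlgebraic k (aeval x p) := by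
  rw [← mem_algebraicClosure_iff] at hx ⊢
  have h1 : Algebra.adjoin k {x} ≤ (algebraicClosure k κ).toSubalgebra := by
    apply Algebra.adjoin_le
    intro z hz
    rw [Set.mem_singleton_iff] at hz
    rw [hz]; exact hx
  exact h1 (aeval_mem_adjoin_singleton k x)

/-- change of coordinate from `j` to `t` when `α j t = Q(t)`. -/
theorem goodCoord_of_rel (j t : F) (hj : V.GoodCoord j) (α : L) (hα : α ∈ V.A)
    (hα' : α⁻¹ ∈ V.A) (hα0 : α ≠ 0) (Q : L[X]) (hQm : Q.Monic) (hd : 2 ≤ Q.natDegree)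
    (hQA : ∀ n, Q.coeff n ∈ V.A) (hQ0 : Q.eval 0 ≠ 0) (hQ0A : (Q.eval 0)⁻¹ ∈ V.A)
    (hrel : algebraMap L F α * j * t = aeval t Q) :
    V.GoodCoord t ∧ j ∈ L⟮t⟯ := by
  have hαF : algebraMap L F α ≠ 0 := by simpa using hα0
  -- `t` is a unit of `O`
  have hroot : (Mo3b.Gpol (algebraMap L F α) (Q.map (algebraMap L F)) j).IsRoot t := by
    simp only [Mo3b.Gpol, IsRoot.def, eval_sub, eval_mul, eval_C, eval_X, eval_map_algebraMap,
      ← hrel]
    ring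
  have hev0 : (Q.map (algebraMap L F)).eval 0 = algebraMap L F (Q.eval 0) := by
    rw [eval_map_algebraMap, ← map_zero (algebraMap L F),
      aeval_algebraMap_apply_eq_algebraMap_eval]
  obtain ⟨htO, htO'⟩ := Mo3b.unit_of_isRoot V.O (algebraMap L F α) (Q.map (algebraMap L F))
    (hQm.map _) (by rw [natDegree_map]; exact hd)
    (fun n => by rw [coeff_map]; exact V.algebraMap_mem (hQA n))
    (by rw [hev0]; simpa using hQ0)
    (by rw [hev0, ← map_inv₀]; exact V.algebraMap_mem hQ0A) j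
    (mul_mem hj.mem (V.algebraMap_mem hα)) t hroot
  have ht0 : t ≠ 0 := by
    rintro rfl
    rw [mul_zero, ← map_zero (algebraMap L F), aeval_algebraMap_apply_eq_algebraMap_eval] at hrel
    exact hQ0 (by simpa using hrel.symm)
  have hrt : V.rd t ≠ 0 := V.rd_ne_zero_of_inv_mem ht0 htO htO'
  -- `j ∈ L(t)`
  have hjt : j ∈ L⟮t⟯ := by
    have h1 : j = aeval t Q * (algebraMap L F α * t)⁻¹ := by
      rw [← hrel]; field_simp
    rw [h1]
    refine mul_mem ?_ (inv_mem (mul_mem (IntermediateField.algebraMap_mem _ _)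
      (mem_adjoin_simple_self L t)))
    exact IntermediateField.algebra_adjoin_le_adjoin L _ (aeval_mem_adjoin_singleton L t)
  -- the reduced relation
  obtain ⟨QA, hQA'⟩ : ∃ QA : V.A[X], QA.map V.A.subtype = Q := by
    have : Q ∈ lifts V.A.subtype := by
      rw [lifts_iff_coeff_lifts]
      intro n
      exact ⟨⟨_, hQA n⟩, rfl⟩
    exact this
  have hred : algebraMap k κ (V.π ⟨α, hα⟩) * V.rd j * V.rd t = aeval (V.rd t) (QA.map V.π) := by
    rw [← V.rd_aeval htO, hQA', ← hrel, V.rd_mul (mul_mem (V.algebraMap_mem hα) hj.mem) htO,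
      V.rd_mul (V.algebraMap_mem hα) hj.mem]
    congr 2
    exact (V.rd_algebraMap ⟨α, hα⟩).symm
  have hπα := pi_ne_zero_of_inv_mem V hα hα' hα0
  have hπα' : algebraMap k κ (V.π ⟨α, hα⟩) ≠ 0 := by simpa using hπα
  have htr : Transcendental k (V.rd t) := by
    intro halg
    apply hj.htr
    have h1 : V.rd j = aeval (V.rd t) (QA.map V.π) * (algebraMap k κ (V.π ⟨α, hα⟩) * V.rd t)⁻¹ := by
      rw [← hred]; field_simp
    rw [h1]
    exact (isAlgebraic_aeval halg _).mul ((isAlgebraic_algebraMap _).mul halg).inv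
  exact ⟨hj.of_mem_adjoin htr hjt, hjt⟩

end abstract

section modular

variable {k κ : Type} [Field k] [Infinite k] [Field κ] [Algebra k κ]

/-- **CORE at level `M`, `ℓ ≥ 5`** (coordinate `j`). -/
theorem core_j (M : ℕ) [NeZero M] (V : VData Kb (FN M) k κ) (hj : V.GoodCoord (jF M))
    [Algebra.IsSeparable k⟮V.rd (jF M)⟯ κ] (h1728 : (1728 : k) ≠ 0)
    (hrk : ∀ c c0 : Kb, V.A.valuation c < 1 → c0 ≠ 0 →
      ∃ j : ℕ, V.A.valuation c ^ j ≤ V.A.valuation c0)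
    (m : ℕ) (hm : (m : k) ≠ 0) (f : FN M) (t0 : κ) (ht0 : t0 ≠ 0) (hf : V.rd f = t0 ^ m)
    (hdiv : ∀ P : Place Kb (FN M), (m : ℤ) ∣ P.ord f) : ∃ s : FN M, f = s ^ m := by
  classical
  obtain ⟨ā, hā⟩ := Infinite.exists_notMem_finset ({0, 1728} : Finset k)
  simp only [Finset.mem_insert, Finset.mem_singleton, not_or] at hā
  obtain ⟨a₀, rfl⟩ := V.π_surj ā
  have hπ : V.π (1728 : V.A) = 1728 := map_ofNat V.π 1728
  have hco : ((1728 : V.A) : Kb) = 1728 := rfl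
  refine ThreePt.core V (jF M) hj a₀ (1728 : V.A) hā.1 (by rw [hπ]; exact h1728)
    (by rw [hπ]; exact hā.2) ?_ hrk m hm f t0 ht0 hf hdiv
  intro c hc0 hc1 P
  rw [hco] at hc1
  exact ModB.ord_sub_le_one M c hc0 hc1 P

/-- **CORE at level `M`** for a coordinate `t` with `α j t = Q(t)` whose branch set has at most
one element besides `0, ∞`. -/
theorem core_t (M : ℕ) [NeZero M] (V : VData Kb (FN M) k κ) (hj : V.GoodCoord (jF M))
    [Algebra.IsSeparable k⟮V.rd (jF M)⟯ κ]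
    (α : Kb) (hα : α ∈ V.A) (hα' : α⁻¹ ∈ V.A) (hα0 : α ≠ 0) (Q : Kb[X]) (hQm : Q.Monic)
    (hd : 2 ≤ Q.natDegree) (hQA : ∀ n, Q.coeff n ∈ V.A) (hQ0 : Q.eval 0 ≠ 0)
    (hQ0A : (Q.eval 0)⁻¹ ∈ V.A) (t : FN M)
    (hrel : algebraMap Kb (FN M) α * jF M * t = aeval t Q)
    (hcard : (Mo3b.brSet α Q).card ≤ 1)
    (hrk : ∀ c c0 : Kb, V.A.valuation c < 1 → c0 ≠ 0 →
      ∃ j : ℕ, V.A.valuation c ^ j ≤ V.A.valuation c0)
    (m : ℕ) (hm : (m : k) ≠ 0) (f : FN M) (t0 : κ) (ht0 : t0 ≠ 0) (hf : V.rd f = t0 ^ m)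
    (hdiv : ∀ P : Place Kb (FN M), (m : ℤ) ∣ P.ord f) : ∃ s : FN M, f = s ^ m := by
  classical
  obtain ⟨ht, hjt⟩ := goodCoord_of_rel V (jF M) t hj α hα hα' hα0 Q hQm hd hQA hQ0 hQ0A hrel
  haveI := hj.isSeparable_of_mem_adjoin ht.htr hjt
  -- the third branch value
  obtain ⟨c₂, hc₂A, hc₂A', hc₂0, hsub⟩ : ∃ c₂ : Kb, c₂ ∈ V.A ∧ c₂⁻¹ ∈ V.A ∧ c₂ ≠ 0 ∧
      ∀ c ∈ Mo3b.brSet α Q, c = c₂ := by
    rcases (Mo3b.brSet α Q).eq_empty_or_nonempty with he | ⟨c₂, hc₂⟩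
    · exact ⟨1, one_mem _, by rw [inv_one]; exact one_mem _, one_ne_zero, by simp [he]⟩
    · obtain ⟨h1, h2⟩ := Mo3b.unit_of_mem_brSet V.A α hα Q hQm hd hQA hQ0 hQ0A c₂ hc₂
      refine ⟨c₂, h1, h2, ?_, fun c hc => Finset.card_le_one.1 hcard c hc c₂ hc₂⟩
      rintro rfl
      unfold Mo3b.brSet at hc₂
      rcases Finset.mem_union.1 hc₂ with h | h
      · exact Mo3b.ne_zero_of_isRoot α Q 0 0 hQ0 ((Mo3b.mem_badSet_iff α Q hQ0 0 0).1 h).1 rfl
      · exact Mo3b.ne_zero_of_isRoot α Q 1728 0 hQ0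
          ((Mo3b.mem_badSet_iff α Q hQ0 1728 0).1 h).1 rfl
  have hπc := pi_ne_zero_of_inv_mem V hc₂A hc₂A' hc₂0
  obtain ⟨ā, hā⟩ := Infinite.exists_notMem_finset ({0, V.π ⟨c₂, hc₂A⟩} : Finset k)
  simp only [Finset.mem_insert, Finset.mem_singleton, not_or] at hā
  obtain ⟨a₀, rfl⟩ := V.π_surj ā
  refine ThreePt.core V t ht a₀ ⟨c₂, hc₂A⟩ hā.1 hπc hā.2 ?_ hrk m hm f t0 ht0 hf hdiv
  intro c hc0 hc1 P
  exact Mo3b.ord_sub_le_one_FN M α hα0 Q hQ0 t hrel c hc0 (fun h => hc1 (hsub c h)) P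

end modular

end Fermat.Agent.S18.Mo3c
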