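import Mathlib
import Fermat.Agent.S18.Mo1g
import Fermat.Agent.S18.Mo3c
import Fermat.Agent.S18.LeadRk
import Fermat.Agent.S18.AsmDefs

set_option autoImplicit false
set_option linter.style.haveILetI false
set_option linter.unusedSectionVars false
set_option synthInstance.maxHeartbeats 400000

/-! # S18 [GLUE]: `CoreStmt A π M` from the valued-field CORE; the case `ℓ ≥ 5` -/

namespace Fermat.Agent.S18.Glue

open ModularCurve AlgebraicCurve IntermediateField Polynomial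
open Fermat.Agent.S24 (Kb FN jF)
open Fermat.Agent.S18.Mo1

variable {A : ValuationSubring Kb} {k : Type} [Field k] {π : ↥A →+* k} {M : ℕ} [NeZero M]

/-- the CORE statement in the `VData` of [Mo1]. -/
def VCore (G : GenData A π (modularFunctionFieldBar M)) (hπ : Function.Surjective π) : Prop :=
  ∀ (m : ℕ), (m : k) ≠ 0 → ∀ (f : FN M) (t0 : G.kp hπ), t0 ≠ 0 → (G.V hπ).rd f = t0 ^ m →
    (∀ P : Place Kb (FN M), (m : ℤ) ∣ P.ord f) → ∃ s : FN M, f = s ^ m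

/-- transfer from the `VData` formulation to the `q`-expansion formulation. -/
theorem coreStmt_of_vcore (G : GenData A π (modularFunctionFieldBar M))
    (hπ : Function.Surjective π) (hcore : VCore G hπ) : Asm.CoreStmt A π M := by
  intro m y₁ y₂ t0 h₁ h₂ _ hmk hy₁ hy₂ ht0 hrel hdiv
  obtain ⟨hO₁, hr₁⟩ := vdata_link G.normHyp hπ y₁ h₁
  obtain ⟨hO₂, hr₂⟩ := vdata_link G.normHyp hπ y₂ h₂
  set V := G.V hπ with hV
  set f₁ : FN M := ⟨coeffMap A.subtype y₁, h₁⟩ with hf₁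
  set f₂ : FN M := ⟨coeffMap A.subtype y₂, h₂⟩ with hf₂
  have hne₂ : V.rd f₂ ≠ 0 := by
    intro h0
    apply hy₂
    rw [← hr₂]
    have : ((V.rd f₂ : G.kp hπ) : LaurentSeries k) = 0 := by rw [h0]; rfl
    exact this
  have ht0' : t0 ∈ G.kp hπ := G.fullC_le hπ ht0
  have ht0ne : (⟨t0, ht0'⟩ : G.kp hπ) ≠ 0 := by
    intro h0
    have h1 : t0 = 0 := congrArg Subtype.val h0
    apply hy₁
    rw [hrel, h1, zero_pow (by omega), zero_mul]
  refine hcore m hmk (f₁ / f₂) ⟨t0, ht0'⟩ ht0ne ?_ hdiv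
  rw [div_eq_mul_inv, V.rd_mul hO₁ (V.inv_mem_of_rd_ne_zero hne₂), V.rd_inv hne₂]
  apply Subtype.ext
  have e1 : ((V.rd f₁ * (V.rd f₂)⁻¹ : G.kp hπ) : LaurentSeries k) =
      ((V.rd f₁ : G.kp hπ) : LaurentSeries k) * ((V.rd f₂ : G.kp hπ) : LaurentSeries k)⁻¹ := rfl
  have e2 : (((⟨t0, ht0'⟩ : G.kp hπ) ^ m : G.kp hπ) : LaurentSeries k) = t0 ^ m := rfl
  rw [e1, e2]
  have e3 : ((V.rd f₁ : G.kp hπ) : LaurentSeries k) = coeffMap π y₁ := hr₁
  have e4 : ((V.rd f₂ : G.kp hπ) : LaurentSeries k) = coeffMap π y₂ := hr₂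
  rw [e3, e4, hrel, mul_assoc, mul_inv_cancel₀ hy₂, mul_one]

/-- **GLUE-5**: CORE at level `M` when `1728 ≠ 0` in `k` (i.e. `ℓ ≥ 5`). -/
theorem coreStmt_five {ℓ : ℕ} (hℓ : ℓ.Prime) (hA : A.LiesOverPrime ℓ) (hM : ¬ ℓ ∣ M)
    (hπ : Function.Surjective π) (h1728 : (1728 : k) ≠ 0) : Asm.CoreStmt A π M := by
  obtain ⟨G⟩ := exists_genData hℓ A hA M hM π
  haveI : IsAlgClosed k := isAlgClosed_of_valuationSubring A π hπ
  haveI : Infinite k := IsAlgClosed.instInfinite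
  refine coreStmt_of_vcore G hπ ?_
  intro m hm f t0 ht0 hf hdiv
  haveI := G.isSeparable hπ
  haveI : Algebra.IsAlgebraic ℚ Kb := AlgebraicClosure.isAlgebraic ℚ
  exact Mo3c.core_j M (G.V hπ) (G.goodCoord hπ) h1728
    (fun c c0 hc hc0 => rank_one_of_liesOverPrime A hℓ hA c c0 hc hc0) m hm f t0 ht0 hf hdiv

end Fermat.Agent.S18.Glue

namespace Fermat.Agent.S18.Asm

open ModularCurve AlgebraicCurve Fermat.Agent.S24

/-- **GLUE-5** in the shape consumed by the final assembly. -/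
theorem coreStmt_five {ℓ : ℕ} (hℓ : ℓ.Prime) (A : ValuationSubring Kb) (hA : A.LiesOverPrime ℓ)
    (M : ℕ) [NeZero M] (hM : ¬ ℓ ∣ M) {k : Type} [Field k] [IsAlgClosed k] (π : A →+* k)
    (hπ : Function.Surjective π) (h5 : 5 ≤ ℓ) : CoreStmt A π M := by
  refine Glue.coreStmt_five hℓ hA hM hπ ?_
  have hn : ¬ ℓ ∣ 1728 := by
    intro h
    have h1 : (1728 : ℕ) = 2 ^ 6 * 3 ^ 3 := by norm_num
    rw [h1] at h
    rcases (Nat.Prime.dvd_mul hℓ).1 h with h | h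
    · have := (Nat.prime_dvd_prime_iff_eq hℓ Nat.prime_two).1 (hℓ.dvd_of_dvd_pow h)
      omega
    · have := (Nat.prime_dvd_prime_iff_eq hℓ Nat.prime_three).1 (hℓ.dvd_of_dvd_pow h)
      omega
  have hinv := Mo1.natCast_inv_mem A hA hℓ 1728 hn
  have hmul : (1728 : A) * ⟨((1728 : ℕ) : Kb)⁻¹, hinv⟩ = 1 := by
    apply Subtype.ext
    show (1728 : Kb) * ((1728 : ℕ) : Kb)⁻¹ = 1
    norm_num
  have h2 := congrArg π hmul
  rw [map_mul, map_one, map_ofNat] at h2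
  exact left_ne_zero_of_mul_eq_one h2

end Fermat.Agent.S18.Asm
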