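import Mathlib
import Fermat.Agent.S28.Rat
import Fermat.Agent.S28.LevelOneInt

set_option autoImplicit false

/-! # S18 (Mo3a): the shape of the characteristic polynomial of a Hauptmodul -/

namespace Fermat.Agent.S18

open ModularCurve Polynomial
open Fermat.Agent.S28

namespace Mo3a

variable {A : Type} [CommRing A]

/-- all coefficients below `m` vanish. -/
def LB (m : ℤ) (x : LaurentSeries A) : Prop := ∀ k < m, x.coeff k = 0

theorem LB.mono {m m' : ℤ} {x : LaurentSeries A} (h : LB m x) (hm : m' ≤ m) : LB m' x :=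
  fun k hk => h k (lt_of_lt_of_le hk hm)

theorem LB.zero (m : ℤ) : LB m (0 : LaurentSeries A) := fun _ _ => rfl

theorem LB.add {m : ℤ} {x y : LaurentSeries A} (hx : LB m x) (hy : LB m y) : LB m (x + y) := by
  intro k hk
  rw [HahnSeries.coeff_add, hx k hk, hy k hk, add_zero]

theorem LB.neg {m : ℤ} {x : LaurentSeries A} (hx : LB m x) : LB m (-x) := by
  intro k hk
  rw [HahnSeries.coeff_neg, hx k hk, neg_zero]

theorem LB.sub {m : ℤ} {x y : LaurentSeries A} (hx : LB m x) (hy : LB m y) : LB m (x - y) := by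
  rw [sub_eq_add_neg]
  exact hx.add hy.neg

theorem LB.mul {m m' : ℤ} {x y : LaurentSeries A} (hx : LB m x) (hy : LB m' y) :
    LB (m + m') (x * y) := by
  intro k hk
  rw [HahnSeries.coeff_mul]
  apply Finset.sum_eq_zero
  rintro ⟨i, j⟩ hij
  rw [Finset.mem_antidiagonal] at hij
  obtain ⟨hi, hj, hs⟩ := hij
  simp only at hi hj hs ⊢
  by_cases h1 : i < m
  · rw [hx i h1, zero_mul]
  · rw [hy j (by omega), mul_zero]

theorem LB.coeff_mul {m m' : ℤ} {x y : LaurentSeries A} (hx : LB m x) (hy : LB m' y) :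
    (x * y).coeff (m + m') = x.coeff m * y.coeff m' := by
  rw [HahnSeries.coeff_mul]
  by_cases hmem : (m, m') ∈ Finset.antidiagonal x.isPWO_support y.isPWO_support (m + m')
  · rw [Finset.sum_eq_single_of_mem (m, m') hmem]
    rintro ⟨i, j⟩ hij hne
    rw [Finset.mem_antidiagonal] at hij
    obtain ⟨hi, hj, hs⟩ := hij
    simp only at hi hj hs ⊢
    by_cases h1 : i < m
    · rw [hx i h1, zero_mul]
    · by_cases h2 : j < m'
      · rw [hy j h2, mul_zero]
      · exfalso
        apply hne
        have : i = m := by omega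
        have : j = m' := by omega
        simp [*]
  · have h0 : x.coeff m * y.coeff m' = 0 := by
      by_contra hc
      apply hmem
      rw [Finset.mem_antidiagonal]
      exact ⟨fun h => hc (by rw [h, zero_mul]), fun h => hc (by rw [h, mul_zero]), rfl⟩
    rw [h0]
    apply Finset.sum_eq_zero
    rintro ⟨i, j⟩ hij
    have hij' := hij
    rw [Finset.mem_antidiagonal] at hij
    obtain ⟨hi, hj, hs⟩ := hij
    simp only at hi hj hs ⊢
    by_cases h1 : i < m
    · rw [hx i h1, zero_mul]
    · by_cases h2 : j < m'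
      · rw [hy j h2, mul_zero]
      · exfalso
        apply hmem
        have e1 : i = m := by omega
        have e2 : j = m' := by omega
        rw [e1, e2] at hij'
        exact hij'

theorem LB.of_order (x : LaurentSeries A) : LB x.order x :=
  fun _ hk => HahnSeries.coeff_eq_zero_of_lt_order hk

/-- the coefficient at `-1` of a unit of order `-1` is a unit. -/
theorem isUnit_coeff_of_isUnit [IsDomain A] {x : LaurentSeries A} (hx : IsUnit x) :
    IsUnit (x.coeff x.order) := by
  obtain ⟨y, hy⟩ := hx.exists_right_inv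
  have hx0 : x ≠ 0 := left_ne_zero_of_mul_eq_one hy
  have hy0 : y ≠ 0 := right_ne_zero_of_mul_eq_one hy
  have h1 := HahnSeries.order_mul hx0 hy0
  rw [hy, HahnSeries.order_one] at h1
  have h2 := (LB.of_order x).coeff_mul (LB.of_order y)
  rw [← h1, hy, HahnSeries.coeff_one, if_pos rfl] at h2
  exact IsUnit.of_mul_eq_one _ h2.symm

section prod

variable {Q : Type} [DecidableEq Q] (U : Q → LaurentSeries A)

theorem LB_coeff_prod (s : Finset Q) (hU : ∀ q ∈ s, LB (-1) (U q)) (m : ℕ) :
    LB ((m : ℤ) - s.card) ((∏ q ∈ s, (X - C (U q))).coeff m) := by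
  induction s using Finset.induction_on generalizing m with
  | empty =>
    intro k hk
    simp only [Finset.prod_empty, Finset.card_empty, Nat.cast_zero, sub_zero] at hk ⊢
    rw [Polynomial.coeff_one]
    split_ifs with h
    · subst h
      rw [HahnSeries.coeff_one, if_neg (by simp at hk; omega)]
    · rfl
  | insert a s ha ih =>
    rw [Finset.prod_insert ha, Finset.card_insert_of_notMem ha, sub_mul, Polynomial.coeff_sub,
      Polynomial.coeff_C_mul]
    have ih' := fun m => ih (fun q hq => hU q (Finset.mem_insert_of_mem hq)) m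
    apply LB.sub
    · cases m with
      | zero =>
        rw [Polynomial.coeff_X_mul_zero]
        exact LB.zero _
      | succ m =>
        rw [Polynomial.coeff_X_mul]
        refine (ih' m).mono ?_
        push_cast
        omega
    · refine ((hU a (Finset.mem_insert_self a s)).mul (ih' m)).mono ?_
      push_cast
      omega

theorem coeff_coeff_zero_prod (s : Finset Q) (hU : ∀ q ∈ s, LB (-1) (U q)) :
    ((∏ q ∈ s, (X - C (U q))).coeff 0).coeff (-(s.card : ℤ)) = ∏ q ∈ s, (-(U q).coeff (-1)) := by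
  induction s using Finset.induction_on with
  | empty => simp
  | insert a s ha ih =>
    rw [Finset.prod_insert ha, Finset.prod_insert ha, Finset.card_insert_of_notMem ha, sub_mul,
      Polynomial.coeff_sub, Polynomial.coeff_C_mul, Polynomial.coeff_X_mul_zero, zero_sub,
      HahnSeries.coeff_neg]
    have h1 := LB_coeff_prod U s (fun q hq => hU q (Finset.mem_insert_of_mem hq)) 0
    have h2 := (hU a (Finset.mem_insert_self a s)).coeff_mul h1
    have e : -(((s.card + 1 : ℕ)) : ℤ) = -1 + (((0 : ℕ) : ℤ) - s.card) := by push_cast; ring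
    rw [e, h2]
    have e' : (((0 : ℕ) : ℤ) - s.card) = -(s.card : ℤ) := by push_cast; ring
    rw [e', ih (fun q hq => hU q (Finset.mem_insert_of_mem hq))]
    ring

end prod

/-! ## polynomials in `j` -/

theorem coeff_evJN (N : ℕ) [NeZero N] (p : A[X]) (δ : ℕ) (hδ : p.natDegree ≤ δ) :
    (evJN N A p).coeff (-((N : ℤ) * δ)) = p.coeff δ := by
  have hN : (0 : ℤ) < N := by exact_mod_cast Nat.pos_of_ne_zero (NeZero.ne N)
  have e : evJN N A p = ∑ i ∈ Finset.range (δ + 1), HahnSeries.C (p.coeff i) * JN N A ^ i := by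
    rw [evJN, Polynomial.coe_eval₂RingHom, Polynomial.eval₂_eq_sum_range' _ (Nat.lt_succ_of_le hδ)]
  rw [e, HahnSeries.coeff_sum,
    Finset.sum_range_succ, Finset.sum_eq_zero, zero_add, HahnSeries.C_mul_eq_smul,
    HahnSeries.coeff_smul, L1.JN_pow_coeff_self, smul_eq_mul, mul_one]
  intro i hi
  rw [HahnSeries.C_mul_eq_smul, HahnSeries.coeff_smul, L1.JN_pow_coeff_of_lt, smul_zero]
  have : (i : ℤ) < δ := by exact_mod_cast Finset.mem_range.mp hi
  nlinarith

theorem natDegree_le_of_LB (N : ℕ) [NeZero N] (p : A[X]) (δ : ℕ)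
    (h : LB (1 - (N : ℤ) * (δ + 1)) (evJN N A p)) : p.natDegree ≤ δ := by
  have hN : (0 : ℤ) < N := by exact_mod_cast Nat.pos_of_ne_zero (NeZero.ne N)
  by_contra hc
  push Not at hc
  have h1 := coeff_evJN N p p.natDegree le_rfl
  rw [h _ (by
    have : (δ : ℤ) + 1 ≤ p.natDegree := by exact_mod_cast hc
    nlinarith)] at h1
  have h2 : p ≠ 0 := by
    rintro rfl
    simp at hc
  exact (Polynomial.leadingCoeff_ne_zero.mpr h2) h1.symm

open Fermat.Agent.S20 (Quo) in
/-- the shape of the characteristic polynomial. -/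
theorem shape {N : ℕ} [NeZero N] {R : Subring ℂ} (D : AnData N R)
    (hcard : Fintype.card (Quo N) = N + 1) (hord : ∀ q, q ≠ D.q₀ → (D.r q).order = -1)
    (h0 : LB 0 (D.r D.q₀)) :
    (∀ m, 2 ≤ m → (D.Ψ.coeff m).natDegree = 0) ∧ (D.Ψ.coeff 1).natDegree ≤ 1 ∧
      IsUnit ((D.Ψ.coeff 1).coeff 1) := by
  classical
  have hN : (0 : ℤ) < N := by exact_mod_cast Nat.pos_of_ne_zero (NeZero.ne N)
  set s : Finset (Quo N) := Finset.univ.erase D.q₀ with hs
  have hscard : s.card = N := by
    rw [hs, Finset.card_erase_of_mem (Finset.mem_univ _), Finset.card_univ, hcard]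
    rfl
  have hU : ∀ q ∈ s, LB (-1) (D.r q) := by
    intro q hq
    have := LB.of_order (D.r q)
    rwa [hord q (Finset.ne_of_mem_erase hq)] at this
  set P : (LaurentSeries ↥R)[X] := ∏ q ∈ s, (X - C (D.r q)) with hP
  have hsplit : D.Ψ.map (evJN N ↥R) = (X - C (D.r D.q₀)) * P := by
    rw [D.split, hP, hs]
    exact (Finset.mul_prod_erase Finset.univ (fun q => X - C (D.r q)) (Finset.mem_univ D.q₀)).symm
  have hco : ∀ m : ℕ, evJN N ↥R (D.Ψ.coeff (m + 1)) = P.coeff m - D.r D.q₀ * P.coeff (m + 1) := by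
    intro m
    have e : (X - C (D.r D.q₀)) * P = X * P - C (D.r D.q₀) * P := by ring
    rw [← Polynomial.coeff_map, hsplit, e, Polynomial.coeff_sub, Polynomial.coeff_X_mul,
      Polynomial.coeff_C_mul]
  have hLB : ∀ m : ℕ, LB ((m : ℤ) - N) (P.coeff m) := by
    intro m
    have := LB_coeff_prod D.r s hU m
    rwa [hscard] at this
  have hLB2 : ∀ m : ℕ, LB ((m : ℤ) + 1 - N) (D.r D.q₀ * P.coeff (m + 1)) := by
    intro m
    refine (h0.mul (hLB (m + 1))).mono ?_
    push_cast
    omega
  have hLB3 : ∀ m : ℕ, LB ((m : ℤ) - N) (evJN N ↥R (D.Ψ.coeff (m + 1))) := by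
    intro m
    rw [hco]
    exact (hLB m).sub ((hLB2 m).mono (by omega))
  refine ⟨?_, ?_, ?_⟩
  · intro m hm
    obtain ⟨m', rfl⟩ : ∃ m', m = m' + 1 := ⟨m - 1, by omega⟩
    apply Nat.le_zero.mp
    apply natDegree_le_of_LB N
    refine (hLB3 m').mono ?_
    have : (1 : ℤ) ≤ m' := by exact_mod_cast (by omega : 1 ≤ m')
    push_cast
    omega
  · apply natDegree_le_of_LB N
    refine (hLB3 0).mono ?_
    push_cast
    omega
  · have h1 : (D.Ψ.coeff 1).natDegree ≤ 1 := by
      apply natDegree_le_of_LB N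
      refine (hLB3 0).mono ?_
      push_cast
      omega
    have h2 := coeff_evJN N (D.Ψ.coeff 1) 1 h1
    rw [← h2]
    have h3 := hco 0
    rw [zero_add] at h3
    rw [h3, HahnSeries.coeff_sub, hLB2 0 _ (by push_cast; omega), sub_zero]
    have h4 := coeff_coeff_zero_prod D.r s hU
    rw [hscard] at h4
    have e : -((N : ℤ) * ((1 : ℕ) : ℤ)) = -(N : ℤ) := by push_cast; ring
    rw [e, h4]
    rw [Finset.prod_neg]
    apply IsUnit.mul
    · exact (IsUnit.neg isUnit_one).pow _
    · rw [IsUnit.prod_iff]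
      intro q hq
      have := isUnit_coeff_of_isUnit (D.unit q)
      rwa [hord q (Finset.ne_of_mem_erase hq)] at this

end Mo3a

end Fermat.Agent.S18
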