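import Mathlib
import Fermat.Agent.S28.AnData
import Fermat.Agent.S28.Rat

set_option autoImplicit false
set_option maxHeartbeats 400000

/-! # S18 (Mo3a): `AnData` for an arbitrary `Γ₀(N)`-invariant unit -/

namespace Fermat.Agent.S18

open UpperHalfPlane ModularForm Matrix.SpecialLinearGroup ModularCurve Polynomial
open scoped MatrixGroups ModularForm Manifold
open Fermat.Agent.S20 (Quo sl)
open Fermat.Agent.S24 (Mer expInf jfun jdg Dv)
open Fermat.Agent.S28
open Fermat.Agent.S28.AnAux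

theorem exists_anData_of (N : ℕ) [NeZero N] (R : Subring ℂ) (hR1 : ∀ ω : ℂ, ω ^ N = 1 → ω ∈ R)
    (g : ℍ → ℂ) (hg : ∀ δ ∈ CongruenceSubgroup.Gamma0 N, ∀ z, g (δ • z) = g z)
    (hconj : ∀ γ : SL(2, ℤ), ∃ f : (Mer N)ˣ, (∀ z, f.1.1 z = g (γ • z)) ∧ f ∈ UG N R ∧
      (γ ∉ CongruenceSubgroup.Gamma0 N → (expInf N f.1).order = -1))
    (f₁ : (Mer N)ˣ) (h1 : ∀ z, f₁.1.1 z = g z) (h2 : f₁ ∈ UG N (Int.castRingHom ℂ).range) :
    ∃ D : AnData N R, expInf N f₁.1 = qExpand ℂ N (coeffMap (Int.castRingHom ℂ) D.u) ∧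
      ∀ q, q ≠ D.q₀ → (D.r q).order = -1 := by
  classical
  set q₀ : Quo N := QuotientGroup.mk (sl 1) with hq₀
  set ρ : Quo N → ℍ → ℂ := conj N (g) with hρdef
  have hex : ∀ q : Quo N, ∃ f : (Mer N)ˣ, f.1.1 = ρ q ∧ f ∈ UG N R ∧
      (q ≠ q₀ → (expInf N f.1).order = -1) := by
    intro q
    obtain ⟨f, h1, h2, h3⟩ := hconj (S20.exists_mk q).choose⁻¹
    exact ⟨f, funext h1, h2, fun hq => h3 (not_mem_Gamma0_of_ne N q hq)⟩
  choose f hf1 hf2 hf3 using hex
  have hρ : ∀ q, ρ q ∈ RMer N R := fun q => hf1 q ▸ val_mem_RMer_of_mem_UG (hf2 q)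
  set ρ' : Quo N → ↥(RMer N R) := fun q => ⟨ρ q, hρ q⟩ with hρ'
  set r : Quo N → LaurentSeries ↥R := fun q => expR N R (ρ' q) with hr
  have hfρ : ∀ q, (⟨(f q).1.1, val_mem_RMer_of_mem_UG (hf2 q)⟩ : ↥(RMer N R)) = ρ' q :=
    fun q => Subtype.ext (hf1 q)
  have hunit : ∀ q, IsUnit (r q) := by
    intro q
    have := isUnit_expR_of_mem_UG (hf2 q)
    rwa [hfρ q] at this
  have hexp : ∀ q, coeffMap R.subtype (r q) = expInf N (f q).1 := by
    intro q
    rw [hr]
    simp only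
    rw [coeffMap_expR]
    congr 1
    exact Subtype.ext (hf1 q).symm
  have hneg1 : ∀ q, q ≠ q₀ → (r q).order = -1 := by
    intro q hq
    rw [← order_coeffMap_subtype, hexp q]
    exact hf3 q hq
  have hneg : ∀ q, q ≠ q₀ → (r q).order < 0 := by
    intro q hq
    rw [hneg1 q hq]
    norm_num
  -- the characteristic polynomial
  set P' : (↥(RMer N R))[X] := ∏ q, (X - C (ρ' q)) with hP'
  have hP'map : P'.map (RMer N R).subtype = ∏ q, (X - C (ρ q)) := by
    rw [hP', Polynomial.map_prod]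
    refine Finset.prod_congr rfl fun q _ => ?_
    rw [Polynomial.map_sub, Polynomial.map_X, Polynomial.map_C]
    rfl
  obtain ⟨Ψ, hΨ⟩ := descend N R (∏ q, (X - C (ρ q)))
    (fun i => by
      rw [← hP'map, Polynomial.coeff_map]
      exact (P'.coeff i).2)
    (fun γ => prod_X_sub_C_conj_map N (g) hg γ)
  have hsplit : Ψ.map (evJN N ↥R) = ∏ q, (X - C (r q)) := by
    rw [transfer_map N R Ψ P' (by rw [hΨ, hP'map]), hP', Polynomial.map_prod]
    refine Finset.prod_congr rfl fun q _ => ?_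
    rw [Polynomial.map_sub, Polynomial.map_X, Polynomial.map_C]
  -- the expansion of `u` itself
  have hρ₀ : ρ q₀ = g := conj_one N (g) hg
  obtain ⟨u, hu, hu'⟩ : ∃ u : LaurentSeries ℤ,
      r q₀ = qExpand ↥R N (coeffMap (Int.castRingHom ↥R) u) ∧
      expInf N f₁.1 = qExpand ℂ N (coeffMap (Int.castRingHom ℂ) u) := by
    have e1 : f₁.1 = (f q₀).1 := by
      apply Subtype.ext
      rw [hf1 q₀, hρ₀]
      exact funext h1
    obtain ⟨u, hu⟩ := exists_int_qExpand N (expInf N f₁.1) h2.1 (by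
      intro n hn
      apply S24.expInf_coeff_eq_zero_of_periodic N _ _ n hn
      intro z
      rw [h1, h1, ← UpperHalfPlane.modular_T_smul, hg _ (T_mem_Gamma0 N)])
    refine ⟨u, ?_, hu⟩
    apply coeffMap_subtype_injective R
    rw [hexp q₀, ← e1, hu, coeffMap_qExpand, coeffMap_coeffMap]
    congr 2
  -- the constant term
  obtain ⟨c, hc⟩ : ∃ c : (↥R)ˣ, Ψ.coeff 0 = C (c : ↥R) := by
    set s : ℍ → ℂ := ∏ q, ρ q with hs
    set s' : ℍ → ℂ := ∏ q, (f q)⁻¹.1.1 with hs'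
    have hss' : s * s' = 1 := by
      rw [hs, hs', ← Finset.prod_mul_distrib]
      refine Finset.prod_eq_one fun q _ => ?_
      rw [← hf1 q]
      have := congrArg Subtype.val (f q).mul_inv
      exact this
    have hsmem : s ∈ RMer N R := Subring.prod_mem _ fun q _ => hρ q
    have hs'mem : s' ∈ RMer N R :=
      Subring.prod_mem _ fun q _ => val_mem_RMer_of_mem_UG (inv_mem (hf2 q))
    have hsinv : ∀ (γ : SL(2, ℤ)) (z : ℍ), s (γ • z) = s z :=
      fun γ z => prod_conj_smul N (g) hg γ z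
    have hpt : ∀ z, s z * s' z = 1 := fun z => congrFun hss' z
    have hs'inv : ∀ (γ : SL(2, ℤ)) (z : ℍ), s' (γ • z) = s' z := by
      intro γ z
      have h1 := hpt (γ • z)
      have h2 := hpt z
      rw [hsinv] at h1
      have h3 : s z ≠ 0 := left_ne_zero_of_mul_eq_one h2
      exact mul_left_cancel₀ h3 (h1.trans h2.symm)
    obtain ⟨p, hp⟩ := levelOne_int N R s hsmem hsinv
    obtain ⟨p', hp'⟩ := levelOne_int N R s' hs'mem hs'inv
    have hpp' : p * p' = 1 := by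
      apply evJ_injective R
      rw [map_mul, hp, hp', hss', map_one]
    have hpu : IsUnit p := IsUnit.of_mul_eq_one p' hpp'
    obtain ⟨c, hc, hcp⟩ := Polynomial.isUnit_iff.mp hpu
    have h0 : Ψ.coeff 0 = C ((-1) ^ Fintype.card (Quo N) * c) := by
      apply evJ_injective R
      rw [← Polynomial.coeff_map, hΨ, Polynomial.coeff_zero_eq_eval_zero, Polynomial.eval_prod,
        map_mul, map_mul, hcp, hp, hs]
      simp only [Polynomial.eval_sub, Polynomial.eval_X, Polynomial.eval_C, zero_sub]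
      rw [Finset.prod_neg]
      simp
    exact ⟨((-1) ^ Fintype.card (Quo N) : (↥R)ˣ) * hc.unit, by rw [h0]; simp⟩
  refine ⟨{ u := u, Ψ := Ψ, r := r, q₀ := q₀, unit := hunit, neg := hneg, split := hsplit,
            r₀ := hu, c := c, const := hc, lagr := ?_ }, hu', hneg1⟩
  -- Lagrange interpolation
  intro d _ hd
  set h : ℍ → ℂ := jdg N ⟨d, hd⟩ 1 with hh
  have hhinv : ∀ δ ∈ CongruenceSubgroup.Gamma0 N, ∀ z, h (δ • z) = h z :=
    fun δ hδ z => jdg_one_Gamma0 N ⟨d, hd⟩ δ hδ z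
  have hhmem : ∀ q, conj N h q ∈ RMer N R := by
    intro q
    rw [hh, conj_jdg_one]
    exact jdg_mem_RMer N R hR1 _ _
  set h' : Quo N → ↥(RMer N R) := fun q => ⟨conj N h q, hhmem q⟩ with hh'
  set L' : (↥(RMer N R))[X] :=
    ∑ q, C (h' q) * ∏ q' ∈ Finset.univ.erase q, (X - C (ρ' q')) with hL'
  have hL'map : L'.map (RMer N R).subtype =
      ∑ q, C (conj N h q) * ∏ q' ∈ Finset.univ.erase q, (X - C (ρ q')) := by
    rw [hL', Polynomial.map_sum]
    refine Finset.sum_congr rfl fun q _ => ?_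
    rw [Polynomial.map_mul, Polynomial.map_C, Polynomial.map_prod]
    congr 1
    refine Finset.prod_congr rfl fun q' _ => ?_
    rw [Polynomial.map_sub, Polynomial.map_X, Polynomial.map_C]
    rfl
  obtain ⟨G, hG⟩ := descend N R
    (∑ q, C (conj N h q) * ∏ q' ∈ Finset.univ.erase q, (X - C (ρ q')))
    (fun i => by
      rw [← hL'map, Polynomial.coeff_map]
      exact (L'.coeff i).2)
    (fun γ => lagrange_conj_map N (g) h hg hhinv γ)
  refine ⟨G, ?_⟩
  rw [Polynomial.eval₂_eq_eval_map, transfer_map N R G L' (by rw [hG, hL'map]), hL',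
    Polynomial.map_sum, Polynomial.eval_finsetSum]
  rw [Finset.sum_eq_single q₀]
  · rw [Polynomial.map_mul, Polynomial.map_C, Polynomial.map_prod, Polynomial.eval_mul,
      Polynomial.eval_C, Polynomial.eval_prod]
    congr 1
    · have e : h' q₀ = ⟨jdg N ⟨d, hd⟩ 1, jdg_mem_RMer N R hR1 ⟨d, hd⟩ 1⟩ :=
        Subtype.ext (conj_one N h hhinv)
      rw [e, expR_jdg_one N R hR1 d hd]
    · refine Finset.prod_congr rfl fun q' _ => ?_
      rw [Polynomial.map_sub, Polynomial.map_X, Polynomial.map_C, Polynomial.eval_sub,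
        Polynomial.eval_X, Polynomial.eval_C]
  · intro q _ hq
    rw [Polynomial.map_mul, Polynomial.map_prod, Polynomial.eval_mul, Polynomial.eval_prod]
    rw [Finset.prod_eq_zero (Finset.mem_erase.mpr ⟨Ne.symm hq, Finset.mem_univ q₀⟩), mul_zero]
    rw [Polynomial.map_sub, Polynomial.map_X, Polynomial.map_C, Polynomial.eval_sub,
      Polynomial.eval_X, Polynomial.eval_C, sub_self]
  · intro h
    exact absurd (Finset.mem_univ q₀) h


open RAT in
theorem exists_igusaData_of_anData (N : ℕ) [NeZero N] (ℓ : ℕ) [Fact ℓ.Prime]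
    (D : AnData N (Rl ℓ)) : ∃ I : IgusaData N ℓ, I.u = coeffMap (Int.castRingHom (Zl ℓ)) D.u ∧
      I.Ψ.map (Polynomial.mapRingHom (kap ℓ)) = D.Ψ := by
  obtain ⟨Ψ, hΨ⟩ := exists_lift ℓ D.Ψ (Ψc_map D)
  obtain ⟨k, _, π, hπ⟩ := exists_residue_Rl ℓ
  have hκ : Function.Injective (Polynomial.mapRingHom (kap ℓ)) :=
    Polynomial.map_injective _ (kap_injective ℓ)
  have hm : Ψ.Monic := Polynomial.monic_of_injective hκ (hΨ ▸ monic_Ψ D)
  set u : LaurentSeries (Zl ℓ) := coeffMap (Int.castRingHom (Zl ℓ)) D.u with hu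
  have hTu : Th N (kap ℓ) u = D.r D.q₀ := by
    rw [Th_apply, hu, coeffMap_coeffMap, D.r₀,
      RingHom.ext_int ((kap ℓ).comp (Int.castRingHom (Zl ℓ))) (Int.castRingHom ↥(Rl ℓ))]
  have hTinj := Th_injective N (kap ℓ) (kap_injective ℓ)
  refine ⟨⟨u, Ψ, hm, ?_, ?_, ?_⟩, rfl, hΨ⟩
  · apply hTinj
    have := Th_eval₂ N (kap ℓ) Ψ u
    rw [hΨ, hTu, root_Ψ] at this
    rw [map_zero]
    exact this
  · apply irreducible_red ℓ π hπ Ψ hm
    rw [hΨ]
    exact irreducible_map D π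
  · intro d _ hd
    obtain ⟨G', hG', hσ⟩ := exists_numerator D d hd
    obtain ⟨G, hG⟩ := exists_lift ℓ G' hσ
    -- the identity over `ℤ_(ℓ)`
    have h1 : G.eval₂ (ev1 (Zl ℓ)) u = qExpand (Zl ℓ) d (jqModC (Zl ℓ)) *
        (derivative Ψ).eval₂ (ev1 (Zl ℓ)) u := by
      apply hTinj
      rw [map_mul, Th_eval₂, Th_eval₂, hTu, hG, ← Polynomial.derivative_map, hΨ, hG', Th_apply,
        coeffMap_qExpand, coeffMap_jqModC]
    have h2 : (derivative Ψ).eval₂ (ev1 (Zl ℓ)) u ≠ 0 := by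
      intro h
      apply eval₂_derivative_Ψ_ne_zero D
      have := Th_eval₂ N (kap ℓ) (derivative Ψ) u
      rw [h, map_zero, hTu, ← Polynomial.derivative_map, hΨ] at this
      exact this.symm
    have hincl : Function.Injective (incl ℓ) := Subtype.val_injective
    -- the identity over `ℚ`
    have h3 := congrArg (coeffMap (incl ℓ)) h1
    rw [map_mul, coeffMap_eval₂_ev1, coeffMap_eval₂_ev1, coeffMap_qExpand, coeffMap_jqModC] at h3
    have h4 : ((derivative Ψ).map (Polynomial.mapRingHom (incl ℓ))).eval₂ (ev1 ℚ)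
        (coeffMap (incl ℓ) u) ≠ 0 := by
      rw [← coeffMap_eval₂_ev1]
      exact fun h => h2 (coeffMap_injective _ hincl (by rw [h, map_zero]))
    have h5 : qExpand ℚ d jq = (G.map (Polynomial.mapRingHom (incl ℓ))).eval₂ (ev1 ℚ)
        (coeffMap (incl ℓ) u) / ((derivative Ψ).map (Polynomial.mapRingHom (incl ℓ))).eval₂ (ev1 ℚ)
        (coeffMap (incl ℓ) u) := by
      rw [eq_div_iff h4]
      exact h3.symm
    rw [h5]
    have hj : jq ∈ IntermediateField.adjoin ℚ {jq, coeffMap (incl ℓ) u} :=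
      IntermediateField.subset_adjoin _ _ (by simp)
    have hx : coeffMap (incl ℓ) u ∈ IntermediateField.adjoin ℚ {jq, coeffMap (incl ℓ) u} :=
      IntermediateField.subset_adjoin _ _ (by simp)
    exact div_mem (eval₂_mem_adjoin _ hj _ hx _) (eval₂_mem_adjoin _ hj _ hx _)


end Fermat.Agent.S18
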