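import Mathlib
import Fermat.Agent.S18.Mo3aGen
import Fermat.Agent.S18.Mo3aCoeff

set_option autoImplicit false

/-! # S18 (Mo3a): from `AnData` with a Hauptmodul shape to `IgusaData` with the same shape -/

namespace Fermat.Agent.S18

open ModularCurve Polynomial
open Fermat.Agent.S20 (Quo)
open Fermat.Agent.S28

namespace Mo3a

theorem isUnit_of_isUnit_kap (ℓ : ℕ) [Fact ℓ.Prime] (x : Zl ℓ) (hx : IsUnit (kap ℓ x)) :
    IsUnit x := by
  obtain ⟨y, hy⟩ := hx.exists_right_inv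
  have h1 : (((x : ℚ) : ℂ)) * (y : ℂ) = 1 := by
    have := congrArg (fun a : ↥(Rl ℓ) => (a : ℂ)) hy
    simpa [kap_coe] using this
  have hx0 : ((x : ℚ) : ℂ) ≠ 0 := left_ne_zero_of_mul_eq_one h1
  have hx0' : (x : ℚ) ≠ 0 := by
    intro h
    apply hx0
    rw [h, Rat.cast_zero]
  have h2 : (y : ℂ) = (((x : ℚ)⁻¹ : ℚ) : ℂ) := by
    rw [Rat.cast_inv]
    exact eq_inv_of_mul_eq_one_right h1
  have h3 : (x : ℚ)⁻¹ ∈ GaloisRep.ratLocalizedAt ℓ := by
    apply mem_of_ratCast_mem_Rl ℓ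
    rw [← h2]
    exact y.2
  refine IsUnit.of_mul_eq_one (⟨(x : ℚ)⁻¹, h3⟩ : Zl ℓ) ?_
  apply Subtype.ext
  show (x : ℚ) * (x : ℚ)⁻¹ = 1
  exact mul_inv_cancel₀ hx0'

/-- the shape of a Hauptmodul relation. -/
structure HauptShape {B : Type} [CommRing B] (n : ℕ) (Ψ : B[X][X]) : Prop where
  natDegree : Ψ.natDegree = n
  high : ∀ m, 2 ≤ m → (Ψ.coeff m).natDegree = 0
  one_le : (Ψ.coeff 1).natDegree ≤ 1
  one_unit : IsUnit ((Ψ.coeff 1).coeff 1)
  zero : ∃ e : B, IsUnit e ∧ Ψ.coeff 0 = C e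

theorem exists_igusa_shape (N : ℕ) [NeZero N] (ℓ : ℕ) [Fact ℓ.Prime] (D : AnData N (Rl ℓ))
    (hcard : Fintype.card (Quo N) = N + 1) (hord : ∀ q, q ≠ D.q₀ → (D.r q).order = -1)
    (h0 : LB 0 (D.r D.q₀)) :
    ∃ I : IgusaData N ℓ, I.u = coeffMap (Int.castRingHom (Zl ℓ)) D.u ∧
      HauptShape (N + 1) I.Ψ := by
  obtain ⟨I, hu, hΨ⟩ := exists_igusaData_of_anData N ℓ D
  obtain ⟨s1, s2, s3⟩ := shape D hcard hord h0
  have hinj := kap_injective ℓ
  have hco : ∀ m, D.Ψ.coeff m = (I.Ψ.coeff m).map (kap ℓ) := by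
    intro m
    rw [← hΨ, Polynomial.coeff_map]
    rfl
  have hdeg : ∀ m, (D.Ψ.coeff m).natDegree = (I.Ψ.coeff m).natDegree := by
    intro m
    rw [hco, Polynomial.natDegree_map_eq_of_injective hinj]
  refine ⟨I, hu, ⟨?_, ?_, ?_, ?_, ?_⟩⟩
  · have h1 : D.Ψ.natDegree = I.Ψ.natDegree := by
      rw [← hΨ]
      exact Polynomial.natDegree_map_eq_of_injective
        (Polynomial.map_injective _ hinj) _
    rw [← h1, ← Polynomial.natDegree_map_eq_of_injective (RAT.evJN_injective N ↥(Rl ℓ)) D.Ψ,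
      D.split, Polynomial.natDegree_prod_of_monic _ _ fun q _ => monic_X_sub_C _]
    simp [hcard]
  · intro m hm
    rw [← hdeg, s1 m hm]
  · rw [← hdeg]
    exact s2
  · apply isUnit_of_isUnit_kap
    rw [hco, Polynomial.coeff_map] at s3
    exact s3
  · have h1 : (I.Ψ.coeff 0).natDegree = 0 := by
      rw [← hdeg, D.const, Polynomial.natDegree_C]
    obtain ⟨e, he⟩ := Polynomial.natDegree_eq_zero.mp h1
    refine ⟨e, ?_, he.symm⟩
    apply isUnit_of_isUnit_kap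
    have h2 := hco 0
    rw [D.const, ← he, Polynomial.map_C] at h2
    rw [← Polynomial.C_injective h2]
    exact D.c.isUnit

end Mo3a

end Fermat.Agent.S18
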