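import Mathlib
import Fermat.Agent.S18.Mo3aPack
import Fermat.Agent.S16.W0Core

set_option autoImplicit false
set_option maxHeartbeats 400000

/-! # S18 (Mo3a): the Hauptmodul `Δ(2z)/Δ(z)` of level `2` -/

namespace Fermat.Agent.S18

open UpperHalfPlane ModularForm Matrix.SpecialLinearGroup ModularCurve Polynomial
open scoped MatrixGroups ModularForm Manifold
open Fermat.Agent.S20 (Quo sl)
open Fermat.Agent.S24 (Mer expInf jfun jdg Dv)
open Fermat.Agent.S28

namespace Mo3a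

theorem LB_qExpand {A : Type} [CommRing A] (N : ℕ) [NeZero N] {m : ℤ} {x : LaurentSeries A}
    (hx : LB m x) : LB ((N : ℤ) * m) (qExpand A N x) := by
  have hN : (0 : ℤ) < N := by exact_mod_cast Nat.pos_of_ne_zero (NeZero.ne N)
  intro k hk
  by_cases hd : (N : ℤ) ∣ k
  · obtain ⟨k', rfl⟩ := hd
    rw [qExpand_coeff_mul, hx k' (lt_of_mul_lt_mul_left hk hN.le)]
  · rw [qExpand_coeff_of_not_dvd N _ hd]

theorem LB_coeffMap {A B : Type} [CommRing A] [CommRing B] (f : A →+* B) {m : ℤ}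
    {x : LaurentSeries A} (hx : LB m x) : LB m (coeffMap f x) := by
  intro k hk
  rw [coeffMap_coeff, hx k hk, map_zero]

/-- if `x * a = b` with `a = q^m + …`, `b = q^(m+1) + …`, then `x = q + …`. -/
theorem leading_of_mul_eq {x a b : LaurentSeries ℂ} {m : ℤ} (h : x * a = b) (ha : LB m a)
    (ha1 : a.coeff m = 1) (hb : LB (m + 1) b) (hb1 : b.coeff (m + 1) = 1) :
    LB 1 x ∧ x.coeff 1 = 1 := by
  have hb0 : b ≠ 0 := by
    rintro rfl
    simp at hb1
  have hx0 : x ≠ 0 := by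
    rintro rfl
    exact hb0 (by rw [← h, zero_mul])
  have h1 := (LB.of_order x).coeff_mul ha
  rw [h, ha1, mul_one] at h1
  have h2 : x.coeff x.order ≠ 0 := fun h => hx0 (HahnSeries.coeff_order_eq_zero.mp h)
  have h3 : m + 1 ≤ x.order + m := by
    by_contra hc
    push Not at hc
    exact h2 (by rw [← h1, hb _ hc])
  have h4 : x.order + m ≤ m + 1 := by
    by_contra hc
    push Not at hc
    have := ((LB.of_order x).mul ha) (m + 1) hc
    rw [h, hb1] at this
    exact one_ne_zero this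
  have h5 : x.order = 1 := by omega
  refine ⟨h5 ▸ LB.of_order x, ?_⟩
  rw [h5, add_comm, hb1] at h1
  exact h1.symm

theorem int_of_complex {u : LaurentSeries ℤ}
    (h : LB 1 (coeffMap (Int.castRingHom ℂ) u) ∧ (coeffMap (Int.castRingHom ℂ) u).coeff 1 = 1) :
    LB 1 u ∧ u.coeff 1 = 1 := by
  refine ⟨fun k hk => ?_, ?_⟩
  · have := h.1 k hk
    rw [coeffMap_coeff, eq_intCast] at this
    exact_mod_cast this
  · have := h.2
    rw [coeffMap_coeff, eq_intCast] at this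
    exact_mod_cast this

theorem LB_disc : LB 1 (expInf 1 S24.discMer) := fun k hk => Tri.coeff_expInf_discMer_of_le (by omega)

theorem exists_haupt_two (ℓ : ℕ) [Fact ℓ.Prime] (hℓ : ¬ ℓ ∣ 2) :
    ∃ (I : IgusaData 2 ℓ) (tq : LaurentSeries ℤ), I.u = coeffMap (Int.castRingHom (Zl ℓ)) tq ∧
      LB 1 tq ∧ tq.coeff 1 = 1 ∧ HauptShape 3 I.Ψ := by
  have : Fact (Nat.Prime 2) := ⟨Nat.prime_two⟩
  set R := Rl ℓ with hR
  have hR1 : ∀ ω : ℂ, ω ^ 2 = 1 → ω ∈ R := fun ω h => mem_Rl_of_pow_eq_one ℓ ω 2 two_ne_zero h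
  have hR2 : ((2 : ℕ) : ℂ)⁻¹ ∈ R := natCast_inv_mem_Rl ℓ 2 hℓ
  set g : ℍ → ℂ := wfun 2 two_ne_zero with hgdef
  have hg : ∀ δ ∈ CongruenceSubgroup.Gamma0 2, ∀ z, g (δ • z) = g z := by
    intro δ hδ z
    rw [CongruenceSubgroup.Gamma0_mem, ZMod.intCast_zmod_eq_zero_iff_dvd] at hδ
    exact wfun_Gamma0 2 two_ne_zero δ (by exact_mod_cast hδ) z
  have hconj : ∀ γ : SL(2, ℤ), ∃ f : (Mer 2)ˣ, (∀ z, f.1.1 z = g (γ • z)) ∧ f ∈ UG 2 R ∧
      (γ ∉ CongruenceSubgroup.Gamma0 2 → (expInf 2 f.1).order = -1) := by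
    intro γ
    obtain ⟨w, a, d, h1, h2, ha, had, hord⟩ := MG.exists_w_conj 2 R hR1 hR2 γ 2 two_ne_zero dvd_rfl
    refine ⟨w, h1, h2, fun hγ => ?_⟩
    rw [← MG.ordU_apply, hord]
    have hc : ¬ (2 : ℤ) ∣ γ 1 0 := by
      intro h
      apply hγ
      rw [CongruenceSubgroup.Gamma0_mem, ZMod.intCast_zmod_eq_zero_iff_dvd]
      exact_mod_cast h
    have ha1 : a = 1 := by
      rw [ha]
      have h3 : Int.gcd ((2 : ℕ) : ℤ) (γ 1 0) ∣ 2 := by
        have := Int.gcd_dvd_left ((2 : ℕ) : ℤ) (γ 1 0)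
        exact_mod_cast this
      rcases (Nat.dvd_prime Nat.prime_two).mp h3 with h | h
      · exact h
      · exfalso
        apply hc
        have := Int.gcd_dvd_right ((2 : ℕ) : ℤ) (γ 1 0)
        rw [h] at this
        exact_mod_cast this
    subst ha1
    have hd : d = 2 := by omega
    subst hd
    norm_num
  set f₁ : (Mer 2)ˣ := MG.triU 2 2 1 0 two_ne_zero one_ne_zero (one_dvd 2) *
    (MG.triU 2 1 1 0 one_ne_zero one_ne_zero (one_dvd 2))⁻¹ with hf₁
  have h1 : ∀ z, f₁.1.1 z = g z := by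
    intro z
    rw [hf₁, ← MG.evU_apply, map_mul, map_inv, MG.evU_apply, MG.evU_apply, MG.triU_apply,
      MG.triU_apply, S24.tri_one_smul_L1, hgdef, wfun]
    rfl
  have h2 : f₁ ∈ UG 2 (Int.castRingHom ℂ).range := by
    refine mul_mem ?_ (inv_mem ?_)
    · apply MG.triU_mem_UG
      · simp only [Int.cast_zero, mul_zero, zero_div, Complex.exp_zero]
        exact one_mem _
      · simp only [Int.cast_zero, mul_zero, zero_div, Complex.exp_zero, inv_one]
        exact one_mem _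
    · apply MG.triU_mem_UG
      · simp only [Int.cast_zero, mul_zero, zero_div, Complex.exp_zero]
        exact one_mem _
      · simp only [Int.cast_zero, mul_zero, zero_div, Complex.exp_zero, inv_one]
        exact one_mem _
  obtain ⟨D, hD1, hD2⟩ := exists_anData_of 2 R hR1 g hg hconj f₁ h1 h2
  -- the expansion
  have hmul : f₁ * MG.triU 2 1 1 0 one_ne_zero one_ne_zero (one_dvd 2) =
      MG.triU 2 2 1 0 two_ne_zero one_ne_zero (one_dvd 2) := by
    rw [hf₁, inv_mul_cancel_right]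
  have hmul' : expInf 2 f₁.1 * expInf 2 (MG.triU 2 1 1 0 one_ne_zero one_ne_zero (one_dvd 2)).1 =
      expInf 2 (MG.triU 2 2 1 0 two_ne_zero one_ne_zero (one_dvd 2)).1 := by
    rw [← map_mul, ← Units.val_mul, hmul]
  have e1 : expInf 2 (MG.triU 2 1 1 0 one_ne_zero one_ne_zero (one_dvd 2)).1 =
      qExpand ℂ 2 (qExpand ℂ 1 (expInf 1 S24.discMer)) := expInf_triHom_one 2 1 discU.1
  have e2 : expInf 2 (MG.triU 2 2 1 0 two_ne_zero one_ne_zero (one_dvd 2)).1 =
      qExpand ℂ 2 (qExpand ℂ 2 (expInf 1 S24.discMer)) := expInf_triHom_one 2 2 discU.1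
  rw [e1, e2, hD1, ← map_mul, qExpand_one_apply] at hmul'
  have hmul'' := qExpand_injective 2 hmul'
  have hlead := int_of_complex (leading_of_mul_eq hmul'' LB_disc Tri.coeff_expInf_discMer_one
    (by simpa using LB_qExpand 2 LB_disc)
    (by
      have := qExpand_coeff_mul 2 (expInf 1 S24.discMer) 1
      rw [Tri.coeff_expInf_discMer_one] at this
      simpa using this))
  have h0 : LB 0 (D.r D.q₀) := by
    rw [D.r₀]
    exact (LB_qExpand 2 (LB_coeffMap _ hlead.1)).mono (by norm_num)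
  obtain ⟨I, hu, hsh⟩ := exists_igusa_shape 2 ℓ D (S16.W0.card_quo_prime 2) hD2 h0
  exact ⟨I, D.u, hu, hlead.1, hlead.2, hsh⟩

end Mo3a

end Fermat.Agent.S18
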