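import Mathlib
import Fermat.Agent.S18.Mo3aTwo

set_option autoImplicit false
set_option maxHeartbeats 400000

/-! # S18 (Mo3a): the Euler product and `q_h` as units of `Mer` -/

namespace Fermat.Agent.S18

open UpperHalfPlane ModularForm Matrix.SpecialLinearGroup ModularCurve Polynomial
open scoped MatrixGroups ModularForm Manifold
open Fermat.Agent.S20 (Quo sl)
open Fermat.Agent.S24 (Mer expInf jfun jdg Dv)
open Fermat.Agent.S28

namespace Mo3a

local notation "𝕢" => Function.Periodic.qParam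

/-- the Euler product in `Mer 1`. -/
noncomputable def etaMer : Mer 1 := ⟨S24.etaFun, S24.etaFun_mem_Mer⟩

/-- `q_h` in `Mer h`. -/
noncomputable def qMer (h : ℕ) [NeZero h] : Mer h := ⟨S24.qN h, S24.qN_mem_Mer h⟩

theorem discMer_eq : S24.discMer = qMer 1 * etaMer ^ 24 := rfl

theorem etaMer_mul_inv : etaMer * (qMer 1 * etaMer ^ 23 * Tri.invDisc) = 1 := by
  have : etaMer * (qMer 1 * etaMer ^ 23 * Tri.invDisc) = S24.discMer * Tri.invDisc := by
    rw [discMer_eq]; ring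
  rw [this, Tri.discMer_mul_invDisc]

/-- the Euler product as a unit of `Mer 1`. -/
noncomputable def etaU : (Mer 1)ˣ where
  val := etaMer
  inv := qMer 1 * etaMer ^ 23 * Tri.invDisc
  val_inv := etaMer_mul_inv
  inv_val := by rw [mul_comm]; exact etaMer_mul_inv

theorem etaU_apply (z : ℍ) : etaU.1.1 z = S24.etaFun z := rfl

theorem expInf_etaMer : expInf 1 etaMer = HahnSeries.ofPowerSeries ℤ ℂ
    ((PowerSeries.pentagonalSeries ℤ).map (Int.castRingHom ℂ)) := by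
  rw [S24.pentagonal_map]
  exact S24.expInf_etaFun

theorem etaU_mem_UG (R : Subring ℂ) : etaU ∈ UG 1 R := by
  have h1 : expInf 1 etaMer ∈ WR R := by
    rw [expInf_etaMer]
    exact Tri.ofPowerSeries_map_mem_WR R _
  refine ⟨h1, ?_⟩
  show expInf 1 (qMer 1 * etaMer ^ 23 * Tri.invDisc) ∈ WR R
  rw [map_mul, map_mul, map_pow]
  refine mul_mem (mul_mem ?_ (pow_mem h1 _)) (discU_mem_UG R).2
  show expInf 1 ⟨S24.qN 1, S24.qN_mem_Mer 1⟩ ∈ WR R
  rw [S24.expInf_qN]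
  exact Tri.single_mem_WR R 1

theorem inv_qN_mem_Mer (h : ℕ) [NeZero h] : (fun z : ℍ => (S24.qN h z)⁻¹) ∈ Mer h := by
  refine ⟨?_, fun z => ?_, 1, ?_⟩
  · have h2 := S24.qN_mdiff h
    rw [UpperHalfPlane.mdifferentiable_iff] at h2 ⊢
    exact (h2.inv fun z _ => S24.qN_ne_zero h _)
  · show (S24.qN h _)⁻¹ = _
    rw [S24.qN_vadd]
  · have : (fun z : ℍ => S24.qN h z ^ 1 * (S24.qN h z)⁻¹) = fun _ => (1 : ℂ) := by
      funext z
      rw [pow_one, mul_inv_cancel₀ (S24.qN_ne_zero h z)]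
    rw [this]
    exact Filter.const_boundedAtFilter _ _

theorem qMer_mul_inv (h : ℕ) [NeZero h] : qMer h * ⟨_, inv_qN_mem_Mer h⟩ = 1 := by
  apply Subtype.ext
  funext z
  show S24.qN h z * (S24.qN h z)⁻¹ = 1
  exact mul_inv_cancel₀ (S24.qN_ne_zero h z)

/-- `q_h` as a unit of `Mer h`. -/
noncomputable def qU (h : ℕ) [NeZero h] : (Mer h)ˣ where
  val := qMer h
  inv := ⟨_, inv_qN_mem_Mer h⟩
  val_inv := qMer_mul_inv h
  inv_val := by rw [mul_comm]; exact qMer_mul_inv h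

theorem qU_apply (h : ℕ) [NeZero h] (z : ℍ) : (qU h).1.1 z = S24.qN h z := rfl

theorem expInf_qU (h : ℕ) [NeZero h] : expInf h (qU h).1 = HahnSeries.single 1 1 := S24.expInf_qN h

theorem expInf_qU_inv (h : ℕ) [NeZero h] : expInf h (qU h)⁻¹.1 = HahnSeries.single (-1) 1 := by
  have h1 : expInf h (qU h).1 * expInf h (qU h)⁻¹.1 = 1 := by
    rw [← map_mul, ← Units.val_mul, mul_inv_cancel, Units.val_one, map_one]
  rw [expInf_qU] at h1
  have h2 : (HahnSeries.single (1 : ℤ) (1 : ℂ)) * HahnSeries.single (-1 : ℤ) (1 : ℂ) = 1 := by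
    rw [HahnSeries.single_mul_single]
    simp
  have h3 : (HahnSeries.single (1 : ℤ) (1 : ℂ)) ≠ 0 := left_ne_zero_of_mul_eq_one h2
  exact mul_left_cancel₀ h3 (h1.trans h2.symm)

theorem qU_mem_UG (h : ℕ) [NeZero h] (R : Subring ℂ) : qU h ∈ UG h R := by
  refine ⟨?_, ?_⟩
  · rw [expInf_qU]
    exact Tri.single_mem_WR R 1
  · rw [expInf_qU_inv]
    exact Tri.single_mem_WR R (-1)

variable (N : ℕ) [NeZero N]

/-- `z ↦ E((a z + b) / d)` as a unit of `Mer N`, `E` the Euler product. -/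
noncomputable def triE (a d : ℕ) (b : ℤ) (ha : a ≠ 0) (hd : d ≠ 0) (hdN : d ∣ N) : (Mer N)ˣ :=
  Units.map (triHom N a d b ha hd hdN).toMonoidHom etaU

theorem triE_apply (a d : ℕ) (b : ℤ) (ha : a ≠ 0) (hd : d ≠ 0) (hdN : d ∣ N) (z : ℍ) :
    (triE N a d b ha hd hdN).1.1 z = S24.etaFun (S22.tri a d b ha hd • z) := by
  change (triHom N a d b ha hd hdN etaU.1).1 z = _
  rw [triHom_apply, etaU_apply]

theorem triE_mem_UG {R : Subring ℂ} (a d : ℕ) (b : ℤ) (ha : a ≠ 0) (hd : d ≠ 0) (hdN : d ∣ N)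
    (hω : Complex.exp (2 * Real.pi * Complex.I * b / d) ∈ R)
    (hω' : (Complex.exp (2 * Real.pi * Complex.I * b / d))⁻¹ ∈ R) :
    triE N a d b ha hd hdN ∈ UG N R := by
  refine ⟨?_, ?_⟩
  · exact expInf_triHom_mem_WR N a d b ha hd hdN R hω hω' etaU.1 (etaU_mem_UG R).1
  · exact expInf_triHom_mem_WR N a d b ha hd hdN R hω hω' etaU⁻¹.1 (etaU_mem_UG R).2

theorem triE_mem_UG_zero {R : Subring ℂ} (a : ℕ) (ha : a ≠ 0) :
    triE N a 1 0 ha one_ne_zero (one_dvd N) ∈ UG N R := by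
  apply triE_mem_UG
  · simp only [Int.cast_zero, mul_zero, zero_div, Complex.exp_zero]
    exact one_mem R
  · simp only [Int.cast_zero, mul_zero, zero_div, Complex.exp_zero, inv_one]
    exact one_mem R

/-- `η = q_24 * E`. -/
theorem eta_eq (z : ℍ) : ModularForm.eta (z : ℂ) = 𝕢 24 (z : ℂ) * S24.etaFun z := by
  have h2 : ∀ n : ℕ, eta_q n z = S24.qN 1 z ^ (n + 1) := by
    intro n
    rw [eta_q_eq_pow]
    simp [S24.qN, Function.Periodic.qParam]
  rw [ModularForm.eta]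
  simp only [h2]
  rfl

end Mo3a

end Fermat.Agent.S18
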