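import Mathlib
import Fermat.Agent.S18.Mo3aEta

set_option autoImplicit false
set_option maxHeartbeats 800000

/-! # S18 (Mo3a): the Hauptmodul `(η(3z)/η(z))^12` of level `3` -/

namespace Fermat.Agent.S18

open UpperHalfPlane ModularForm Matrix.SpecialLinearGroup ModularCurve Polynomial
open scoped MatrixGroups ModularForm Manifold
open Fermat.Agent.S20 (Quo sl)
open Fermat.Agent.S24 (Mer expInf jfun jdg Dv)
open Fermat.Agent.S28

namespace Mo3a

local notation "𝕢" => Function.Periodic.qParam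

theorem three_ne_zero' : (3 : ℕ) ≠ 0 := by norm_num

/-- `LB 0` and constant coefficient one. -/
def One0 (x : LaurentSeries ℂ) : Prop := LB 0 x ∧ x.coeff 0 = 1

theorem One0.mul {x y : LaurentSeries ℂ} (hx : One0 x) (hy : One0 y) : One0 (x * y) := by
  refine ⟨by simpa using hx.1.mul hy.1, ?_⟩
  have := hx.1.coeff_mul hy.1
  rw [add_zero, hx.2, hy.2, one_mul] at this
  exact this

theorem One0.one : One0 1 := by
  refine ⟨fun k hk => ?_, by simp⟩
  rw [HahnSeries.coeff_one, if_neg (by omega)]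

theorem One0.pow {x : LaurentSeries ℂ} (hx : One0 x) (n : ℕ) : One0 (x ^ n) := by
  induction n with
  | zero => simpa using One0.one
  | succ n ih => rw [pow_succ]; exact ih.mul hx

theorem One0.qExpand {x : LaurentSeries ℂ} (hx : One0 x) (N : ℕ) [NeZero N] :
    One0 (qExpand ℂ N x) := by
  refine ⟨by simpa using LB_qExpand N hx.1, ?_⟩
  have := qExpand_coeff_mul N x 0
  rw [mul_zero, hx.2] at this
  exact this

theorem One0_etaMer : One0 (expInf 1 etaMer) := by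
  rw [expInf_etaMer, S24.pentagonal_map]
  refine ⟨fun k hk => ofPowerSeries_coeff_of_neg _ hk, ?_⟩
  have := HahnSeries.ofPowerSeries_apply_coeff (Γ := ℤ) (PowerSeries.pentagonalSeries ℂ) 0
  simp only [Nat.cast_zero] at this
  rw [this]
  have h0 : (0 : ℕ) = pentagonal 0 := by simp [pentagonal]
  rw [h0, PowerSeries.coeff_pentagonalSeries_pentagonal]
  simp

theorem qParam_aux1 (z : ℂ) (b : ℤ) :
    (𝕢 24 ((z + b) / 3) / 𝕢 24 (z + b)) ^ 12 =
      Complex.exp (-(2 * Real.pi * Complex.I * b / 3)) * (𝕢 (3 : ℕ) z)⁻¹ := by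
  unfold Function.Periodic.qParam
  rw [← Complex.exp_sub, ← Complex.exp_nat_mul, ← Complex.exp_neg, ← Complex.exp_add]
  congr 1
  push_cast
  field_simp
  ring

theorem qParam_aux2 (z : ℂ) : (𝕢 24 (3 * z) / 𝕢 24 z) ^ 12 = (𝕢 (3 : ℕ) z) ^ 3 := by
  unfold Function.Periodic.qParam
  rw [← Complex.exp_sub, ← Complex.exp_nat_mul, ← Complex.exp_nat_mul]
  congr 1
  push_cast
  field_simp
  ring

theorem etaFun_T_zpow (b : ℤ) (z : ℍ) : S24.etaFun ((ModularGroup.T ^ b : SL(2, ℤ)) • z) =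
    S24.etaFun z := by
  unfold S24.etaFun
  congr 1
  unfold S24.qN Function.Periodic.qParam
  rw [UpperHalfPlane.modular_T_zpow_smul, UpperHalfPlane.coe_vadd]
  have : 2 * (Real.pi : ℂ) * Complex.I * (((b : ℝ) : ℂ) + (z : ℂ)) / ((1 : ℕ) : ℝ) =
      2 * Real.pi * Complex.I * (z : ℂ) / ((1 : ℕ) : ℝ) + b * (2 * Real.pi * Complex.I) := by
    push_cast
    ring
  rw [this, Complex.exp_add, Complex.exp_int_mul_two_pi_mul_I, mul_one]

section three

variable (g : ℍ → ℂ) (H0 : ∀ z : ℍ, g z = (ModularForm.eta (3 * (z : ℂ)) / ModularForm.eta z) ^ 12)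
  (I1 : ∀ δ ∈ CongruenceSubgroup.Gamma0 3, ∀ z, g (δ • z) = g z)
  (I2 : ∀ z : ℍ, g (ModularGroup.S • z) =
    ((3 : ℂ)⁻¹) ^ 6 * (ModularForm.eta ((z : ℂ) / 3) / ModularForm.eta z) ^ 12)

include H0 in
theorem g_sq (z : ℍ) : g z ^ 2 = wfun 3 three_ne_zero' z := by
  rw [H0, wfun, ModularForm.discriminant, ModularForm.discriminant, S22.coe_tri_smul, ← pow_mul,
    div_pow]
  congr 2
  push_cast
  ring_nf

include H0 in
theorem g_eq (z : ℍ) : g z = S24.qN 3 z ^ 3 *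
    S24.etaFun (S22.tri 3 1 0 three_ne_zero' one_ne_zero • z) ^ 12 * (S24.etaFun z)⁻¹ ^ 12 := by
  have e : (3 : ℂ) * (z : ℂ) = ((S22.tri 3 1 0 three_ne_zero' one_ne_zero • z : ℍ) : ℂ) := by
    rw [S22.coe_tri_smul]
    push_cast
    ring
  rw [H0, e, eta_eq, eta_eq, ← e, mul_div_mul_comm, mul_pow, qParam_aux2, div_pow, inv_pow]
  unfold S24.qN
  ring

include I1 I2 in
theorem g_conj (δ : SL(2, ℤ)) (hδ : δ ∈ CongruenceSubgroup.Gamma0 3) (b : ℤ) (z : ℍ) :
    g ((δ * (ModularGroup.S * ModularGroup.T ^ b)) • z) =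
      (((3 : ℂ)⁻¹) ^ 6 * Complex.exp (-(2 * Real.pi * Complex.I * b / 3))) * (S24.qN 3 z)⁻¹ *
      S24.etaFun (S22.tri 1 3 b one_ne_zero three_ne_zero' • z) ^ 12 * (S24.etaFun z)⁻¹ ^ 12 := by
  rw [mul_smul, mul_smul, I1 δ hδ, I2]
  have e0 : (((ModularGroup.T ^ b : SL(2, ℤ)) • z : ℍ) : ℂ) = (z : ℂ) + b := by
    rw [UpperHalfPlane.modular_T_zpow_smul, UpperHalfPlane.coe_vadd]
    push_cast
    ring
  have e : (((ModularGroup.T ^ b : SL(2, ℤ)) • z : ℍ) : ℂ) / 3 =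
      ((S22.tri 1 3 b one_ne_zero three_ne_zero' • z : ℍ) : ℂ) := by
    rw [S22.coe_tri_smul, e0]
    push_cast
    ring
  rw [e, eta_eq, eta_eq, etaFun_T_zpow, ← e, e0, mul_div_mul_comm, mul_pow, qParam_aux1, div_pow,
    inv_pow]
  unfold S24.qN
  ring

include H0 I1 I2 in
theorem exists_haupt_three_of (ℓ : ℕ) [Fact ℓ.Prime] (hℓ : ¬ ℓ ∣ 3) :
    ∃ (I : IgusaData 3 ℓ) (tq : LaurentSeries ℤ), I.u = coeffMap (Int.castRingHom (Zl ℓ)) tq ∧
      LB 1 tq ∧ tq.coeff 1 = 1 ∧ HauptShape 4 I.Ψ := by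
  have : Fact (Nat.Prime 3) := ⟨Nat.prime_three⟩
  set R := Rl ℓ with hR
  have hR1 : ∀ ω : ℂ, ω ^ 3 = 1 → ω ∈ R := fun ω h => mem_Rl_of_pow_eq_one ℓ ω 3 three_ne_zero' h
  have hR2 : ((3 : ℕ) : ℂ)⁻¹ ∈ R := natCast_inv_mem_Rl ℓ 3 hℓ
  have hconj : ∀ γ : SL(2, ℤ), ∃ f : (Mer 3)ˣ, (∀ z, f.1.1 z = g (γ • z)) ∧ f ∈ UG 3 R ∧
      (γ ∉ CongruenceSubgroup.Gamma0 3 → (expInf 3 f.1).order = -1) := by
    intro γ
    by_cases hγ : γ ∈ CongruenceSubgroup.Gamma0 3
    · refine ⟨(qU 3) ^ 3 * (triE 3 3 1 0 three_ne_zero' one_ne_zero (one_dvd 3)) ^ 12 *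
        ((triE 3 1 1 0 one_ne_zero one_ne_zero (one_dvd 3))⁻¹) ^ 12, ?_, ?_, fun h => absurd hγ h⟩
      · intro z
        rw [I1 γ hγ, g_eq g H0, ← MG.evU_apply, map_mul, map_mul, map_pow, map_pow, map_pow, map_inv,
          MG.evU_apply, MG.evU_apply, MG.evU_apply, qU_apply, triE_apply, triE_apply,
          S24.tri_one_smul_L1]
      · exact mul_mem (mul_mem (pow_mem (qU_mem_UG 3 R) _) (pow_mem (triE_mem_UG_zero 3 3 _) _))
          (pow_mem (inv_mem (triE_mem_UG_zero 3 1 _)) _)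
    · obtain ⟨δ, hδ, b, rfl⟩ := S16.W0.exists_coset' 3 γ hγ
      set ζ : ℂ := Complex.exp (-(2 * Real.pi * Complex.I * b / 3)) with hζ
      have hζ0 : ζ ≠ 0 := Complex.exp_ne_zero _
      have hζ3 : ζ ^ 3 = 1 := by
        rw [hζ, ← Complex.exp_nat_mul, Complex.exp_eq_one_iff]
        refine ⟨-b, ?_⟩
        push_cast
        ring
      have h3 : (3 : ℂ) ≠ 0 := by norm_num
      have hc : ((3 : ℂ)⁻¹) ^ 6 * ζ ≠ 0 := mul_ne_zero (pow_ne_zero _ (inv_ne_zero h3)) hζ0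
      set f : (Mer 3)ˣ := MG.constU 3 (((3 : ℂ)⁻¹) ^ 6 * ζ) hc * (qU 3)⁻¹ *
        (triE 3 1 3 b one_ne_zero three_ne_zero' dvd_rfl) ^ 12 *
        ((triE 3 1 1 0 one_ne_zero one_ne_zero (one_dvd 3))⁻¹) ^ 12 with hf
      have hfz : ∀ z, f.1.1 z = g ((δ * (ModularGroup.S * ModularGroup.T ^ b)) • z) := by
        intro z
        rw [g_conj g I1 I2 δ hδ b z, hf, ← MG.evU_apply, map_mul, map_mul, map_mul, map_pow, map_pow,
          map_inv, map_inv, MG.evU_apply, MG.evU_apply, MG.evU_apply, MG.evU_apply, qU_apply,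
          triE_apply, triE_apply, S24.tri_one_smul_L1, MG.constU_apply]
      refine ⟨f, hfz, ?_, fun _ => ?_⟩
      · refine mul_mem (mul_mem (mul_mem ?_ (inv_mem (qU_mem_UG 3 R))) (pow_mem ?_ _))
          (pow_mem (inv_mem (triE_mem_UG_zero 3 1 _)) _)
        · apply MG.constU_mem_UG
          · refine mul_mem (pow_mem ?_ _) (hR1 _ hζ3)
            simpa using hR2
          · rw [mul_inv, ← inv_pow, inv_inv]
            refine mul_mem (pow_mem ?_ _) (hR1 _ ?_)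
            · exact_mod_cast natCast_mem R 3
            · rw [inv_pow, hζ3, inv_one]
        · apply triE_mem_UG
          · exact hR1 _ (MG.exp_pow_eq_one 3 3 b three_ne_zero' dvd_rfl)
          · apply hR1
            rw [inv_pow, MG.exp_pow_eq_one 3 3 b three_ne_zero' dvd_rfl, inv_one]
      · obtain ⟨w, a, d, h1, h2, ha, had, hord⟩ := MG.exists_w_conj 3 R hR1 hR2
          (δ * (ModularGroup.S * ModularGroup.T ^ b)) 3 three_ne_zero' dvd_rfl
        have hsq : f * f = w := by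
          apply Units.ext
          apply Subtype.ext
          funext z
          show f.1.1 z * f.1.1 z = w.1.1 z
          rw [h1, hfz, ← g_sq g H0, sq]
        have hc' : ¬ (3 : ℤ) ∣ (δ * (ModularGroup.S * ModularGroup.T ^ b)) 1 0 := by
          intro h
          apply hγ
          rw [CongruenceSubgroup.Gamma0_mem, ZMod.intCast_zmod_eq_zero_iff_dvd]
          exact_mod_cast h
        have ha1 : a = 1 := by
          rw [ha]
          have h3' : Int.gcd ((3 : ℕ) : ℤ) ((δ * (ModularGroup.S * ModularGroup.T ^ b)) 1 0) ∣ 3 := by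
            have := Int.gcd_dvd_left ((3 : ℕ) : ℤ) ((δ * (ModularGroup.S * ModularGroup.T ^ b)) 1 0)
            exact_mod_cast this
          rcases (Nat.dvd_prime Nat.prime_three).mp h3' with h | h
          · exact h
          · exfalso
            apply hc'
            have := Int.gcd_dvd_right ((3 : ℕ) : ℤ) ((δ * (ModularGroup.S * ModularGroup.T ^ b)) 1 0)
            rw [h] at this
            exact_mod_cast this
        subst ha1
        have hd : d = 3 := by omega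
        subst hd
        rw [← hsq, MG.ordU_mul] at hord
        rw [← MG.ordU_apply]
        norm_num at hord
        omega
  set f₁ : (Mer 3)ˣ := (qU 3) ^ 3 * (triE 3 3 1 0 three_ne_zero' one_ne_zero (one_dvd 3)) ^ 12 *
        ((triE 3 1 1 0 one_ne_zero one_ne_zero (one_dvd 3))⁻¹) ^ 12 with hf₁
  have h1 : ∀ z, f₁.1.1 z = g z := by
    intro z
    rw [g_eq g H0, hf₁, ← MG.evU_apply, map_mul, map_mul, map_pow, map_pow, map_pow, map_inv,
      MG.evU_apply, MG.evU_apply, MG.evU_apply, qU_apply, triE_apply, triE_apply,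
      S24.tri_one_smul_L1]
  have h2 : f₁ ∈ UG 3 (Int.castRingHom ℂ).range :=
    mul_mem (mul_mem (pow_mem (qU_mem_UG 3 _) _) (pow_mem (triE_mem_UG_zero 3 3 _) _))
          (pow_mem (inv_mem (triE_mem_UG_zero 3 1 _)) _)
  obtain ⟨D, hD1, hD2⟩ := exists_anData_of 3 R hR1 g I1 hconj f₁ h1 h2
  -- the expansion
  have hmul : f₁ * (triE 3 1 1 0 one_ne_zero one_ne_zero (one_dvd 3)) ^ 12 =
      (qU 3) ^ 3 * (triE 3 3 1 0 three_ne_zero' one_ne_zero (one_dvd 3)) ^ 12 := by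
    rw [hf₁, inv_pow, inv_mul_cancel_right]
  have hmul' : expInf 3 f₁.1 * expInf 3 (triE 3 1 1 0 one_ne_zero one_ne_zero (one_dvd 3)).1 ^ 12 =
      expInf 3 (qU 3).1 ^ 3 *
        expInf 3 (triE 3 3 1 0 three_ne_zero' one_ne_zero (one_dvd 3)).1 ^ 12 := by
    rw [← map_pow, ← map_pow, ← map_pow, ← map_mul, ← map_mul, ← Units.val_pow_eq_pow_val,
      ← Units.val_pow_eq_pow_val, ← Units.val_pow_eq_pow_val, ← Units.val_mul, ← Units.val_mul, hmul]
  have e1 : expInf 3 (triE 3 1 1 0 one_ne_zero one_ne_zero (one_dvd 3)).1 =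
      qExpand ℂ 3 (qExpand ℂ 1 (expInf 1 etaMer)) := expInf_triHom_one 3 1 etaU.1
  have e2 : expInf 3 (triE 3 3 1 0 three_ne_zero' one_ne_zero (one_dvd 3)).1 =
      qExpand ℂ 3 (qExpand ℂ 3 (expInf 1 etaMer)) := expInf_triHom_one 3 3 etaU.1
  have e3 : expInf 3 (qU 3).1 ^ 3 = qExpand ℂ 3 (HahnSeries.single 1 1) := by
    rw [expInf_qU, HahnSeries.single_pow, qExpand_single]
    simp
  rw [e1, e2, e3, hD1, qExpand_one_apply] at hmul'
  have hmul'' : coeffMap (Int.castRingHom ℂ) D.u * expInf 1 etaMer ^ 12 =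
      HahnSeries.single 1 1 * qExpand ℂ 3 (expInf 1 etaMer) ^ 12 := by
    apply qExpand_injective 3
    rw [map_mul, map_mul, map_pow, map_pow]
    exact hmul'
  have hb := (One0_etaMer.qExpand 3).pow 12
  have hs : LB 1 (HahnSeries.single (1 : ℤ) (1 : ℂ)) := by
    intro k hk
    rw [HahnSeries.coeff_single_of_ne (by omega)]
  have hlead := int_of_complex (leading_of_mul_eq (m := 0) hmul'' (One0_etaMer.pow 12).1
    (One0_etaMer.pow 12).2 (by simpa using hs.mul hb.1)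
    (by
      have := hs.coeff_mul hb.1
      rw [hb.2, HahnSeries.coeff_single_same, one_mul] at this
      simpa using this))
  have h0 : LB 0 (D.r D.q₀) := by
    rw [D.r₀]
    exact (LB_qExpand 3 (LB_coeffMap _ hlead.1)).mono (by norm_num)
  obtain ⟨I, hu, hsh⟩ := exists_igusa_shape 3 ℓ D (S16.W0.card_quo_prime 3) hD2 h0
  exact ⟨I, D.u, hu, hlead.1, hlead.2, hsh⟩

end three

end Mo3a

end Fermat.Agent.S18
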