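import Mathlib
import Fermat.Agent.S22.Hermite

set_option autoImplicit false

namespace Fermat.Agent.S18.Mo3a

open UpperHalfPlane hiding I
open ModularForm Complex
open scoped MatrixGroups

/-- `η^12`. -/
noncomputable def phi (z : ℍ) : ℂ := ModularForm.eta (z : ℂ) ^ 12

theorem phi_ne_zero (z : ℍ) : phi z ≠ 0 := pow_ne_zero _ (ModularForm.eta_ne_zero z.2)

theorem csqrt_sq (z : ℂ) : Complex.sqrt z ^ 2 = z := by
  rw [Complex.sqrt]
  have := Complex.cpow_nat_inv_pow z (n := 2) two_ne_zero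
  simpa using this

theorem eta_add_one (z : ℂ) :
    ModularForm.eta (z + 1) = cexp (2 * Real.pi * I / 24) * ModularForm.eta z := by
  unfold ModularForm.eta
  have h1 : ∀ n : ℕ, eta_q n (z + 1) = eta_q n z := by
    intro n
    rw [eta_q_eq_cexp, eta_q_eq_cexp]
    have : 2 * (Real.pi : ℂ) * I * ((n : ℂ) + 1) * (z + 1) =
        2 * Real.pi * I * ((n : ℂ) + 1) * z + ((n + 1 : ℕ) : ℂ) * (2 * Real.pi * I) := by
      push_cast; ring
    rw [this, Complex.exp_add, Complex.exp_nat_mul_two_pi_mul_I, mul_one]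
  simp_rw [h1]
  rw [← mul_assoc]
  congr 1
  unfold Function.Periodic.qParam
  rw [← Complex.exp_add]
  congr 1
  push_cast
  ring

theorem phi_T (z : ℍ) : phi (ModularGroup.T • z) = - phi z := by
  unfold phi
  rw [UpperHalfPlane.modular_T_smul, UpperHalfPlane.coe_vadd]
  have : ((1 : ℝ) : ℂ) + (z : ℂ) = (z : ℂ) + 1 := by push_cast; ring
  rw [this, eta_add_one, mul_pow, ← Complex.exp_nat_mul]
  have h : ((12 : ℕ) : ℂ) * (2 * Real.pi * I / 24) = Real.pi * I := by push_cast; ring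
  rw [h, Complex.exp_pi_mul_I]
  ring

theorem phi_S (z : ℍ) : phi (ModularGroup.S • z) = - (z : ℂ) ^ 6 * phi z := by
  unfold phi
  have he : ModularForm.eta (-1 / (z : ℂ)) =
      (Complex.sqrt I)⁻¹ * (Complex.sqrt z * ModularForm.eta z) := by
    simpa using ModularForm.eta_comp_eq_csqrt_I_inv z.2
  have hc : ((ModularGroup.S • z : ℍ) : ℂ) = -1 / (z : ℂ) := by
    rw [UpperHalfPlane.modular_S_smul]
    show (-(z : ℂ))⁻¹ = _
    rw [neg_div, one_div, inv_neg]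
  rw [hc, he, mul_pow, mul_pow, inv_pow]
  have h1 : Complex.sqrt I ^ 12 = -1 := by
    have : Complex.sqrt I ^ 12 = (Complex.sqrt I ^ 2) ^ 6 := by ring
    rw [this, csqrt_sq]
    have : (I : ℂ) ^ 6 = (I ^ 2) ^ 3 := by ring
    rw [this, I_sq]; norm_num
  have h2 : Complex.sqrt z ^ 12 = (z : ℂ) ^ 6 := by
    have : Complex.sqrt z ^ 12 = (Complex.sqrt z ^ 2) ^ 6 := by ring
    rw [this, csqrt_sq]
  rw [h1, h2]
  ring

/-! ### the parity character -/

/-- the parity function on `SL₂(𝔽₂)`. -/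
def par (a b c d : ZMod 2) : ZMod 2 := (a + 1) * (d + 1) + b + c

theorem par_mul : ∀ a b c d a' b' c' d' : ZMod 2, a * d - b * c = 1 → a' * d' - b' * c' = 1 →
    par (a * a' + b * c') (a * b' + b * d') (c * a' + d * c') (c * b' + d * d') =
      par a b c d + par a' b' c' d' := by decide

/-- the parity of a matrix. -/
def ep (γ : SL(2, ℤ)) : ZMod 2 :=
  par ((γ 0 0 : ℤ) : ZMod 2) ((γ 0 1 : ℤ) : ZMod 2) ((γ 1 0 : ℤ) : ZMod 2) ((γ 1 1 : ℤ) : ZMod 2)

theorem det_cast (γ : SL(2, ℤ)) :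
    ((γ 0 0 : ℤ) : ZMod 2) * ((γ 1 1 : ℤ) : ZMod 2) - ((γ 0 1 : ℤ) : ZMod 2) * ((γ 1 0 : ℤ) : ZMod 2)
      = 1 := by
  have h := γ.det_coe
  rw [Matrix.det_fin_two] at h
  have := congrArg (Int.cast : ℤ → ZMod 2) h
  push_cast at this
  exact this

theorem mul_entries (γ γ' : SL(2, ℤ)) :
    (γ * γ') 0 0 = γ 0 0 * γ' 0 0 + γ 0 1 * γ' 1 0 ∧
    (γ * γ') 0 1 = γ 0 0 * γ' 0 1 + γ 0 1 * γ' 1 1 ∧
    (γ * γ') 1 0 = γ 1 0 * γ' 0 0 + γ 1 1 * γ' 1 0 ∧
    (γ * γ') 1 1 = γ 1 0 * γ' 0 1 + γ 1 1 * γ' 1 1 := by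
  simp [Matrix.SpecialLinearGroup.coe_mul, Matrix.mul_apply, Fin.sum_univ_two]

theorem ep_mul (γ γ' : SL(2, ℤ)) : ep (γ * γ') = ep γ + ep γ' := by
  obtain ⟨h1, h2, h3, h4⟩ := mul_entries γ γ'
  unfold ep
  rw [h1, h2, h3, h4]
  push_cast
  exact par_mul _ _ _ _ _ _ _ _ (det_cast γ) (det_cast γ')

theorem ep_one : ep 1 = 0 := by
  simp [ep, par]
  decide

theorem ep_S : ep ModularGroup.S = 1 := by
  simp [ep, par, ModularGroup.coe_S]
  decide

theorem ep_T : ep ModularGroup.T = 1 := by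
  simp [ep, par, ModularGroup.coe_T]
  decide

theorem ep_inv (γ : SL(2, ℤ)) : ep γ⁻¹ = ep γ := by
  have h := ep_mul γ γ⁻¹
  rw [mul_inv_cancel, ep_one] at h
  have h2 : ∀ x y : ZMod 2, 0 = x + y → y = x := by decide
  exact h2 _ _ h

/-- the sign. -/
def sg (x : ZMod 2) : ℂ := if x = 0 then 1 else -1

theorem sg_zero : sg 0 = 1 := if_pos rfl

theorem sg_one : sg 1 = -1 := if_neg (by decide)

theorem zmod_two_cases : ∀ x : ZMod 2, x = 0 ∨ x = 1 := by decide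

theorem sg_add (x y : ZMod 2) : sg (x + y) = sg x * sg y := by
  have h11 : (1 : ZMod 2) + 1 = 0 := by decide
  rcases zmod_two_cases x with rfl | rfl <;> rcases zmod_two_cases y with rfl | rfl <;>
    simp [sg_zero, sg_one, h11]

theorem sg_mul_self (x : ZMod 2) : sg x * sg x = 1 := by
  rcases zmod_two_cases x with rfl | rfl <;> simp [sg_zero, sg_one]

theorem sg_ne_zero (x : ZMod 2) : sg x ≠ 0 := left_ne_zero_of_mul_eq_one (sg_mul_self x)

/-- the denominator `c z + d`. -/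
def dn (γ : SL(2, ℤ)) (z : ℍ) : ℂ := ((γ 1 0 : ℤ) : ℂ) * z + ((γ 1 1 : ℤ) : ℂ)

theorem dn_ne_zero (γ : SL(2, ℤ)) (z : ℍ) : dn γ z ≠ 0 := by
  have := UpperHalfPlane.denom_ne_zero (γ : GL (Fin 2) ℝ) z
  rwa [ModularGroup.denom_apply] at this

theorem coe_smul' (γ : SL(2, ℤ)) (z : ℍ) :
    ((γ • z : ℍ) : ℂ) = (((γ 0 0 : ℤ) : ℂ) * z + ((γ 0 1 : ℤ) : ℂ)) / dn γ z := by
  rw [UpperHalfPlane.coe_specialLinearGroup_apply]
  simp [dn]

theorem dn_mul (γ γ' : SL(2, ℤ)) (z : ℍ) : dn (γ * γ') z = dn γ (γ' • z) * dn γ' z := by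
  obtain ⟨-, -, h3, h4⟩ := mul_entries γ γ'
  have h0 := dn_ne_zero γ' z
  rw [dn, h3, h4, dn, coe_smul']
  field_simp
  rw [dn]
  push_cast
  ring

theorem dn_one (z : ℍ) : dn 1 z = 1 := by simp [dn]

/-- the multiplier system of `η^12`. -/
theorem phi_smul (γ : SL(2, ℤ)) (z : ℍ) : phi (γ • z) = sg (ep γ) * dn γ z ^ 6 * phi z := by
  have hγ : γ ∈ Subgroup.closure {ModularGroup.S, ModularGroup.T} := by
    simp [SpecialLinearGroup.SL2Z_generators]
  induction hγ using Subgroup.closure_induction generalizing z with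
  | one => simp [ep_one, sg_zero, dn_one]
  | mem g hg =>
    simp only [Set.mem_insert_iff, Set.mem_singleton_iff] at hg
    rcases hg with rfl | rfl
    · rw [phi_S, ep_S]
      simp [sg_one, dn, ModularGroup.coe_S]
    · rw [phi_T, ep_T]
      simp [sg_one, dn, ModularGroup.coe_T]
  | mul g h _ _ ig ih =>
    rw [mul_smul, ig, ih, ep_mul, sg_add, dn_mul]
    ring
  | inv g _ ig =>
    have h1 := ig (g⁻¹ • z)
    rw [← mul_smul, mul_inv_cancel, one_smul] at h1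
    have h2 := dn_mul g g⁻¹ z
    rw [mul_inv_cancel, dn_one] at h2
    rw [ep_inv]
    have h3 := sg_mul_self (ep g)
    calc phi (g⁻¹ • z) = (sg (ep g) * sg (ep g)) * (dn g (g⁻¹ • z) * dn g⁻¹ z) ^ 6 *
          phi (g⁻¹ • z) := by rw [h3, ← h2]; ring
      _ = sg (ep g) * dn g⁻¹ z ^ 6 * (sg (ep g) * dn g (g⁻¹ • z) ^ 6 * phi (g⁻¹ • z)) := by ring
      _ = _ := by rw [← h1]

/-! ### the Hauptmodul of level `3` -/

/-- `t₃ = (η(3z)/η(z))^12`. -/
noncomputable def t3 (z : ℍ) : ℂ := (ModularForm.eta (3 * (z : ℂ)) / ModularForm.eta (z : ℂ)) ^ 12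

theorem t3_eq (z : ℍ) : t3 z = phi (S22.tri 3 1 0 three_ne_zero one_ne_zero • z) / phi z := by
  rw [t3, phi, phi, S22.coe_tri_smul, div_pow]
  congr 3
  push_cast
  ring

theorem phi_tri_one_three (z : ℍ) :
    phi (S22.tri 1 3 0 one_ne_zero three_ne_zero • z) = ModularForm.eta ((z : ℂ) / 3) ^ 12 := by
  rw [phi, S22.coe_tri_smul]
  congr 2
  push_cast
  ring

theorem t3_S (z : ℍ) : t3 (ModularGroup.S • z) =
    ((3 : ℂ)⁻¹) ^ 6 * (ModularForm.eta ((z : ℂ) / 3) / ModularForm.eta (z : ℂ)) ^ 12 := by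
  have hz : (z : ℂ) ≠ 0 := z.ne_zero
  have hc : ∀ w : ℍ, ((ModularGroup.S • w : ℍ) : ℂ) = -1 / (w : ℂ) := by
    intro w
    rw [UpperHalfPlane.modular_S_smul]
    show (-(w : ℂ))⁻¹ = _
    rw [neg_div, one_div, inv_neg]
  have e : S22.tri 3 1 0 three_ne_zero one_ne_zero • (ModularGroup.S • z) =
      ModularGroup.S • (S22.tri 1 3 0 one_ne_zero three_ne_zero • z) := by
    ext
    rw [S22.coe_tri_smul, hc, hc, S22.coe_tri_smul]
    push_cast
    simp only [add_zero, one_mul, div_one]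
    field_simp
  rw [t3_eq, e, phi_S, phi_S, phi_tri_one_three, S22.coe_tri_smul, div_pow]
  have h1 := phi_ne_zero z
  rw [phi] at h1 ⊢
  push_cast
  simp only [add_zero, one_mul]
  field_simp

theorem t3_Gamma0 (δ : SL(2, ℤ)) (hδ : δ ∈ CongruenceSubgroup.Gamma0 3) (z : ℍ) :
    t3 (δ • z) = t3 z := by
  rw [CongruenceSubgroup.Gamma0_mem, ZMod.intCast_zmod_eq_zero_iff_dvd] at hδ
  obtain ⟨c', hc'⟩ := hδ
  have hdet : δ 0 0 * δ 1 1 - δ 0 1 * δ 1 0 = 1 := by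
    have := δ.det_coe
    rw [Matrix.det_fin_two] at this
    exact this
  set δ' : SL(2, ℤ) := ⟨!![δ 0 0, 3 * δ 0 1; c', δ 1 1], by
    rw [Matrix.det_fin_two_of]
    rw [hc'] at hdet
    push_cast at hdet
    linear_combination hdet⟩ with hδ'
  have h00 : δ' 0 0 = δ 0 0 := rfl
  have h01 : δ' 0 1 = 3 * δ 0 1 := rfl
  have h10 : δ' 1 0 = c' := rfl
  have h11 : δ' 1 1 = δ 1 1 := rfl
  set w := S22.tri 3 1 0 three_ne_zero one_ne_zero • z with hw
  have hwc : (w : ℂ) = 3 * (z : ℂ) := by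
    rw [hw, S22.coe_tri_smul]
    push_cast
    ring
  have hdn : dn δ' w = dn δ z := by
    rw [dn, dn, h10, h11, hwc, hc']
    push_cast
    ring
  have e : S22.tri 3 1 0 three_ne_zero one_ne_zero • (δ • z) = δ' • w := by
    ext
    rw [S22.coe_tri_smul, coe_smul', coe_smul', hdn, h00, h01, hwc]
    push_cast
    ring
  have hep : ep δ' = ep δ := by
    have h3 : (3 : ZMod 2) = 1 := by decide
    rw [ep, ep, h00, h01, h10, h11, hc']
    push_cast
    rw [h3, one_mul, one_mul]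
  rw [t3_eq, t3_eq, e, phi_smul, phi_smul δ z, hep, hdn]
  have h1 := sg_ne_zero (ep δ)
  have h2 := dn_ne_zero δ z
  have h3 := phi_ne_zero z
  field_simp
  rw [hw]

end Fermat.Agent.S18.Mo3a
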