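import Mathlib
import Fermat.Agent.S18.Mo3aThree
import Fermat.Agent.S18.Mo3aThreeInv

set_option autoImplicit false

/-! # S18 (Mo3a): the Hauptmodul of level `3`, final statement -/

namespace Fermat.Agent.S18

open ModularCurve Polynomial
open Fermat.Agent.S28

namespace Mo3a

theorem exists_haupt_three (ℓ : ℕ) [Fact ℓ.Prime] (hℓ : ¬ ℓ ∣ 3) :
    ∃ (I : IgusaData 3 ℓ) (tq : LaurentSeries ℤ), I.u = coeffMap (Int.castRingHom (Zl ℓ)) tq ∧
      LB 1 tq ∧ tq.coeff 1 = 1 ∧ HauptShape 4 I.Ψ :=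
  exists_haupt_three_of t3 (fun _ => rfl) (fun δ hδ z => t3_Gamma0 δ hδ z) t3_S ℓ hℓ

end Mo3a

end Fermat.Agent.S18
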