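import Mathlib
import Fermat.Agent.S18.Mo3aPack
import Fermat.Agent.S18.Mo1g

set_option autoImplicit false
set_option linter.style.haveILetI false
set_option linter.unusedSectionVars false
set_option synthInstance.maxHeartbeats 400000

/-! # S18 [Mo3] bridge: from `IgusaData` of Hauptmodul shape to the relation `α j t = Q(t)` -/

namespace Fermat.Agent.S18.Mo3d

noncomputable section

open ModularCurve Polynomial IntermediateField
open Fermat.Agent.S24 (Kb FN jF)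
open Fermat.Agent.S28 (IgusaData Zl incl)
open Fermat.Agent.S28.RAT (ev1)

section shape

variable {B : Type} [CommRing B]

theorem shape_eq {n : ℕ} {Ψ : B[X][X]} (H : Mo3a.HauptShape n Ψ) :
    Ψ = Ψ.map (C.comp (evalRingHom 0)) + C (C ((Ψ.coeff 1).coeff 1) * X) * X := by
  ext1 m
  rw [coeff_add, coeff_map, coeff_C_mul, coeff_X, RingHom.comp_apply, coe_evalRingHom]
  rcases Nat.lt_or_ge m 2 with hm | hm
  · interval_cases m
    · obtain ⟨e, -, he⟩ := H.zero
      rw [he]; simp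
    · rw [if_pos rfl, mul_one, ← coeff_zero_eq_eval_zero, add_comm]
      exact eq_X_add_C_of_natDegree_le_one H.one_le
  · rw [if_neg (by omega), mul_zero, add_zero, ← coeff_zero_eq_eval_zero]
    exact eq_C_of_natDegree_eq_zero (H.high m hm)

theorem eval₂_shape {n : ℕ} {Ψ : B[X][X]} (H : Mo3a.HauptShape n Ψ) (x : LaurentSeries B) :
    Ψ.eval₂ (ev1 B) x = (Ψ.map (evalRingHom 0)).eval₂ HahnSeries.C x +
      HahnSeries.C ((Ψ.coeff 1).coeff 1) * jqModC B * x := by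
  conv_lhs => rw [shape_eq H]
  rw [eval₂_add, eval₂_mul, eval₂_C, eval₂_X, eval₂_map, eval₂_map]
  congr 1
  · congr 1
    ext b
    · simp [ev1]
    · simp [ev1]
  · simp [ev1]

end shape

variable {ℓ : ℕ} [Fact ℓ.Prime]

/-- `ℤ_(ℓ) → ℚ̄`. -/
def rho (ℓ : ℕ) : Zl ℓ →+* Kb := (algebraMap ℚ Kb).comp (incl ℓ)

theorem rho_injective : Function.Injective (rho ℓ) :=
  (algebraMap ℚ Kb).injective.comp Subtype.val_injective

theorem rho_mem (A : ValuationSubring Kb) (hA : A.LiesOverPrime ℓ) (x : Zl ℓ) : rho ℓ x ∈ A := by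
  have h1 : rho ℓ x = ((x : ℚ).num : Kb) * (((x : ℚ).den : ℕ) : Kb)⁻¹ := by
    show algebraMap ℚ Kb (x : ℚ) = _
    rw [eq_ratCast, Rat.cast_def, div_eq_mul_inv]
  rw [h1]
  refine mul_mem (intCast_mem A _) (Mo1.natCast_inv_mem A hA (Fact.out : ℓ.Prime) _ ?_)
  intro h
  have h2 : (x : ℚ).den.Coprime ℓ := x.2
  exact (Fact.out : ℓ.Prime).one_lt.ne' (Nat.dvd_one.mp (h2 ▸ Nat.dvd_gcd h dvd_rfl))

theorem rho_inv_mem (A : ValuationSubring Kb) (hA : A.LiesOverPrime ℓ) (x : Zl ℓ) (hx : IsUnit x) :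
    (rho ℓ x)⁻¹ ∈ A := by
  obtain ⟨y, hy⟩ := hx.exists_right_inv
  have h1 : rho ℓ x * rho ℓ y = 1 := by rw [← map_mul, hy, map_one]
  rw [inv_eq_of_mul_eq_one_right h1]
  exact rho_mem A hA y

variable {N : ℕ} [NeZero N] (I : IgusaData N ℓ)

/-- the `q`-expansion of the Hauptmodul over `ℚ̄`. -/
def UU : LaurentSeries Kb := coeffMap (rho ℓ) I.u

/-- `Q`. -/
def QQ : Kb[X] := (I.Ψ.map (evalRingHom 0)).map (rho ℓ)

/-- `α`. -/
def aa : Kb := - rho ℓ ((I.Ψ.coeff 1).coeff 1)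

theorem monic_QQ : (QQ I).Monic := (I.monic.map _).map _

theorem natDegree_QQ : (QQ I).natDegree = I.Ψ.natDegree := by
  rw [QQ, (I.monic.map _).natDegree_map, I.monic.natDegree_map]

theorem coeff_QQ_mem (A : ValuationSubring Kb) (hA : A.LiesOverPrime ℓ) (n : ℕ) :
    (QQ I).coeff n ∈ A := by
  rw [QQ, coeff_map]; exact rho_mem A hA _

theorem aa_mem (A : ValuationSubring Kb) (hA : A.LiesOverPrime ℓ) : aa I ∈ A :=
  neg_mem (rho_mem A hA _)

variable {n : ℕ} (H : Mo3a.HauptShape n I.Ψ)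

include H in
theorem aa_ne_zero : aa I ≠ 0 := by
  rw [aa, neg_ne_zero]
  exact (map_ne_zero_iff _ rho_injective).2 H.one_unit.ne_zero

include H in
theorem aa_inv_mem (A : ValuationSubring Kb) (hA : A.LiesOverPrime ℓ) : (aa I)⁻¹ ∈ A := by
  rw [aa, inv_neg]
  exact neg_mem (rho_inv_mem A hA _ H.one_unit)

include H in
theorem exists_eval_QQ : ∃ e : Zl ℓ, IsUnit e ∧ (QQ I).eval 0 = rho ℓ e := by
  obtain ⟨e, he, h0⟩ := H.zero
  refine ⟨e, he, ?_⟩
  rw [← coeff_zero_eq_eval_zero, QQ, coeff_map, coeff_map, h0]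
  simp

include H in
theorem eval_QQ_ne_zero : (QQ I).eval 0 ≠ 0 := by
  obtain ⟨e, he, h0⟩ := exists_eval_QQ I H
  rw [h0]
  exact (map_ne_zero_iff _ rho_injective).2 he.ne_zero

include H in
theorem eval_QQ_inv_mem (A : ValuationSubring Kb) (hA : A.LiesOverPrime ℓ) :
    ((QQ I).eval 0)⁻¹ ∈ A := by
  obtain ⟨e, he, h0⟩ := exists_eval_QQ I H
  rw [h0]
  exact rho_inv_mem A hA e he

include H in
/-- the relation in `ℚ̄((q))`. -/
theorem rel_UU : algebraMap Kb (LaurentSeries Kb) (aa I) * jqModC Kb * UU I = aeval (UU I) (QQ I) := by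
  have h1 := I.root
  change I.Ψ.eval₂ (ev1 (Zl ℓ)) I.u = 0 at h1
  rw [eval₂_shape H] at h1
  have h2 := congrArg (coeffMap (rho ℓ)) h1
  rw [map_add, map_mul, map_mul, map_zero, coeffMap_jqModC, hom_eval₂] at h2
  have h3 : (coeffMap (rho ℓ)).comp (HahnSeries.C : Zl ℓ →+* LaurentSeries (Zl ℓ)) =
      (algebraMap Kb (LaurentSeries Kb)).comp (rho ℓ) := by
    ext1 b
    rw [RingHom.comp_apply, RingHom.comp_apply, ← Mo1.GenData.C_eq_algebraMap]
    exact coeffMap_single _ _ _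
  have h4 : coeffMap (rho ℓ) (HahnSeries.C ((I.Ψ.coeff 1).coeff 1)) =
      algebraMap Kb (LaurentSeries Kb) (rho ℓ ((I.Ψ.coeff 1).coeff 1)) :=
    RingHom.congr_fun h3 _
  rw [h3, h4, ← eval₂_map] at h2
  rw [aeval_def, aa, map_neg]
  show _ = eval₂ _ (UU I) ((I.Ψ.map (evalRingHom 0)).map (rho ℓ))
  have h5 : coeffMap (rho ℓ) I.u = UU I := rfl
  rw [h5] at h2
  linear_combination -h2

end

end Fermat.Agent.S18.Mo3d
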