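import Mathlib
import Fermat.Agent.S18.Mo3d

set_option autoImplicit false
set_option linter.style.haveILetI false
set_option linter.unusedSectionVars false
set_option synthInstance.maxHeartbeats 400000

/-! # S18 [Mo3] bridge, part 2: the Hauptmodul lies in `FN N` -/

namespace Fermat.Agent.S18.Mo3d

noncomputable section

open ModularCurve Polynomial IntermediateField
open Fermat.Agent.S24 (Kb FN jF Jd)
open Fermat.Agent.S28 (IgusaData Zl incl)
open Fermat.Agent.S28.RAT (ev1 coeffMap_eval₂_ev1)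

variable {ℓ : ℕ} [Fact ℓ.Prime] {N : ℕ} [NeZero N] (I : IgusaData N ℓ)

theorem coeffEmb_mem_of_mem (x : LaurentSeries ℚ)
    (hx : x ∈ adjoin ℚ {jq, coeffMap (incl ℓ) I.u}) :
    coeffEmb Kb x ∈ adjoin Kb {jqModC Kb, UU I} := by
  set G := adjoin Kb {jqModC Kb, UU I} with hG
  let S : Subfield (LaurentSeries ℚ) := G.toSubfield.comap (coeffEmb Kb)
  have hle : Subfield.closure (Set.range (algebraMap ℚ (LaurentSeries ℚ)) ∪
      {jq, coeffMap (incl ℓ) I.u}) ≤ S := by
    rw [Subfield.closure_le]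
    rintro y (⟨r, rfl⟩ | hy)
    · rw [eq_ratCast]
      exact SubfieldClass.ratCast_mem S r
    · rcases hy with rfl | hy
      · show coeffEmb Kb jq ∈ G
        rw [coeffEmb, ← jqModC_rat, coeffMap_jqModC]
        exact subset_adjoin _ _ (by simp)
      · rw [Set.mem_singleton_iff] at hy
        subst hy
        show coeffEmb Kb (coeffMap (incl ℓ) I.u) ∈ G
        rw [coeffEmb, coeffMap_coeffMap]
        exact subset_adjoin _ _ (by simp [UU, rho])
  exact hle hx

theorem FN_le_adjoin : modularFunctionFieldBar N ≤ adjoin Kb {jqModC Kb, UU I} := by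
  have h1 : modularFunctionFieldBar N =
      adjoin Kb (Subtype.val '' Set.range (Jd N)) := by
    rw [← lift_adjoin, S24.adjoin_range_Jd, lift_top]
  rw [h1, adjoin_le_iff]
  rintro _ ⟨_, ⟨d, rfl⟩, rfl⟩
  haveI : NeZero d.1 := ⟨d.ne_zero⟩
  rw [S24.coe_Jd]
  exact coeffEmb_mem_of_mem I _ (I.gen d.1 d.2)

theorem phE_eq_ev1 : Mo1.phE (K := Kb) (jqModC Kb) = ev1 Kb := by
  apply Polynomial.ringHom_ext
  · intro a
    show aeval (jqModC Kb) (C a) = ev1 Kb (C a)
    rw [aeval_C]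
    simpa [ev1] using (algebraMap_laurentSeries_eq_single Kb a)
  · show aeval (jqModC Kb) X = ev1 Kb X
    rw [aeval_X]
    simp [ev1]

theorem UU_mem (hdeg : I.Ψ.natDegree = Fintype.card (S20.Quo N)) :
    UU I ∈ modularFunctionFieldBar N := by
  set J := jqModC Kb with hJ
  have hle : Kb⟮J⟯ ≤ modularFunctionFieldBar N := by
    rw [adjoin_simple_le_iff, hJ, ← Mo1.coe_jF_eq (M := N)]
    exact SetLike.coe_mem _
  have h1 : relfinrank Kb⟮J⟯ (modularFunctionFieldBar N) = Fintype.card (S20.Quo N) := by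
    rw [hJ, ← Mo1.coe_jF_eq (M := N), Mo1.relfinrank_adjoin_simple, Mo2.card_quo_eq_finrank]
  rw [relfinrank_eq_finrank_of_le hle] at h1
  -- `U` is integral over `Kb(J)` of degree `≤ natDegree Ψ`
  set p : Kb⟮J⟯[X] := (I.Ψ.map (mapRingHom (rho ℓ))).map (Mo1.ph1 J) with hp
  have hpm : p.Monic := (I.monic.map _).map _
  have hpd : p.natDegree = I.Ψ.natDegree := by
    rw [hp, (I.monic.map _).natDegree_map, I.monic.natDegree_map]
  have hroot : aeval (UU I) p = 0 := by
    rw [hp, Mo1.aeval_map_ph1, phE_eq_ev1, UU, ← coeffMap_eval₂_ev1]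
    have := I.root
    change I.Ψ.eval₂ (ev1 (Zl ℓ)) I.u = 0 at this
    rw [this, map_zero]
  have hint : IsIntegral Kb⟮J⟯ (UU I) := ⟨p, hpm, hroot⟩
  haveI := adjoin.finiteDimensional hint
  have h2 : Module.finrank Kb⟮J⟯ Kb⟮J⟯⟮UU I⟯ ≤ I.Ψ.natDegree := by
    rw [adjoin.finrank hint, ← hpd]
    exact natDegree_le_of_dvd (minpoly.dvd _ _ hroot) hpm.ne_zero
  have h3 : extendScalars hle ≤ Kb⟮J⟯⟮UU I⟯ := by
    intro x hx
    rw [mem_extendScalars] at hx
    have h4 : adjoin Kb {J, UU I} ≤ (Kb⟮J⟯⟮UU I⟯).restrictScalars Kb := by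
      rw [adjoin_le_iff]
      rintro y (rfl | hy)
      · exact (Kb⟮J⟯⟮UU I⟯).algebraMap_mem (⟨J, mem_adjoin_simple_self Kb J⟩ : Kb⟮J⟯)
      · rw [Set.mem_singleton_iff] at hy
        rw [hy]
        exact mem_adjoin_simple_self Kb⟮J⟯ (UU I)
    exact h4 (FN_le_adjoin I hx)
  have h5 := eq_of_le_of_finrank_le h3 (by rw [h1, ← hdeg]; exact h2)
  have h6 : UU I ∈ extendScalars hle := by
    rw [h5]; exact mem_adjoin_simple_self _ _
  exact h6

theorem FN_mono {s M : ℕ} [NeZero s] [NeZero M] (h : s ∣ M) :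
    modularFunctionFieldBar s ≤ modularFunctionFieldBar M :=
  adjoin.mono _ _ _ (Set.image_mono (full_degeneracy_le h))

/-- the relation in any intermediate field containing `U`. -/
theorem rel_FN {n : ℕ} (H : Mo3a.HauptShape n I.Ψ) (M : ℕ) [NeZero M]
    (hU : UU I ∈ modularFunctionFieldBar M) :
    algebraMap Kb (FN M) (aa I) * jF M * (⟨UU I, hU⟩ : FN M) =
      aeval (⟨UU I, hU⟩ : FN M) (QQ I) := by
  apply Subtype.ext
  have h1 : ((aeval (⟨UU I, hU⟩ : FN M) (QQ I) : FN M) : LaurentSeries Kb) =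
      aeval (UU I) (QQ I) := by
    have := (aeval_algebraMap_apply (LaurentSeries Kb) (⟨UU I, hU⟩ : FN M) (QQ I))
    exact this.symm
  rw [h1, ← rel_UU I H]
  show (algebraMap Kb (FN M) (aa I) : LaurentSeries Kb) * ((jF M : FN M) : LaurentSeries Kb) *
    UU I = _
  rw [Mo1.coe_jF_eq]
  rfl

end

end Fermat.Agent.S18.Mo3d
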