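import Mathlib
import Fermat.Agent.S18.Glue5
import Fermat.Agent.S18.Mo3e
import Fermat.Agent.S18.Mo3aTwo
import Fermat.Agent.S18.Mo3aThreeFinal

set_option autoImplicit false
set_option linter.style.haveILetI false
set_option linter.unusedSectionVars false
set_option synthInstance.maxHeartbeats 400000

/-! # S18 [GLUE-23]: `CoreStmt A π M` for `ℓ = 3` (`2 ∣ M`) and `ℓ = 2` (`3 ∣ M`) -/

namespace Fermat.Agent.S18.Asm

open ModularCurve AlgebraicCurve IntermediateField Polynomial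
open Fermat.Agent.S24 (Kb FN jF)
open Fermat.Agent.S28 (IgusaData)
open Fermat.Agent.S18.Mo1

theorem card_quo_two : Fintype.card (S20.Quo 2) = 3 := by
  rw [← Nat.card_eq_fintype_card, Fermat.Agent.S20.card_quo, Mo3b.psi_two]

theorem card_quo_three : Fintype.card (S20.Quo 3) = 4 := by
  rw [← Nat.card_eq_fintype_card, Fermat.Agent.S20.card_quo, Mo3b.psi_three]

/-- CORE at level `M` from a Hauptmodul at level `s ∣ M`, `s ∈ {2, 3}`. -/
theorem coreStmt_of_haupt {ℓ : ℕ} (hℓ : ℓ.Prime) (A : ValuationSubring Kb)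
    (hA : A.LiesOverPrime ℓ) (M : ℕ) [NeZero M] (hM : ¬ ℓ ∣ M) {k : Type} [Field k]
    (π : A →+* k) (hπ : Function.Surjective π) (s : ℕ) [NeZero s] (hs : s = 2 ∨ s = 3)
    (hsM : s ∣ M) [Fact ℓ.Prime] (I : IgusaData s ℓ) (H : Mo3a.HauptShape (s + 1) I.Ψ) :
    CoreStmt A π M := by
  obtain ⟨G⟩ := exists_genData hℓ A hA M hM π
  haveI : IsAlgClosed k := isAlgClosed_of_valuationSubring A π hπ
  haveI : Infinite k := IsAlgClosed.instInfinite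
  refine Glue.coreStmt_of_vcore G hπ ?_
  intro m hm f t0 ht0 hf hdiv
  haveI := G.isSeparable hπ
  haveI : Algebra.IsAlgebraic ℚ Kb := AlgebraicClosure.isAlgebraic ℚ
  have hcq : I.Ψ.natDegree = Fintype.card (S20.Quo s) := by
    rw [H.natDegree]
    rcases hs with rfl | rfl
    · exact card_quo_two.symm
    · exact card_quo_three.symm
  have hUs : Mo3d.UU I ∈ modularFunctionFieldBar s := Mo3d.UU_mem I hcq
  have hUM : Mo3d.UU I ∈ modularFunctionFieldBar M := Mo3d.FN_mono hsM hUs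
  have hα0 := Mo3d.aa_ne_zero I H
  have hQ0 := Mo3d.eval_QQ_ne_zero I H
  have hdeg : (Mo3d.QQ I).natDegree = s + 1 := by rw [Mo3d.natDegree_QQ, H.natDegree]
  have hcard : (Mo3b.brSet (Mo3d.aa I) (Mo3d.QQ I)).card ≤ 1 := by
    rcases hs with rfl | rfl
    · exact Mo3b.card_brSet_two _ hα0 _ hQ0 hdeg _ (Mo3d.rel_FN I H 2 hUs)
    · exact Mo3b.card_brSet_three _ hα0 _ hQ0 hdeg _ (Mo3d.rel_FN I H 3 hUs)
  exact Mo3c.core_t M (G.V hπ) (G.goodCoord hπ) (Mo3d.aa I) (Mo3d.aa_mem I A hA)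
    (Mo3d.aa_inv_mem I H A hA) hα0 (Mo3d.QQ I) (Mo3d.monic_QQ I)
    (by rw [hdeg]; rcases hs with rfl | rfl <;> omega) (Mo3d.coeff_QQ_mem I A hA) hQ0
    (Mo3d.eval_QQ_inv_mem I H A hA) ⟨Mo3d.UU I, hUM⟩ (Mo3d.rel_FN I H M hUM) hcard
    (fun c c0 hc hc0 => rank_one_of_liesOverPrime A hℓ hA c c0 hc hc0) m hm f t0 ht0 hf hdiv

theorem coreStmt_three {ℓ : ℕ} (hℓ : ℓ.Prime) (A : ValuationSubring Kb) (hA : A.LiesOverPrime ℓ)
    (M : ℕ) [NeZero M] (hM : ¬ ℓ ∣ M) {k : Type} [Field k] [IsAlgClosed k] (π : A →+* k)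
    (hπ : Function.Surjective π) (h3 : ℓ = 3) (h2 : 2 ∣ M) : CoreStmt A π M := by
  haveI : Fact ℓ.Prime := ⟨hℓ⟩
  obtain ⟨I, -, -, -, -, H⟩ := Mo3a.exists_haupt_two ℓ (by rw [h3]; decide)
  exact coreStmt_of_haupt hℓ A hA M hM π hπ 2 (Or.inl rfl) h2 I H

theorem coreStmt_two {ℓ : ℕ} (hℓ : ℓ.Prime) (A : ValuationSubring Kb) (hA : A.LiesOverPrime ℓ)
    (M : ℕ) [NeZero M] (hM : ¬ ℓ ∣ M) {k : Type} [Field k] [IsAlgClosed k] (π : A →+* k)
    (hπ : Function.Surjective π) (h2 : ℓ = 2) (h3 : 3 ∣ M) : CoreStmt A π M := by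
  haveI : Fact ℓ.Prime := ⟨hℓ⟩
  obtain ⟨I, -, -, -, -, H⟩ := Mo3a.exists_haupt_three ℓ (by rw [h2]; decide)
  exact coreStmt_of_haupt hℓ A hA M hM π hπ 3 (Or.inr rfl) h3 I H

end Fermat.Agent.S18.Asm
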