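import Mathlib
import Fermat.Agent.S18.AbsMain
import Fermat.Agent.S18.DualRed

set_option autoImplicit false
set_option linter.style.haveILetI false

/-! # S18: CORE in the `VData` setting, from the branch hypotheses -/

namespace Fermat.Agent.S18

open Polynomial IntermediateField AlgebraicCurve

variable {L F k κ : Type} [Field L] [IsAlgClosed L] [CharZero L] [Field F] [Algebra L F]
  [Field k] [Field κ] [Algebra k κ]

/-- **CORE, abstract form, all abstract inputs discharged.** -/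
theorem abs_core_of_hunr (V : VData L F k κ) (t : F) (h : GR.GoodCoord V t)
    (hrk : ∀ c c0 : L, V.A.valuation c < 1 → c0 ≠ 0 →
      ∃ j : ℕ, V.A.valuation c ^ j ≤ V.A.valuation c0)
    (β₀ β₁ : V.A[X]) (hsq₀ : Squarefree (β₀.map V.π)) (hsq₁ : Squarefree (β₁.map V.π))
    (hunr₀ : GR.Hunr L t (β₀.map V.A.subtype)) (hunr₁ : GR.Hunr L t⁻¹ (β₁.map V.A.subtype))
    (m : ℕ) (hm : (m : k) ≠ 0) (f : F) (t0 : κ) (ht0 : t0 ≠ 0) (hf : V.rd f = t0 ^ m)
    (hdiv : ∀ P : Place L F, (m : ℤ) ∣ P.ord f) : ∃ s : F, f = s ^ m := by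
  haveI := h.fd
  obtain ⟨g, m0, -, -, h1, h2, -⟩ := h.good_reduction_of_hunr β₀ β₁ hsq₀ hsq₁ hunr₀ hunr₁
  refine abs_core V t h.htr h.hn hrk ⟨m0, fun a b hab => ?_⟩ m hm f t0 ht0 hf hdiv
  have := (h2 a b hab).trans (h1 a b hab).symm
  exact_mod_cast this

end Fermat.Agent.S18
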