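import Fermat.Agent.S18.Ortho

set_option autoImplicit false

/-!
# S18: abstract core (Newton iteration + bounded torsion of the Čech `H¹`)
-/

namespace Fermat.Agent.S18

open scoped BigOperators

variable {L F Γ : Type*} [Field L] [Field F] [Algebra L F] [LinearOrderedCommGroupWithZero Γ]
  {v : Valuation F Γ}

theorem ca_v_natCast_le_one (n : ℕ) : v (n : F) ≤ 1 := by
  induction n with
  | zero => simp
  | succ n ih =>
    push_cast
    exact (v.map_add _ _).trans (max_le ih (by simp))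

theorem ca_one_add_pow_expand (y : F) (hy : v y ≤ 1) (n : ℕ) :
    ∃ r : F, v r ≤ 1 ∧ (1 + y) ^ n = 1 + n * y + y ^ 2 * r := by
  induction n with
  | zero => exact ⟨0, by simp, by simp⟩
  | succ n ih =>
    obtain ⟨r, hr, h⟩ := ih
    refine ⟨n + r + r * y, ?_, ?_⟩
    · refine (v.map_add _ _).trans (max_le ((v.map_add _ _).trans
        (max_le (ca_v_natCast_le_one n) hr)) ?_)
      rw [map_mul]
      exact mul_le_one' hr hy
    · rw [pow_succ, h]
      push_cast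
      ring

theorem ca_v_eq_one_of_approx {p : ℕ} (hp0 : p ≠ 0) {f s : F} (hf : v f = 1)
    (h : v (s ^ p * f - 1) < 1) : v s = 1 := by
  have h1 : v (s ^ p * f) = 1 := by
    have : s ^ p * f = 1 + (s ^ p * f - 1) := by ring
    rw [this]
    exact Valuation.map_one_add_of_lt v h
  rw [map_mul, hf, mul_one, map_pow] at h1
  exact (pow_eq_one_iff_left hp0).1 h1

/-- one Newton step -/
theorem ca_newton_step {p : ℕ} (hp : v (p : F) = 1) {f s : F}
    (h : v (s ^ p * f - 1) ≤ 1) :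
    v ((s * (1 - (s ^ p * f - 1) / p)) ^ p * f - 1) ≤ v (s ^ p * f - 1) ^ 2 := by
  have hpF : (p : F) ≠ 0 := by
    intro h0
    rw [h0, map_zero] at hp
    exact zero_ne_one hp
  set ε := s ^ p * f - 1 with hε
  set y : F := -(ε / p) with hy
  have hvy : v y = v ε := by
    rw [hy, Valuation.map_neg, map_div₀, hp, div_one]
  obtain ⟨r, hr, hexp⟩ := ca_one_add_pow_expand (v := v) y (hvy ▸ h) p
  have hpy : (p : F) * y = -ε := by
    rw [hy]; field_simp
  have key : (s * (1 - ε / p)) ^ p * f - 1 = -(ε ^ 2) + (1 + ε) * (y ^ 2 * r) := by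
    have h1 : (1 - ε / p) = 1 + y := by rw [hy]; ring
    have h2 : s ^ p * f = 1 + ε := by rw [hε]; ring
    rw [h1, mul_pow, hexp, hpy]
    calc s ^ p * (1 + -ε + y ^ 2 * r) * f - 1 = (s ^ p * f) * (1 + -ε + y ^ 2 * r) - 1 := by ring
      _ = (1 + ε) * (1 + -ε + y ^ 2 * r) - 1 := by rw [h2]
      _ = _ := by ring
  rw [key]
  refine (v.map_add _ _).trans (max_le ?_ ?_)
  · rw [Valuation.map_neg, map_pow]
  · rw [map_mul, map_mul, map_pow, hvy]
    have h1 : v (1 + ε) ≤ 1 := (v.map_add _ _).trans (max_le (by simp) h)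
    calc v (1 + ε) * (v ε ^ 2 * v r) ≤ 1 * (v ε ^ 2 * 1) := by gcongr
      _ = v ε ^ 2 := by simp

/-- Newton iteration inside an increasing family of subspaces. -/
theorem ca_newton_all {p : ℕ} (hp : v (p : F) = 1) {f : F} (hf : v f = 1)
    (U : ℕ → Submodule L F) (hmono : ∀ {a a'}, a ≤ a' → U a ≤ U a')
    (hnewt : ∀ a s, s ∈ U a → s ^ (p + 1) * f ∈ U ((p + 1) * a))
    {a0 : ℕ} {s0 : F} (hs0 : s0 ∈ U a0) (h0 : v (s0 ^ p * f - 1) < 1) (n : ℕ) :
    ∃ a, ∃ s ∈ U a, v (s ^ p * f - 1) ≤ v (s0 ^ p * f - 1) ^ (n + 1) ∧ v (s - s0) < 1 := by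
  have hpF : (p : F) ≠ 0 := by
    intro h0
    rw [h0, map_zero] at hp
    exact zero_ne_one hp
  have hp0 : p ≠ 0 := by
    rintro rfl
    exact hpF (by simp)
  have hpL : (p : L) ≠ 0 := by
    intro h
    apply hpF
    have := congrArg (algebraMap L F) h
    simpa using this
  induction n with
  | zero => exact ⟨a0, s0, hs0, by simp, by simp⟩
  | succ n ih =>
    obtain ⟨a, s, hs, h1, h2⟩ := ih
    set γ := v (s0 ^ p * f - 1) with hγ
    have hγn : γ ^ (n + 1) < 1 := pow_lt_one₀ zero_le h0 (Nat.succ_ne_zero n)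
    have hε1 : v (s ^ p * f - 1) < 1 := h1.trans_lt hγn
    have hvs : v s = 1 := ca_v_eq_one_of_approx hp0 hf hε1
    refine ⟨(p + 1) * a, s * (1 - (s ^ p * f - 1) / p), ?_, ?_, ?_⟩
    · have : s * (1 - (s ^ p * f - 1) / p) =
          ((1 : L) + (p : L)⁻¹) • s - (p : L)⁻¹ • (s ^ (p + 1) * f) := by
        simp only [Algebra.smul_def, map_add, map_one, map_inv₀, map_natCast]
        field_simp
        ring
      rw [this]
      refine Submodule.sub_mem _ (Submodule.smul_mem _ _ (hmono ?_ hs))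
        (Submodule.smul_mem _ _ (hnewt a s hs))
      exact Nat.le_mul_of_pos_left a (Nat.succ_pos p)
    · refine (ca_newton_step hp hε1.le).trans ?_
      calc v (s ^ p * f - 1) ^ 2 ≤ (γ ^ (n + 1)) ^ 2 := by gcongr
        _ = γ ^ (2 * (n + 1)) := by rw [← pow_mul, mul_comm]
        _ ≤ γ ^ (n + 1 + 1) := pow_le_pow_of_le_one zero_le h0.le (by omega)
    · have h3 : s * (1 - (s ^ p * f - 1) / p) - s0 =
          (s - s0) - s * ((s ^ p * f - 1) / p) := by ring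
      rw [h3]
      refine (v.map_sub _ _).trans_lt (max_lt h2 ?_)
      rw [map_mul, map_div₀, hvs, hp, one_mul, div_one]
      exact hε1

/-- two approximate `p`-th roots which are congruent are very close -/
theorem ca_diff_le {p : ℕ} (hp : v (p : F) = 1) {f : F} (hf : v f = 1) {s s' : F} {γ : Γ}
    (hγ : γ < 1) (h1 : v (s ^ p * f - 1) ≤ γ) (h2 : v (s' ^ p * f - 1) ≤ γ)
    (hss : v (s - s') < 1) : v (s - s') ≤ γ := by
  have hpF : (p : F) ≠ 0 := by
    intro h0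
    rw [h0, map_zero] at hp
    exact zero_ne_one hp
  have hp0 : p ≠ 0 := by
    rintro rfl
    exact hpF (by simp)
  have hvs' : v s' = 1 := ca_v_eq_one_of_approx hp0 hf (h2.trans_lt hγ)
  have hs'0 : s' ≠ 0 := by
    intro h
    rw [h, map_zero] at hvs'
    exact zero_ne_one hvs'
  have hf0 : f ≠ 0 := by
    intro h
    rw [h, map_zero] at hf
    exact zero_ne_one hf
  set u : F := (s - s') / s' with hu
  have hvu : v u = v (s - s') := by rw [hu, map_div₀, hvs', div_one]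
  obtain ⟨r, hr, hexp⟩ := ca_one_add_pow_expand (v := v) u (hvu ▸ hss.le) p
  have h3 : (1 + u) ^ p - 1 = u * (p + u * r) := by rw [hexp]; ring
  have h4 : v ((p : F) + u * r) = 1 := by
    rw [← hp]
    apply Valuation.map_add_eq_of_lt_left
    rw [hp, map_mul]
    calc v u * v r ≤ v u * 1 := by gcongr
      _ < 1 := by rw [mul_one, hvu]; exact hss
  have h5 : (1 + u) ^ p - 1 = ((s ^ p * f - 1) - (s' ^ p * f - 1)) / (s' ^ p * f) := by
    have : 1 + u = s / s' := by rw [hu]; field_simp; ring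
    rw [this, div_pow]
    field_simp
    ring
  have h6 : v (s' ^ p * f) = 1 := by rw [map_mul, map_pow, hvs', hf]; simp
  rw [← hvu]
  have h7 : v u = v ((1 + u) ^ p - 1) := by rw [h3, map_mul, h4, mul_one]
  rw [h7, h5, map_div₀, h6, div_one]
  exact (v.map_sub _ _).trans (max_le h1 h2)

theorem ca_exists_common_bound {ι : Type} (s : Finset ι) (u : ι → F) :
    ∃ y : F, y ≠ 0 ∧ v y ≤ 1 ∧ ∀ i ∈ s, v (u i) ≤ (v y)⁻¹ := by
  classical
  induction s using Finset.induction_on with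
  | empty => exact ⟨1, one_ne_zero, by simp, by simp⟩
  | insert i s hi ih =>
    obtain ⟨y, hy0, hy1, hy⟩ := ih
    have hvy0 : v y ≠ 0 := (Valuation.ne_zero_iff v).2 hy0
    by_cases h : v (u i) ≤ 1
    · refine ⟨y, hy0, hy1, ?_⟩
      intro j hj
      rcases Finset.mem_insert.1 hj with rfl | hj
      · exact h.trans ((one_le_inv₀ (zero_lt_iff.2 hvy0)).2 hy1)
      · exact hy j hj
    · push Not at h
      have hui0 : u i ≠ 0 := by
        intro h0
        rw [h0, map_zero] at h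
        exact not_lt_of_ge zero_le h
      have hvui0 : v (u i) ≠ 0 := (Valuation.ne_zero_iff v).2 hui0
      have hinv : (v (u i))⁻¹ ≤ 1 := inv_le_one_of_one_le₀ h.le
      refine ⟨y * (u i)⁻¹, mul_ne_zero hy0 (inv_ne_zero hui0), ?_, ?_⟩
      · rw [map_mul, map_inv₀]
        exact mul_le_one' hy1 hinv
      · intro j hj
        rw [map_mul, map_inv₀, mul_inv, inv_inv]
        have hone : 1 ≤ (v y)⁻¹ := (one_le_inv₀ (zero_lt_iff.2 hvy0)).2 hy1
        rcases Finset.mem_insert.1 hj with rfl | hj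
        · exact le_mul_of_one_le_left' hone
        · exact (hy j hj).trans (le_mul_of_one_le_right' h.le)

/-- the subspace of `V a1 a1` of Čech coboundaries -/
def cobSub (V : ℕ → ℕ → Submodule L F)
    (mono : ∀ {a a' b b'}, a ≤ a' → b ≤ b' → V a b ≤ V a' b') (a1 : ℕ) : Submodule L F where
  carrier := {w | w ∈ V a1 a1 ∧ ∃ a, ∃ u ∈ V a 0, ∃ u' ∈ V 0 a, w = u - u'}
  zero_mem' := ⟨Submodule.zero_mem _, 0, 0, Submodule.zero_mem _, 0, Submodule.zero_mem _, by simp⟩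
  add_mem' := by
    rintro x y ⟨hx, a, u, hu, u', hu', rfl⟩ ⟨hy, b, w, hw, w', hw', rfl⟩
    refine ⟨Submodule.add_mem _ hx hy, max a b, u + w, ?_, u' + w', ?_, by ring⟩
    · exact Submodule.add_mem _ (mono (le_max_left a b) le_rfl hu) (mono (le_max_right a b) le_rfl hw)
    · exact Submodule.add_mem _ (mono le_rfl (le_max_left a b) hu') (mono le_rfl (le_max_right a b) hw')
  smul_mem' := by
    rintro c x ⟨hx, a, u, hu, u', hu', rfl⟩
    exact ⟨Submodule.smul_mem _ _ hx, a, c • u, Submodule.smul_mem _ _ hu, c • u',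
      Submodule.smul_mem _ _ hu', by rw [smul_sub]⟩

theorem cobSub_bound (V : ℕ → ℕ → Submodule L F)
    (mono : ∀ {a a' b b'}, a ≤ a' → b ≤ b' → V a b ≤ V a' b') (a1 : ℕ)
    (ortho : HasOrtho (L := L) v (V a1 a1)) :
    ∃ y : F, y ≠ 0 ∧ v y ≤ 1 ∧ ∀ w ∈ cobSub V mono a1, v w ≤ 1 →
      ∃ a, ∃ U ∈ V a 0, ∃ U' ∈ V 0 a, w = U - U' ∧ v U ≤ (v y)⁻¹ := by
  classical
  have hle : cobSub V mono a1 ≤ V a1 a1 := fun w hw => hw.1
  obtain ⟨ι, _, ω, hω, hspan⟩ := ortho.of_le hle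
  have hmem : ∀ i, ω i ∈ cobSub V mono a1 := fun i => hspan ▸ Submodule.subset_span ⟨i, rfl⟩
  choose a u hu u' hu' hw using fun i => (hmem i).2
  obtain ⟨y, hy0, hy1, hy⟩ := ca_exists_common_bound (v := v) Finset.univ u
  refine ⟨y, hy0, hy1, ?_⟩
  intro w hwW hw1
  obtain ⟨c, hc⟩ := ca_exists_coeff (hspan ▸ hwW)
  have hc1 := (hω c 1).1 (hc ▸ hw1)
  refine ⟨Finset.univ.sup a, ∑ i, c i • u i, ?_, ∑ i, c i • u' i, ?_, ?_, ?_⟩
  · exact Submodule.sum_mem _ fun i _ => Submodule.smul_mem _ _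
      (mono (Finset.le_sup (Finset.mem_univ i)) le_rfl (hu i))
  · exact Submodule.sum_mem _ fun i _ => Submodule.smul_mem _ _
      (mono le_rfl (Finset.le_sup (Finset.mem_univ i)) (hu' i))
  · rw [hc, ← Finset.sum_sub_distrib]
    refine Finset.sum_congr rfl fun i _ => ?_
    rw [hw i, smul_sub]
  · apply v.map_sum_le
    intro i _
    rw [ca_v_smul]
    calc v (algebraMap L F (c i)) * v (u i) ≤ 1 * v (u i) := by gcongr; exact hc1 i
      _ = v (u i) := one_mul _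
      _ ≤ (v y)⁻¹ := hy i (Finset.mem_univ i)

/-- **Abstract core**: Newton iteration + bounded torsion. -/
theorem core_abs (p : ℕ) (f : F) (V : ℕ → ℕ → Submodule L F)
    (hp : v (p : F) = 1) (hf : v f = 1)
    (arch : ∀ x y : F, v x < 1 → y ≠ 0 → ∃ n : ℕ, v x ^ n < v y)
    (mono : ∀ {a a' b b'}, a ≤ a' → b ≤ b' → V a b ≤ V a' b')
    (inter : ∀ a b, V a 0 ⊓ V 0 b ≤ V 0 0)
    (ortho : ∀ a b, HasOrtho (L := L) v (V a b))
    (newt1 : ∀ a s, s ∈ V a 0 → s ^ (p + 1) * f ∈ V ((p + 1) * a) 0)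
    (newt2 : ∀ a s, s ∈ V 0 a → s ^ (p + 1) * f ∈ V 0 ((p + 1) * a))
    (a1 : ℕ)
    (dec : ∀ a, a1 ≤ a → ∀ w ∈ V a a, v w ≤ 1 → ∃ w0 ∈ V a1 a1, ∃ u1 ∈ V a 0, ∃ u2 ∈ V 0 a,
      v w0 ≤ 1 ∧ v u1 ≤ 1 ∧ v u2 ≤ 1 ∧ v (w - (w0 + u1 + u2)) < 1)
    (s1 s2 : F) (hs1 : s1 ∈ V a1 0) (hs2 : s2 ∈ V 0 a1)
    (h1 : v (s1 ^ p * f - 1) < 1) (h2 : v (s2 ^ p * f - 1) < 1) (h12 : v (s1 - s2) < 1) :
    V 0 0 ≠ ⊥ := by
  intro hbot
  have hpF : (p : F) ≠ 0 := by
    intro h0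
    rw [h0, map_zero] at hp
    exact zero_ne_one hp
  have hp0 : p ≠ 0 := by
    rintro rfl
    exact hpF (by simp)
  obtain ⟨y, hy0, hy1, hy⟩ := cobSub_bound V mono a1 (ortho a1 a1)
  have hvy0 : v y ≠ 0 := (Valuation.ne_zero_iff v).2 hy0
  obtain ⟨n1, hn1⟩ := arch _ y h1 hy0
  obtain ⟨n2, hn2⟩ := arch _ y h2 hy0
  obtain ⟨b1, t1, ht1, ht1a, ht1b⟩ := ca_newton_all (L := L) hp hf (fun a => V a 0)
    (fun h => mono h le_rfl) newt1 hs1 h1 n1
  obtain ⟨b2, t2, ht2, ht2a, ht2b⟩ := ca_newton_all (L := L) hp hf (fun a => V 0 a)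
    (fun h => mono le_rfl h) newt2 hs2 h2 n2
  -- common precision
  obtain ⟨γ, hγy, hγ1, hγ2⟩ : ∃ γ : Γ, γ < v y ∧ v (t1 ^ p * f - 1) ≤ γ ∧
      v (t2 ^ p * f - 1) ≤ γ := by
    refine ⟨max (v (s1 ^ p * f - 1) ^ n1) (v (s2 ^ p * f - 1) ^ n2), max_lt hn1 hn2, ?_, ?_⟩
    · exact (ht1a.trans (pow_le_pow_of_le_one zero_le h1.le (Nat.le_succ n1))).trans
        (le_max_left _ _)
    · exact (ht2a.trans (pow_le_pow_of_le_one zero_le h2.le (Nat.le_succ n2))).trans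
        (le_max_right _ _)
  have hγlt1 : γ < 1 := hγy.trans_le hy1
  have ht12 : v (t1 - t2) < 1 := by
    have : t1 - t2 = (t1 - s1) + (s1 - s2) - (t2 - s2) := by ring
    rw [this]
    exact (v.map_sub _ _).trans_lt (max_lt ((v.map_add _ _).trans_lt (max_lt ht1b h12)) ht2b)
  have hδ : v (t1 - t2) ≤ γ := ca_diff_le hp hf hγlt1 hγ1 hγ2 ht12
  have hvt1 : v t1 = 1 := ca_v_eq_one_of_approx hp0 hf (hγ1.trans_lt hγlt1)
  have ht10 : t1 ≠ 0 := by
    intro h
    rw [h, map_zero] at hvt1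
    exact zero_ne_one hvt1
  set a := max a1 (max b1 b2) with ha
  have ha1 : a1 ≤ a := le_max_left _ _
  have hb1 : b1 ≤ a := (le_max_left _ _).trans (le_max_right _ _)
  have hb2 : b2 ≤ a := (le_max_right _ _).trans (le_max_right _ _)
  have ht1' : t1 ∈ V a 0 := mono hb1 le_rfl ht1
  have ht2' : t2 ∈ V 0 a := mono le_rfl hb2 ht2
  by_cases hδ0 : t1 - t2 = 0
  · have : t1 = t2 := sub_eq_zero.1 hδ0
    have hmem : t1 ∈ V 0 0 := inter a a ⟨ht1', this ▸ ht2'⟩
    rw [hbot, Submodule.mem_bot] at hmem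
    exact ht10 hmem
  have hδmem : t1 - t2 ∈ V a a :=
    Submodule.sub_mem _ (mono le_rfl (Nat.zero_le a) ht1') (mono (Nat.zero_le a) le_rfl ht2')
  obtain ⟨c, hc0, hc⟩ := (ortho a a).exists_scalar hδmem hδ0
  have hvc0 : v (algebraMap L F c) ≠ 0 := by
    rw [hc]; exact (Valuation.ne_zero_iff v).2 hδ0
  set w : F := c⁻¹ • (t1 - t2) with hw
  have hwmem : w ∈ V a a := Submodule.smul_mem _ _ hδmem
  have hvw : v w ≤ 1 := by
    rw [hw, ca_v_smul, map_inv₀, map_inv₀, hc, inv_mul_cancel₀ (hc ▸ hvc0)]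
  -- exact decomposition
  have hexact := (ortho a a).eq_of_dense
    {x | ∃ w0 ∈ V a1 a1, ∃ u1 ∈ V a 0, ∃ u2 ∈ V 0 a,
      v w0 ≤ 1 ∧ v u1 ≤ 1 ∧ v u2 ≤ 1 ∧ x = w0 + u1 + u2}
    ⟨0, Submodule.zero_mem _, 0, Submodule.zero_mem _, 0, Submodule.zero_mem _,
      by simp, by simp, by simp, by simp⟩
    (by
      rintro x ⟨w0, hw0, u1, hu1, u2, hu2, e0, e1, e2, rfl⟩ x' ⟨w0', hw0', u1', hu1', u2', hu2',
        e0', e1', e2', rfl⟩
      exact ⟨w0 + w0', Submodule.add_mem _ hw0 hw0', u1 + u1', Submodule.add_mem _ hu1 hu1',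
        u2 + u2', Submodule.add_mem _ hu2 hu2', (v.map_add _ _).trans (max_le e0 e0'),
        (v.map_add _ _).trans (max_le e1 e1'), (v.map_add _ _).trans (max_le e2 e2'), by ring⟩)
    (by
      rintro d hd x ⟨w0, hw0, u1, hu1, u2, hu2, e0, e1, e2, rfl⟩
      refine ⟨d • w0, Submodule.smul_mem _ _ hw0, d • u1, Submodule.smul_mem _ _ hu1,
        d • u2, Submodule.smul_mem _ _ hu2, ?_, ?_, ?_, by rw [smul_add, smul_add]⟩
      · rw [ca_v_smul]; exact mul_le_one' hd e0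
      · rw [ca_v_smul]; exact mul_le_one' hd e1
      · rw [ca_v_smul]; exact mul_le_one' hd e2)
    (by
      rintro x ⟨w0, hw0, u1, hu1, u2, hu2, -, -, -, rfl⟩
      exact Submodule.add_mem _ (Submodule.add_mem _ (mono ha1 ha1 hw0)
        (mono le_rfl (Nat.zero_le a) hu1)) (mono (Nat.zero_le a) le_rfl hu2))
    (by
      intro x hx hx1
      obtain ⟨w0, hw0, u1, hu1, u2, hu2, e0, e1, e2, e3⟩ := dec a ha1 x hx hx1
      exact ⟨w0 + u1 + u2, ⟨w0, hw0, u1, hu1, u2, hu2, e0, e1, e2, rfl⟩, e3⟩)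
    w hwmem hvw
  obtain ⟨w0, hw0, u1, hu1, u2, hu2, e0, e1, e2, hwdec⟩ := hexact
  have hcw : c • w = t1 - t2 := by rw [hw, smul_smul, mul_inv_cancel₀ hc0, one_smul]
  -- w0 is a coboundary
  have hw0cob : w0 ∈ cobSub V mono a1 := by
    refine ⟨hw0, a, c⁻¹ • t1 - u1, ?_, c⁻¹ • t2 + u2, ?_, ?_⟩
    · exact Submodule.sub_mem _ (Submodule.smul_mem _ _ ht1') hu1
    · exact Submodule.add_mem _ (Submodule.smul_mem _ _ ht2') hu2
    · have : w0 = w - u1 - u2 := by rw [hwdec]; ring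
      rw [this, hw, smul_sub]
      ring
  obtain ⟨b, U, hU, U', hU', hUU, hvU⟩ := hy w0 hw0cob e0
  set b' := max a b with hb'
  have hX1 : t1 - c • u1 - c • U ∈ V b' 0 :=
    Submodule.sub_mem _ (Submodule.sub_mem _ (mono (le_max_left a b) le_rfl ht1')
      (Submodule.smul_mem _ _ (mono (le_max_left a b) le_rfl hu1)))
      (Submodule.smul_mem _ _ (mono (le_max_right a b) le_rfl hU))
  have hX2 : t2 + c • u2 - c • U' ∈ V 0 b' :=
    Submodule.sub_mem _ (Submodule.add_mem _ (mono le_rfl (le_max_left a b) ht2')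
      (Submodule.smul_mem _ _ (mono le_rfl (le_max_left a b) hu2)))
      (Submodule.smul_mem _ _ (mono le_rfl (le_max_right a b) hU'))
  have hXeq : t1 - c • u1 - c • U = t2 + c • u2 - c • U' := by
    have h3 : t1 - t2 = c • (U - U') + c • u1 + c • u2 := by
      rw [← hcw, hwdec, hUU, smul_add, smul_add]
    have h4 : t1 = t2 + (c • (U - U') + c • u1 + c • u2) := by rw [← h3]; ring
    rw [h4, smul_sub]
    ring
  have hX0 : t1 - c • u1 - c • U = 0 := by
    have := inter b' b' ⟨hX1, hXeq ▸ hX2⟩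
    rwa [hbot, Submodule.mem_bot] at this
  have ht1eq : t1 = c • (u1 + U) := by
    rw [smul_add]
    have : t1 = (t1 - c • u1 - c • U) + (c • u1 + c • U) := by ring
    rw [this, hX0, zero_add]
  have hone : (1 : Γ) ≤ (v y)⁻¹ := (one_le_inv₀ (zero_lt_iff.2 hvy0)).2 hy1
  have hfin : v t1 < 1 := by
    rw [ht1eq, ca_v_smul, hc]
    have h5 : v (u1 + U) ≤ (v y)⁻¹ := (v.map_add _ _).trans (max_le (e1.trans hone) hvU)
    calc v (t1 - t2) * v (u1 + U) ≤ γ * (v y)⁻¹ := by gcongr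
      _ < v y * (v y)⁻¹ := by
          exact mul_lt_mul_of_pos_right hγy (zero_lt_iff.2 (inv_ne_zero hvy0))
      _ = 1 := mul_inv_cancel₀ hvy0
  rw [hvt1] at hfin
  exact lt_irrefl _ hfin

end Fermat.Agent.S18
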