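import Mathlib
import Fermat.Agent.S28.ModDefs

set_option autoImplicit false

/-! # S18 [Mo3a]: definitions for the Hauptmodul of level `3` (and the generic output format) -/

namespace Fermat.Agent.S18.H3

open UpperHalfPlane ModularCurve Polynomial
open scoped MatrixGroups
open Fermat.Agent.S28 (evJN)
open Fermat.Agent.S24 (jfun)

/-- Output of the analytic part for a Hauptmodul `t` of prime level `s` with `q`-expansion `T`,
over a coefficient ring `R ⊆ ℂ`.  All series are in the variable `q_s = q^(1/s)`.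
`r b` are the expansions of the other `s` conjugates of `t` over `ℂ(j)`. -/
structure HData (s : ℕ) [NeZero s] (T : LaurentSeries ℤ) (R : Subring ℂ) where
  /-- the characteristic polynomial of `t` over `R[j]` -/
  Ψ : (↥R)[X][X]
  /-- the other conjugates -/
  r : Fin s → LaurentSeries ↥R
  split : Ψ.map (evJN s ↥R) =
    (X - C (qExpand ↥R s (coeffMap (Int.castRingHom ↥R) T))) * ∏ b, (X - C (r b))
  order_r : ∀ b, (r b).order = -1
  unit_r : ∀ b, IsUnit ((r b).coeff (-1))
  /-- Lagrange numerator -/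
  G : (↥R)[X][X]
  /-- Lagrange denominator -/
  D : (↥R)[X][X]
  lagr : G.eval₂ (evJN s ↥R) (qExpand ↥R s (qExpand ↥R s (jqModC ↥R))) =
    qExpand ↥R s (coeffMap (Int.castRingHom ↥R) T) *
      D.eval₂ (evJN s ↥R) (qExpand ↥R s (qExpand ↥R s (jqModC ↥R)))
  D_ne : D.eval₂ (evJN s ↥R) (qExpand ↥R s (qExpand ↥R s (jqModC ↥R))) ≠ 0

/-- `η^12`. -/
noncomputable def phi (z : ℍ) : ℂ := ModularForm.eta (z : ℂ) ^ 12

/-- the four conjugates of `t = (η(3z)/η(z))^12`. -/
noncomputable def tfam : Option (Fin 3) → ℍ → ℂ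
  | none, z => phi (S22.tri 3 1 0 three_ne_zero one_ne_zero • z) / phi z
  | some b, z => (-1) ^ (b : ℕ) * ((3 : ℂ)⁻¹) ^ 6 *
      phi (S22.tri 1 3 (b : ℕ) one_ne_zero three_ne_zero • z) / phi z

/-- the four conjugates of `j(3z)`. -/
noncomputable def Jfam : Option (Fin 3) → ℍ → ℂ
  | none, z => jfun (S22.tri 3 1 0 three_ne_zero one_ne_zero • z)
  | some b, z => jfun (S22.tri 1 3 (b : ℕ) one_ne_zero three_ne_zero • z)

/-- the action of `S` on the index set. -/
def permS : Equiv.Perm (Option (Fin 3)) :=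
  Equiv.swap none (some 0) * Equiv.swap (some 1) (some 2)

/-- the action of `T` on the index set. -/
def permT : Equiv.Perm (Option (Fin 3)) := Equiv.optionCongr (Equiv.addRight 1)

end Fermat.Agent.S18.H3
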