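import Mathlib
import Fermat.Agent.S18.DualRed
import Fermat.Agent.S18.V1b
import Fermat.Agent.S18.Mo2

set_option autoImplicit false
set_option linter.style.haveILetI false

/-! # S18: instantiation of good reduction for `t = 1/(j - a₀)` (case `ℓ ≥ 5`) -/

namespace Fermat.Agent.S18.GR

open Polynomial IntermediateField Fermat.Agent.S18.NB

section abstract

variable {L F k κ : Type} [Field L] [Field F] [Algebra L F] [Field k] [Field κ] [Algebra k κ]
variable {V : VData L F k κ}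

/-- from helper3's `VData.GoodCoord` to `GR.GoodCoord` -/
theorem GoodCoord.of_vdata [CharZero L] {t : F} (h : V.GoodCoord t)
    [Algebra.IsSeparable k⟮V.rd t⟯ κ] : GoodCoord V t := by
  haveI := h.fd
  haveI : CharZero L⟮t⟯ := charZero_of_injective_algebraMap (algebraMap L L⟮t⟯).injective
  exact ⟨h.htr, h.fd, h.hn, Algebra.IsSeparable.of_integral L⟮t⟯ F, inferInstance⟩

theorem GoodCoord.to_vdata {t : F} (h : GoodCoord V t) : V.GoodCoord t := ⟨h.htr, h.fd, h.hn⟩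

/-- Moebius change of coordinate -/
theorem GoodCoord.mobius [CharZero L] {j : F} (hj : V.GoodCoord j)
    [Algebra.IsSeparable k⟮V.rd j⟯ κ] {a : L} (ha : a ∈ V.A) :
    GoodCoord V (j - algebraMap L F a)⁻¹ := by
  have h1 : V.GoodCoord (j - algebraMap L F a)⁻¹ := (hj.sub_const ha).inv
  have hjt : j ∈ L⟮(j - algebraMap L F a)⁻¹⟯ := by
    rw [VData.adjoin_simple_inv_eq, VData.adjoin_simple_sub_eq]
    exact mem_adjoin_simple_self L j
  haveI := hj.isSeparable_of_mem_adjoin h1.htr hjt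
  exact GoodCoord.of_vdata h1

theorem squarefree_linear {k : Type*} [Field k] {a b : k} (ha : a ≠ 0) :
    Squarefree (C a * X + C b : k[X]) :=
  (irreducible_of_degree_eq_one (degree_linear ha)).squarefree

theorem squarefree_betaT {k : Type*} [Field k] (a : k) (h0 : a ≠ 0) (h1 : 1728 - a ≠ 0)
    (h2 : (1728 : k) ≠ 0) :
    Squarefree (X * (C a * X + 1) * (C (1728 - a) * X - 1) : k[X]) := by
  have e1 : (C a * X + 1 : k[X]) = C a * X + C 1 := by simp
  have e2 : (C (1728 - a) * X - 1 : k[X]) = C (1728 - a) * X + C (-1) := by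
    simp [sub_eq_add_neg]
  have c1 : IsCoprime (X : k[X]) (C a * X + 1) := ⟨-C a, 1, by ring⟩
  have c2 : IsCoprime (X : k[X]) (C (1728 - a) * X - 1) := ⟨C (1728 - a), -1, by ring⟩
  have c3 : IsCoprime (C a * X + 1 : k[X]) (C (1728 - a) * X - 1) := by
    refine ⟨C ((1728 : k)⁻¹ * (1728 - a)), -C ((1728 : k)⁻¹ * a), ?_⟩
    have : (C ((1728 : k)⁻¹ * (1728 - a)) * (C a * X + 1)
        + -C ((1728 : k)⁻¹ * a) * (C (1728 - a) * X - 1) : k[X]) = C ((1728 : k)⁻¹ * 1728) := by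
      simp only [map_mul, map_sub]
      ring
    rw [this, inv_mul_cancel₀ h2, map_one]
  rw [squarefree_mul_iff]
  refine ⟨(IsCoprime.mul_left c2 c3).isRelPrime, ?_, ?_⟩
  · rw [squarefree_mul_iff]
    refine ⟨c1.isRelPrime, irreducible_X.squarefree, ?_⟩
    rw [e1]; exact squarefree_linear h0
  · rw [e2]; exact squarefree_linear h1

theorem squarefree_betaI {k : Type*} [Field k] (a : k) (h2 : (1728 : k) ≠ 0) :
    Squarefree ((X + C a) * (X + C (a - 1728)) : k[X]) := by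
  have c3 : IsCoprime (X + C a : k[X]) (X + C (a - 1728)) := by
    refine ⟨C ((1728 : k)⁻¹), -C ((1728 : k)⁻¹), ?_⟩
    have : (C ((1728 : k)⁻¹) * (X + C a) + -C ((1728 : k)⁻¹) * (X + C (a - 1728)) : k[X])
        = C ((1728 : k)⁻¹ * 1728) := by
      simp only [map_mul, map_sub]
      ring
    rw [this, inv_mul_cancel₀ h2, map_one]
  rw [squarefree_mul_iff]
  refine ⟨c3.isRelPrime, ?_, ?_⟩
  · have := squarefree_linear (k := k) (a := 1) (b := a) one_ne_zero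
    simpa using this
  · have := squarefree_linear (k := k) (a := 1) (b := a - 1728) one_ne_zero
    simpa using this

end abstract

section modular

open Fermat.Agent.S24 Fermat.Agent.S18.Mo2

variable (N : ℕ) [NeZero N] {k κ : Type} [Field k] [Field κ] [Algebra k κ]
variable {V : VData Kb (FN N) k κ}

/-- good reduction for `t = 1/(j - a₀)`, when `6` is invertible in `k`. -/
theorem good_reduction_tF (hj : V.GoodCoord (jF N)) [Algebra.IsSeparable k⟮V.rd (jF N)⟯ κ]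
    (a₀ : ℤ) (h0 : (a₀ : k) ≠ 0) (h1 : (1728 - a₀ : k) ≠ 0) (h2 : (1728 : k) ≠ 0) :
    GoodCoord V (tF N (a₀ : Kb)) ∧
    ∃ g m0 : ℤ,
      (∀ a b : ℤ, FiniteDimensional Kb (Lsp Kb (tF N (a₀ : Kb)) a b)) ∧
      (∀ a b : ℤ, FiniteDimensional k (Lsp k (V.rd (tF N (a₀ : Kb))) a b)) ∧
      (∀ a b : ℤ, m0 ≤ a + b → (Module.finrank Kb (Lsp Kb (tF N (a₀ : Kb)) a b) : ℤ)
        = (a + b) * Module.finrank Kb⟮tF N (a₀ : Kb)⟯ (FN N) + 1 - g) ∧
      (∀ a b : ℤ, m0 ≤ a + b → (Module.finrank k (Lsp k (V.rd (tF N (a₀ : Kb))) a b) : ℤ)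
        = (a + b) * Module.finrank Kb⟮tF N (a₀ : Kb)⟯ (FN N) + 1 - g) ∧
      (∀ a b a' b' : ℤ, a' ≤ a → b' ≤ b → m0 ≤ a' + b' →
        Lsp Kb (tF N (a₀ : Kb)) a b
          = Lsp Kb (tF N (a₀ : Kb)) a b' ⊔ Lsp Kb (tF N (a₀ : Kb)) a' b) ∧
      (∀ a b a' b' : ℤ, a' ≤ a → b' ≤ b → m0 ≤ a' + b' →
        Lsp k (V.rd (tF N (a₀ : Kb))) a b
          = Lsp k (V.rd (tF N (a₀ : Kb))) a b' ⊔ Lsp k (V.rd (tF N (a₀ : Kb))) a' b) ∧
      (∀ a b : ℤ, m0 ≤ a + b → ∀ y ∈ Lsp k (V.rd (tF N (a₀ : Kb))) a b,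
        ∃ x ∈ Lsp Kb (tF N (a₀ : Kb)) a b, x ∈ V.O ∧ V.rd x = y) := by
  have hg : GoodCoord V (tF N (a₀ : Kb)) :=
    GoodCoord.mobius hj (a := (a₀ : Kb)) (intCast_mem V.A a₀)
  refine ⟨hg, ?_⟩
  let β₀ : V.A[X] := X * (C (a₀ : V.A) * X + 1) * (C (1728 - (a₀ : V.A)) * X - 1)
  let β₁ : V.A[X] := (X + C (a₀ : V.A)) * (X + C ((a₀ : V.A) - 1728))
  have n1 : ((1728 : V.A) : Kb) = 1728 := map_ofNat V.A.subtype 1728
  have n2 : V.π 1728 = 1728 := map_ofNat V.π 1728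
  have e0 : β₀.map V.A.subtype = betaT (a₀ : Kb) := by
    simp [β₀, betaT, Polynomial.map_mul, Polynomial.map_add, Polynomial.map_sub, n1]
  have e1 : β₁.map V.A.subtype = betaI (a₀ : Kb) := by
    simp [β₁, betaI, Polynomial.map_mul, Polynomial.map_add, n1]
  have f0 : β₀.map V.π = X * (C (a₀ : k) * X + 1) * (C (1728 - (a₀ : k)) * X - 1) := by
    simp [β₀, Polynomial.map_mul, Polynomial.map_add, Polynomial.map_sub, n2]
  have f1 : β₁.map V.π = (X + C (a₀ : k)) * (X + C ((a₀ : k) - 1728)) := by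
    simp [β₁, Polynomial.map_mul, Polynomial.map_add, n2]
  refine hg.good_reduction_of_hunr β₀ β₁ ?_ ?_ ?_ ?_
  · rw [f0]; exact squarefree_betaT _ h0 h1 h2
  · rw [f1]; exact squarefree_betaI _ h2
  · rw [e0]; exact hunr_tF N _
  · rw [e1]; exact hunr_tF_inv N _

end modular

end Fermat.Agent.S18.GR
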