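import Mathlib

set_option autoImplicit false

/-!
# S18: orthonormal families for a valuation (lattice lemma, abstract part)
-/

namespace Fermat.Agent.S18

open scoped BigOperators

variable {L F Γ : Type*} [Field L] [Field F] [Algebra L F] [LinearOrderedCommGroupWithZero Γ]
  (v : Valuation F Γ)

/-- `e` is an orthonormal family: `v (∑ c i • e i) = max (v (c i))`. -/
def IsOrtho {ι : Type} [Fintype ι] (e : ι → F) : Prop :=
  ∀ (c : ι → L) (γ : Γ), v (∑ i, c i • e i) ≤ γ ↔ ∀ i, v (algebraMap L F (c i)) ≤ γ

/-- `W` is spanned by an orthonormal family. -/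
def HasOrtho (W : Submodule L F) : Prop :=
  ∃ (ι : Type) (_ : Fintype ι) (e : ι → F), IsOrtho (L := L) v e ∧
    Submodule.span L (Set.range e) = W

variable {v}

theorem ca_v_smul (c : L) (x : F) : v (c • x) = v (algebraMap L F c) * v x := by
  rw [Algebra.smul_def, map_mul]

theorem IsOrtho.linearIndependent {ι : Type} [Fintype ι] {e : ι → F} (h : IsOrtho (L := L) v e) :
    LinearIndependent L e := by
  rw [Fintype.linearIndependent_iff]
  intro c hc i
  have h1 := (h c 0).1 (by rw [hc]; simp) i
  have h2 : v (algebraMap L F (c i)) = 0 := le_antisymm h1 zero_le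
  rw [map_eq_zero] at h2
  exact (map_eq_zero_iff _ (algebraMap L F).injective).1 h2

theorem IsOrtho.v_le_one {ι : Type} [Fintype ι] {e : ι → F} (h : IsOrtho (L := L) v e) (i : ι) :
    v (e i) ≤ 1 := by
  classical
  have h1 := (h (Pi.single i 1) 1).2 (by
    intro j
    by_cases hj : j = i
    · subst hj; simp
    · simp [Pi.single_eq_of_ne hj])
  simpa [Pi.single_apply, ite_smul] using h1

theorem IsOrtho.comp_injective {ι κ : Type} [Fintype ι] [Fintype κ] {e : ι → F}
    (h : IsOrtho (L := L) v e) (g : κ → ι) (hg : Function.Injective g) :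
    IsOrtho (L := L) v (e ∘ g) := by
  classical
  intro c γ
  have key : ∑ k, c k • (e ∘ g) k = ∑ i, (Function.extend g c 0) i • e i := by
    have h2 : ∑ i, (Function.extend g c 0) i • e i =
        ∑ i ∈ Finset.univ.image g, (Function.extend g c 0) i • e i := by
      symm
      apply Finset.sum_subset (Finset.subset_univ _)
      intro i _ hi
      have : ¬ ∃ k, g k = i := by
        rintro ⟨k, rfl⟩
        exact hi (Finset.mem_image_of_mem g (Finset.mem_univ k))
      rw [Function.extend_apply' _ _ _ this]
      simp
    rw [h2, Finset.sum_image (fun a _ b _ hab => hg hab)]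
    refine Finset.sum_congr rfl ?_
    intro k _
    rw [hg.extend_apply]
    rfl
  rw [key, h]
  constructor
  · intro H k
    have := H (g k)
    rwa [hg.extend_apply] at this
  · intro H i
    by_cases hi : ∃ k, g k = i
    · obtain ⟨k, rfl⟩ := hi
      rw [hg.extend_apply]
      exact H k
    · rw [Function.extend_apply' _ _ _ hi]
      simp

/-- every element of the span is a combination -/
theorem ca_exists_coeff {ι : Type} [Fintype ι] {e : ι → F} {x : F}
    (hx : x ∈ Submodule.span L (Set.range e)) : ∃ c : ι → L, x = ∑ i, c i • e i := by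
  obtain ⟨c, hc⟩ := (Submodule.mem_span_range_iff_exists_fun L).1 hx
  exact ⟨c, hc.symm⟩

theorem ca_sum_mem_span {ι : Type} [Fintype ι] (e : ι → F) (c : ι → L) :
    ∑ i, c i • e i ∈ Submodule.span L (Set.range e) :=
  Submodule.sum_mem _ fun i _ => Submodule.smul_mem _ _ (Submodule.subset_span ⟨i, rfl⟩)

/-- adding an orthogonal vector -/
theorem IsOrtho.option {ι : Type} [Fintype ι] {e : ι → F} (h : IsOrtho (L := L) v e) (x : F)
    (hx : ∀ (c : L) (y : F), y ∈ Submodule.span L (Set.range e) → ∀ γ : Γ,
      v (c • x + y) ≤ γ → v (algebraMap L F c) ≤ γ ∧ v y ≤ γ)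
    (hx1 : v x ≤ 1) :
    IsOrtho (L := L) v (fun o : Option ι => o.elim x e) := by
  intro c γ
  rw [Fintype.sum_option]
  simp only [Option.elim]
  constructor
  · intro H
    obtain ⟨h1, h2⟩ := hx (c none) _ (ca_sum_mem_span e fun i => c (some i)) γ H
    intro o
    cases o with
    | none => exact h1
    | some i => exact (h (fun i => c (some i)) γ).1 h2 i
  · intro H
    refine (v.map_add _ _).trans (max_le ?_ ?_)
    · rw [ca_v_smul]
      calc v (algebraMap L F (c none)) * v x ≤ v (algebraMap L F (c none)) * 1 := by gcongr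
        _ ≤ γ := by rw [mul_one]; exact H none
    · exact (h (fun i => c (some i)) γ).2 fun i => H (some i)

theorem hasOrtho_bot : HasOrtho (L := L) v (⊥ : Submodule L F) := by
  refine ⟨Empty, inferInstance, fun x => x.elim, ?_, ?_⟩
  · intro c γ
    simp
  · rw [Submodule.span_eq_bot]
    rintro _ ⟨x, _⟩
    exact x.elim

theorem hasOrtho_of_le_aux (n : ℕ) : ∀ (ι : Type) [Fintype ι] (e : ι → F), Fintype.card ι = n →
    IsOrtho (L := L) v e → ∀ W' : Submodule L F, W' ≤ Submodule.span L (Set.range e) →
    HasOrtho (L := L) v W' := by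
  classical
  induction n with
  | zero =>
    intro ι _ e hcard _ W' hW'
    have : IsEmpty ι := Fintype.card_eq_zero_iff.1 hcard
    have : W' = ⊥ := by
      rw [eq_bot_iff]
      refine hW'.trans ?_
      rw [Submodule.span_le]
      rintro _ ⟨i, _⟩
      exact isEmptyElim i
    rw [this]
    exact hasOrtho_bot
  | succ n ih =>
    intro ι _ e hcard he W' hW'
    by_cases hbot : W' = ⊥
    · rw [hbot]; exact hasOrtho_bot
    obtain ⟨x, hxW, hx0⟩ := Submodule.exists_mem_ne_zero_of_ne_bot hbot
    obtain ⟨a, ha⟩ := ca_exists_coeff (hW' hxW)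
    have : Nonempty ι := by
      rw [← Fintype.card_pos_iff, hcard]; exact Nat.succ_pos n
    obtain ⟨j, -, hj⟩ := Finset.exists_max_image Finset.univ
      (fun i => v (algebraMap L F (a i))) Finset.univ_nonempty
    have haj : a j ≠ 0 := by
      intro h0
      apply hx0
      rw [ha]
      apply Finset.sum_eq_zero
      intro i _
      have h1 := hj i (Finset.mem_univ i)
      rw [h0, map_zero, map_zero] at h1
      have h2 : v (algebraMap L F (a i)) = 0 := le_antisymm h1 zero_le
      rw [map_eq_zero, map_eq_zero_iff _ (algebraMap L F).injective] at h2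
      rw [h2, zero_smul]
    -- normalised vector
    set b : ι → L := fun i => (a j)⁻¹ * a i with hb
    set x' : F := ∑ i, b i • e i with hx'
    have hx'eq : x' = (a j)⁻¹ • x := by
      rw [hx', ha, Finset.smul_sum]
      refine Finset.sum_congr rfl fun i _ => ?_
      rw [smul_smul]
    have hx'W : x' ∈ W' := by rw [hx'eq]; exact W'.smul_mem _ hxW
    have hbj : b j = 1 := by simp [hb, haj]
    have hvaj : v (algebraMap L F (a j)) ≠ 0 := by
      rw [Ne, map_eq_zero, map_eq_zero_iff _ (algebraMap L F).injective]; exact haj
    have hb1 : ∀ i, v (algebraMap L F (b i)) ≤ 1 := by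
      intro i
      simp only [hb, map_mul, map_inv₀]
      rw [inv_mul_le_iff₀ (zero_lt_iff.2 hvaj), mul_one]
      exact hj i (Finset.mem_univ i)
    have hvx' : v x' ≤ 1 := (he b 1).2 hb1
    -- the sub family
    let g : {i // i ≠ j} → ι := Subtype.val
    have hg : Function.Injective g := Subtype.val_injective
    have he' : IsOrtho (L := L) v (e ∘ g) := he.comp_injective g hg
    have hcard' : Fintype.card {i // i ≠ j} = n := by
      rw [Fintype.card_subtype_compl, hcard]
      simp
    set W'' : Submodule L F := W' ⊓ Submodule.span L (Set.range (e ∘ g)) with hW''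
    obtain ⟨κ, _, e'', he'', hspan''⟩ := ih _ (e ∘ g) hcard' he' W'' inf_le_right
    -- elements of the small span have zero j-coordinate
    have hzero : ∀ y ∈ Submodule.span L (Set.range (e ∘ g)), ∃ c : ι → L, c j = 0 ∧
        y = ∑ i, c i • e i := by
      intro y hy
      obtain ⟨c, hc⟩ := ca_exists_coeff hy
      refine ⟨Function.extend g c 0, ?_, ?_⟩
      · rw [Function.extend_apply']
        · rfl
        · rintro ⟨⟨k, hk⟩, hk'⟩
          exact hk hk'
      · rw [hc]
        have h2 : ∑ i, (Function.extend g c 0) i • e i =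
            ∑ i ∈ Finset.univ.image g, (Function.extend g c 0) i • e i := by
          symm
          apply Finset.sum_subset (Finset.subset_univ _)
          intro i _ hi
          have : ¬ ∃ k, g k = i := by
            rintro ⟨k, rfl⟩
            exact hi (Finset.mem_image_of_mem g (Finset.mem_univ k))
          rw [Function.extend_apply' _ _ _ this]
          simp
        rw [h2, Finset.sum_image (fun a _ b _ hab => hg hab)]
        refine Finset.sum_congr rfl ?_
        intro k _
        rw [hg.extend_apply]
        rfl
    have hconv : ∀ c : ι → L, c j = 0 → ∑ i, c i • e i ∈ Submodule.span L (Set.range (e ∘ g)) := by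
      intro c hc
      apply Submodule.sum_mem
      intro i _
      by_cases hi : i = j
      · rw [hi, hc, zero_smul]; exact Submodule.zero_mem _
      · exact Submodule.smul_mem _ _ (Submodule.subset_span ⟨⟨i, hi⟩, rfl⟩)
    refine ⟨Option κ, inferInstance, fun o => o.elim x' e'', ?_, ?_⟩
    · apply he''.option x' _ hvx'
      intro c y hy γ H
      rw [hspan''] at hy
      obtain ⟨cy, hcyj, hcy⟩ := hzero y hy.2
      have hsum : c • x' + y = ∑ i, (c * b i + cy i) • e i := by
        rw [hx', hcy, Finset.smul_sum, ← Finset.sum_add_distrib]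
        refine Finset.sum_congr rfl fun i _ => ?_
        simp only [hb, add_smul, mul_smul]
      have h1 : v (algebraMap L F c) ≤ γ := by
        have := (he _ γ).1 (hsum ▸ H) j
        simpa [hbj, hcyj] using this
      refine ⟨h1, ?_⟩
      have h2 : y = (c • x' + y) - c • x' := by ring
      rw [h2]
      refine (v.map_sub _ _).trans (max_le H ?_)
      rw [ca_v_smul]
      calc v (algebraMap L F c) * v x' ≤ v (algebraMap L F c) * 1 := by gcongr
        _ ≤ γ := by rw [mul_one]; exact h1
    · apply le_antisymm
      · rw [Submodule.span_le]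
        rintro _ ⟨o, rfl⟩
        cases o with
        | none => exact hx'W
        | some k =>
          have : e'' k ∈ W'' := by rw [← hspan'']; exact Submodule.subset_span ⟨k, rfl⟩
          exact this.1
      · intro y hy
        obtain ⟨cy, hcy⟩ := ca_exists_coeff (hW' hy)
        have h1 : y - cy j • x' ∈ W'' := by
          refine ⟨W'.sub_mem hy (W'.smul_mem _ hx'W), ?_⟩
          have : y - cy j • x' = ∑ i, (cy i - cy j * b i) • e i := by
            rw [hx', hcy, Finset.smul_sum, ← Finset.sum_sub_distrib]
            refine Finset.sum_congr rfl fun i _ => ?_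
            simp only [hb, sub_smul, mul_smul]
          rw [this]
          apply hconv
          simp [hbj]
        have h2 : y = cy j • x' + (y - cy j • x') := by ring
        rw [h2]
        apply Submodule.add_mem
        · exact Submodule.smul_mem _ _ (Submodule.subset_span ⟨none, rfl⟩)
        · rw [← hspan''] at h1
          refine Submodule.span_mono ?_ h1
          rintro _ ⟨k, rfl⟩
          exact ⟨some k, rfl⟩

/-- **Lattice lemma (abstract)**: a subspace of a space with an orthonormal basis has one. -/
theorem HasOrtho.of_le {W W' : Submodule L F} (h : HasOrtho (L := L) v W) (hle : W' ≤ W) :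
    HasOrtho (L := L) v W' := by
  obtain ⟨ι, _, e, he, hspan⟩ := h
  exact hasOrtho_of_le_aux _ ι e rfl he W' (hspan ▸ hle)

/-- the value of a nonzero element of a space with orthonormal basis is the value of a scalar -/
theorem HasOrtho.exists_scalar {W : Submodule L F} (h : HasOrtho (L := L) v W) {x : F}
    (hx : x ∈ W) (hx0 : x ≠ 0) : ∃ c : L, c ≠ 0 ∧ v (algebraMap L F c) = v x := by
  classical
  obtain ⟨ι, _, e, he, hspan⟩ := h
  obtain ⟨a, ha⟩ := ca_exists_coeff (hspan ▸ hx)
  have : Nonempty ι := by
    by_contra hne
    rw [not_nonempty_iff] at hne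
    apply hx0
    rw [ha]
    simp
  obtain ⟨j, -, hj⟩ := Finset.exists_max_image Finset.univ
    (fun i => v (algebraMap L F (a i))) Finset.univ_nonempty
  have h1 : v x ≤ v (algebraMap L F (a j)) := by
    rw [ha]
    exact (he a _).2 fun i => hj i (Finset.mem_univ i)
  have h2 : v (algebraMap L F (a j)) ≤ v x := by
    have := (he a (v x)).1 (by rw [← ha]) j
    exact this
  refine ⟨a j, ?_, le_antisymm h2 h1⟩
  intro h0
  rw [h0, map_zero, map_zero] at h1
  exact hx0 ((map_eq_zero v).1 (le_antisymm h1 zero_le))

/-- **Perturbation lemma** (replaces Nakayama). -/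
theorem HasOrtho.eq_of_dense {W : Submodule L F} (h : HasOrtho (L := L) v W) (S : Set F)
    (hS0 : (0 : F) ∈ S)
    (hSadd : ∀ x ∈ S, ∀ y ∈ S, x + y ∈ S)
    (hSsmul : ∀ (c : L), v (algebraMap L F c) ≤ 1 → ∀ x ∈ S, c • x ∈ S)
    (hSW : ∀ x ∈ S, x ∈ W)
    (hdense : ∀ x ∈ W, v x ≤ 1 → ∃ σ ∈ S, v (x - σ) < 1) :
    ∀ x ∈ W, v x ≤ 1 → x ∈ S := by
  classical
  obtain ⟨ι, _, e, he, hspan⟩ := h
  have heW : ∀ i, e i ∈ W := fun i => hspan ▸ Submodule.subset_span ⟨i, rfl⟩
  choose σ hσS hσ using fun i => hdense (e i) (heW i) (he.v_le_one i)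
  have hσ1 : ∀ i, v (σ i) ≤ 1 := by
    intro i
    have : σ i = e i - (e i - σ i) := by ring
    rw [this]
    exact (v.map_sub _ _).trans (max_le (he.v_le_one i) (hσ i).le)
  have hσo : IsOrtho (L := L) v σ := by
    intro c γ
    constructor
    · intro H
      by_cases hne : Nonempty ι
      swap
      · intro i; exact (hne ⟨i⟩).elim
      obtain ⟨j, -, hj⟩ := Finset.exists_max_image Finset.univ
        (fun i => v (algebraMap L F (c i))) Finset.univ_nonempty
      set m := v (algebraMap L F (c j)) with hm
      by_cases hm0 : m = 0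
      · intro i
        have := hj i (Finset.mem_univ i)
        rw [hm0] at this
        exact this.trans zero_le
      have hfirst : v (∑ i, c i • e i) = m := by
        apply le_antisymm
        · exact (he c m).2 fun i => hj i (Finset.mem_univ i)
        · exact (he c _).1 le_rfl j
      have hsecond : v (∑ i, c i • (e i - σ i)) < m := by
        apply v.map_sum_lt hm0
        intro i _
        rw [ca_v_smul]
        calc v (algebraMap L F (c i)) * v (e i - σ i) ≤ m * v (e i - σ i) := by
              gcongr; exact hj i (Finset.mem_univ i)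
          _ < m * 1 := by
              exact mul_lt_mul_of_pos_left (hσ i) (zero_lt_iff.2 hm0)
          _ = m := mul_one m
      have hdecomp : ∑ i, c i • σ i = ∑ i, c i • e i - ∑ i, c i • (e i - σ i) := by
        rw [← Finset.sum_sub_distrib]
        refine Finset.sum_congr rfl fun i _ => ?_
        rw [smul_sub]; ring
      have hval : v (∑ i, c i • σ i) = m := by
        rw [hdecomp, ← hfirst]
        apply Valuation.map_sub_eq_of_lt_left
        rw [hfirst]; exact hsecond
      intro i
      exact (hj i (Finset.mem_univ i)).trans (hval ▸ H)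
    · intro H
      apply v.map_sum_le
      intro i _
      rw [ca_v_smul]
      calc v (algebraMap L F (c i)) * v (σ i) ≤ v (algebraMap L F (c i)) * 1 := by
            gcongr; exact hσ1 i
        _ ≤ γ := by rw [mul_one]; exact H i
  have hspanσ : Submodule.span L (Set.range σ) = W := by
    have : FiniteDimensional L W := by
      rw [← hspan]; exact FiniteDimensional.span_of_finite L (Set.finite_range e)
    apply Submodule.eq_of_le_of_finrank_eq
    · rw [Submodule.span_le]
      rintro _ ⟨i, rfl⟩
      exact hSW _ (hσS i)
    · rw [finrank_span_eq_card hσo.linearIndependent, ← hspan,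
        finrank_span_eq_card he.linearIndependent]
  intro x hx hx1
  obtain ⟨c, hc⟩ := ca_exists_coeff (hspanσ ▸ hx)
  have hc1 := (hσo c 1).1 (hc ▸ hx1)
  rw [hc]
  have : ∀ s : Finset ι, ∑ i ∈ s, c i • σ i ∈ S := by
    intro s
    induction s using Finset.induction_on with
    | empty => simpa using hS0
    | insert i s hi ih =>
      rw [Finset.sum_insert hi]
      exact hSadd _ (hSsmul _ (hc1 i) _ (hσS i)) _ ih
  exact this Finset.univ

end Fermat.Agent.S18
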