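import Mathlib

set_option autoImplicit false
set_option linter.unusedSectionVars false

/-! # S18: valuations of algebraic numbers have rank one -/

namespace Fermat.Agent.S18

open Polynomial

section

variable {K Γ : Type} [Field K] [CharZero K] [LinearOrderedCommGroupWithZero Γ] (v : Valuation K Γ)

theorem ro_intCast_le (n : ℤ) : v (n : K) ≤ 1 := by
  have hnat : ∀ m : ℕ, v (m : K) ≤ 1 := by
    intro m
    induction m with
    | zero => simp
    | succ m ih =>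
      rw [Nat.cast_succ]
      exact (v.map_add _ _).trans (max_le ih (by simp))
  cases n with
  | ofNat m => simpa using hnat m
  | negSucc m =>
    rw [Int.cast_negSucc, Valuation.map_neg]
    exact hnat (m + 1)

variable {v} {ℓ : ℕ} (hℓ : ℓ.Prime) (hv : v (ℓ : K) < 1)
include hℓ hv

theorem ro_intCast_of_not_dvd {n : ℤ} (h : ¬ (ℓ : ℤ) ∣ n) : v (n : K) = 1 := by
  have hcop : IsCoprime n (ℓ : ℤ) := by
    have := (Nat.prime_iff_prime_int.1 hℓ)
    exact ((Prime.coprime_iff_not_dvd this).2 h).symm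
  obtain ⟨x, y, hxy⟩ := hcop
  have h1 : (x : K) * n + y * ℓ = 1 := by exact_mod_cast congrArg (Int.cast : ℤ → K) hxy
  have h2 : v ((y : K) * ℓ) < 1 := by
    rw [map_mul]
    exact (mul_le_of_le_one_left' (ro_intCast_le v y)).trans_lt hv
  have h3 : v ((x : K) * n) = 1 := by
    have : (x : K) * n = 1 - y * ℓ := by rw [← h1]; ring
    rw [this]
    exact Valuation.map_one_sub_of_lt v h2
  rw [map_mul] at h3
  refine le_antisymm (ro_intCast_le v n) ?_
  rw [← h3]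
  exact mul_le_of_le_one_left' (ro_intCast_le v x)

theorem ro_intCast_of_dvd {n : ℤ} (h : (ℓ : ℤ) ∣ n) : v (n : K) ≤ v (ℓ : K) := by
  obtain ⟨m, rfl⟩ := h
  push_cast
  rw [map_mul]
  exact mul_le_of_le_one_right' (ro_intCast_le v m)

theorem ro_exists_pow_le_intCast {n : ℤ} (hn : n ≠ 0) : ∃ s : ℕ, v (ℓ : K) ^ s ≤ v (n : K) := by
  have hfin : FiniteMultiplicity (ℓ : ℤ) n := by
    rw [Int.finiteMultiplicity_iff]
    exact ⟨by simpa using hℓ.one_lt.ne', hn⟩
  obtain ⟨c, hc, hnd⟩ := hfin.exists_eq_pow_mul_and_not_dvd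
  refine ⟨multiplicity (ℓ : ℤ) n, ?_⟩
  conv_rhs => rw [hc]
  push_cast
  rw [map_mul, map_pow, ro_intCast_of_not_dvd hℓ hv hnd, mul_one]

/-- a power of a non-unit is divisible by `ℓ`. -/
theorem ro_exists_pow_le {c : K} (hc : IsAlgebraic ℤ c) (hcv : v c < 1) :
    ∃ i : ℕ, v c ^ i ≤ v (ℓ : K) := by
  classical
  by_cases hcne : c = 0
  · exact ⟨1, by simp [hcne]⟩
  obtain ⟨P0, hP0, hPc0⟩ := hc
  set P := P0.primPart with hP
  have hPc : aeval c P = 0 := by
    have h1 : P0 = C P0.content * P := P0.eq_C_content_mul_primPart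
    rw [h1, map_mul, aeval_C] at hPc0
    rcases mul_eq_zero.1 hPc0 with h | h
    · exfalso
      rw [eq_intCast, Int.cast_eq_zero] at h
      exact hP0 (content_eq_zero_iff.1 h)
    · exact h
  have hprim : P.IsPrimitive := P0.isPrimitive_primPart
  have hex : ∃ i, ¬ (ℓ : ℤ) ∣ P.coeff i := by
    by_contra hall
    push Not at hall
    have h1 : C (ℓ : ℤ) ∣ P := (C_dvd_iff_dvd_coeff _ _).2 hall
    have h2 := hprim _ h1
    have h3 := Int.isUnit_iff.1 h2
    have := hℓ.one_lt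
    omega
  let i0 := Nat.find hex
  have hi0 : ¬ (ℓ : ℤ) ∣ P.coeff i0 := Nat.find_spec hex
  have hlt : ∀ i < i0, (ℓ : ℤ) ∣ P.coeff i := fun i hi => by
    by_contra h
    exact Nat.find_min hex hi h
  refine ⟨i0, ?_⟩
  by_contra hcon
  rw [not_le] at hcon
  have hg : v c ^ i0 ≠ 0 := (zero_le.trans_lt hcon).ne'
  have hc0 : v c ≠ 0 := (Valuation.ne_zero_iff v).2 hcne
  have hmem : i0 ∈ P.support := by
    rw [mem_support_iff]
    intro h
    exact hi0 (h ▸ dvd_zero _)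
  have hsum : ∑ i ∈ P.support, ((P.coeff i : ℤ) : K) * c ^ i = 0 := by
    rw [← hPc, aeval_def, eval₂_eq_sum, Polynomial.sum_def]
    simp
  rw [← Finset.add_sum_erase _ _ hmem] at hsum
  have h1 : ((P.coeff i0 : ℤ) : K) * c ^ i0 =
      - ∑ i ∈ P.support.erase i0, ((P.coeff i : ℤ) : K) * c ^ i := eq_neg_of_add_eq_zero_left hsum
  have h2 : v (∑ i ∈ P.support.erase i0, ((P.coeff i : ℤ) : K) * c ^ i) < v c ^ i0 := by
    apply Valuation.map_sum_lt v hg
    intro i hi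
    have hne : i ≠ i0 := (Finset.mem_erase.1 hi).1
    rw [map_mul, map_pow]
    rcases lt_or_gt_of_ne hne with h | h
    · calc v ((P.coeff i : ℤ) : K) * v c ^ i ≤ v (ℓ : K) * 1 :=
            mul_le_mul' (ro_intCast_of_dvd hℓ hv (hlt i h)) (pow_le_one' hcv.le i)
        _ = v (ℓ : K) := mul_one _
        _ < v c ^ i0 := hcon
    · calc v ((P.coeff i : ℤ) : K) * v c ^ i ≤ 1 * v c ^ i :=
            mul_le_mul' (ro_intCast_le v _) le_rfl
        _ = v c ^ i := one_mul _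
        _ < v c ^ i0 := pow_lt_pow_right_of_lt_one₀ (zero_lt_iff.2 hc0) hcv h
  have h3 : v (((P.coeff i0 : ℤ) : K) * c ^ i0) = v c ^ i0 := by
    rw [map_mul, map_pow, ro_intCast_of_not_dvd hℓ hv hi0, one_mul]
  rw [h1, Valuation.map_neg] at h3
  exact absurd h3 h2.ne

/-- every nonzero algebraic element divides a power of `ℓ`. -/
theorem ro_exists_pow_le' {c0 : K} (hc : IsAlgebraic ℤ c0) (h0 : c0 ≠ 0) :
    ∃ s : ℕ, v (ℓ : K) ^ s ≤ v c0 := by
  classical
  by_cases hv1 : 1 ≤ v c0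
  · exact ⟨0, by simpa using hv1⟩
  rw [not_le] at hv1
  obtain ⟨P, hP0, hPc⟩ := hc
  have hc0 : v c0 ≠ 0 := (Valuation.ne_zero_iff v).2 h0
  let i0 := P.natTrailingDegree
  have hmem : i0 ∈ P.support := natTrailingDegree_mem_support_of_nonzero hP0
  have hcoef : P.coeff i0 ≠ 0 := mem_support_iff.1 hmem
  obtain ⟨s, hs⟩ := ro_exists_pow_le_intCast (K := K) hℓ hv hcoef
  refine ⟨s, hs.trans ?_⟩
  have hsum : ∑ i ∈ P.support, ((P.coeff i : ℤ) : K) * c0 ^ i = 0 := by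
    rw [← hPc, aeval_def, eval₂_eq_sum, Polynomial.sum_def]
    simp
  rw [← Finset.add_sum_erase _ _ hmem] at hsum
  have h1 : ((P.coeff i0 : ℤ) : K) * c0 ^ i0 =
      - ∑ i ∈ P.support.erase i0, ((P.coeff i : ℤ) : K) * c0 ^ i := eq_neg_of_add_eq_zero_left hsum
  have h2 : v (∑ i ∈ P.support.erase i0, ((P.coeff i : ℤ) : K) * c0 ^ i) ≤ v c0 ^ (i0 + 1) := by
    apply Valuation.map_sum_le v
    intro i hi
    have hne : i ≠ i0 := (Finset.mem_erase.1 hi).1
    have hle : i0 ≤ i := natTrailingDegree_le_of_mem_supp i (Finset.mem_erase.1 hi).2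
    rw [map_mul, map_pow]
    calc v ((P.coeff i : ℤ) : K) * v c0 ^ i ≤ 1 * v c0 ^ i :=
          mul_le_mul' (ro_intCast_le v _) le_rfl
      _ = v c0 ^ i := one_mul _
      _ ≤ v c0 ^ (i0 + 1) := pow_le_pow_right_of_le_one' hv1.le (by omega)
  have h3 : v ((P.coeff i0 : ℤ) : K) * v c0 ^ i0 ≤ v c0 * v c0 ^ i0 := by
    rw [← map_pow, ← map_mul, h1, Valuation.map_neg, map_pow, ← pow_succ']
    exact h2
  exact le_of_mul_le_mul_right h3 (zero_lt_iff.2 (pow_ne_zero _ hc0))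

/-- rank one. -/
theorem ro_rank_one {c c0 : K} (hc : IsAlgebraic ℤ c) (hc0 : IsAlgebraic ℤ c0) (hcv : v c < 1)
    (h0 : c0 ≠ 0) : ∃ j : ℕ, v c ^ j ≤ v c0 := by
  obtain ⟨i, hi⟩ := ro_exists_pow_le hℓ hv hc hcv
  obtain ⟨s, hs⟩ := ro_exists_pow_le' hℓ hv hc0 h0
  refine ⟨i * s, ?_⟩
  rw [pow_mul]
  exact (pow_le_pow_left' hi s).trans hs

end

end Fermat.Agent.S18
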